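/-
S24 generic function-field block, part 1 (helper12).

Basic facts on places `v : AlgebraicCurve.Place K F`:
membership in the valuation ring in terms of `v.ord`, ultrametric inequality,
and (for `K` algebraically closed, `F` algebraic over `K(x)`) the residue field of every place
is `K`, so `v.deg = 1`; every place has a centre on the `x`-line.
-/
import Mathlib
import Fermat.Prelude.Def_AlgebraicCurve_CanonicalDivisor

set_option autoImplicit false

noncomputable section

namespace Fermat.Agent.S24lib

open AlgebraicCurve Polynomial IsLocalRing IntermediateField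

variable {K F : Type*} [Field K] [Field F] [Algebra K F]

section Ord

variable (v : Place K F)

lemma ffExistsIrreducible : ∃ π : v.toValuationSubring, Irreducible π :=
  IsDiscreteValuationRing.exists_irreducible v.toValuationSubring

lemma ffOrd_nonneg_of_mem {f : F} (hf : f ∈ v.toValuationSubring) : 0 ≤ v.ord f := by
  have h1 : v.adicValuation f ≤ 1 := by
    have := v.heightOneSpectrum.valuation_le_one (K := F) (⟨f, hf⟩ : v.toValuationSubring)
    simpa [Place.adicValuation] using this
  rcases eq_or_ne f 0 with rfl | hf0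
  · simp
  have hne : v.adicValuation f ≠ 0 := v.adicValuation_ne_zero hf0
  have h2 : WithZero.log (v.adicValuation f) ≤ WithZero.log (1 : WithZero (Multiplicative ℤ)) :=
    (WithZero.log_le_log hne one_ne_zero).2 h1
  simp only [WithZero.log_one] at h2
  simp only [Place.ord]
  omega

lemma ffMem_of_ord_nonneg {f : F} (hf : 0 ≤ v.ord f) : f ∈ v.toValuationSubring := by
  rcases eq_or_ne f 0 with rfl | hf0
  · exact zero_mem _
  obtain ⟨π, hπ⟩ := ffExistsIrreducible v
  obtain ⟨u, hu⟩ := v.exists_unit_mul_zpow hf0 hπ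
  rw [hu]
  refine mul_mem u.val.2 ?_
  lift v.ord f to ℕ using hf with n
  rw [zpow_natCast]
  exact pow_mem π.2 n

lemma ffMem_iff_ord_nonneg {f : F} : f ∈ v.toValuationSubring ↔ 0 ≤ v.ord f :=
  ⟨ffOrd_nonneg_of_mem v, ffMem_of_ord_nonneg v⟩

lemma ffOrd_eq_zero_of_isUnit {a : v.toValuationSubring} (ha : IsUnit a) : v.ord (a : F) = 0 := by
  obtain ⟨u, rfl⟩ := ha
  exact v.ord_coe_unit u

lemma ffIsUnit_of_ord_eq_zero {f : F} (hf0 : f ≠ 0) (hf : v.ord f = 0) :
    ∃ u : v.toValuationSubringˣ, ((u : v.toValuationSubring) : F) = f := by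
  obtain ⟨π, hπ⟩ := ffExistsIrreducible v
  obtain ⟨u, hu⟩ := v.exists_unit_mul_zpow hf0 hπ
  refine ⟨u, ?_⟩
  rw [hf, zpow_zero, mul_one] at hu
  exact hu.symm

lemma ffOrd_pos_of_mem_maximalIdeal {a : v.toValuationSubring}
    (ha : a ∈ maximalIdeal v.toValuationSubring) (ha0 : a ≠ 0) : 0 < v.ord (a : F) := by
  have h0 : 0 ≤ v.ord (a : F) := ffOrd_nonneg_of_mem v a.2
  rcases h0.lt_or_eq with h | h
  · exact h
  exfalso
  have haF : (a : F) ≠ 0 := by simpa using ha0
  obtain ⟨u, hu⟩ := ffIsUnit_of_ord_eq_zero v haF h.symm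
  have : (u : v.toValuationSubring) = a := Subtype.ext hu
  rw [mem_maximalIdeal, mem_nonunits_iff] at ha
  exact ha (this ▸ u.isUnit)

lemma ffMem_maximalIdeal_of_ord_pos {f : F} (hf : 0 < v.ord f) :
    ∃ a : v.toValuationSubring, a ∈ maximalIdeal v.toValuationSubring ∧ (a : F) = f := by
  refine ⟨⟨f, ffMem_of_ord_nonneg v hf.le⟩, ?_, rfl⟩
  rw [mem_maximalIdeal, mem_nonunits_iff]
  intro hu
  have := ffOrd_eq_zero_of_isUnit v hu
  simp only at this
  omega

lemma ffOrd_algebraMap (c : K) : v.ord (algebraMap K F c) = 0 := by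
  rcases eq_or_ne c 0 with rfl | hc
  · simp
  have h1 : 0 ≤ v.ord (algebraMap K F c) := ffOrd_nonneg_of_mem v (v.algebraMap_mem' c)
  have h2 : 0 ≤ v.ord (algebraMap K F c⁻¹) := ffOrd_nonneg_of_mem v (v.algebraMap_mem' c⁻¹)
  rw [map_inv₀, v.ord_inv] at h2
  omega

lemma ffOrd_neg (f : F) : v.ord (-f) = v.ord f := by
  simp [Place.ord]

/-- Ultrametric inequality. -/
lemma ffOrd_add_ge {f g : F} (hfg : f + g ≠ 0) {n : ℤ} (hf : f = 0 ∨ n ≤ v.ord f)
    (hg : g = 0 ∨ n ≤ v.ord g) : n ≤ v.ord (f + g) := by
  rcases hf with rfl | hf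
  · rcases hg with rfl | hg
    · simp at hfg
    · simpa using hg
  rcases hg with rfl | hg
  · simpa using hf
  by_cases hf0 : f = 0
  · subst hf0; simpa using hg
  by_cases hg0 : g = 0
  · subst hg0; simpa using hf
  have h := v.adicValuation.map_add f g
  have hne := v.adicValuation_ne_zero hfg
  have hnf := v.adicValuation_ne_zero hf0
  have hng := v.adicValuation_ne_zero hg0
  simp only [Place.ord] at hf hg ⊢
  rcases le_max_iff.1 h with h | h
  · have := (WithZero.log_le_log hne hnf).2 h
    omega
  · have := (WithZero.log_le_log hne hng).2 h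
    omega

end Ord

section Center

variable [IsAlgClosed K] (v : Place K F)

omit [IsAlgClosed K] in
lemma ffOrd_div {f g : F} (hf : f ≠ 0) (hg : g ≠ 0) : v.ord (f / g) = v.ord f - v.ord g := by
  rw [div_eq_mul_inv, v.ord_mul hf (inv_ne_zero hg), v.ord_inv]
  ring

/-- The residue class of an element of the valuation ring. -/
abbrev ffRes (a : v.toValuationSubring) : v.ResidueField := IsLocalRing.residue _ a

omit [IsAlgClosed K] in
lemma ffRes_algebraMap (c : K) :
    ffRes v (algebraMap K v.toValuationSubring c) = algebraMap K v.ResidueField c := rfl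

omit [IsAlgClosed K] in
lemma ffRes_eq_zero_iff (a : v.toValuationSubring) :
    ffRes v a = 0 ↔ a ∈ maximalIdeal v.toValuationSubring :=
  IsLocalRing.residue_eq_zero_iff a

/-- An algebraic element of the residue field is a constant. -/
lemma ffRes_mem_range_of_isAlgebraic {r : v.ResidueField} (hr : IsAlgebraic K r) :
    ∃ b : K, algebraMap K v.ResidueField b = r := by
  have hint : IsIntegral K r := isAlgebraic_iff_isIntegral.1 hr
  have hdeg : (minpoly K r).degree = 1 :=
    IsAlgClosed.degree_eq_one_of_irreducible K (minpoly.irreducible hint)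
  exact minpoly.mem_range_of_degree_eq_one K r hdeg

omit [IsAlgClosed K] in
/-- If all nonzero polynomials in `x` are units at `v`, then `K(x) ⊆ O_v`. -/
lemma ffAdjoin_le_of_forall_ord_eq_zero {x : F}
    (h : ∀ p : K[X], p ≠ 0 → v.ord (aeval x p) = 0) (hx : Transcendental K x) :
    ∀ y ∈ K⟮x⟯, y ∈ v.toValuationSubring := by
  intro y hy
  obtain ⟨r, s, rfl⟩ := (IntermediateField.mem_adjoin_simple_iff K y).1 hy
  by_cases hs : s = 0
  · simp [hs]
  by_cases hr : r = 0
  · simp [hr]
  have hr' : aeval x r ≠ 0 := fun h0 => hr ((transcendental_iff.1 hx) r h0)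
  have hs' : aeval x s ≠ 0 := fun h0 => hs ((transcendental_iff.1 hx) s h0)
  apply ffMem_of_ord_nonneg
  rw [ffOrd_div v hr' hs', h r hr, h s hs, sub_zero]

omit [IsAlgClosed K] in
/-- Evaluation of polynomials commutes with the residue map. -/
lemma ffRes_aeval (a : v.toValuationSubring) (p : K[X]) :
    ffRes v (aeval a p) = aeval (ffRes v a) p := by
  induction p using Polynomial.induction_on' with
  | add p q hp hq => simp only [map_add, hp, hq]
  | monomial n c =>
    simp only [aeval_monomial, map_mul, map_pow]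
    rfl

omit [IsAlgClosed K] in
lemma ffCoe_aeval (a : v.toValuationSubring) (p : K[X]) :
    ((aeval a p : v.toValuationSubring) : F) = aeval (a : F) p := by
  induction p using Polynomial.induction_on' with
  | add p q hp hq => simp only [map_add, hp, hq, AddMemClass.coe_add]
  | monomial n c =>
    simp only [aeval_monomial, MulMemClass.coe_mul, SubmonoidClass.coe_pow]
    rfl

omit [IsAlgClosed K] in
/-- If `K(x) ⊆ O_v` and `F` is algebraic over `K(x)`, contradiction. -/
lemma ffNot_adjoin_le {x : F} [Algebra.IsAlgebraic K⟮x⟯ F]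
    (h : ∀ y ∈ K⟮x⟯, y ∈ v.toValuationSubring) : False := by
  apply v.ne_top'
  refine SetLike.ext fun f => ⟨fun _ => ValuationSubring.mem_top f, fun _ => ?_⟩
  have hint : IsIntegral K⟮x⟯ f := (Algebra.IsAlgebraic.isIntegral (K := K⟮x⟯) (A := F)).isIntegral f
  obtain ⟨p, hpm, hp⟩ := hint
  let φ : K⟮x⟯ →+* v.toValuationSubring :=
    (algebraMap K⟮x⟯ F).codRestrict v.toValuationSubring.toSubring (fun y => h y.1 y.2)
  have hφ : (algebraMap v.toValuationSubring F).comp φ = algebraMap K⟮x⟯ F := by
    ext y; rfl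
  have hint' : IsIntegral v.toValuationSubring f := by
    refine ⟨p.map φ, hpm.map φ, ?_⟩
    rw [eval₂_map, hφ]
    exact hp
  obtain ⟨y, hy⟩ := IsIntegrallyClosed.algebraMap_eq_of_integral hint'
  rw [← hy]
  exact y.2

omit [IsAlgClosed K] in
/-- Some nonzero polynomial in `x` has positive order at `v`. -/
lemma ffExists_poly_ord_pos {x : F} (hx : Transcendental K x) [Algebra.IsAlgebraic K⟮x⟯ F]
    (hxv : 0 ≤ v.ord x) : ∃ p : K[X], p ≠ 0 ∧ 0 < v.ord (aeval x p) := by
  by_contra hcon
  simp only [not_exists, not_and, not_lt] at hcon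
  have hxmem : x ∈ v.toValuationSubring := ffMem_of_ord_nonneg v hxv
  have hmem : ∀ p : K[X], aeval x p ∈ v.toValuationSubring := by
    intro p
    induction p using Polynomial.induction_on' with
    | add p q hp hq => rw [map_add]; exact add_mem hp hq
    | monomial n a =>
      rw [aeval_monomial]
      exact mul_mem (v.algebraMap_mem' a) (pow_mem hxmem n)
  refine ffNot_adjoin_le v (x := x) (ffAdjoin_le_of_forall_ord_eq_zero v (fun p hp => ?_) hx)
  have h1 := hcon p hp
  have h2 := ffOrd_nonneg_of_mem v (hmem p)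
  omega

/-- Every place has a centre on the `x`-line if `x` is regular at `v`. -/
theorem ffExists_center {x : F} (hx : Transcendental K x) [Algebra.IsAlgebraic K⟮x⟯ F]
    (hxv : 0 ≤ v.ord x) : ∃ c : K, 0 < v.ord (x - algebraMap K F c) := by
  obtain ⟨p, hp0, hp⟩ := ffExists_poly_ord_pos v hx hxv
  have hxmem : x ∈ v.toValuationSubring := ffMem_of_ord_nonneg v hxv
  -- the residue class of x is algebraic
  have hres : aeval (ffRes v ⟨x, hxmem⟩) p = 0 := by
    rw [← ffRes_aeval, ffRes_eq_zero_iff]
    obtain ⟨a, ha, hae⟩ := ffMem_maximalIdeal_of_ord_pos v hp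
    have : a = aeval (⟨x, hxmem⟩ : v.toValuationSubring) p :=
      Subtype.ext (by rw [hae, ffCoe_aeval])
    rwa [← this]
  obtain ⟨c, hc⟩ := ffRes_mem_range_of_isAlgebraic v ⟨p, hp0, hres⟩
  refine ⟨c, ?_⟩
  have hmem : (⟨x, hxmem⟩ : v.toValuationSubring) - algebraMap K v.toValuationSubring c
      ∈ maximalIdeal v.toValuationSubring := by
    rw [← ffRes_eq_zero_iff, ffRes, map_sub, sub_eq_zero]
    exact hc.symm
  have hne : (⟨x, hxmem⟩ : v.toValuationSubring) - algebraMap K v.toValuationSubring c ≠ 0 := by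
    intro h0
    have h1 : x = algebraMap K F c := by
      have := congrArg (fun z : v.toValuationSubring => (z : F)) h0
      simpa [sub_eq_zero] using this
    exact hx (h1 ▸ isAlgebraic_algebraMap c)
  have hfin := ffOrd_pos_of_mem_maximalIdeal v hmem hne
  have hcoe : (((⟨x, hxmem⟩ : v.toValuationSubring) - algebraMap K v.toValuationSubring c :
      v.toValuationSubring) : F) = x - algebraMap K F c := rfl
  rwa [hcoe] at hfin

omit [IsAlgClosed K] in
/-- A nonzero polynomial in two variables can be divided by a power of the first variable so that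
its reduction modulo the first variable is nonzero. -/
lemma ffExists_strip (P : K[X][X]) (hP : P ≠ 0) :
    ∃ (n : ℕ) (Q : K[X][X]), P = (C (X : K[X])) ^ n * Q ∧ Q.map (evalRingHom (0 : K)) ≠ 0 := by
  have hirr : Irreducible (C (X : K[X]) : K[X][X]) :=
    (Polynomial.prime_C_iff.2 Polynomial.prime_X).irreducible
  obtain ⟨n, Q, hQ, hPQ⟩ := WfDvdMonoid.max_power_factor hP hirr
  refine ⟨n, Q, hPQ, ?_⟩
  intro h0
  apply hQ
  rw [Polynomial.C_dvd_iff_dvd_coeff]
  intro i
  have := congrArg (fun q : K[X] => q.coeff i) h0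
  simp only [coeff_map, coeff_zero, coe_evalRingHom] at this
  rw [Polynomial.X_dvd_iff, Polynomial.coeff_zero_eq_eval_zero]
  exact this

omit [IsAlgClosed K] in
/-- Every residue class is algebraic over `K`, when `t` is a transcendental element of the maximal
ideal over which `F` is algebraic. -/
lemma ffRes_isAlgebraic {t : F} [Algebra.IsAlgebraic K⟮t⟯ F]
    (htv : 0 < v.ord t) (a : v.toValuationSubring) : IsAlgebraic K (ffRes v a) := by
  classical
  -- a is algebraic over K[t]
  open scoped IntermediateField.algebraAdjoinAdjoin in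
  have halg : IsAlgebraic (Algebra.adjoin K {t}) (a : F) :=
    (IsFractionRing.isAlgebraic_iff (Algebra.adjoin K {t}) K⟮t⟯ F).2
      (Algebra.IsAlgebraic.isAlgebraic (a : F))
  obtain ⟨p, hp0, hp⟩ := halg
  obtain ⟨t', ht't⟩ := ffMem_maximalIdeal_of_ord_pos v htv
  obtain ⟨ht'm, ht'⟩ := ht't
  -- lift p to a polynomial in two variables
  let φ : K[X] →+* Algebra.adjoin K {t} :=
    ((aeval (R := K) (⟨t, Algebra.self_mem_adjoin_singleton K t⟩ : Algebra.adjoin K {t}))).toRingHom
  have hφ : Function.Surjective φ := by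
    rintro ⟨y, hy⟩
    rw [Algebra.adjoin_singleton_eq_range_aeval] at hy
    obtain ⟨q, rfl⟩ := hy
    refine ⟨q, Subtype.ext ?_⟩
    show ((aeval (⟨t, Algebra.self_mem_adjoin_singleton K t⟩ : Algebra.adjoin K {t}) q :
      Algebra.adjoin K {t}) : F) = aeval t q
    rw [← Subalgebra.coe_val, ← aeval_algHom_apply]
    rfl
  obtain ⟨P, rfl⟩ := Polynomial.map_surjective φ hφ p
  have hP0 : P ≠ 0 := fun h => hp0 (by rw [h, Polynomial.map_zero])
  obtain ⟨n, Q, hPQ, hQ⟩ := ffExists_strip P hP0
  -- the two-variable evaluation at (t', a) inside O_v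
  let ψ : K[X] →+* v.toValuationSubring := (aeval (R := K) t').toRingHom
  have hψφ : ∀ q : K[X], ((ψ q : v.toValuationSubring) : F) = ((φ q : Algebra.adjoin K {t}) : F) := by
    intro q
    show ((aeval t' q : v.toValuationSubring) : F) = _
    rw [ffCoe_aeval, ht']
    show _ = ((aeval (⟨t, Algebra.self_mem_adjoin_singleton K t⟩ : Algebra.adjoin K {t}) q :
      Algebra.adjoin K {t}) : F)
    rw [← Subalgebra.coe_val (Algebra.adjoin K {t}), ← aeval_algHom_apply]
    rfl
  have hev : ∀ R : K[X][X], ((eval₂ ψ a R : v.toValuationSubring) : F)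
      = aeval (a : F) (R.map φ) := by
    intro R
    induction R using Polynomial.induction_on' with
    | add p q hp hq => simp only [eval₂_add, Polynomial.map_add, map_add, AddMemClass.coe_add, hp, hq]
    | monomial n c =>
      simp only [eval₂_monomial, Polynomial.map_monomial, aeval_monomial, MulMemClass.coe_mul,
        SubmonoidClass.coe_pow, hψφ]
      rfl
  have hPev : eval₂ ψ a P = 0 := Subtype.ext (by rw [hev, hp]; rfl)
  have hQev : eval₂ ψ a Q = 0 := by
    rw [hPQ, eval₂_mul, eval₂_pow, eval₂_C] at hPev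
    have ht0 : ψ X ≠ 0 := by
      show aeval t' (X : K[X]) ≠ 0
      rw [aeval_X]
      intro h0
      rw [h0] at ht'
      rw [← ht'] at htv
      simp at htv
    rcases mul_eq_zero.1 hPev with h | h
    · exact absurd h (pow_ne_zero n ht0)
    · exact h
  -- reduce modulo the maximal ideal
  refine ⟨Q.map (evalRingHom (0 : K)), hQ, ?_⟩
  have hres : ∀ q : K[X], ffRes v (ψ q) = algebraMap K v.ResidueField (q.eval 0) := by
    intro q
    show ffRes v (aeval t' q) = _
    rw [ffRes_aeval, (ffRes_eq_zero_iff v t').2 ht'm]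
    rw [← Polynomial.coeff_zero_eq_eval_zero, Polynomial.aeval_def, Polynomial.eval₂_at_zero]
  have key : ∀ R : K[X][X], ffRes v (eval₂ ψ a R) = aeval (ffRes v a) (R.map (evalRingHom (0 : K))) := by
    intro R
    induction R using Polynomial.induction_on' with
    | add p q hp hq => simp only [eval₂_add, Polynomial.map_add, map_add, hp, hq]
    | monomial n c =>
      simp only [eval₂_monomial, Polynomial.map_monomial, aeval_monomial, map_mul, map_pow, hres,
        coe_evalRingHom]
  rw [← key, hQev]
  exact map_zero _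

/-- The residue field of every place is `K`. -/
theorem ffResidue_surjective {x : F} (hx : Transcendental K x) [Algebra.IsAlgebraic K⟮x⟯ F] :
    Function.Surjective (algebraMap K v.ResidueField) := by
  -- find a transcendental element of the maximal ideal generating the same rational field
  have key : ∃ t : F, 0 < v.ord t ∧ K⟮t⟯ = K⟮x⟯ := by
    have hx0 : x ≠ 0 := fun h => hx (h ▸ isAlgebraic_zero)
    by_cases hxv : 0 ≤ v.ord x
    · obtain ⟨c, hc⟩ := ffExists_center v hx hxv
      refine ⟨x - algebraMap K F c, hc, ?_⟩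
      apply le_antisymm
      · rw [IntermediateField.adjoin_simple_le_iff]
        exact sub_mem (IntermediateField.mem_adjoin_simple_self K x)
          (IntermediateField.algebraMap_mem _ c)
      · rw [IntermediateField.adjoin_simple_le_iff]
        have h1 : (x - algebraMap K F c) + algebraMap K F c ∈ K⟮x - algebraMap K F c⟯ :=
          add_mem (IntermediateField.mem_adjoin_simple_self K _)
            (IntermediateField.algebraMap_mem _ c)
        simpa using h1
    · refine ⟨x⁻¹, ?_, ?_⟩
      · rw [v.ord_inv]; omega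
      · apply le_antisymm
        · rw [IntermediateField.adjoin_simple_le_iff]
          exact inv_mem (IntermediateField.mem_adjoin_simple_self K x)
        · rw [IntermediateField.adjoin_simple_le_iff]
          have h1 : (x⁻¹)⁻¹ ∈ K⟮x⁻¹⟯ := inv_mem (IntermediateField.mem_adjoin_simple_self K _)
          simpa using h1
  obtain ⟨t, htv, hKt⟩ := key
  have : Algebra.IsAlgebraic K⟮t⟯ F := by
    rw [hKt]; infer_instance
  intro r
  obtain ⟨a, rfl⟩ := IsLocalRing.residue_surjective r
  obtain ⟨b, hb⟩ := ffRes_mem_range_of_isAlgebraic v (ffRes_isAlgebraic v htv a)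
  exact ⟨b, hb⟩

/-- Every place has degree one. -/
theorem ffDeg_eq_one {x : F} (hx : Transcendental K x) [Algebra.IsAlgebraic K⟮x⟯ F] :
    v.deg = 1 := by
  have hs := ffResidue_surjective v hx
  have hbij : Function.Bijective (algebraMap K v.ResidueField) :=
    ⟨(algebraMap K v.ResidueField).injective, hs⟩
  have e : K ≃ₗ[K] v.ResidueField :=
    LinearEquiv.ofBijective (Algebra.linearMap K v.ResidueField) hbij
  rw [Place.deg, ← e.finrank_eq, Module.finrank_self]

end Center

end Fermat.Agent.S24lib

end
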