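/-
S24 generic function-field block, part 2 (helper12).

From a nontrivial `ℤᵐ⁰`-valued valuation `w` on `F` which is `≤ 1` on the constants we build a
place `ffPlaceOfVal w` of `F/K`, and relate `Place.ord` to `w`:
`-log (w f) = e * v.ord f` where `e = ffValIndex w > 0`; `e = 1` if `w` takes the value `exp (-1)`.
-/
import Mathlib
import Fermat.Agent.S24lib.FFBasic

set_option autoImplicit false

noncomputable section

namespace Fermat.Agent.S24lib

open AlgebraicCurve IsLocalRing WithZero

variable {K F : Type*} [Field K] [Field F] [Algebra K F]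

/-- The valuation subring of a `ℤᵐ⁰`-valued valuation is a principal ideal ring. -/
theorem ffIsPrincipalIdealRing_valuationSubring (w : Valuation F ℤᵐ⁰) :
    IsPrincipalIdealRing w.valuationSubring := by
  classical
  refine ⟨fun I => ?_⟩
  by_cases hI : I = ⊥
  · rw [hI]; exact bot_isPrincipal
  obtain ⟨a, haI, ha0⟩ := Submodule.exists_mem_ne_zero_of_ne_bot hI
  -- the set of `n : ℕ` such that some nonzero `b ∈ I` has `w b = exp (-n)`
  let P : ℕ → Prop := fun n => ∃ b : w.valuationSubring, b ∈ I ∧ b ≠ 0 ∧ w (b : F) = exp (-(n : ℤ))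
  have hval : ∀ b : w.valuationSubring, b ≠ 0 → ∃ n : ℕ, w (b : F) = exp (-(n : ℤ)) := by
    intro b hb
    have hbF : (b : F) ≠ 0 := by simpa using hb
    have hne : w (b : F) ≠ 0 := (Valuation.ne_zero_iff w).2 hbF
    have hle : w (b : F) ≤ 1 := (Valuation.mem_valuationSubring_iff w _).1 b.2
    have hlog : log (w (b : F)) ≤ 0 := by
      have := (WithZero.log_le_log hne one_ne_zero).2 hle
      simpa using this
    refine ⟨(-log (w (b : F))).toNat, ?_⟩
    rw [Int.toNat_of_nonneg (by omega), neg_neg, exp_log hne]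
  have hP : ∃ n, P n := by
    obtain ⟨n, hn⟩ := hval a ha0
    exact ⟨n, a, haI, ha0, hn⟩
  obtain ⟨b, hbI, hb0, hb⟩ := Nat.find_spec hP
  refine ⟨⟨b, ?_⟩⟩
  apply le_antisymm
  · intro c hc
    rw [Submodule.mem_span_singleton]
    by_cases hc0 : c = 0
    · exact ⟨0, by simp [hc0]⟩
    obtain ⟨m, hm⟩ := hval c hc0
    have hmin : Nat.find hP ≤ m := Nat.find_min' hP ⟨c, hc, hc0, hm⟩
    have hbF : (b : F) ≠ 0 := by simpa using hb0
    have hmem : (c : F) / (b : F) ∈ w.valuationSubring := by
      rw [Valuation.mem_valuationSubring_iff, map_div₀, hm, hb, ← exp_sub, ← exp_zero, exp_le_exp]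
      omega
    refine ⟨⟨_, hmem⟩, Subtype.ext ?_⟩
    simp only [smul_eq_mul, MulMemClass.coe_mul]
    field_simp
  · rw [Submodule.span_le]
    intro c hc
    rw [Set.mem_singleton_iff] at hc
    rw [hc]
    exact hbI

/-- The place attached to a nontrivial valuation which is trivial on the constants. -/
def ffPlaceOfVal (w : Valuation F ℤᵐ⁰) (hK : ∀ a : K, w (algebraMap K F a) ≤ 1)
    (hnt : ∃ f : F, 1 < w f) : Place K F where
  toValuationSubring := w.valuationSubring
  algebraMap_mem' := fun a => (Valuation.mem_valuationSubring_iff w _).2 (hK a)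
  ne_top' := by
    obtain ⟨f, hf⟩ := hnt
    intro h
    have : f ∈ w.valuationSubring := by rw [h]; exact ValuationSubring.mem_top f
    rw [Valuation.mem_valuationSubring_iff] at this
    exact absurd hf (not_lt.2 this)
  isPrincipalIdealRing' := ffIsPrincipalIdealRing_valuationSubring w

@[simp]
lemma ffPlaceOfVal_toValuationSubring (w : Valuation F ℤᵐ⁰)
    (hK : ∀ a : K, w (algebraMap K F a) ≤ 1) (hnt : ∃ f : F, 1 < w f) :
    (ffPlaceOfVal w hK hnt).toValuationSubring = w.valuationSubring := rfl

/-- If the valuation ring of the place `v` is the valuation ring of `w`, then `-log w` is a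
positive integer multiple of `v.ord`. -/
theorem ffExists_index (v : Place K F) (w : Valuation F ℤᵐ⁰)
    (h : v.toValuationSubring = w.valuationSubring) :
    ∃ e : ℕ, 0 < e ∧ ∀ f : F, f ≠ 0 → -log (w f) = (e : ℤ) * v.ord f := by
  obtain ⟨π, hπ⟩ := ffExistsIrreducible v
  have hπF : (π : F) ≠ 0 := by
    simpa [ne_eq, ZeroMemClass.coe_eq_zero] using hπ.ne_zero
  have hwπ0 : w (π : F) ≠ 0 := (Valuation.ne_zero_iff w).2 hπF
  -- units have valuation one
  have hunit : ∀ u : v.toValuationSubringˣ, w ((u : v.toValuationSubring) : F) = 1 := by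
    intro u
    have h1 : w ((u : v.toValuationSubring) : F) ≤ 1 := by
      rw [← Valuation.mem_valuationSubring_iff, ← h]; exact (u : v.toValuationSubring).2
    have h2 : w (((u⁻¹ : v.toValuationSubringˣ) : v.toValuationSubring) : F) ≤ 1 := by
      rw [← Valuation.mem_valuationSubring_iff, ← h]
      exact ((u⁻¹ : v.toValuationSubringˣ) : v.toValuationSubring).2
    have h3 : ((u : v.toValuationSubring) : F) *
        (((u⁻¹ : v.toValuationSubringˣ) : v.toValuationSubring) : F) = 1 := by
      rw [← MulMemClass.coe_mul, Units.mul_inv]; rfl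
    have h4 := congrArg w h3
    rw [map_mul, map_one] at h4
    rcases h1.lt_or_eq with hlt | heq
    · exfalso
      have hu0 : w ((u : v.toValuationSubring) : F) ≠ 0 := by
        intro h0; rw [h0, zero_mul] at h4; exact zero_ne_one h4
      have : w ((u : v.toValuationSubring) : F) *
          w (((u⁻¹ : v.toValuationSubringˣ) : v.toValuationSubring) : F) < 1 := by
        calc _ ≤ w ((u : v.toValuationSubring) : F) * 1 := by gcongr
          _ = w ((u : v.toValuationSubring) : F) := mul_one _
          _ < 1 := hlt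
      rw [h4] at this
      exact lt_irrefl _ this
    · exact heq
  -- the uniformizer has valuation < 1
  have hπlt : w (π : F) < 1 := by
    have h1 : w (π : F) ≤ 1 := by
      rw [← Valuation.mem_valuationSubring_iff, ← h]; exact π.2
    rcases h1.lt_or_eq with hlt | heq
    · exact hlt
    exfalso
    -- then π⁻¹ ∈ O_v, so π is a unit
    have hmemiff : ∀ g : F, g ∈ v.toValuationSubring ↔ w g ≤ 1 := by
      intro g; rw [h, Valuation.mem_valuationSubring_iff]
    have hinv : (π : F)⁻¹ ∈ v.toValuationSubring := by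
      rw [hmemiff, map_inv₀, heq, inv_one]
    apply hπ.not_isUnit
    refine ⟨⟨π, ⟨_, hinv⟩, ?_, ?_⟩, rfl⟩
    · exact Subtype.ext (by simp [hπF])
    · exact Subtype.ext (by simp [hπF])
  have hlogneg : log (w (π : F)) < 0 := by
    have := (WithZero.log_lt_log hwπ0 one_ne_zero).2 hπlt
    simpa using this
  refine ⟨(-log (w (π : F))).toNat, by omega, fun f hf => ?_⟩
  obtain ⟨u, hu⟩ := v.exists_unit_mul_zpow hf hπ
  have hcast : (((-log (w (π : F))).toNat : ℕ) : ℤ) = -log (w (π : F)) :=
    Int.toNat_of_nonneg (by omega)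
  rw [hcast]
  conv_lhs => rw [hu]
  rw [map_mul, hunit u, one_mul, map_zpow₀, log_zpow, smul_eq_mul]
  ring

/-- For a normalized valuation (taking the value `exp (-1)`), `v.ord = -log w`. -/
theorem ffOrd_eq_neg_log (v : Place K F) (w : Valuation F ℤᵐ⁰)
    (h : v.toValuationSubring = w.valuationSubring) (hn : ∃ π : F, w π = exp (-1 : ℤ))
    (f : F) : v.ord f = -log (w f) := by
  rcases eq_or_ne f 0 with rfl | hf
  · simp
  obtain ⟨e, he, hef⟩ := ffExists_index v w h
  obtain ⟨π, hπ⟩ := hn
  have hπ0 : π ≠ 0 := by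
    intro h0; rw [h0, map_zero] at hπ; exact exp_ne_zero hπ.symm
  have h1 := hef π hπ0
  rw [hπ, log_exp, neg_neg] at h1
  -- e * ord π = 1 with e > 0 forces e = 1
  have he1 : (e : ℤ) = 1 := by
    have hdvd : (e : ℤ) ∣ 1 := ⟨v.ord π, h1⟩
    have := Int.eq_one_of_dvd_one (by omega) hdvd
    exact this
  rw [hef f hf, he1, one_mul]

end Fermat.Agent.S24lib

end
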