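/-
S24 library — the interface between the ALGEBRAIC block (places of a function field over one
fibre of `u`) and the ANALYTIC block (local expansions of modular functions).  (helper4, architect)

`FiberData K F L u g` packages: a finite index set `I` with an action of a group `G`, an element
`g : G`, and for every `i : I` a "local expansion" `σ i : F →+* L((x))`.
In the application: `K = ℚ̄`, `L = ℂ`, `F = FF N`, `I = SL(2,ℤ) ⧸ Γ₀(N)`,
* finite fibre `j = c`:  `u = j - c`, `σ q f` = Taylor/Laurent expansion at `τ₀` (`j(τ₀) = c`) of `f ∘ h_q⁻¹`,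
  `g = 1 / S / S*T` (generator of the stabiliser of `τ₀`), `s = 1 / 2 / 3`;
* cusps: `u = j⁻¹`, `σ q f` = `q_N`-expansion of `f ∘ h_q⁻¹`, `g = T`, `s = N`.
No sorry in this file (definitions only).
-/
import Mathlib
import Fermat.Prelude.Def_AlgebraicCurve_CanonicalDivisor

set_option autoImplicit false

open AlgebraicCurve IntermediateField

namespace Fermat.Agent.S24lib

/-- Local expansion data over one fibre `u = 0` of a function field `F / K`. -/
structure FiberData (K F L : Type) [Field K] [Field F] [Algebra K F] [Field L] [Algebra K L]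
    (u : F) {G : Type} [Group G] (I : Type) [Fintype I] [MulAction G I] (g : G) where
  /-- the local expansions -/
  σ : I → F →+* LaurentSeries L
  /-- the order of `u` in every expansion -/
  s : ℕ
  s_pos : 0 < s
  map_const : ∀ (i : I) (c : K), σ i (algebraMap K F c) = HahnSeries.C (algebraMap K L c)
  map_u : ∀ i i' : I, σ i u = σ i' u
  order_u : ∀ i : I, (σ i u).order = (s : ℤ)
  /-- distinct indices give distinct expansions -/
  inj : Function.Injective σ
  /-- the "characteristic polynomial" `∏ᵢ (X - σᵢ f)` has coefficients in `K(u)` -/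
  sym : ∀ f : F, ∃ P : Polynomial F, (∀ k, P.coeff k ∈ K⟮u⟯) ∧
      ∀ i₀ : I, P.map (σ i₀) = ∏ i : I, (Polynomial.X - Polynomial.C (σ i f))
  /-- `g` does not change the valuation -/
  order_smul : ∀ (i : I) (f : F), (σ (g • i) f).order = (σ i f).order
  /-- the value group of `ord ∘ σ i` is contained in `(s / #orbit(i)) ℤ` -/
  dvd : ∀ (i : I) (f : F), f ≠ 0 →
      (s : ℤ) ∣ (Nat.card (MulAction.orbit (Subgroup.zpowers g) i) : ℤ) * (σ i f).order

end Fermat.Agent.S24lib
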