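/-
S24 library, ALG-1 (b) (helper29): every place above `u = 0` comes from one of the local expansions.

For `D : FiberData K F L u I g` (`K` algebraically closed, `I` nonempty):
* `algVal σ` : the valuation `f ↦ exp (-(σ f).order)` of a ring hom `σ : F →+* L((x))`;
* `algVal_ratfun` : valuations (trivial on `K`, `< 1` at `u`) on `K(u)` are powers of the `u`-adic one;
* `FiberData.exists_sym_poly`, `FiberData.isAlgebraic` : `F / K(u)` is algebraic (degree `≤ |I|`);
* `FiberData.transcendental_u`;
* `FiberData.mem_of_forall_val_le` : integrality, `⋂ᵢ O_i ⊆ O_v` for every place `v` above `u = 0`;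
* `FiberData.exists_index_elt` : for `b ≠ 0` some `i` has `e_v · ord_i b = s · ord_v b`;
* `FiberData.exists_index` : (B. H. Neumann's lemma makes `i` uniform)
    `∃ i, ∃ m > 0, ∀ f ≠ 0, (D.σ i f).order = m * v.ord f`.
No sorry.
-/
import Mathlib
import Fermat.Agent.S24lib.FiberData
import Fermat.Agent.S24lib.FFBasic
import Fermat.Agent.S24lib.FFPlaceVal

set_option autoImplicit false

noncomputable section

namespace Fermat.Agent.S24lib

open AlgebraicCurve IntermediateField WithZero
open scoped Classical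

variable {K F L : Type} [Field K] [Field F] [Algebra K F] [Field L] [Algebra K L]

/-- The `ℤᵐ⁰`-valued valuation `f ↦ exp (-(σ f).order)` attached to a ring hom into
Laurent series. -/
def algVal (σ : F →+* LaurentSeries L) : Valuation F ℤᵐ⁰ where
  toFun f := if f = 0 then 0 else exp (-(σ f).order)
  map_zero' := by simp
  map_one' := by simp [HahnSeries.order_one]
  map_mul' x y := by
    by_cases hx : x = 0
    · simp [hx]
    by_cases hy : y = 0
    · simp [hy]
    have hx' : σ x ≠ 0 := (map_ne_zero σ).2 hx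
    have hy' : σ y ≠ 0 := (map_ne_zero σ).2 hy
    simp only [hx, hy, mul_eq_zero, or_self, if_false, map_mul, HahnSeries.order_mul hx' hy']
    rw [← exp_add]
    congr 1
    ring
  map_add_le_max' x y := by
    by_cases hx : x = 0
    · simp [hx]
    by_cases hy : y = 0
    · simp [hy]
    by_cases hxy : x + y = 0
    · simp [hxy]
    have hxy' : σ x + σ y ≠ 0 := by
      rw [← map_add]
      exact (map_ne_zero σ).2 hxy
    have h := HahnSeries.min_order_le_order_add hxy'
    simp only [hx, hy, hxy, if_false, map_add]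
    rcases min_le_iff.1 h with h1 | h1
    · exact le_max_of_le_left (exp_le_exp.2 (by omega))
    · exact le_max_of_le_right (exp_le_exp.2 (by omega))

lemma algVal_apply_of_ne (σ : F →+* LaurentSeries L) {f : F} (hf : f ≠ 0) :
    algVal σ f = exp (-(σ f).order) := by
  simp [algVal, hf]

lemma algVal_log (σ : F →+* LaurentSeries L) {f : F} (hf : f ≠ 0) :
    -log (algVal σ f) = (σ f).order := by
  rw [algVal_apply_of_ne σ hf, log_exp, neg_neg]


section RatFun

open Polynomial

variable (w : Valuation F ℤᵐ⁰) (hK : ∀ c : K, w (algebraMap K F c) ≤ 1) {u : F}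

include hK in
lemma algVal_const_eq_one {c : K} (hc : c ≠ 0) : w (algebraMap K F c) = 1 := by
  refine le_antisymm (hK c) ?_
  have h1 : w (algebraMap K F c) * w (algebraMap K F c⁻¹) = 1 := by
    rw [← map_mul, ← map_mul, mul_inv_cancel₀ hc, map_one, map_one]
  have h2 := hK c⁻¹
  have h3 : w (algebraMap K F c) ≠ 0 := by
    intro h
    rw [h, zero_mul] at h1
    exact zero_ne_one h1
  calc (1 : ℤᵐ⁰) = w (algebraMap K F c) * w (algebraMap K F c⁻¹) := h1.symm
    _ ≤ w (algebraMap K F c) * 1 := by gcongr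
    _ = w (algebraMap K F c) := mul_one _

include hK in
lemma algVal_aeval_le_one (hu : w u ≤ 1) (p : K[X]) : w (aeval u p) ≤ 1 := by
  rw [aeval_eq_sum_range]
  refine w.map_sum_le fun i _ ↦ ?_
  rw [Algebra.smul_def, map_mul, map_pow]
  exact mul_le_one' (hK _) (pow_le_one' hu i)

include hK in
lemma algVal_aeval_eq_one (hu : w u < 1) {p : K[X]} (hp : p.coeff 0 ≠ 0) :
    w (aeval u p) = 1 := by
  have h1 : p = p.divX * X + C (p.coeff 0) := (divX_mul_X_add p).symm
  have h2 : aeval u p = aeval u p.divX * u + algebraMap K F (p.coeff 0) := by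
    conv_lhs => rw [h1]
    simp
  have h3 : w (aeval u p.divX * u) < 1 := by
    rw [map_mul]
    calc w (aeval u p.divX) * w u ≤ 1 * w u := by
          gcongr
          exact algVal_aeval_le_one w hK hu.le _
      _ = w u := one_mul _
      _ < 1 := hu
  rw [h2, w.map_add_eq_of_lt_right (by rwa [algVal_const_eq_one w hK hp]),
    algVal_const_eq_one w hK hp]

include hK in
lemma algVal_aeval_eq_pow (hu : w u < 1) {p : K[X]} (hp : p ≠ 0) :
    w (aeval u p) = w u ^ (p.rootMultiplicity 0) := by
  obtain ⟨q, hq, hdvd⟩ := exists_eq_pow_rootMultiplicity_mul_and_not_dvd p hp 0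
  have hq0 : q.coeff 0 ≠ 0 := by
    intro h
    apply hdvd
    rw [C_0, sub_zero]
    exact X_dvd_iff.2 h
  conv_lhs => rw [hq]
  simp only [C_0, sub_zero, map_mul, map_pow, aeval_X]
  rw [algVal_aeval_eq_one w hK hu hq0, mul_one]

/-- The valuation of an element of `K(u)` is determined by a single integer. -/
lemma algVal_ratfun (hu0 : u ≠ 0) {a : F} (ha : a ∈ K⟮u⟯) (ha0 : a ≠ 0) :
    ∃ k : ℤ, ∀ w : Valuation F ℤᵐ⁰, (∀ c : K, w (algebraMap K F c) ≤ 1) → w u < 1 →
      w a = w u ^ k := by
  obtain ⟨r, s, hrs⟩ := (mem_adjoin_simple_iff K a).1 ha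
  have hr : aeval u r ≠ 0 := by
    intro h
    rw [h, zero_div] at hrs
    exact ha0 hrs
  have hs : aeval u s ≠ 0 := by
    intro h
    rw [h, div_zero] at hrs
    exact ha0 hrs
  have hr0 : r ≠ 0 := fun h ↦ hr (by rw [h, map_zero])
  have hs0 : s ≠ 0 := fun h ↦ hs (by rw [h, map_zero])
  refine ⟨(r.rootMultiplicity 0 : ℤ) - (s.rootMultiplicity 0 : ℤ), fun w hK hu ↦ ?_⟩
  have hu0' : w u ≠ 0 := (Valuation.ne_zero_iff w).2 hu0
  rw [hrs, map_div₀, algVal_aeval_eq_pow w hK hu hr0, algVal_aeval_eq_pow w hK hu hs0,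
    zpow_sub₀ hu0', zpow_natCast, zpow_natCast]

end RatFun


namespace FiberData

open Polynomial

variable {u : F} {G : Type} [Group G] {I : Type} [Fintype I] [MulAction G I] {g : G}
variable (D : FiberData K F L u I g)

/-- The valuation of `F` attached to the index `i`. -/
def val (i : I) : Valuation F ℤᵐ⁰ := algVal (D.σ i)

lemma val_apply_of_ne (i : I) {f : F} (hf : f ≠ 0) :
    D.val i f = exp (-(D.σ i f).order) := algVal_apply_of_ne _ hf

lemma val_const_le (i : I) (c : K) : D.val i (algebraMap K F c) ≤ 1 := by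
  rcases eq_or_ne c 0 with rfl | hc
  · simp
  have h0 : algebraMap K F c ≠ 0 := by simpa using hc
  rw [D.val_apply_of_ne i h0, D.map_const, HahnSeries.order_C, neg_zero, exp_zero]

include D in
lemma u_ne_zero [Nonempty I] : u ≠ 0 := by
  obtain ⟨i⟩ := ‹Nonempty I›
  intro h
  subst h
  have h1 := D.order_u i
  rw [map_zero, HahnSeries.order_zero] at h1
  have := D.s_pos
  omega

lemma val_u [Nonempty I] (i : I) : D.val i u = exp (-(D.s : ℤ)) := by
  rw [D.val_apply_of_ne i D.u_ne_zero, D.order_u]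

lemma val_u_lt_one [Nonempty I] (i : I) : D.val i u < 1 := by
  rw [D.val_u i, ← exp_zero, exp_lt_exp]
  have := D.s_pos
  omega

/-- The valuation on Laurent series itself. -/
def valΛ : Valuation (LaurentSeries L) ℤᵐ⁰ := algVal (RingHom.id (LaurentSeries L))

omit [Algebra K L] in
lemma valΛ_σ (σ : F →+* LaurentSeries L) (f : F) : valΛ (σ f) = algVal σ f := by
  by_cases hf : f = 0
  · simp [hf]
  have hf' : σ f ≠ 0 := (map_ne_zero σ).2 hf
  rw [algVal_apply_of_ne σ hf, valΛ, algVal_apply_of_ne _ hf']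
  rfl

/-- The polynomial `P` of `sym` is monic of degree `|I|` and kills `f`. -/
lemma exists_sym_poly [Nonempty I] (f : F) : ∃ P : Polynomial F, P.Monic ∧
    P.natDegree = Fintype.card I ∧ (∀ k, P.coeff k ∈ K⟮u⟯) ∧ P.eval f = 0 ∧
      ∀ i₀ : I, P.map (D.σ i₀) = ∏ i : I, (X - C (D.σ i f)) := by
  obtain ⟨P, hP1, hP2⟩ := D.sym f
  obtain ⟨i₀⟩ := ‹Nonempty I›
  have hinj : Function.Injective (D.σ i₀) := (D.σ i₀).injective
  have hmonic : (P.map (D.σ i₀)).Monic := by
    rw [hP2 i₀]
    exact monic_prod_of_monic _ _ fun i _ ↦ monic_X_sub_C _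
  refine ⟨P, monic_of_injective hinj hmonic, ?_, hP1, ?_, hP2⟩
  · rw [← natDegree_map_eq_of_injective hinj, hP2 i₀, natDegree_prod_of_monic _ _
      (fun i _ ↦ monic_X_sub_C _)]
    simp
  · apply hinj
    rw [map_zero, ← eval_map_apply, hP2 i₀, eval_prod]
    exact Finset.prod_eq_zero (Finset.mem_univ i₀) (by simp)

include D in
/-- `F` is algebraic over `K(u)`. -/
theorem isAlgebraic [Nonempty I] : Algebra.IsAlgebraic K⟮u⟯ F := by
  refine ⟨fun f ↦ ?_⟩
  obtain ⟨P, hmon, -, hcoeff, heval, -⟩ := D.exists_sym_poly f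
  have hl : P ∈ lifts (algebraMap K⟮u⟯ F) := by
    rw [lifts_iff_coeff_lifts]
    intro k
    exact ⟨⟨P.coeff k, hcoeff k⟩, rfl⟩
  obtain ⟨q, hq, -, hqm⟩ := lifts_and_natDegree_eq_and_monic hl hmon
  refine IsIntegral.isAlgebraic ⟨q, hqm, ?_⟩
  rw [← eval_map, hq, heval]

/-- Integrality: an element which is regular in all the expansions is regular at every place
above `u = 0`. -/
theorem mem_of_forall_val_le [Nonempty I] (v : Place K F) (hv : 0 < v.ord u) {f : F}
    (hf : ∀ i, D.val i f ≤ 1) : f ∈ v.toValuationSubring := by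
  obtain ⟨P, hmon, -, hcoeff, heval, hmap⟩ := D.exists_sym_poly f
  obtain ⟨i₀⟩ := ‹Nonempty I›
  have hu0 : u ≠ 0 := D.u_ne_zero
  -- the valuation of `v`
  have hvK : ∀ c : K, v.adicValuation (algebraMap K F c) ≤ 1 := by
    intro c
    have h := v.algebraMap_mem' c
    have h1 := v.adicValuation_coe ⟨_, h⟩
    rw [h1]
    exact IsDedekindDomain.HeightOneSpectrum.intValuation_le_one _ _
  have hvu : v.adicValuation u < 1 := by
    have h1 : v.ord u = -log (v.adicValuation u) := rfl
    have h2 : v.adicValuation u ≠ 0 := v.adicValuation_ne_zero hu0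
    rw [← exp_log h2, ← exp_zero, exp_lt_exp]
    omega
  -- coefficients are regular in the expansion `i₀`
  have hc1 : ∀ k, D.val i₀ (P.coeff k) ≤ 1 := by
    intro k
    have h1 : ∏ i : I, (X - C (D.σ i f)) =
        (∏ i : I, (X - C (⟨D.σ i f, by
          show valΛ (D.σ i f) ≤ 1
          rw [valΛ_σ]; exact hf i⟩ : (valΛ (L := L)).integer))).map
          (valΛ (L := L)).integer.subtype := by
      simp [Polynomial.map_prod]
    have h2 : D.σ i₀ (P.coeff k) ∈ (valΛ (L := L)).integer := by
      rw [← coeff_map, hmap i₀, h1, coeff_map]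
      exact Subtype.property _
    have h3 : valΛ (D.σ i₀ (P.coeff k)) ≤ 1 := h2
    rwa [valΛ_σ] at h3
  -- hence regular at `v`
  have hc2 : ∀ k, P.coeff k ∈ v.toValuationSubring := by
    intro k
    rcases eq_or_ne (P.coeff k) 0 with h0 | h0
    · rw [h0]; exact zero_mem _
    obtain ⟨n, hn⟩ := algVal_ratfun hu0 (hcoeff k) h0
    have h1 := hn (D.val i₀) (D.val_const_le i₀) (D.val_u_lt_one i₀)
    have h2 := hn v.adicValuation hvK hvu
    have hn0 : 0 ≤ n := by
      by_contra hneg
      push Not at hneg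
      have : 1 < D.val i₀ u ^ n := by
        rw [D.val_u i₀, ← exp_zsmul, ← exp_zero, exp_lt_exp, smul_eq_mul]
        have := D.s_pos
        have h3 : (0 : ℤ) < D.s := by exact_mod_cast this
        nlinarith
      exact absurd (hc1 k) (not_le.2 (h1 ▸ this))
    have h3 : v.adicValuation (P.coeff k) ≤ 1 := by
      rw [h2]
      obtain ⟨m, rfl⟩ := Int.eq_ofNat_of_zero_le hn0
      rw [zpow_natCast]
      exact pow_le_one' hvu.le m
    exact (ffMem_iff_ord_nonneg v).2 (by
      have h4 : v.ord (P.coeff k) = -log (v.adicValuation (P.coeff k)) := rfl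
      have h5 : v.adicValuation (P.coeff k) ≠ 0 := v.adicValuation_ne_zero h0
      rw [← exp_log h5, ← exp_zero, exp_le_exp] at h3
      omega)
  have hl : P ∈ lifts (algebraMap v.toValuationSubring F) := by
    rw [lifts_iff_coeff_lifts]
    intro k
    exact ⟨⟨P.coeff k, hc2 k⟩, rfl⟩
  obtain ⟨q, hq, -, hqm⟩ := lifts_and_natDegree_eq_and_monic hl hmon
  have hint : IsIntegral v.toValuationSubring f := ⟨q, hqm, by rw [← eval_map, hq, heval]⟩
  obtain ⟨y, hy⟩ := IsIntegrallyClosed.isIntegral_iff.1 hint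
  rw [← hy]
  exact y.2


/-- The additive version of `val`. -/
def ordAt (i : I) (f : F) : ℤ := -log (D.val i f)

lemma ordAt_eq (i : I) {f : F} (hf : f ≠ 0) : D.ordAt i f = (D.σ i f).order := by
  rw [ordAt, D.val_apply_of_ne i hf, log_exp, neg_neg]

omit [Algebra K F] in
/-- generic: `-log ∘ w` of a quotient of powers -/
lemma algVal_log_zpow_div (w : Valuation F ℤᵐ⁰) {a b : F} (ha : a ≠ 0) (hb : b ≠ 0) (m n : ℤ) :
    -log (w (a ^ m / b ^ n)) = m * -log (w a) - n * -log (w b) := by
  have h1 : w a ≠ 0 := (Valuation.ne_zero_iff w).2 ha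
  have h2 : w b ≠ 0 := (Valuation.ne_zero_iff w).2 hb
  rw [map_div₀, map_zpow₀, map_zpow₀, log_div (zpow_ne_zero _ h1) (zpow_ne_zero _ h2),
    log_zpow, log_zpow, smul_eq_mul, smul_eq_mul]
  ring

omit [Algebra K F] in
lemma algVal_le_one_iff (w : Valuation F ℤᵐ⁰) {a : F} (ha : a ≠ 0) :
    w a ≤ 1 ↔ 0 ≤ -log (w a) := by
  have h1 : w a ≠ 0 := (Valuation.ne_zero_iff w).2 ha
  conv_lhs => rw [← exp_log h1, ← exp_zero, exp_le_exp]
  omega

omit [Algebra K F] in
lemma algVal_lt_one_iff (w : Valuation F ℤᵐ⁰) {a : F} (ha : a ≠ 0) :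
    w a < 1 ↔ 0 < -log (w a) := by
  have h1 : w a ≠ 0 := (Valuation.ne_zero_iff w).2 ha
  conv_lhs => rw [← exp_log h1, ← exp_zero, exp_lt_exp]
  omega

omit [Algebra K F] in
lemma algVal_eq_one_iff (w : Valuation F ℤᵐ⁰) {a : F} (ha : a ≠ 0) :
    w a = 1 ↔ -log (w a) = 0 := by
  have h1 : w a ≠ 0 := (Valuation.ne_zero_iff w).2 ha
  conv_lhs => rw [← exp_log h1, ← exp_zero, exp_inj]
  omega

variable [IsAlgClosed K]

include D in
lemma transcendental_u [Nonempty I] : Transcendental K u := by
  intro halg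
  obtain ⟨i⟩ := ‹Nonempty I›
  have hint : IsIntegral K u := isAlgebraic_iff_isIntegral.1 halg
  have hdeg : (minpoly K u).degree = 1 :=
    IsAlgClosed.degree_eq_one_of_irreducible K (minpoly.irreducible hint)
  obtain ⟨c, hc⟩ := minpoly.mem_range_of_degree_eq_one K u hdeg
  subst hc
  have h1 := D.order_u i
  rw [D.map_const, HahnSeries.order_C] at h1
  have := D.s_pos
  omega

/-- For every `b ≠ 0` there is an index `i` with `e_v · ord_i b = s · ord_v b`. -/
theorem exists_index_elt [Nonempty I] (v : Place K F) (hv : 0 < v.ord u) {b : F} (hb : b ≠ 0) :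
    ∃ i : I, v.ord u * (D.σ i b).order = D.s * v.ord b := by
  by_contra hcon
  push Not at hcon
  have hu0 : u ≠ 0 := D.u_ne_zero
  have := D.isAlgebraic
  set e : ℤ := v.ord u with he
  set s : ℤ := (D.s : ℤ) with hs
  have hs0 : 0 < s := by
    have := D.s_pos
    simp only [hs]
    exact_mod_cast this
  -- the auxiliary element
  set c : F := b ^ (e * s) / u ^ (v.ord b * s) with hc
  have hc0 : c ≠ 0 := div_ne_zero (zpow_ne_zero _ hb) (zpow_ne_zero _ hu0)
  have hvc : v.ord c = 0 := by
    have := algVal_log_zpow_div v.adicValuation hb hu0 (e * s) (v.ord b * s)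
    change v.ord c = _ * v.ord b - _ * v.ord u at this
    rw [this]
    ring
  have hic : ∀ i, D.ordAt i c ≠ 0 := by
    intro i
    have := algVal_log_zpow_div (D.val i) hb hu0 (e * s) (v.ord b * s)
    change D.ordAt i c = _ * D.ordAt i b - _ * D.ordAt i u at this
    rw [this, D.ordAt_eq i hb, D.ordAt_eq i hu0, D.order_u]
    intro h0
    apply hcon i
    have h1 : s * (e * (D.σ i b).order - s * v.ord b) = 0 := by
      rw [← h0]; ring
    rcases mul_eq_zero.1 h1 with h2 | h2
    · omega
    · linarith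
  -- the residue of `c`
  have hcmem : c ∈ v.toValuationSubring := (ffMem_iff_ord_nonneg v).2 (by omega)
  obtain ⟨cbar, hcbar⟩ := ffResidue_surjective v D.transcendental_u (ffRes v ⟨c, hcmem⟩)
  have hmax : (⟨c, hcmem⟩ - algebraMap K v.toValuationSubring cbar : v.toValuationSubring) ∈
      IsLocalRing.maximalIdeal v.toValuationSubring := by
    rw [← ffRes_eq_zero_iff]
    show IsLocalRing.residue _ (_ - _) = 0
    rw [map_sub, sub_eq_zero]
    exact hcbar.symm
  obtain ⟨i₀⟩ := ‹Nonempty I›
  have hcbar0 : cbar ≠ 0 := by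
    rintro rfl
    rw [map_zero, sub_zero] at hmax
    have h1 := ffOrd_pos_of_mem_maximalIdeal v hmax (by
      intro h
      exact hc0 (congrArg Subtype.val h))
    simp only at h1
    omega
  have hconst : ∀ i, D.val i (algebraMap K F cbar) = 1 :=
    fun i ↦ algVal_const_eq_one (D.val i) (D.val_const_le i) hcbar0
  set b' : F := c - algebraMap K F cbar with hb'
  have hb'0 : b' ≠ 0 := by
    intro h
    have h1 : c = algebraMap K F cbar := sub_eq_zero.1 h
    have h2 := hic i₀
    rw [ordAt, h1, hconst i₀] at h2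
    simp at h2
  have hvb' : 0 < v.ord b' := by
    have h1 := ffOrd_pos_of_mem_maximalIdeal v hmax (by
      intro h
      exact hb'0 (congrArg Subtype.val h))
    exact h1
  -- `b'⁻¹` is regular in all expansions
  have hreg : ∀ i, D.val i b'⁻¹ ≤ 1 := by
    intro i
    rw [map_inv₀]
    have hne : D.val i c ≠ 1 := by
      intro h
      exact hic i ((algVal_eq_one_iff (D.val i) hc0).1 h)
    have hge : 1 ≤ D.val i b' := by
      rcases lt_or_gt_of_ne hne with h | h
      · have : D.val i b' = D.val i (algebraMap K F cbar) :=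
          Valuation.map_sub_eq_of_lt_right _ (by rwa [hconst i])
        rw [this, hconst i]
      · have : D.val i b' = D.val i c :=
          Valuation.map_sub_eq_of_lt_left _ (by rwa [hconst i])
        rw [this]
        exact h.le
    exact inv_le_one_of_one_le₀ hge
  have hmem := D.mem_of_forall_val_le v hv hreg
  have := (ffMem_iff_ord_nonneg v).1 hmem
  rw [v.ord_inv] at this
  omega


open scoped Pointwise

/-- The subgroup of `Fˣ` on which `e_v · ord_i = s · ord_v`. -/
def indexSubgroup (v : Place K F) (i : I) : Subgroup Fˣ where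
  carrier := {b | v.ord u * (D.σ i (b : F)).order = D.s * v.ord (b : F)}
  one_mem' := by simp [HahnSeries.order_one]
  mul_mem' := by
    intro a b ha hb
    change v.ord u * (D.σ i (a : F)).order = D.s * v.ord (a : F) at ha
    change v.ord u * (D.σ i (b : F)).order = D.s * v.ord (b : F) at hb
    change v.ord u * (D.σ i ((a * b : Fˣ) : F)).order = D.s * v.ord ((a * b : Fˣ) : F)
    rw [Units.val_mul, map_mul, HahnSeries.order_mul ((_root_.map_ne_zero _).2 a.ne_zero)
      ((_root_.map_ne_zero _).2 b.ne_zero), v.ord_mul a.ne_zero b.ne_zero, mul_add, mul_add,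
      ha, hb]
  inv_mem' := by
    intro a ha
    change v.ord u * (D.σ i (a : F)).order = D.s * v.ord (a : F) at ha
    change v.ord u * (D.σ i ((a⁻¹ : Fˣ) : F)).order = D.s * v.ord ((a⁻¹ : Fˣ) : F)
    have h1 : (D.σ i ((a⁻¹ : Fˣ) : F)).order = -(D.σ i (a : F)).order := by
      have h2 : D.σ i ((a⁻¹ : Fˣ) : F) * D.σ i (a : F) = 1 := by
        rw [← map_mul, ← Units.val_mul, inv_mul_cancel, Units.val_one, map_one]
      have h3 := congrArg HahnSeries.order h2
      rw [HahnSeries.order_mul ((_root_.map_ne_zero _).2 (a⁻¹).ne_zero)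
        ((_root_.map_ne_zero _).2 a.ne_zero), HahnSeries.order_one] at h3
      omega
    rw [h1, Units.val_inv_eq_inv_val, v.ord_inv, mul_neg, mul_neg, ha]

/-- **ALG-1 (b).** Every place above `u = 0` is the place of one of the expansions. -/
theorem exists_index [Nonempty I] (v : Place K F) (hv : 0 < v.ord u) :
    ∃ i : I, ∃ m : ℕ, 0 < m ∧ ∀ f : F, f ≠ 0 → (D.σ i f).order = m * v.ord f := by
  classical
  have hcov : ⋃ i ∈ (Finset.univ : Finset I),
      ((fun _ : I ↦ (1 : Fˣ)) i) • ((D.indexSubgroup v i : Subgroup Fˣ) : Set Fˣ) = Set.univ := by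
    rw [Set.eq_univ_iff_forall]
    intro b
    obtain ⟨i, hi⟩ := D.exists_index_elt v hv b.ne_zero
    simp only [Finset.mem_univ, Set.iUnion_true, one_smul, Set.mem_iUnion, SetLike.mem_coe]
    exact ⟨i, hi⟩
  obtain ⟨i, -, hfin⟩ := Subgroup.exists_finiteIndex_of_leftCoset_cover hcov
  have hall : ∀ f : F, f ≠ 0 → v.ord u * (D.σ i f).order = D.s * v.ord f := by
    intro f hf
    have hidx : (D.indexSubgroup v i).index ≠ 0 := hfin.index_ne_zero
    have h1 := (D.indexSubgroup v i).pow_index_mem (Units.mk0 f hf)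
    set n := (D.indexSubgroup v i).index with hn
    have h2 : v.ord u * (D.σ i (f ^ n)).order = D.s * v.ord (f ^ n) := by
      have h1' : v.ord u * (D.σ i ((Units.mk0 f hf ^ n : Fˣ) : F)).order =
          D.s * v.ord ((Units.mk0 f hf ^ n : Fˣ) : F) := h1
      rwa [Units.val_pow_eq_pow_val, Units.val_mk0] at h1'
    have h3 : (D.σ i (f ^ n)).order = n * (D.σ i f).order := by
      have := algVal_log_zpow_div (D.val i) hf hf (n : ℤ) 0
      simp only [zpow_natCast, zpow_zero, div_one, zero_mul, sub_zero] at this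
      have h4 := D.ordAt_eq i (pow_ne_zero n hf)
      have h5 := D.ordAt_eq i hf
      simp only [ordAt] at h4 h5
      rw [← h4, ← h5, this]
    have h4 : v.ord (f ^ n) = n * v.ord f := by
      have := v.ord_zpow f n
      simpa using this
    rw [h3, h4] at h2
    have hn0 : (n : ℤ) ≠ 0 := by exact_mod_cast hidx
    have h5 : (n : ℤ) * (v.ord u * (D.σ i f).order - D.s * v.ord f) = 0 := by
      linear_combination h2
    rcases mul_eq_zero.1 h5 with h6 | h6
    · exact absurd h6 hn0
    · linarith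
  -- a uniformizer
  obtain ⟨π, hπ⟩ := ffExistsIrreducible v
  have hπ0 : (π : F) ≠ 0 := by
    simpa [ne_eq, ZeroMemClass.coe_eq_zero] using hπ.ne_zero
  have hπ1 : v.ord (π : F) = 1 := v.ord_coe_irreducible hπ
  have h1 := hall π hπ0
  rw [hπ1, mul_one] at h1
  have hs0 : (0 : ℤ) < D.s := by exact_mod_cast D.s_pos
  have hm0 : 0 < (D.σ i (π : F)).order := by
    by_contra h
    push Not at h
    have : v.ord u * (D.σ i (π : F)).order ≤ 0 := mul_nonpos_of_nonneg_of_nonpos hv.le h
    omega
  refine ⟨i, (D.σ i (π : F)).order.toNat, by omega, fun f hf ↦ ?_⟩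
  have h2 := hall f hf
  rw [Int.toNat_of_nonneg hm0.le]
  have h3 : v.ord u * (D.σ i f).order = v.ord u * ((D.σ i (π : F)).order * v.ord f) := by
    rw [h2, ← h1]; ring
  exact mul_left_cancel₀ hv.ne' h3

end FiberData

end Fermat.Agent.S24lib
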