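/-
S24 library, ALG-1 (a) and (c) (helper29).

For `D : FiberData K F L u I g` (`K` algebraically closed of characteristic zero, `I` nonempty):
* `algFinite_of_natDegree_le` : a separable algebraic extension of bounded degree is finite;
* `FiberData.finiteDimensional`, `FiberData.finrank_eq` : `[F : K(u)] = |I|`;
* `FiberData.ffData` : the hypotheses `FFData K u` of the generic function-field block;
* `FiberData.place i` : the place of the expansion `i`; `place_spec`, `place_smul`, `place_eq_of_index`,
  `place_ord_u_pos`, `place_ord_u_le` (`e_v ≤ #orbit`);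
* `FiberData.card_places` : `#{v | 0 < v.ord u} = #(orbits of g on I)`.
No sorry.
-/
import Mathlib
import Fermat.Agent.S24lib.AlgIndex
import Fermat.Agent.S24lib.FFPrimes

set_option autoImplicit false

noncomputable section

namespace Fermat.Agent.S24lib

open AlgebraicCurve IntermediateField WithZero

/-- A separable algebraic field extension in which all elements have degree `≤ n` is finite of
degree `≤ n`. -/
theorem algFinite_of_natDegree_le {E F : Type*} [Field E] [Field F] [Algebra E F]
    [Algebra.IsAlgebraic E F] [Algebra.IsSeparable E F] (n : ℕ)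
    (h : ∀ f : F, (minpoly E f).natDegree ≤ n) :
    FiniteDimensional E F ∧ Module.finrank E F ≤ n := by
  have hint : ∀ f : F, IsIntegral E f := fun f ↦ Algebra.IsIntegral.isIntegral f
  -- an element of maximal degree
  have hbdd : BddAbove (Set.range fun f : F ↦ (minpoly E f).natDegree) :=
    ⟨n, by rintro _ ⟨f, rfl⟩; exact h f⟩
  obtain ⟨f₀, hf₀⟩ := Nat.sSup_mem (Set.range_nonempty _) hbdd
  have hmax : ∀ f : F, (minpoly E f).natDegree ≤ (minpoly E f₀).natDegree := by
    intro f
    simp only at hf₀
    rw [hf₀]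
    exact le_csSup hbdd ⟨f, rfl⟩
  have htop : E⟮f₀⟯ = ⊤ := by
    rw [eq_top_iff]
    intro g _
    -- the field generated by `f₀` and `g`
    set M : IntermediateField E F := E⟮f₀, g⟯ with hM
    have : FiniteDimensional E M := finiteDimensional_adjoin_pair (hint f₀) (hint g)
    have : Algebra.IsSeparable E M := Algebra.isSeparable_tower_bot_of_isSeparable E M F
    obtain ⟨α, hα⟩ := Field.exists_primitive_element E M
    have hα' : E⟮(α : F)⟯ = M := by
      have h1 := congrArg (IntermediateField.map M.val) hα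
      rw [IntermediateField.adjoin_map, Set.image_singleton] at h1
      rw [show M.val α = (α : F) from rfl] at h1
      rw [h1, ← AlgHom.fieldRange_eq_map, fieldRange_val]
    have hle : E⟮f₀⟯ ≤ M := by
      rw [adjoin_simple_le_iff]
      exact subset_adjoin E _ (by simp)
    have hfr : Module.finrank E M ≤ Module.finrank E E⟮f₀⟯ := by
      rw [← hα', adjoin.finrank (hint _), adjoin.finrank (hint _)]
      exact hmax _
    have heq : E⟮f₀⟯ = M := eq_of_le_of_finrank_le hle hfr
    rw [heq]
    exact subset_adjoin E _ (by simp)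
  have hfin : FiniteDimensional E (⊤ : IntermediateField E F) := by
    rw [← htop]
    exact adjoin.finiteDimensional (hint f₀)
  have hfin' : FiniteDimensional E F :=
    (IntermediateField.topEquiv (F := E) (E := F)).toLinearEquiv.finiteDimensional
  refine ⟨hfin', ?_⟩
  rw [← IntermediateField.finrank_top', ← htop, adjoin.finrank (hint f₀)]
  exact h f₀

/-- Counting lemma: a surjection `Φ : Ω → P` with weights `e ≤ c ∘ (section)` and equal total
weight is a bijection. -/
theorem algCount_aux {Ω P : Type*} [Fintype Ω] [Fintype P] (Φ : Ω → P)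
    (hΦ : Function.Surjective Φ) (c : Ω → ℕ) (e : P → ℕ) (hc : ∀ ω, 0 < c ω)
    (he : ∀ ω, e (Φ ω) ≤ c ω) (hsum : ∑ v, e v = ∑ ω, c ω) :
    Fintype.card P = Fintype.card Ω := by
  classical
  set sec : P → Ω := Function.surjInv hΦ with hsec
  have hinj : Function.Injective sec := Function.injective_surjInv hΦ
  have hsurj : Function.Surjective sec := by
    by_contra hns
    simp only [Function.Surjective, not_forall, not_exists] at hns
    obtain ⟨ω₀, hω₀⟩ := hns
    have h1 : ∑ v, e v ≤ ∑ v, c (sec v) := by
      refine Finset.sum_le_sum fun v _ ↦ ?_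
      have := he (sec v)
      rwa [Function.surjInv_eq hΦ] at this
    have h2 : ∑ v, c (sec v) = ∑ ω ∈ Finset.univ.image sec, c ω :=
      (Finset.sum_image fun a _ b _ h ↦ hinj h).symm
    have h3 : ∑ ω ∈ Finset.univ.image sec, c ω ≤ ∑ ω ∈ Finset.univ.erase ω₀, c ω := by
      refine Finset.sum_le_sum_of_subset ?_
      intro ω hω
      rw [Finset.mem_image] at hω
      obtain ⟨v, -, rfl⟩ := hω
      exact Finset.mem_erase.2 ⟨fun h ↦ hω₀ v h, Finset.mem_univ _⟩
    have h4 : ∑ ω ∈ Finset.univ.erase ω₀, c ω < ∑ ω, c ω :=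
      Finset.sum_erase_lt_of_pos (Finset.mem_univ ω₀) (hc ω₀)
    omega
  exact Fintype.card_of_bijective ⟨hinj, hsurj⟩

variable {K F L : Type} [Field K] [Field F] [Algebra K F] [Field L] [Algebra K L]

namespace FiberData

open Polynomial

variable {u : F} {G : Type} [Group G] {I : Type} [Fintype I] [MulAction G I] {g : G}
variable (D : FiberData K F L u I g)

include D in
lemma natDegree_minpoly_le [Nonempty I] (f : F) :
    (minpoly K⟮u⟯ f).natDegree ≤ Fintype.card I := by
  obtain ⟨P, hmon, hdeg, hcoeff, heval, -⟩ := D.exists_sym_poly f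
  have hl : P ∈ lifts (algebraMap K⟮u⟯ F) := by
    rw [lifts_iff_coeff_lifts]
    intro k
    exact ⟨⟨P.coeff k, hcoeff k⟩, rfl⟩
  obtain ⟨q, hq, hqd, hqm⟩ := lifts_and_natDegree_eq_and_monic hl hmon
  have h0 : aeval f q = 0 := by rw [aeval_def, ← eval_map, hq, heval]
  rw [← hdeg, ← hqd]
  exact natDegree_le_natDegree (minpoly.min K⟮u⟯ f hqm h0)

/-- all the expansions agree on `K(u)` -/
lemma σ_eq_of_mem_adjoin (i i' : I) {a : F} (ha : a ∈ K⟮u⟯) : D.σ i a = D.σ i' a := by
  have hle : K⟮u⟯.toSubfield ≤ (D.σ i).eqLocusField (D.σ i') := by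
    change Subfield.closure _ ≤ _
    rw [Subfield.closure_le]
    rintro x (⟨c, rfl⟩ | hx)
    · show D.σ i _ = D.σ i' _
      rw [D.map_const, D.map_const]
    · rw [Set.mem_singleton_iff] at hx
      subst hx
      exact D.map_u i i'
  exact hle ha

section CharZero

variable [CharZero K]

include D in
theorem finiteDimensional [Nonempty I] : FiniteDimensional K⟮u⟯ F := by
  have := D.isAlgebraic
  have : CharZero K⟮u⟯ := charZero_of_injective_algebraMap (algebraMap K K⟮u⟯).injective
  exact (algFinite_of_natDegree_le (Fintype.card I) D.natDegree_minpoly_le).1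

include D in
/-- **ALG-1 (a).** `[F : K(u)] = |I|`. -/
theorem finrank_eq [Nonempty I] : Module.finrank K⟮u⟯ F = Fintype.card I := by
  have := D.isAlgebraic
  have : CharZero K⟮u⟯ := charZero_of_injective_algebraMap (algebraMap K K⟮u⟯).injective
  have hfd := D.finiteDimensional
  refine le_antisymm (algFinite_of_natDegree_le (Fintype.card I) D.natDegree_minpoly_le).2 ?_
  obtain ⟨i₀⟩ := ‹Nonempty I›
  let : Algebra K⟮u⟯ (LaurentSeries L) := ((D.σ i₀).comp (algebraMap K⟮u⟯ F)).toAlgebra
  let φ : I → (F →ₐ[K⟮u⟯] LaurentSeries L) := fun i ↦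
    { D.σ i with
      commutes' := fun a ↦ D.σ_eq_of_mem_adjoin i i₀ a.2 }
  have hφ : Function.Injective φ := by
    intro i i' h
    apply D.inj
    have := congrArg (fun ψ : F →ₐ[K⟮u⟯] LaurentSeries L ↦ (ψ : F →+* LaurentSeries L)) h
    exact this
  calc Fintype.card I = Nat.card I := (Nat.card_eq_fintype_card).symm
    _ ≤ Nat.card (F →ₐ[K⟮u⟯] LaurentSeries L) := Nat.card_le_card_of_injective φ hφ
    _ ≤ Module.finrank K⟮u⟯ F := card_algHom_le_finrank K⟮u⟯ F (LaurentSeries L)

variable [IsAlgClosed K]

include D in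
/-- The bundled hypotheses of helper12's generic block. -/
theorem ffData [Nonempty I] : FFData K u where
  trans := D.transcendental_u
  fin := D.finiteDimensional
  char0 := inferInstance

end CharZero


section Places

/-- The place of `F` attached to the expansion `i`. -/
def place (i : I) : Place K F :=
  ffPlaceOfVal (D.val i) (D.val_const_le i) ⟨u⁻¹, by
    have : Nonempty I := ⟨i⟩
    rw [map_inv₀]
    exact one_lt_inv_iff₀.2 ⟨(Valuation.pos_iff _).2 D.u_ne_zero, D.val_u_lt_one i⟩⟩

lemma place_toValuationSubring (i : I) :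
    (D.place i).toValuationSubring = (D.val i).valuationSubring := rfl

lemma place_spec (i : I) : ∃ e : ℕ, 0 < e ∧
    ∀ f : F, f ≠ 0 → (D.σ i f).order = e * (D.place i).ord f := by
  obtain ⟨e, he, h⟩ := ffExists_index (D.place i) (D.val i) (D.place_toValuationSubring i)
  refine ⟨e, he, fun f hf ↦ ?_⟩
  rw [← h f hf, D.val_apply_of_ne i hf, log_exp, neg_neg]

lemma place_eq_of_index {v : Place K F} {i : I} {m : ℕ} (hm : 0 < m)
    (h : ∀ f : F, f ≠ 0 → (D.σ i f).order = m * v.ord f) : D.place i = v := by
  apply Place.ext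
  rw [place_toValuationSubring]
  ext f
  rw [Valuation.mem_valuationSubring_iff, ffMem_iff_ord_nonneg]
  rcases eq_or_ne f 0 with rfl | hf
  · simp
  rw [algVal_le_one_iff _ hf]
  have h1 : -log (D.val i f) = (D.σ i f).order := by
    rw [D.val_apply_of_ne i hf, log_exp, neg_neg]
  rw [h1, h f hf]
  have hm' : (0 : ℤ) < m := by exact_mod_cast hm
  constructor
  · intro h2
    by_contra h3
    push Not at h3
    have := mul_neg_of_pos_of_neg hm' h3
    omega
  · intro h2
    exact mul_nonneg hm'.le h2

lemma place_smul (i : I) : D.place (g • i) = D.place i := by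
  apply Place.ext
  rw [place_toValuationSubring, place_toValuationSubring]
  ext f
  rw [Valuation.mem_valuationSubring_iff, Valuation.mem_valuationSubring_iff]
  rcases eq_or_ne f 0 with rfl | hf
  · simp
  rw [D.val_apply_of_ne _ hf, D.val_apply_of_ne _ hf, D.order_smul]

lemma place_zpowers_smul (h : Subgroup.zpowers g) (i : I) : D.place (h • i) = D.place i := by
  obtain ⟨h, hh⟩ := h
  show D.place (h • i) = D.place i
  have hle : Subgroup.zpowers g ≤
      { carrier := {h : G | ∀ i, D.place (h • i) = D.place i}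
        one_mem' := fun i ↦ by rw [one_smul]
        mul_mem' := fun {a b} ha hb i ↦ by rw [mul_smul, ha, hb]
        inv_mem' := fun {a} ha i ↦ by
          have := ha (a⁻¹ • i)
          rw [smul_inv_smul] at this
          exact this.symm } := by
    rw [Subgroup.zpowers_le]
    exact fun i ↦ D.place_smul i
  exact hle hh i

lemma place_ord_u_pos (i : I) : 0 < (D.place i).ord u := by
  have : Nonempty I := ⟨i⟩
  obtain ⟨e, he, h⟩ := D.place_spec i
  have h1 := h u D.u_ne_zero
  rw [D.order_u] at h1
  have hs : (0 : ℤ) < D.s := by exact_mod_cast D.s_pos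
  have he' : (0 : ℤ) < e := by exact_mod_cast he
  by_contra hcon
  push Not at hcon
  have := mul_nonpos_of_nonneg_of_nonpos he'.le hcon
  omega

lemma place_ord_u_le (i : I) :
    (D.place i).ord u ≤ Nat.card (MulAction.orbit (Subgroup.zpowers g) i) := by
  have : Nonempty I := ⟨i⟩
  obtain ⟨e, he, h⟩ := D.place_spec i
  have he' : (0 : ℤ) < e := by exact_mod_cast he
  obtain ⟨π, hπ⟩ := ffExistsIrreducible (D.place i)
  have hπ0 : (π : F) ≠ 0 := by
    simpa [ne_eq, ZeroMemClass.coe_eq_zero] using hπ.ne_zero
  have hπ1 : (D.place i).ord (π : F) = 1 := (D.place i).ord_coe_irreducible hπ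
  have h1 := h u D.u_ne_zero
  rw [D.order_u] at h1
  have h2 := h π hπ0
  rw [hπ1, mul_one] at h2
  have h3 := D.dvd i π hπ0
  rw [h1, h2] at h3
  -- `e * ord u ∣ #orbit * e`
  have h4 : (D.place i).ord u ∣ (Nat.card (MulAction.orbit (Subgroup.zpowers g) i) : ℤ) := by
    rw [mul_comm (e : ℤ)] at h3
    exact (mul_dvd_mul_iff_right he'.ne').1 h3
  have hpos : 0 < Nat.card (MulAction.orbit (Subgroup.zpowers g) i) := by
    rw [Nat.card_pos_iff]
    exact ⟨⟨⟨i, MulAction.mem_orbit_self i⟩⟩, Set.toFinite _ |>.to_subtype⟩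
  exact Int.le_of_dvd (by exact_mod_cast hpos) h4

end Places


section Count

variable [IsAlgClosed K] [CharZero K]

include D in
/-- **ALG-1 (c).** The places above `u = 0` are in bijection with the orbits of `g` on `I`. -/
theorem card_places [Nonempty I] :
    Nat.card {v : Place K F // 0 < v.ord u} =
      Nat.card (MulAction.orbitRel.Quotient (Subgroup.zpowers g) I) := by
  classical
  have hFF : FFData K u := D.ffData
  letI : Fintype {v : Place K F // 0 < v.ord u} :=
    Fintype.subtype (ffZeros K u) (fun v ↦ ffMem_zeros_iff v)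
  letI : Fintype (MulAction.orbitRel.Quotient (Subgroup.zpowers g) I) := Fintype.ofFinite _
  -- the map orbits → places
  let Φ : MulAction.orbitRel.Quotient (Subgroup.zpowers g) I → {v : Place K F // 0 < v.ord u} :=
    Quotient.lift (fun i ↦ ⟨D.place i, D.place_ord_u_pos i⟩) (by
      rintro a b ⟨h, rfl⟩
      exact Subtype.ext (D.place_zpowers_smul h b))
  have hΦ : Function.Surjective Φ := by
    rintro ⟨v, hv⟩
    obtain ⟨i, m, hm, h⟩ := D.exists_index v hv
    exact ⟨⟦i⟧, Subtype.ext (D.place_eq_of_index hm h)⟩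
  -- weights
  let c : MulAction.orbitRel.Quotient (Subgroup.zpowers g) I → ℕ := fun ω ↦ Nat.card ω.orbit
  let e : {v : Place K F // 0 < v.ord u} → ℕ := fun v ↦ (v.1.ord u).toNat
  have hc : ∀ ω, 0 < c ω := by
    intro ω
    induction ω using Quotient.inductionOn' with
    | h i =>
      show 0 < Nat.card (MulAction.orbitRel.Quotient.orbit (Quotient.mk'' i))
      rw [MulAction.orbitRel.Quotient.orbit_mk, Nat.card_pos_iff]
      exact ⟨⟨⟨i, MulAction.mem_orbit_self i⟩⟩, Set.toFinite _ |>.to_subtype⟩
  have he : ∀ ω, e (Φ ω) ≤ c ω := by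
    intro ω
    induction ω using Quotient.inductionOn' with
    | h i =>
      show ((D.place i).ord u).toNat ≤
        Nat.card (MulAction.orbitRel.Quotient.orbit (Quotient.mk'' i))
      rw [MulAction.orbitRel.Quotient.orbit_mk]
      have := D.place_ord_u_le i
      omega
  have hsum : ∑ v, e v = ∑ ω, c ω := by
    have h1 : ∑ ω, c ω = Fintype.card I := by
      have := Fintype.card_congr (MulAction.selfEquivSigmaOrbits' (Subgroup.zpowers g) I)
      rw [this, Fintype.card_sigma]
      refine Finset.sum_congr rfl fun ω _ ↦ ?_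
      show Nat.card ω.orbit = _
      rw [Nat.card_eq_fintype_card]
    have h2 : ((∑ v, e v : ℕ) : ℤ) = Module.finrank K⟮u⟯ F := by
      rw [← ffSum_ord_zeros (K := K) (x := u)]
      push_cast
      rw [Finset.sum_subtype (ffZeros K u) (fun v ↦ ffMem_zeros_iff v) (fun v ↦ v.ord u)]
      refine Finset.sum_congr rfl fun v _ ↦ ?_
      show (((v.1.ord u).toNat : ℕ) : ℤ) = v.1.ord u
      exact Int.toNat_of_nonneg v.2.le
    rw [D.finrank_eq] at h2
    rw [h1]
    exact_mod_cast h2
  have := algCount_aux Φ hΦ c e hc he hsum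
  rw [Nat.card_eq_fintype_card, Nat.card_eq_fintype_card]
  exact this

end Count

end FiberData

end Fermat.Agent.S24lib
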