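/-
S24 library, (J4): the derivative of `j = E₄³/Δ` and the order of `j - j(z)` at `z`.

* `deriv_jFun` : `j' = κ · E₄² E₆ / Δ` with a constant `κ ≠ 0`;
* `E₄_deriv_ne_zero_of_eq_zero`, `E₆_deriv_ne_zero_of_eq_zero` : the zeros of `E₄`, `E₆` are simple;
* `analyticOrderAt_jFun_sub` : the order of `j - j(z)` at `z` is `3` if `E₄ z = 0`, `2` if
  `E₆ z = 0` and `1` otherwise.
-/
import Mathlib
import Fermat.Agent.S20_Bracket

set_option autoImplicit false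

open UpperHalfPlane ModularForm CongruenceSubgroup Filter Topology EisensteinSeries
open scoped MatrixGroups ModularForm Manifold

namespace Fermat.Agent.S24lib

/-- The `j`-function (without the factor `1728`... i.e. `E₄³/Δ`) as a function on `ℂ`
(junk outside the upper half plane). -/
noncomputable def jFun : ℂ → ℂ :=
  fun w => (⇑E₄ ∘ ofComplex) w ^ 3 / (discriminant ∘ ofComplex) w

lemma jFun_coe (z : ℍ) : jFun (z : ℂ) = E₄ z ^ 3 / discriminant z := by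
  simp [jFun]

lemma jd_analyticAt_of_mdiff {f : ℍ → ℂ} (hf : MDiff f) (z : ℍ) :
    AnalyticAt ℂ (f ∘ ofComplex) (z : ℂ) :=
  (UpperHalfPlane.mdifferentiable_iff.1 hf).analyticAt (isOpen_upperHalfPlaneSet.mem_nhds z.im_pos)

lemma jd_analyticAt_E₄ (z : ℍ) : AnalyticAt ℂ (⇑E₄ ∘ ofComplex) (z : ℂ) :=
  jd_analyticAt_of_mdiff (ModularFormClass.holo E₄) z

lemma jd_analyticAt_E₆ (z : ℍ) : AnalyticAt ℂ (⇑E₆ ∘ ofComplex) (z : ℂ) :=
  jd_analyticAt_of_mdiff (ModularFormClass.holo E₆) z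

lemma jd_analyticAt_discriminant (z : ℍ) :
    AnalyticAt ℂ ((discriminant : ℍ → ℂ) ∘ ofComplex) (z : ℂ) :=
  jd_analyticAt_of_mdiff CuspForm.discriminant.holo' z

lemma jd_discriminant_comp_ne_zero (z : ℍ) :
    ((discriminant : ℍ → ℂ) ∘ ofComplex) (z : ℂ) ≠ 0 := by
  simpa using discriminant_ne_zero z

lemma jd_analyticAt_jFun (z : ℍ) : AnalyticAt ℂ jFun (z : ℂ) :=
  ((jd_analyticAt_E₄ z).pow 3).div (jd_analyticAt_discriminant z)
    (jd_discriminant_comp_ne_zero z)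

/-- `E₄` and `E₆` have no common zero. -/
lemma jd_E₄_or_E₆_ne_zero (z : ℍ) : E₄ z ≠ 0 ∨ E₆ z ≠ 0 := by
  by_contra h
  push Not at h
  have := discriminant_eq_E₄_cube_sub_E₆_sq z
  rw [h.1, h.2] at this
  exact discriminant_ne_zero z (by simpa using this)

/-- The zeros of `E₄` are simple. -/
theorem E₄_deriv_ne_zero_of_eq_zero (z : ℍ) (h : E₄ z = 0) :
    deriv (⇑E₄ ∘ ofComplex) (z : ℂ) ≠ 0 := by
  obtain ⟨c, hc, hbr⟩ := Fermat.Agent.S20lib.bracket_E₄_E₆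
  intro h0
  have := hbr z
  rw [h, h0] at this
  have h1 : c * discriminant z = 0 := by rw [← this]; ring
  rcases mul_eq_zero.1 h1 with h2 | h2
  · exact hc h2
  · exact discriminant_ne_zero z h2

/-- The zeros of `E₆` are simple. -/
theorem E₆_deriv_ne_zero_of_eq_zero (z : ℍ) (h : E₆ z = 0) :
    deriv (⇑E₆ ∘ ofComplex) (z : ℂ) ≠ 0 := by
  obtain ⟨c, hc, hbr⟩ := Fermat.Agent.S20lib.bracket_E₄_E₆
  intro h0
  have := hbr z
  rw [h, h0] at this
  have h1 : c * discriminant z = 0 := by rw [← this]; ring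
  rcases mul_eq_zero.1 h1 with h2 | h2
  · exact hc h2
  · exact discriminant_ne_zero z h2

/-- The derivative of the discriminant in terms of `E₄`, `E₆`. -/
lemma jd_deriv_discriminant (z : ℍ) :
    deriv ((discriminant : ℍ → ℂ) ∘ ofComplex) (z : ℂ) =
      (3 * E₄ z ^ 2 * deriv (⇑E₄ ∘ ofComplex) (z : ℂ)
        - 2 * E₆ z * deriv (⇑E₆ ∘ ofComplex) (z : ℂ)) / 1728 := by
  have heq : ((discriminant : ℍ → ℂ) ∘ ofComplex) =ᶠ[𝓝 (z : ℂ)]
      fun w => ((⇑E₄ ∘ ofComplex) w ^ 3 - (⇑E₆ ∘ ofComplex) w ^ 2) / 1728 := by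
    filter_upwards [isOpen_upperHalfPlaneSet.mem_nhds z.im_pos] with w hw
    have := discriminant_eq_E₄_cube_sub_E₆_sq ⟨w, hw⟩
    simpa [ofComplex_apply_of_im_pos hw] using this
  rw [heq.deriv_eq]
  have h4 := (jd_analyticAt_E₄ z).differentiableAt.hasDerivAt
  have h6 := (jd_analyticAt_E₆ z).differentiableAt.hasDerivAt
  have hd : HasDerivAt
      (fun w => ((⇑E₄ ∘ ofComplex) w ^ 3 - (⇑E₆ ∘ ofComplex) w ^ 2) / 1728)
      ((((3 : ℕ) : ℂ) * (⇑E₄ ∘ ofComplex) (z : ℂ) ^ (3 - 1) * deriv (⇑E₄ ∘ ofComplex) (z : ℂ)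
        - ((2 : ℕ) : ℂ) * (⇑E₆ ∘ ofComplex) (z : ℂ) ^ (2 - 1)
          * deriv (⇑E₆ ∘ ofComplex) (z : ℂ)) / 1728) (z : ℂ) :=
    ((h4.pow 3).sub (h6.pow 2)).div_const 1728
  rw [hd.deriv]
  simp only [Function.comp_apply, ofComplex_apply]
  norm_num

/-- `j' = κ · E₄² E₆ / Δ` with `κ ≠ 0`. -/
theorem deriv_jFun : ∃ κ : ℂ, κ ≠ 0 ∧ ∀ z : ℍ,
    deriv jFun (z : ℂ) = κ * (E₄ z ^ 2 * E₆ z / discriminant z) := by
  obtain ⟨c, hc, hbr⟩ := Fermat.Agent.S20lib.bracket_E₄_E₆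
  refine ⟨c / 1728, div_ne_zero hc (by norm_num), fun z => ?_⟩
  have h4 := (jd_analyticAt_E₄ z).differentiableAt.hasDerivAt
  have hΔ := (jd_analyticAt_discriminant z).differentiableAt.hasDerivAt
  have hne := jd_discriminant_comp_ne_zero z
  have hd : HasDerivAt jFun
      ((((3 : ℕ) : ℂ) * (⇑E₄ ∘ ofComplex) (z : ℂ) ^ (3 - 1) * deriv (⇑E₄ ∘ ofComplex) (z : ℂ)
          * ((discriminant : ℍ → ℂ) ∘ ofComplex) (z : ℂ)
        - (⇑E₄ ∘ ofComplex) (z : ℂ) ^ 3 * deriv ((discriminant : ℍ → ℂ) ∘ ofComplex) (z : ℂ))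
        / ((discriminant : ℍ → ℂ) ∘ ofComplex) (z : ℂ) ^ 2) (z : ℂ) :=
    (h4.pow 3).div hΔ hne
  rw [hd.deriv, jd_deriv_discriminant z]
  have hb := hbr z
  have hΔ0 := discriminant_ne_zero z
  have hΔeq := discriminant_eq_E₄_cube_sub_E₆_sq z
  simp only [Function.comp_apply, ofComplex_apply] at hne ⊢
  have hΔeq' : 1728 * discriminant z = E₄ z ^ 3 - E₆ z ^ 2 := by
    rw [hΔeq]; field_simp
  field_simp
  push_cast
  linear_combination (E₄ z ^ 2 * E₆ z) * hb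
    + (3 * E₄ z ^ 2 * deriv (⇑E₄ ∘ ofComplex) (z : ℂ)) * hΔeq'

/-- The order of `j - j(z)` at `z`: `3` at the zeros of `E₄`, `2` at the zeros of `E₆`, `1`
elsewhere. -/
theorem analyticOrderAt_jFun_sub (z : ℍ) :
    analyticOrderAt (fun w => jFun w - jFun (z : ℂ)) (z : ℂ) =
      if E₄ z = 0 then 3 else if E₆ z = 0 then 2 else 1 := by
  obtain ⟨κ, hκ, hder⟩ := deriv_jFun
  have hJ := jd_analyticAt_jFun z
  have h4 := jd_analyticAt_E₄ z
  have h6 := jd_analyticAt_E₆ z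
  have hΔ := jd_analyticAt_discriminant z
  have hΔne := jd_discriminant_comp_ne_zero z
  rw [← hJ.analyticOrderAt_deriv_add_one]
  -- the derivative near `z`
  have heq : deriv jFun =ᶠ[𝓝 (z : ℂ)]
      ((fun _ => κ) * ((⇑E₄ ∘ ofComplex) ^ 2 * (⇑E₆ ∘ ofComplex)
        * ((discriminant : ℍ → ℂ) ∘ ofComplex)⁻¹)) := by
    filter_upwards [isOpen_upperHalfPlaneSet.mem_nhds z.im_pos] with w hw
    have := hder ⟨w, hw⟩
    rw [this]
    simp [ofComplex_apply_of_im_pos hw, div_eq_mul_inv]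
  rw [analyticOrderAt_congr heq]
  have hinv : AnalyticAt ℂ (((discriminant : ℍ → ℂ) ∘ ofComplex)⁻¹) (z : ℂ) := hΔ.inv hΔne
  have hconst : AnalyticAt ℂ (fun _ : ℂ => κ) (z : ℂ) := analyticAt_const
  rw [analyticOrderAt_mul hconst (((h4.pow 2).mul h6).mul hinv),
    analyticOrderAt_mul ((h4.pow 2).mul h6) hinv, analyticOrderAt_mul (h4.pow 2) h6,
    analyticOrderAt_pow h4]
  have o1 : analyticOrderAt (fun _ : ℂ => κ) (z : ℂ) = 0 :=
    hconst.analyticOrderAt_eq_zero.2 hκ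
  have o2 : analyticOrderAt (((discriminant : ℍ → ℂ) ∘ ofComplex)⁻¹) (z : ℂ) = 0 :=
    hinv.analyticOrderAt_eq_zero.2 (by simpa using discriminant_ne_zero z)
  rw [o1, o2]
  by_cases hE4 : E₄ z = 0
  · have hE6 : E₆ z ≠ 0 := (jd_E₄_or_E₆_ne_zero z).resolve_left (not_not.2 hE4)
    have o4 : analyticOrderAt (⇑E₄ ∘ ofComplex) (z : ℂ) = 1 :=
      h4.analyticOrderAt_eq_one_of_zero_deriv_ne_zero (by simpa using hE4)
        (E₄_deriv_ne_zero_of_eq_zero z hE4)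
    have o6 : analyticOrderAt (⇑E₆ ∘ ofComplex) (z : ℂ) = 0 :=
      h6.analyticOrderAt_eq_zero.2 (by simpa using hE6)
    rw [o4, o6, if_pos hE4]
    norm_num
  · rw [if_neg hE4]
    have o4 : analyticOrderAt (⇑E₄ ∘ ofComplex) (z : ℂ) = 0 :=
      h4.analyticOrderAt_eq_zero.2 (by simpa using hE4)
    by_cases hE6 : E₆ z = 0
    · have o6 : analyticOrderAt (⇑E₆ ∘ ofComplex) (z : ℂ) = 1 :=
        h6.analyticOrderAt_eq_one_of_zero_deriv_ne_zero (by simpa using hE6)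
          (E₆_deriv_ne_zero_of_eq_zero z hE6)
      rw [o4, o6, if_pos hE6]
      norm_num
    · have o6 : analyticOrderAt (⇑E₆ ∘ ofComplex) (z : ℂ) = 0 :=
        h6.analyticOrderAt_eq_zero.2 (by simpa using hE6)
      rw [o4, o6, if_neg hE6]
      norm_num

end Fermat.Agent.S24lib
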