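/-
S24 library — piece AN-8 (helper9): the conjugates of `j_N = j(N z)` under the cosets of `Γ₀(N)`
are pairwise distinct functions on `ℍ`.

Main results (namespace `Fermat.Agent.S24lib`):
* `nmulH N z : ℍ` — the point `N z`.
* `mem_Gamma0_of_jN_invariant` : if `j(N (g • z)) = j(N z)` for all `z ∈ ℍ` then `g ∈ Γ₀(N)`.
* `jN_comp_inv_injective` : `j_N ∘ h⁻¹ = j_N ∘ h'⁻¹` (as functions on `ℍ`) implies `h⁻¹ * h' ∈ Γ₀(N)`,
  i.e. `h Γ₀(N) = h' Γ₀(N)`.
No sorry in this file.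
-/
import Mathlib
import Fermat.Agent.S20_JInj
import Fermat.Agent.S24lib.JDeriv

set_option autoImplicit false

open UpperHalfPlane ModularForm CongruenceSubgroup EisensteinSeries
open scoped MatrixGroups ModularForm Manifold

namespace Fermat.Agent.S24lib

/-- The point `N z` of the upper half plane (`N ≥ 1`). -/
noncomputable def nmulH (N : ℕ) [NeZero N] (z : ℍ) : ℍ :=
  ⟨(N : ℂ) * (z : ℂ), by
    have hN : (0 : ℝ) < N := Nat.cast_pos.mpr (Nat.pos_of_ne_zero (NeZero.ne N))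
    have : ((N : ℂ) * (z : ℂ)).im = N * z.im := by simp
    rw [this]
    exact mul_pos hN z.im_pos⟩

@[simp] lemma coe_nmulH (N : ℕ) [NeZero N] (z : ℍ) : ((nmulH N z : ℍ) : ℂ) = (N : ℂ) * (z : ℂ) := rfl

/-- `c z + d ≠ 0` for real `(c, d) ≠ 0` and `z ∈ ℍ`. -/
lemma dist_lin_ne_zero (c d : ℤ) (h : c ≠ 0 ∨ d ≠ 0) (z : ℍ) : (c : ℂ) * (z : ℂ) + (d : ℂ) ≠ 0 := by
  intro h0
  have him : ((c : ℂ) * (z : ℂ) + (d : ℂ)).im = c * z.im := by simp
  have hre : ((c : ℂ) * (z : ℂ) + (d : ℂ)).re = c * z.re + d := by simp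
  rw [h0] at him hre
  simp only [Complex.zero_im, Complex.zero_re] at him hre
  have hc : (c : ℝ) = 0 := by
    rcases mul_eq_zero.mp him.symm with h1 | h1
    · exact h1
    · exact absurd h1 z.im_pos.ne'
  have hd : (d : ℝ) = 0 := by rw [hc] at hre; linarith
  rcases h with h | h
  · exact h (by exact_mod_cast hc)
  · exact h (by exact_mod_cast hd)

/-- A quadratic polynomial with integer coefficients having two distinct roots in `ℍ` is zero. -/
lemma dist_quad_zero {A B C : ℤ} {z₁ z₂ : ℍ} (hne : z₁ ≠ z₂)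
    (h₁ : (A : ℂ) * (z₁ : ℂ) ^ 2 + (B : ℂ) * (z₁ : ℂ) + (C : ℂ) = 0)
    (h₂ : (A : ℂ) * (z₂ : ℂ) ^ 2 + (B : ℂ) * (z₂ : ℂ) + (C : ℂ) = 0) :
    A = 0 ∧ B = 0 ∧ C = 0 := by
  have hne' : (z₁ : ℂ) - (z₂ : ℂ) ≠ 0 := by
    intro h
    exact hne (UpperHalfPlane.ext (sub_eq_zero.mp h))
  have hlin : (A : ℂ) * ((z₁ : ℂ) + (z₂ : ℂ)) + (B : ℂ) = 0 := by
    have : ((z₁ : ℂ) - (z₂ : ℂ)) * ((A : ℂ) * ((z₁ : ℂ) + (z₂ : ℂ)) + (B : ℂ)) = 0 := by
      linear_combination h₁ - h₂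
    exact (mul_eq_zero.mp this).resolve_left hne'
  have him : ((A : ℂ) * ((z₁ : ℂ) + (z₂ : ℂ)) + (B : ℂ)).im = A * (z₁.im + z₂.im) := by simp
  rw [hlin] at him
  simp only [Complex.zero_im] at him
  have hA : (A : ℝ) = 0 := by
    rcases mul_eq_zero.mp him.symm with h | h
    · exact h
    · exact absurd h (add_pos z₁.im_pos z₂.im_pos).ne'
  have hA' : A = 0 := by exact_mod_cast hA
  subst hA'
  have hB : (B : ℂ) = 0 := by simpa using hlin
  have hB' : B = 0 := by exact_mod_cast hB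
  subst hB'
  have hC : (C : ℂ) = 0 := by simpa using h₁
  exact ⟨rfl, rfl, by exact_mod_cast hC⟩

/-- The integer arithmetic: proportional matrices `γ α` and `α g`. -/
lemma dist_int_core {N p q r s a b c d : ℤ} (hN : N ≠ 0) (hγ : p * s - q * r = 1)
    (hg : a * d - b * c = 1)
    (hA : p * N * c - N ^ 2 * a * r = 0)
    (hB : p * N * d + q * c - N * a * s - N ^ 2 * b * r = 0)
    (hC : q * d - N * b * s = 0) : N ∣ c := by
  set t : ℤ := N * (d * p - N * b * r) with ht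
  have htt : t * t = N * N := by
    have : t * (N * a * s - c * q) - (d * q - N * b * s) * (N * (-(c * p) + N * a * r))
        = N ^ 2 * ((a * d - b * c) * (p * s - q * r)) := by ring
    have ht' : N * a * s - c * q = t := by rw [ht]; linear_combination -hB
    rw [ht', hg, hγ] at this
    have hC' : d * q - N * b * s = 0 := by linear_combination hC
    rw [hC'] at this
    linear_combination this
  have hct : c * t = N * N * r := by
    have : c * (N * (d * p - N * b * r)) + d * (N * (-(c * p) + N * a * r))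
        = N ^ 2 * r * (a * d - b * c) := by ring
    rw [hg] at this
    have hA' : N * (-(c * p) + N * a * r) = 0 := by linear_combination -hA
    rw [hA'] at this
    rw [ht]; linear_combination this
  rcases mul_self_eq_mul_self_iff.mp htt with h | h
  · rw [h] at hct
    have : c = N * r := by
      have h2 : N * c = N * (N * r) := by linear_combination hct
      exact mul_left_cancel₀ hN h2
    exact ⟨r, this⟩
  · rw [h] at hct
    have : c = N * (-r) := by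
      have h2 : N * c = N * (N * (-r)) := by linear_combination -hct
      exact mul_left_cancel₀ hN h2
    exact ⟨-r, this⟩

/-- From one point: `γ • (N z) = N (g • z)` gives a quadratic relation for `z`. -/
lemma dist_point_eq (N : ℕ) [NeZero N] (γ g : SL(2, ℤ)) (z : ℍ)
    (h : γ • nmulH N z = nmulH N (g • z)) :
    (((γ 0 0 * N * g 1 0 - N ^ 2 * g 0 0 * γ 1 0 : ℤ) : ℂ)) * (z : ℂ) ^ 2
      + ((γ 0 0 * N * g 1 1 + γ 0 1 * g 1 0 - N * g 0 0 * γ 1 1 - N ^ 2 * g 0 1 * γ 1 0 : ℤ) : ℂ)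
          * (z : ℂ)
      + ((γ 0 1 * g 1 1 - N * g 0 1 * γ 1 1 : ℤ) : ℂ) = 0 := by
  have hγdet : γ 0 0 * γ 1 1 - γ 0 1 * γ 1 0 = 1 := by
    have := γ.det_coe
    rw [Matrix.det_fin_two] at this
    exact this
  have hgdet : g 0 0 * g 1 1 - g 0 1 * g 1 0 = 1 := by
    have := g.det_coe
    rw [Matrix.det_fin_two] at this
    exact this
  have h1 := congrArg (fun w : ℍ => (w : ℂ)) h
  simp only [coe_nmulH] at h1
  rw [UpperHalfPlane.coe_specialLinearGroup_apply, UpperHalfPlane.coe_specialLinearGroup_apply]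
    at h1
  simp only [coe_nmulH, algebraMap_int_eq, eq_intCast, Complex.ofReal_intCast] at h1
  have hd1 : ((γ 1 0 : ℤ) : ℂ) * ((N : ℂ) * (z : ℂ)) + ((γ 1 1 : ℤ) : ℂ) ≠ 0 := by
    have := dist_lin_ne_zero (γ 1 0) (γ 1 1) (by
      by_contra hcon
      rw [not_or, not_not, not_not] at hcon
      rw [hcon.1, hcon.2] at hγdet
      simp at hγdet) (nmulH N z)
    simpa using this
  have hd2 : ((g 1 0 : ℤ) : ℂ) * (z : ℂ) + ((g 1 1 : ℤ) : ℂ) ≠ 0 :=
    dist_lin_ne_zero (g 1 0) (g 1 1) (by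
      by_contra hcon
      rw [not_or, not_not, not_not] at hcon
      rw [hcon.1, hcon.2] at hgdet
      simp at hgdet) z
  rw [div_eq_iff hd1, mul_div_assoc', div_mul_eq_mul_div, eq_div_iff hd2] at h1
  push_cast
  linear_combination h1

/-- **AN-8, core form.** If `j(N (g • z)) = j(N z)` for all `z ∈ ℍ`, then `g ∈ Γ₀(N)`. -/
theorem mem_Gamma0_of_jN_invariant (N : ℕ) [NeZero N] (g : SL(2, ℤ))
    (h : ∀ z : ℍ, jFun ((N : ℂ) * ((g • z : ℍ) : ℂ)) = jFun ((N : ℂ) * (z : ℂ))) :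
    g ∈ Gamma0 N := by
  -- step 1: for every z there is γ with γ • (N z) = N (g • z)
  have hex : ∀ z : ℍ, ∃ γ : SL(2, ℤ), γ • nmulH N z = nmulH N (g • z) := by
    intro z
    have h1 := h z
    have e1 : ((N : ℂ) * ((g • z : ℍ) : ℂ)) = ((nmulH N (g • z) : ℍ) : ℂ) := rfl
    have e2 : ((N : ℂ) * (z : ℂ)) = ((nmulH N z : ℍ) : ℂ) := rfl
    rw [e1, e2, jFun_coe, jFun_coe] at h1
    have hΔ1 := discriminant_ne_zero (nmulH N (g • z))
    have hΔ2 := discriminant_ne_zero (nmulH N z)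
    rw [div_eq_div_iff hΔ1 hΔ2] at h1
    exact Fermat.Agent.S20lib.j_injective (nmulH N z) (nmulH N (g • z)) (by
      linear_combination -h1)
  choose Γf hΓf using hex
  -- step 2: pigeonhole
  let pt : ℝ → ℍ := fun x => ⟨(x : ℂ) + Complex.I, by simp⟩
  have hpt : Function.Injective pt := by
    intro x y hxy
    have := congrArg (fun w : ℍ => (w : ℂ).re) hxy
    simpa [pt] using this
  have hcM : Countable (Matrix (Fin 2) (Fin 2) ℤ) :=
    inferInstanceAs (Countable (Fin 2 → Fin 2 → ℤ))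
  have hcSL : Countable SL(2, ℤ) := Function.Injective.countable Subtype.val_injective
  have hninj : ¬ Function.Injective (fun x : ℝ => Γf (pt x)) := by
    intro hinj
    have : Countable ℝ := hinj.countable
    exact not_countable this
  have hex2 : ∃ x₁ x₂ : ℝ, Γf (pt x₁) = Γf (pt x₂) ∧ x₁ ≠ x₂ := by
    by_contra hcon
    apply hninj
    intro x y hxy
    by_contra hne
    exact hcon ⟨x, y, hxy, hne⟩
  obtain ⟨x₁, x₂, hΓeq, hx⟩ := hex2
  have hz : pt x₁ ≠ pt x₂ := fun hh => hx (hpt hh)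
  have hq1 := dist_point_eq N (Γf (pt x₁)) g (pt x₁) (hΓf (pt x₁))
  have hq2 := dist_point_eq N (Γf (pt x₂)) g (pt x₂) (hΓf (pt x₂))
  rw [← hΓeq] at hq2
  obtain ⟨hA, hB, hC⟩ := dist_quad_zero hz hq1 hq2
  set γ := Γf (pt x₁) with hγ
  have hγdet : γ 0 0 * γ 1 1 - γ 0 1 * γ 1 0 = 1 := by
    have := γ.det_coe
    rw [Matrix.det_fin_two] at this
    exact this
  have hgdet : g 0 0 * g 1 1 - g 0 1 * g 1 0 = 1 := by
    have := g.det_coe
    rw [Matrix.det_fin_two] at this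
    exact this
  have hN0 : (N : ℤ) ≠ 0 := by exact_mod_cast NeZero.ne N
  have hdvd : (N : ℤ) ∣ g 1 0 :=
    dist_int_core (N := (N : ℤ)) (p := γ 0 0) (q := γ 0 1) (r := γ 1 0) (s := γ 1 1)
      (a := g 0 0) (b := g 0 1) (c := g 1 0) (d := g 1 1) hN0 hγdet hgdet hA hB hC
  rw [Gamma0_mem]
  exact (ZMod.intCast_zmod_eq_zero_iff_dvd _ _).mpr hdvd

/-- **AN-8.** The functions `z ↦ j(N (h⁻¹ • z))`, `h` running over coset representatives of
`SL(2,ℤ) ⧸ Γ₀(N)`, are pairwise distinct. -/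
theorem jN_comp_inv_injective (N : ℕ) [NeZero N] (h h' : SL(2, ℤ))
    (heq : ∀ z : ℍ, jFun ((N : ℂ) * ((h⁻¹ • z : ℍ) : ℂ)) = jFun ((N : ℂ) * ((h'⁻¹ • z : ℍ) : ℂ))) :
    h⁻¹ * h' ∈ Gamma0 N := by
  apply mem_Gamma0_of_jN_invariant
  intro z
  have := heq (h' • z)
  rw [← mul_smul, ← mul_smul, inv_mul_cancel, one_smul] at this
  exact this

/-- Coset form of AN-8. -/
theorem jN_coset_eq (N : ℕ) [NeZero N] (h h' : SL(2, ℤ))
    (heq : ∀ z : ℍ, jFun ((N : ℂ) * ((h⁻¹ • z : ℍ) : ℂ)) = jFun ((N : ℂ) * ((h'⁻¹ • z : ℍ) : ℂ))) :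
    (QuotientGroup.mk h : SL(2, ℤ) ⧸ Gamma0 N) = QuotientGroup.mk h' :=
  QuotientGroup.eq.mpr (jN_comp_inv_injective N h h' heq)

end Fermat.Agent.S24lib
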