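/-
S24 library, (J3): the `j`-invariant `j = E₄³/Δ : ℍ → ℂ` is surjective.

Statement in division-free form (same shape as `Fermat.Agent.S20lib.j_injective`):
for every `c : ℂ` there is `z : ℍ` with `E₄ z ^ 3 = c * Δ z`.

Proof: otherwise `G = Δ / (E₄³ - c Δ)` is holomorphic on `ℍ`, `SL(2,ℤ)`-invariant and tends to `0`
at `i∞`; by the maximum principle (`const_of_re_invariant` with `N = 1`) it is constant, hence
`0`, contradicting `Δ ≠ 0`.
-/
import Mathlib
import Fermat.Agent.S21_MaxPrinciple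

set_option autoImplicit false

open UpperHalfPlane ModularForm CongruenceSubgroup Filter Topology EisensteinSeries
open scoped MatrixGroups ModularForm Manifold

namespace Fermat.Agent.S24lib

lemma jsurj_tendsto_of_qExpansion {f : ℍ → ℂ} (hper : Function.Periodic (f ∘ ofComplex) 1)
    (hhol : MDiff f) (hbdd : IsBoundedAtImInfty f) :
    Tendsto f atImInfty (𝓝 ((qExpansion 1 f).coeff 0)) := by
  have han := analyticAt_cuspFunction_zero one_pos hper hhol hbdd
  have h0 : (qExpansion 1 f).coeff 0 = cuspFunction 1 f 0 := by simp [qExpansion_coeff]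
  rw [h0]
  have hcomp : (cuspFunction 1 f ∘ fun τ : ℍ ↦ Function.Periodic.qParam 1 τ) = f := by
    funext τ
    simpa using eq_cuspFunction τ one_ne_zero hper
  have ht := han.continuousAt.tendsto.comp (qParam_tendsto_atImInfty one_pos)
  rwa [hcomp] at ht

lemma jsurj_tendsto_E₄ : Tendsto (⇑E₄) atImInfty (𝓝 1) := by
  have hper : Function.Periodic (⇑E₄ ∘ ofComplex) 1 := by
    have := SlashInvariantFormClass.periodic_comp_ofComplex E₄ one_mem_strictPeriods_SL
    simpa using this
  have h := jsurj_tendsto_of_qExpansion hper (ModularFormClass.holo E₄)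
    (ModularFormClass.bdd_at_infty E₄)
  rwa [EisensteinSeries.E_qExpansion_coeff_zero (by norm_num) ⟨2, rfl⟩] at h

/-- Transformation of a level one modular form under `SL(2,ℤ)`. -/
lemma jsurj_smul_eq {k : ℤ} (f : ModularForm 𝒮ℒ k) (γ : SL(2, ℤ)) (z : ℍ) :
    f (γ • z) = (denom γ z) ^ k * f z := by
  have hmem : Matrix.SpecialLinearGroup.mapGL ℝ γ ∈ 𝒮ℒ := ⟨γ, rfl⟩
  exact SlashInvariantForm.slash_action_eqn'' f hmem z

lemma jsurj_smul_eq_cusp {k : ℤ} (f : CuspForm 𝒮ℒ k) (γ : SL(2, ℤ)) (z : ℍ) :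
    f (γ • z) = (denom γ z) ^ k * f z := by
  have hmem : Matrix.SpecialLinearGroup.mapGL ℝ γ ∈ 𝒮ℒ := ⟨γ, rfl⟩
  exact SlashInvariantForm.slash_action_eqn'' f hmem z

/-- (J3) The `j`-invariant is surjective. -/
theorem j_surjective (c : ℂ) : ∃ z : ℍ, E₄ z ^ 3 = c * discriminant z := by
  by_contra hne
  push Not at hne
  set F : ℍ → ℂ := fun z => E₄ z ^ 3 - c * discriminant z with hF
  have hF0 : ∀ z, F z ≠ 0 := fun z => sub_ne_zero.2 (hne z)
  set G : ℍ → ℂ := fun z => discriminant z / F z with hG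
  have hΔhol : MDiff (discriminant : ℍ → ℂ) := CuspForm.discriminant.holo'
  have hE4hol : MDiff (⇑E₄) := ModularFormClass.holo E₄
  have hFhol : MDiff F := by
    have h1 : MDiff (fun z => E₄ z ^ 3) := hE4hol.pow 3
    have h2 : MDiff (fun z => c * discriminant z) := (mdifferentiable_const (c := c)).mul hΔhol
    exact h1.sub h2
  have hGhol : MDiff G := hΔhol.div hFhol hF0
  have hinv : ∀ (γ : SL(2, ℤ)) (z : ℍ), G (γ • z) = G z := by
    intro γ z
    have h1 := jsurj_smul_eq E₄ γ z
    have h2 := jsurj_smul_eq_cusp CuspForm.discriminant γ z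
    rw [CuspForm.coe_discriminant] at h2
    have hd : denom γ z ≠ 0 := denom_ne_zero _ z
    have hd12 : (denom γ z) ^ (12 : ℤ) ≠ 0 := zpow_ne_zero _ hd
    simp only [hG, hF, h1, h2]
    have h3 : ((denom γ z) ^ (4 : ℤ) * E₄ z) ^ 3 = (denom γ z) ^ (12 : ℤ) * E₄ z ^ 3 := by
      rw [mul_pow, ← zpow_natCast ((denom γ z) ^ (4 : ℤ)) 3, ← zpow_mul]
      norm_num
    rw [h3, mul_left_comm c, ← mul_sub, mul_div_mul_left _ _ hd12]
  have hlim0 : Tendsto G atImInfty (𝓝 0) := by
    have hΔ0 : Tendsto (discriminant : ℍ → ℂ) atImInfty (𝓝 0) := discriminant_isZeroAtImInfty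
    have hFlim : Tendsto F atImInfty (𝓝 (1 ^ 3 - c * 0)) :=
      (jsurj_tendsto_E₄.pow 3).sub (hΔ0.const_mul c)
    have h0 : (0 : ℂ) / (1 ^ 3 - c * 0) = 0 := by norm_num
    have := hΔ0.div hFlim (by norm_num)
    rw [h0] at this
    exact this.congr fun z => rfl
  have hconst := Fermat.Agent.S21lib.const_of_re_invariant 1 hGhol
    (fun γ _ z => by rw [hinv]) (fun δ => ⟨0, by simpa only [hinv] using hlim0⟩)
  have hG0 : G I = 0 := by
    have h1 : Tendsto G atImInfty (𝓝 (G I)) := by
      have : G = fun _ => G I := funext fun z => hconst z I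
      rw [this]
      exact tendsto_const_nhds
    exact tendsto_nhds_unique h1 hlim0
  have : discriminant I = 0 := by
    have := hG0
    simp only [hG, div_eq_zero_iff] at this
    rcases this with h | h
    · exact h
    · exact absurd h (hF0 I)
  exact discriminant_ne_zero I this

end Fermat.Agent.S24lib
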