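/-
S24 library — piece AN-5, part 4 (helper9): identification of a `q_N`-expansion from a convergent
series, at the level of Mathlib's `qExpansion` (independent of the definition of `expInf`).

Main results (namespace `Fermat.Agent.S24lib`):
* `periodic_comp_ofComplex_of_vadd_nat` : `f (N +ᵥ z) = f z` ⇒ `Periodic (f ∘ ofComplex) N`.
* `qExpansion_qParam_pow` : the `q_N`-expansion of `z ↦ q_N(z)^m` is `X^m`.
* `qExpansion_mul_eq_of_hasSum` : if `∑ c_n q_N^n = q_N^m f` on `ℍ` then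
  `X^m * qExpansion N (f * D) = mk c * qExpansion N D`.
No sorry in this file.
-/
import Mathlib

set_option autoImplicit false

open UpperHalfPlane ModularForm Filter Function
open scoped MatrixGroups ModularForm Manifold Topology

namespace Fermat.Agent.S24lib

/-- periodicity of `f ∘ ofComplex` from a pointwise statement on `ℍ`. -/
theorem periodic_comp_ofComplex_of_forall {f : ℍ → ℂ} {h : ℝ}
    (hper : ∀ (w : ℂ) (hw : 0 < w.im) (hw' : 0 < (w + (h : ℂ)).im),
      f ⟨w + (h : ℂ), hw'⟩ = f ⟨w, hw⟩) :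
    Function.Periodic (f ∘ UpperHalfPlane.ofComplex) (h : ℂ) := by
  intro w
  simp only [Function.comp_apply]
  by_cases hw : 0 < w.im
  · have hw' : 0 < (w + (h : ℂ)).im := by simpa using hw
    rw [UpperHalfPlane.ofComplex_apply_of_im_pos hw, UpperHalfPlane.ofComplex_apply_of_im_pos hw']
    exact hper w hw hw'
  · have hw0 : w.im ≤ 0 := not_lt.mp hw
    have hw' : (w + (h : ℂ)).im ≤ 0 := by simpa using hw0
    rw [UpperHalfPlane.ofComplex_apply_of_im_nonpos hw0,
      UpperHalfPlane.ofComplex_apply_of_im_nonpos hw']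

/-- `z ↦ q_N(z)^m` as a function on `ℍ`. -/
noncomputable def qPowH (N : ℕ) (m : ℕ) : ℍ → ℂ :=
  fun z => Function.Periodic.qParam (N : ℝ) (z : ℂ) ^ m

lemma qPowH_mdiff (N m : ℕ) : MDiff (qPowH N m) := by
  rw [UpperHalfPlane.mdifferentiable_iff]
  have h1 : DifferentiableOn ℂ (fun w : ℂ => Function.Periodic.qParam (N : ℝ) w ^ m)
      {w : ℂ | 0 < w.im} := by
    unfold Function.Periodic.qParam
    fun_prop
  refine h1.congr fun w hw => ?_
  simp only [Function.comp_apply, qPowH]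
  rw [ofComplex_apply_of_im_pos hw]

lemma qParam_add_natPeriod (N : ℕ) (hN : 0 < N) (w : ℂ) :
    Function.Periodic.qParam (N : ℝ) (w + ((N : ℝ) : ℂ)) = Function.Periodic.qParam (N : ℝ) w := by
  have hNC : ((N : ℝ) : ℂ) ≠ 0 := by
    simp only [Complex.ofReal_natCast]
    exact_mod_cast hN.ne'
  unfold Function.Periodic.qParam
  have e : 2 * (Real.pi : ℂ) * Complex.I * (w + ((N : ℝ) : ℂ)) / ((N : ℝ) : ℂ) =
      2 * (Real.pi : ℂ) * Complex.I * w / ((N : ℝ) : ℂ) + 2 * (Real.pi : ℂ) * Complex.I := by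
    field_simp
  rw [e, Complex.exp_add, Complex.exp_two_pi_mul_I, mul_one]

lemma qPowH_periodic (N m : ℕ) (hN : 0 < N) :
    Function.Periodic (qPowH N m ∘ UpperHalfPlane.ofComplex) ((N : ℝ) : ℂ) := by
  apply periodic_comp_ofComplex_of_forall
  intro w hw hw'
  simp only [qPowH]
  congr 1
  exact qParam_add_natPeriod N hN w

lemma qPowH_hasSum (N m : ℕ) (z : ℍ) :
    HasSum (fun n : ℕ => (if n = m then (1 : ℂ) else 0) • Function.Periodic.qParam (N : ℝ) (z : ℂ) ^ n)
      (qPowH N m z) := by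
  unfold qPowH
  have h := hasSum_ite_eq m (Function.Periodic.qParam (N : ℝ) (z : ℂ) ^ m)
  have e : (fun n : ℕ => (if n = m then (1 : ℂ) else 0) •
      Function.Periodic.qParam (N : ℝ) (z : ℂ) ^ n) =
      fun n : ℕ => if n = m then Function.Periodic.qParam (N : ℝ) (z : ℂ) ^ m else 0 := by
    funext n
    by_cases hn : n = m
    · simp [hn]
    · simp [hn]
  rw [e]
  exact h

lemma qPowH_bdd (N m : ℕ) (hN : 0 < N) : IsBoundedAtImInfty (qPowH N m) := by
  have hN' : (0 : ℝ) < (N : ℝ) := Nat.cast_pos.mpr hN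
  exact isBoundedAtImInfty_of_hasSum_qExpansion (h := (N : ℝ)) (f := qPowH N m)
    (c := fun n : ℕ => if n = m then (1 : ℂ) else 0) hN' (qPowH_hasSum N m)

lemma qPowH_analytic (N m : ℕ) (hN : 0 < N) :
    AnalyticAt ℂ (cuspFunction (N : ℝ) (qPowH N m)) 0 := by
  have hN' : (0 : ℝ) < (N : ℝ) := Nat.cast_pos.mpr hN
  exact analyticAt_cuspFunction_zero (h := (N : ℝ)) (f := qPowH N m) hN'
    (qPowH_periodic N m hN) (qPowH_mdiff N m) (qPowH_bdd N m hN)

/-- uniqueness of `q`-expansion coefficients, for plain functions `ℍ → ℂ`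
(Mathlib's `UpperHalfPlane.qExpansion_coeff_unique` is stated for `FunLike` types). -/
lemma qExpansion_coeff_unique_fun {h : ℝ} (f : ℍ → ℂ) {c : ℕ → ℂ} (hh : 0 < h)
    (hfanalytic : AnalyticAt ℂ (cuspFunction h f) 0)
    (hf : ∀ τ : ℍ, HasSum (fun m : ℕ ↦ c m * Function.Periodic.qParam h (τ : ℂ) ^ m) (f τ))
    (m : ℕ) : c m = (qExpansion h f).coeff m := by
  have hf' : ∀ τ : ℍ, HasSum (fun m : ℕ ↦ c m • Function.Periodic.qParam h (τ : ℂ) ^ m) (f τ) := by
    intro τ
    simpa [smul_eq_mul] using hf τ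
  have h1 := (hasFPowerSeriesOnBall_cuspFunction hh hfanalytic hf').hasFPowerSeriesAt
  have h2 : HasFPowerSeriesAt (cuspFunction h f)
      (FormalMultilinearSeries.ofScalars ℂ fun m ↦ (qExpansion h f).coeff m) 0 := by
    simpa [qExpansion_coeff, div_eq_mul_inv, mul_comm]
      using hfanalytic.hasFPowerSeriesAt
  have h3 := congr_arg (FormalMultilinearSeries.coeff · m) (h1.eq_formalMultilinearSeries h2)
  simpa [FormalMultilinearSeries.coeff_ofScalars] using h3

/-- The `q_N`-expansion of `q_N^m` is `X^m`. -/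
theorem qExpansion_qPowH (N m : ℕ) (hN : 0 < N) :
    qExpansion (N : ℝ) (qPowH N m) = (PowerSeries.X ^ m : PowerSeries ℂ) := by
  have hN' : (0 : ℝ) < (N : ℝ) := Nat.cast_pos.mpr hN
  ext n
  have h := qExpansion_coeff_unique_fun (h := (N : ℝ)) (qPowH N m)
    (c := fun n : ℕ => if n = m then (1 : ℂ) else 0) hN' (qPowH_analytic N m hN)
    (fun τ => by simpa [smul_eq_mul] using qPowH_hasSum N m τ) n
  rw [← h, PowerSeries.coeff_X_pow]

/-- **Key lemma.** If `∑ c_n q_N^n = q_N^m f` on `ℍ`, then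
`X^m * qExpansion N (f * D) = mk c * qExpansion N D`. -/
theorem qExpansion_mul_eq_of_hasSum {N : ℕ} (hN : 0 < N) {f D : ℍ → ℂ} (m : ℕ) (c : ℕ → ℂ)
    (hfhol : MDiff f)
    (hfper : Function.Periodic (f ∘ UpperHalfPlane.ofComplex) ((N : ℝ) : ℂ))
    (hD : AnalyticAt ℂ (cuspFunction (N : ℝ) D) 0)
    (hFD : AnalyticAt ℂ (cuspFunction (N : ℝ) (f * D)) 0)
    (h : ∀ z : ℍ, HasSum (fun n : ℕ => c n * Function.Periodic.qParam (N : ℝ) (z : ℂ) ^ n)
      (Function.Periodic.qParam (N : ℝ) (z : ℂ) ^ m * f z)) :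
    (PowerSeries.X ^ m : PowerSeries ℂ) * qExpansion (N : ℝ) (f * D) =
      (PowerSeries.mk c : PowerSeries ℂ) * qExpansion (N : ℝ) D := by
  have hN' : (0 : ℝ) < (N : ℝ) := Nat.cast_pos.mpr hN
  have hsum : ∀ z : ℍ, HasSum (fun n : ℕ => c n • Function.Periodic.qParam (N : ℝ) (z : ℂ) ^ n)
      ((qPowH N m * f) z) := fun z => by
    simpa [qPowH, smul_eq_mul] using h z
  have hper : Function.Periodic ((qPowH N m * f) ∘ UpperHalfPlane.ofComplex) ((N : ℝ) : ℂ) := by
    intro w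
    have h1 := qPowH_periodic N m hN w
    have h2 := hfper w
    simp only [Function.comp_apply, Pi.mul_apply] at h1 h2 ⊢
    rw [h1, h2]
  have hhol : MDiff (qPowH N m * f) := (qPowH_mdiff N m).mul hfhol
  have hbdd : IsBoundedAtImInfty (qPowH N m * f) :=
    isBoundedAtImInfty_of_hasSum_qExpansion (h := (N : ℝ)) (f := qPowH N m * f) (c := c) hN' hsum
  have han : AnalyticAt ℂ (cuspFunction (N : ℝ) (qPowH N m * f)) 0 :=
    analyticAt_cuspFunction_zero (h := (N : ℝ)) (f := qPowH N m * f) hN' hper hhol hbdd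
  have hq0 : qExpansion (N : ℝ) (qPowH N m * f) = (PowerSeries.mk c : PowerSeries ℂ) := by
    ext n
    have h := qExpansion_coeff_unique_fun (h := (N : ℝ)) (qPowH N m * f) (c := c) hN' han
      (fun τ => by simpa [smul_eq_mul] using hsum τ) n
    rw [← h, PowerSeries.coeff_mk]
  have e1 : qExpansion (N : ℝ) ((qPowH N m * f) * D) =
      (PowerSeries.mk c : PowerSeries ℂ) * qExpansion (N : ℝ) D := by
    rw [qExpansion_mul han hD, hq0]
  have e2 : qExpansion (N : ℝ) (qPowH N m * (f * D)) =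
      (PowerSeries.X ^ m : PowerSeries ℂ) * qExpansion (N : ℝ) (f * D) := by
    rw [qExpansion_mul (qPowH_analytic N m hN) hFD, qExpansion_qPowH N m hN]
  rw [← e2, ← e1, mul_assoc]

end Fermat.Agent.S24lib
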