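/-
S24 library, AN-1: the ring `WH N` of weakly holomorphic modular functions of level `Γ(N)`
(holomorphic on `ℍ`, `Γ(N)`-invariant, meromorphic at all cusps), with the action of `SL(2,ℤ)`.
(helper4)
-/
import Mathlib
import Fermat.Agent.S20_Basic
import Fermat.Agent.S20_Gen

set_option autoImplicit false

open scoped MatrixGroups ModularForm Manifold Topology
open UpperHalfPlane ModularForm CongruenceSubgroup Filter

namespace Fermat.Agent.S24lib

open Fermat.Agent.S20lib

/-- `f` is a weakly holomorphic modular function of level `Γ(N)`: holomorphic on `ℍ` and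
`f · Δ^k` is a modular form of weight `12 k` on `Γ(N)` for some `k`. -/
def IsWH (N : ℕ) (f : ℍ → ℂ) : Prop :=
  ∃ k : ℕ, IsMF (Gamma N) (12 * (k : ℤ)) (f * discriminant ^ k)

lemma wh_isMF_discriminant_pow (Γ : Subgroup SL(2, ℤ)) (k : ℕ) :
    IsMF Γ (12 * (k : ℤ)) (discriminant ^ k) := by
  induction k with
  | zero => simpa using isMF_const Γ 1
  | succ n ih =>
    have h := ih.mul (isCF_discriminant.isMF.of_top (Γ := Γ))
    have h2 : IsMF Γ (12 * (n : ℤ) + 12) (discriminant ^ (n + 1)) := by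
      simpa [pow_succ] using h
    exact h2.congr_weight (by push_cast; ring)

lemma IsWH.raise {N : ℕ} {f : ℍ → ℂ} {k : ℕ}
    (h : IsMF (Gamma N) (12 * (k : ℤ)) (f * discriminant ^ k)) (m : ℕ) :
    IsMF (Gamma N) (12 * ((k + m : ℕ) : ℤ)) (f * discriminant ^ (k + m)) := by
  have h' := h.mul (wh_isMF_discriminant_pow (Gamma N) m)
  have : f * discriminant ^ (k + m) = f * discriminant ^ k * discriminant ^ m := by
    rw [pow_add, mul_assoc]
  rw [this]; exact h'.congr_weight (by push_cast; ring)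

lemma IsWH.mdiff {N : ℕ} {f : ℍ → ℂ} (h : IsWH N f) : MDiff f := by
  obtain ⟨k, hk⟩ := h
  have h1 : MDiff (fun z => (f * discriminant ^ k) z / (discriminant z) ^ k) :=
    hk.holo.div (CuspForm.discriminant.holo'.pow k) (fun z => pow_ne_zero _ (discriminant_ne_zero z))
  have : f = fun z => (f * discriminant ^ k) z / (discriminant z) ^ k := by
    funext z
    simp [mul_div_assoc, div_self (pow_ne_zero k (discriminant_ne_zero z))]
  rw [this]; exact h1

lemma isWH_const (N : ℕ) (c : ℂ) : IsWH N (Function.const ℍ c) :=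
  ⟨0, by simpa using isMF_const (Gamma N) c⟩

lemma IsWH.add {N : ℕ} {f f' : ℍ → ℂ} (h : IsWH N f) (h' : IsWH N f') : IsWH N (f + f') := by
  obtain ⟨k, hk⟩ := h
  obtain ⟨k', hk'⟩ := h'
  refine ⟨k + k', ?_⟩
  have h1 := IsWH.raise hk k'
  have h2 := IsWH.raise hk' k
  rw [add_comm k' k] at h2
  rw [add_mul]
  exact h1.add h2

lemma IsWH.neg {N : ℕ} {f : ℍ → ℂ} (h : IsWH N f) : IsWH N (-f) := by
  obtain ⟨k, hk⟩ := h
  exact ⟨k, by rw [neg_mul]; exact hk.neg⟩

lemma IsWH.mul {N : ℕ} {f f' : ℍ → ℂ} (h : IsWH N f) (h' : IsWH N f') : IsWH N (f * f') := by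
  obtain ⟨k, hk⟩ := h
  obtain ⟨k', hk'⟩ := h'
  refine ⟨k + k', ?_⟩
  have h1 := hk.mul hk'
  have : f * f' * discriminant ^ (k + k') = f * discriminant ^ k * (f' * discriminant ^ k') := by
    rw [pow_add]; ring
  rw [this]; exact h1.congr_weight (by push_cast; ring)

/-- The ring of weakly holomorphic modular functions of level `Γ(N)`. -/
def WH (N : ℕ) : Subring (ℍ → ℂ) where
  carrier := {f | IsWH N f}
  mul_mem' := fun h h' => h.mul h'
  one_mem' := isWH_const N 1
  add_mem' := fun h h' => h.add h'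
  zero_mem' := isWH_const N 0
  neg_mem' := fun h => h.neg

lemma mem_WH {N : ℕ} {f : ℍ → ℂ} : f ∈ WH N ↔ IsWH N f := Iff.rfl

end Fermat.Agent.S24lib
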