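/-
S24 library, AN-1 part 2: `SL(2,ℤ)` acts on `WH N` by ring automorphisms, `WH N` is a domain,
`jWH N : WH N` is the `j`-function.  (helper4)
-/
import Mathlib
import Fermat.Agent.S24lib.WH

set_option autoImplicit false

open scoped MatrixGroups ModularForm Manifold Topology
open UpperHalfPlane ModularForm CongruenceSubgroup Filter

namespace Fermat.Agent.S24lib

open Fermat.Agent.S20lib

/-- Slashing by any `g ∈ SL(2,ℤ)` preserves modular forms on a normal subgroup. -/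
lemma wh_isMF_slash {Γ : Subgroup SL(2, ℤ)} [hΓ : Γ.Normal] {k : ℤ} {f : ℍ → ℂ}
    (h : IsMF Γ k f) (g : SL(2, ℤ)) : IsMF Γ k (f ∣[k] g) where
  holo := h.holo_slash g
  inv := fun γ hγ => by
    have h1 : g * γ * g⁻¹ ∈ Γ := hΓ.conj_mem γ hγ g
    have h2 : g * γ = (g * γ * g⁻¹) * g := by group
    rw [← SlashAction.slash_mul, h2, SlashAction.slash_mul, h.inv _ h1]
  bdd := fun g' => by
    rw [← SlashAction.slash_mul]
    exact h.bdd (g * g')

lemma wh_discriminant_pow_slash (k : ℕ) (g : SL(2, ℤ)) :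
    (discriminant ^ k) ∣[12 * (k : ℤ)] g = discriminant ^ k :=
  (wh_isMF_discriminant_pow ⊤ k).inv g trivial

lemma IsWH.slash {N : ℕ} {f : ℍ → ℂ} (h : IsWH N f) (g : SL(2, ℤ)) : IsWH N (f ∣[(0 : ℤ)] g) := by
  obtain ⟨k, hk⟩ := h
  refine ⟨k, ?_⟩
  haveI := Gamma_normal N
  have h1 := wh_isMF_slash hk g
  have h2 : (f * discriminant ^ k) ∣[12 * (k : ℤ)] g = f ∣[(0 : ℤ)] g * discriminant ^ k := by
    have := mul_slash_SL2 0 (12 * (k : ℤ)) g f (discriminant ^ k)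
    rw [zero_add] at this
    rw [this, wh_discriminant_pow_slash]
  rwa [h2] at h1

lemma wh_slash_zero_apply (f : ℍ → ℂ) (g : SL(2, ℤ)) (z : ℍ) : (f ∣[(0 : ℤ)] g) z = f (g • z) := by
  rw [SL_slash_apply]; simp

/-- Left action of `SL(2,ℤ)` on `WH N`: `(g • f)(z) = f (g⁻¹ • z)`. -/
noncomputable instance whSMul (N : ℕ) : SMul SL(2, ℤ) (WH N) where
  smul g f := ⟨(f : ℍ → ℂ) ∣[(0 : ℤ)] g⁻¹, IsWH.slash f.2 g⁻¹⟩

lemma wh_smul_coe {N : ℕ} (g : SL(2, ℤ)) (f : WH N) :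
    ((g • f : WH N) : ℍ → ℂ) = (f : ℍ → ℂ) ∣[(0 : ℤ)] g⁻¹ := rfl

lemma wh_smul_apply {N : ℕ} (g : SL(2, ℤ)) (f : WH N) (z : ℍ) :
    ((g • f : WH N) : ℍ → ℂ) z = (f : ℍ → ℂ) (g⁻¹ • z) := by
  rw [wh_smul_coe, wh_slash_zero_apply]

noncomputable instance whMulSemiringAction (N : ℕ) : MulSemiringAction SL(2, ℤ) (WH N) where
  one_smul f := by
    ext z; rw [wh_smul_apply]; simp
  mul_smul g h f := by
    ext z; simp only [wh_smul_apply, mul_inv_rev, mul_smul]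
  smul_zero g := by
    ext z; rw [wh_smul_apply]; rfl
  smul_add g f f' := by
    ext z
    simp only [wh_smul_apply, Subring.coe_add, Pi.add_apply]
  smul_one g := by
    ext z; rw [wh_smul_apply]; rfl
  smul_mul g f f' := by
    ext z
    simp only [wh_smul_apply, Subring.coe_mul, Pi.mul_apply]

/-- The `j`-function on `ℍ`. -/
noncomputable def jH : ℍ → ℂ := fun z => E₄ z ^ 3 / discriminant z

lemma jH_mul_discriminant : jH * discriminant = (⇑E₄) ^ 3 := by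
  funext z
  simp [jH, div_mul_cancel₀ _ (discriminant_ne_zero z)]

lemma isWH_jH (N : ℕ) : IsWH N jH := by
  refine ⟨1, ?_⟩
  have h : IsMF (Gamma N) 12 ((⇑E₄) ^ 3) := by
    have h4 : IsMF (Gamma N) 4 ⇑E₄ := isMF_E₄.of_top
    have := (h4.mul h4).mul h4
    have e : (⇑E₄ : ℍ → ℂ) ^ 3 = ⇑E₄ * ⇑E₄ * ⇑E₄ := by ring
    rw [e]; exact this.congr_weight (by norm_num)
  simpa [jH_mul_discriminant] using h

/-- `j` as an element of `WH N`. -/
noncomputable def jWH (N : ℕ) : WH N := ⟨jH, isWH_jH N⟩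

@[simp] lemma coe_jWH (N : ℕ) : ((jWH N : WH N) : ℍ → ℂ) = jH := rfl

lemma jH_smul (g : SL(2, ℤ)) (z : ℍ) : jH (g • z) = jH z := by
  have h4 := isMF_E₄.inv g trivial
  have h12 := isCF_discriminant.inv g trivial
  have e4 := congrFun h4 z
  have e12 := congrFun h12 z
  rw [SL_slash_apply] at e4 e12
  have hd : denom g z ≠ 0 := denom_ne_zero g z
  have e4' : E₄ (g • z) = E₄ z * denom g z ^ (4 : ℤ) := by
    rw [← e4, mul_assoc, ← zpow_add₀ hd]; simp
  have e12' : discriminant (g • z) = discriminant z * denom g z ^ (12 : ℤ) := by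
    rw [← e12, mul_assoc, ← zpow_add₀ hd]; simp
  unfold jH
  rw [e4', e12', mul_pow, ← zpow_natCast (denom g z ^ (4 : ℤ)) 3, ← zpow_mul]
  have : (4 : ℤ) * ((3 : ℕ) : ℤ) = 12 := by norm_num
  rw [this]
  field_simp [discriminant_ne_zero z, zpow_ne_zero 12 hd]

lemma smul_jWH (N : ℕ) (g : SL(2, ℤ)) : g • jWH N = jWH N := by
  ext z
  rw [wh_smul_apply, coe_jWH, jH_smul]

end Fermat.Agent.S24lib
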