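/-
S24 library — piece AN-5, part 5 (helper9): the Laurent series `L` with
`L * ofPS(qExpansion N Δ)^k = ofPS(qExpansion N (f Δ^k))` (this is `expInf N f`) is determined by
any convergent `q_N`-expansion of `f`.

Main results (namespace `Fermat.Agent.S24lib`):
* `natCast_mem_strictPeriods_Gamma`, `isMF_analyticAt_cusp`, `isMF_periodic_comp`.
* `qExpansion_discriminant_pow` : `qExpansion N (Δ^k) = (qExpansion N Δ)^k`.
* `qExpansion_discriminant_ne_zero`.
* `laurent_eq_of_hasSum` : `L = single (-m) 1 * ofPS (mk c)`.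
* `laurent_coeff_mem_of_hasSum` : all coefficients of `L` lie in a set `S ∋ 0` containing the `c n`.
No sorry in this file.
-/
import Mathlib
import Fermat.Agent.S24lib.WHAct
import Fermat.Agent.S24lib.ExpHasSum

set_option autoImplicit false

open UpperHalfPlane ModularForm CongruenceSubgroup Filter
open scoped MatrixGroups ModularForm Manifold Topology

namespace Fermat.Agent.S24lib

open Fermat.Agent.S20lib

lemma natCast_mem_strictPeriods_Gamma (N : ℕ) :
    (N : ℝ) ∈ ((Gamma N : Subgroup SL(2, ℤ)) : Subgroup (GL (Fin 2) ℝ)).strictPeriods := by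
  rw [strictPeriods_Gamma, AddSubgroup.mem_zmultiples_iff]
  exact ⟨1, by simp⟩

lemma isMF_analyticAt_cusp {N : ℕ} [NeZero N] {k : ℤ} {F : ℍ → ℂ} (h : IsMF (Gamma N) k F) :
    AnalyticAt ℂ (cuspFunction (N : ℝ) F) 0 := by
  have hN : (0 : ℝ) < (N : ℝ) := Nat.cast_pos.mpr (Nat.pos_of_ne_zero (NeZero.ne N))
  exact ModularFormClass.analyticAt_cuspFunction_zero h.toModularForm hN
    (natCast_mem_strictPeriods_Gamma N)

lemma isMF_periodic_comp {N : ℕ} [NeZero N] {k : ℤ} {F : ℍ → ℂ} (h : IsMF (Gamma N) k F) :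
    Function.Periodic (F ∘ UpperHalfPlane.ofComplex) ((N : ℝ) : ℂ) :=
  SlashInvariantFormClass.periodic_comp_ofComplex h.toModularForm
    (natCast_mem_strictPeriods_Gamma N)

/-- `f` is `N`-periodic if `f Δ^k` is a modular form on `Γ(N)`. -/
lemma periodic_of_isMF_mul_discriminant {N : ℕ} [NeZero N] {f : ℍ → ℂ} {k : ℕ}
    (hk : IsMF (Gamma N) (12 * (k : ℤ)) (f * discriminant ^ k)) :
    Function.Periodic (f ∘ UpperHalfPlane.ofComplex) ((N : ℝ) : ℂ) := by
  have h1 := isMF_periodic_comp hk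
  have h2 := isMF_periodic_comp (wh_isMF_discriminant_pow (Gamma N) k)
  apply periodic_comp_ofComplex_of_forall
  intro w hw hw'
  have e1 := h1 w
  have e2 := h2 w
  simp only [Function.comp_apply] at e1 e2
  rw [UpperHalfPlane.ofComplex_apply_of_im_pos hw, UpperHalfPlane.ofComplex_apply_of_im_pos hw']
    at e1 e2
  simp only [Pi.mul_apply, Pi.pow_apply] at e1 e2
  rw [e2] at e1
  exact mul_right_cancel₀ (pow_ne_zero k (discriminant_ne_zero _)) e1

lemma qExpansion_discriminant_pow (N : ℕ) [NeZero N] (k : ℕ) :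
    qExpansion (N : ℝ) (discriminant ^ k) = (qExpansion (N : ℝ) discriminant) ^ k := by
  induction k with
  | zero =>
    rw [pow_zero, pow_zero]
    exact qExpansion_one _
  | succ n ih =>
    rw [pow_succ, pow_succ, ← ih]
    have h1 := isMF_analyticAt_cusp (wh_isMF_discriminant_pow (Gamma N) n)
    have h2 : AnalyticAt ℂ (cuspFunction (N : ℝ) discriminant) 0 := by
      have := isMF_analyticAt_cusp (wh_isMF_discriminant_pow (Gamma N) 1)
      simpa using this
    exact qExpansion_mul h1 h2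

lemma qExpansion_discriminant_ne_zero (N : ℕ) [NeZero N] :
    qExpansion (N : ℝ) discriminant ≠ 0 := by
  have hN : (0 : ℝ) < (N : ℝ) := Nat.cast_pos.mpr (Nat.pos_of_ne_zero (NeZero.ne N))
  have hD : IsMF (Gamma N) (12 * ((1 : ℕ) : ℤ)) (discriminant ^ 1) :=
    wh_isMF_discriminant_pow (Gamma N) 1
  rw [pow_one] at hD
  intro h0
  have hs := hasSum_qExpansion (h := (N : ℝ)) (f := discriminant) hN (isMF_periodic_comp hD)
    hD.holo (by simpa using hD.bdd 1) UpperHalfPlane.I
  rw [h0] at hs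
  simp only [map_zero, zero_smul] at hs
  exact discriminant_ne_zero _ (hs.unique hasSum_zero)

/-- **Identification of the expansion.** -/
theorem laurent_eq_of_hasSum {N : ℕ} [NeZero N] {f : ℍ → ℂ} {k : ℕ}
    (hk : IsMF (Gamma N) (12 * (k : ℤ)) (f * discriminant ^ k)) (hfhol : MDiff f)
    (m : ℕ) (c : ℕ → ℂ)
    (h : ∀ z : ℍ, HasSum (fun n : ℕ => c n * Function.Periodic.qParam (N : ℝ) (z : ℂ) ^ n)
      (Function.Periodic.qParam (N : ℝ) (z : ℂ) ^ m * f z))
    (L : LaurentSeries ℂ)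
    (hL : L * (HahnSeries.ofPowerSeries ℤ ℂ (qExpansion (N : ℝ) discriminant)) ^ k =
      HahnSeries.ofPowerSeries ℤ ℂ (qExpansion (N : ℝ) (f * discriminant ^ k))) :
    L = HahnSeries.single (-(m : ℤ)) (1 : ℂ) *
      HahnSeries.ofPowerSeries ℤ ℂ (PowerSeries.mk c) := by
  have hN : 0 < N := Nat.pos_of_ne_zero (NeZero.ne N)
  have key := qExpansion_mul_eq_of_hasSum (N := N) hN (f := f) (D := discriminant ^ k) m c hfhol
    (periodic_of_isMF_mul_discriminant hk)
    (isMF_analyticAt_cusp (wh_isMF_discriminant_pow (Gamma N) k))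
    (isMF_analyticAt_cusp hk) h
  rw [qExpansion_discriminant_pow] at key
  have key2 := congr_arg (HahnSeries.ofPowerSeries ℤ ℂ) key
  rw [map_mul, map_mul, map_pow, map_pow, ← hL] at key2
  have hD0 : (HahnSeries.ofPowerSeries ℤ ℂ (qExpansion (N : ℝ) discriminant)) ^ k ≠ 0 := by
    apply pow_ne_zero
    intro h0
    apply qExpansion_discriminant_ne_zero N
    exact HahnSeries.ofPowerSeries_injective (by rw [h0, map_zero])
  have hX : HahnSeries.ofPowerSeries ℤ ℂ (PowerSeries.X : PowerSeries ℂ) =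
      HahnSeries.single (1 : ℤ) (1 : ℂ) := HahnSeries.ofPowerSeries_X
  rw [hX] at key2
  have hXm : (HahnSeries.single (1 : ℤ) (1 : ℂ)) ^ m = HahnSeries.single (m : ℤ) (1 : ℂ) := by
    rw [HahnSeries.single_pow]
    simp
  rw [hXm] at key2
  have key3 : HahnSeries.single (m : ℤ) (1 : ℂ) * L =
      HahnSeries.ofPowerSeries ℤ ℂ (PowerSeries.mk c) := by
    apply mul_right_cancel₀ hD0
    rw [mul_assoc]
    exact key2
  rw [← key3, ← mul_assoc, HahnSeries.single_mul_single]
  simp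

/-- All coefficients of `L` lie in any set containing `0` and the `c n`. -/
theorem laurent_coeff_mem_of_hasSum {N : ℕ} [NeZero N] {f : ℍ → ℂ} {k : ℕ}
    (hk : IsMF (Gamma N) (12 * (k : ℤ)) (f * discriminant ^ k)) (hfhol : MDiff f)
    (m : ℕ) (c : ℕ → ℂ)
    (h : ∀ z : ℍ, HasSum (fun n : ℕ => c n * Function.Periodic.qParam (N : ℝ) (z : ℂ) ^ n)
      (Function.Periodic.qParam (N : ℝ) (z : ℂ) ^ m * f z))
    (L : LaurentSeries ℂ)
    (hL : L * (HahnSeries.ofPowerSeries ℤ ℂ (qExpansion (N : ℝ) discriminant)) ^ k =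
      HahnSeries.ofPowerSeries ℤ ℂ (qExpansion (N : ℝ) (f * discriminant ^ k)))
    (S : Set ℂ) (h0 : (0 : ℂ) ∈ S) (hc : ∀ n, c n ∈ S) (n : ℤ) : L.coeff n ∈ S := by
  rw [laurent_eq_of_hasSum hk hfhol m c h L hL, HahnSeries.coeff_single_mul, one_mul]
  by_cases hn : 0 ≤ n - -(m : ℤ)
  · obtain ⟨j, hj⟩ := Int.eq_ofNat_of_zero_le hn
    rw [hj, HahnSeries.ofPowerSeries_apply_coeff, PowerSeries.coeff_mk]
    exact hc j
  · have : (HahnSeries.ofPowerSeries ℤ ℂ (PowerSeries.mk c)).coeff (n - -(m : ℤ)) = 0 := by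
      rw [HahnSeries.ofPowerSeries_apply, HahnSeries.embDomain_of_notMem_range]
      rintro ⟨j, hj⟩
      apply hn
      rw [← hj]
      simp
    rw [this]
    exact h0

end Fermat.Agent.S24lib
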