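/-
S24 library, AN-3 (helper13): the Laurent expansion at `i∞` in the parameter
`q_N = exp (2 π i z / N)`, as an injective ring hom `expInf N : WH N →+* LaurentSeries ℂ`.
-/
import Mathlib
import Fermat.Agent.S24lib.WHAct
import Fermat.Prelude.Thm_UpperHalfPlane_qExpansion_coeff_nat_mul

set_option autoImplicit false
set_option linter.unusedSectionVars false

open scoped MatrixGroups ModularForm Manifold Topology
open UpperHalfPlane ModularForm CongruenceSubgroup Filter

namespace Fermat.Agent.S24lib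

open Fermat.Agent.S20lib

section basic

variable {N : ℕ} [NeZero N] {k : ℤ} {g : ℍ → ℂ}

lemma ei_N_pos : (0 : ℝ) < (N : ℝ) := by
  exact_mod_cast Nat.pos_of_ne_zero (NeZero.ne N)

lemma ei_mem_strictPeriods :
    (N : ℝ) ∈ (Gamma N : Subgroup (GL (Fin 2) ℝ)).strictPeriods := by
  rw [CongruenceSubgroup.strictPeriods_Gamma]
  exact AddSubgroup.mem_zmultiples _

/-- A modular form on `Γ(N)` is `N`-periodic. -/
lemma ei_periodic (hg : IsMF (Gamma N) k g) : Function.Periodic (g ∘ ofComplex) (N : ℝ) :=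
  SlashInvariantFormClass.periodic_comp_ofComplex hg.toModularForm ei_mem_strictPeriods

lemma ei_bdd (hg : IsMF (Gamma N) k g) : IsBoundedAtImInfty g := by
  have := hg.bdd 1
  rwa [SlashAction.slash_one] at this

lemma ei_analyticAt (hg : IsMF (Gamma N) k g) : AnalyticAt ℂ (cuspFunction (N : ℝ) g) 0 :=
  UpperHalfPlane.analyticAt_cuspFunction_zero ei_N_pos (ei_periodic hg) hg.holo (ei_bdd hg)

lemma ei_qExpansion_eq_zero_iff (hg : IsMF (Gamma N) k g) :
    qExpansion (N : ℝ) g = 0 ↔ g = 0 :=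
  qExpansion_eq_zero_iff ei_N_pos (ei_periodic hg) hg.holo (ei_bdd hg)

lemma ei_qExpansion_mul {k' : ℤ} {g' : ℍ → ℂ} (hg : IsMF (Gamma N) k g)
    (hg' : IsMF (Gamma N) k' g') :
    qExpansion (N : ℝ) (g * g') = qExpansion (N : ℝ) g * qExpansion (N : ℝ) g' :=
  qExpansion_mul (ei_analyticAt hg) (ei_analyticAt hg')

lemma ei_qExpansion_add {g' : ℍ → ℂ} (hg : IsMF (Gamma N) k g) (hg' : IsMF (Gamma N) k g') :
    qExpansion (N : ℝ) (g + g') = qExpansion (N : ℝ) g + qExpansion (N : ℝ) g' :=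
  qExpansion_add (ei_analyticAt hg) (ei_analyticAt hg')

lemma ei_qExpansion_discriminant_pow (m : ℕ) :
    qExpansion (N : ℝ) (discriminant ^ m) = qExpansion (N : ℝ) discriminant ^ m := by
  induction m with
  | zero =>
    rw [pow_zero, pow_zero]
    exact qExpansion_one _
  | succ n ih =>
    rw [pow_succ, pow_succ, ← ih]
    exact ei_qExpansion_mul (wh_isMF_discriminant_pow (Gamma N) n)
      (isCF_discriminant.isMF.of_top (Γ := Gamma N))

end basic

section defn

variable (N : ℕ) [NeZero N]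

/-- The `q_N`-expansion of `Δ` as a Laurent series. -/
noncomputable def deltaL : LaurentSeries ℂ :=
  HahnSeries.ofPowerSeries ℤ ℂ (qExpansion (N : ℝ) discriminant)

lemma deltaL_ne_zero : deltaL N ≠ 0 := by
  intro h
  have h1 : qExpansion (N : ℝ) discriminant = 0 := by
    apply HahnSeries.ofPowerSeries_injective (Γ := ℤ) (R := ℂ)
    rw [map_zero]
    exact h
  have h2 := (ei_qExpansion_eq_zero_iff (N := N)
    (isCF_discriminant.isMF.of_top (Γ := Gamma N))).1 h1
  have h3 := congrFun h2 UpperHalfPlane.I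
  exact discriminant_ne_zero _ h3

variable {N}

/-- The underlying function of `expInf`. -/
noncomputable def expInfFun (f : WH N) : LaurentSeries ℂ :=
  HahnSeries.ofPowerSeries ℤ ℂ
      (qExpansion (N : ℝ) ((f : ℍ → ℂ) * discriminant ^ (Classical.choose f.2))) *
    ((deltaL N)⁻¹) ^ (Classical.choose f.2)

/-- Characterisation of `expInfFun`. -/
lemma expInfFun_mul_pow (f : WH N) (k : ℕ)
    (hk : IsMF (Gamma N) (12 * (k : ℤ)) ((f : ℍ → ℂ) * discriminant ^ k)) :
    expInfFun f * deltaL N ^ k =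
      HahnSeries.ofPowerSeries ℤ ℂ (qExpansion (N : ℝ) ((f : ℍ → ℂ) * discriminant ^ k)) := by
  have hk₀ := Classical.choose_spec f.2
  set k₀ := Classical.choose f.2 with hk₀def
  have hD := deltaL_ne_zero N
  have e1 : qExpansion (N : ℝ) ((f : ℍ → ℂ) * discriminant ^ k₀) *
      qExpansion (N : ℝ) discriminant ^ k =
      qExpansion (N : ℝ) ((f : ℍ → ℂ) * discriminant ^ k) *
      qExpansion (N : ℝ) discriminant ^ k₀ := by
    rw [← ei_qExpansion_discriminant_pow, ← ei_qExpansion_discriminant_pow,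
      ← ei_qExpansion_mul hk₀ (wh_isMF_discriminant_pow (Gamma N) k),
      ← ei_qExpansion_mul hk (wh_isMF_discriminant_pow (Gamma N) k₀)]
    congr 1
    ring
  have e2 := congrArg (HahnSeries.ofPowerSeries ℤ ℂ) e1
  rw [map_mul, map_mul, map_pow, map_pow] at e2
  change HahnSeries.ofPowerSeries ℤ ℂ _ * (deltaL N)⁻¹ ^ k₀ * deltaL N ^ k = _
  have e3 : HahnSeries.ofPowerSeries ℤ ℂ
      (qExpansion (N : ℝ) ((f : ℍ → ℂ) * discriminant ^ k₀)) * (deltaL N)⁻¹ ^ k₀ * deltaL N ^ k
      = (HahnSeries.ofPowerSeries ℤ ℂ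
      (qExpansion (N : ℝ) ((f : ℍ → ℂ) * discriminant ^ k₀)) * deltaL N ^ k) *
        (deltaL N)⁻¹ ^ k₀ := by ring
  rw [e3]
  change _ * (HahnSeries.ofPowerSeries ℤ ℂ (qExpansion (N : ℝ) discriminant)) ^ k * _ = _
  rw [e2, inv_pow]
  change _ * deltaL N ^ k₀ * _ = _
  rw [mul_assoc, mul_inv_cancel₀ (pow_ne_zero _ hD), mul_one]

lemma expInfFun_eq_of_mul_pow (f : WH N) (k : ℕ)
    (hk : IsMF (Gamma N) (12 * (k : ℤ)) ((f : ℍ → ℂ) * discriminant ^ k)) (x : LaurentSeries ℂ)
    (hx : x * deltaL N ^ k =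
      HahnSeries.ofPowerSeries ℤ ℂ (qExpansion (N : ℝ) ((f : ℍ → ℂ) * discriminant ^ k))) :
    expInfFun f = x := by
  have := expInfFun_mul_pow f k hk
  rw [← hx] at this
  exact mul_right_cancel₀ (pow_ne_zero _ (deltaL_ne_zero N)) this

lemma expInfFun_one : expInfFun (1 : WH N) = 1 := by
  have h0 : IsMF (Gamma N) (12 * ((0 : ℕ) : ℤ)) (((1 : WH N) : ℍ → ℂ) * discriminant ^ 0) := by
    simpa using isMF_const (Gamma N) 1
  refine expInfFun_eq_of_mul_pow 1 0 h0 1 ?_
  have e : (((1 : WH N) : ℍ → ℂ) * discriminant ^ 0) = (1 : ℍ → ℂ) := by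
    rw [pow_zero, mul_one]; rfl
  rw [e, qExpansion_one, map_one, pow_zero, mul_one]

lemma expInfFun_zero : expInfFun (0 : WH N) = 0 := by
  have h0 : IsMF (Gamma N) (12 * ((0 : ℕ) : ℤ)) (((0 : WH N) : ℍ → ℂ) * discriminant ^ 0) := by
    simpa using isMF_const (Gamma N) 0
  refine expInfFun_eq_of_mul_pow 0 0 h0 0 ?_
  have e : (((0 : WH N) : ℍ → ℂ) * discriminant ^ 0) = (0 : ℍ → ℂ) := by
    rw [pow_zero, mul_one]; rfl
  rw [e, qExpansion_zero, map_zero, zero_mul]

lemma expInfFun_mul (f f' : WH N) : expInfFun (f * f') = expInfFun f * expInfFun f' := by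
  obtain ⟨k, hk⟩ := f.2
  obtain ⟨k', hk'⟩ := f'.2
  have e : ((f * f' : WH N) : ℍ → ℂ) * discriminant ^ (k + k') =
      ((f : ℍ → ℂ) * discriminant ^ k) * ((f' : ℍ → ℂ) * discriminant ^ k') := by
    rw [pow_add, Subring.coe_mul]; ring
  have hkk : IsMF (Gamma N) (12 * ((k + k' : ℕ) : ℤ))
      (((f * f' : WH N) : ℍ → ℂ) * discriminant ^ (k + k')) := by
    rw [e]
    exact (hk.mul hk').congr_weight (by push_cast; ring)
  refine expInfFun_eq_of_mul_pow (f * f') (k + k') hkk _ ?_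
  rw [e, ei_qExpansion_mul hk hk', map_mul, ← expInfFun_mul_pow f k hk,
    ← expInfFun_mul_pow f' k' hk', pow_add]
  ring

lemma expInfFun_add (f f' : WH N) : expInfFun (f + f') = expInfFun f + expInfFun f' := by
  obtain ⟨k, hk⟩ := f.2
  obtain ⟨k', hk'⟩ := f'.2
  have h1 := IsWH.raise hk k'
  have h2 := IsWH.raise hk' k
  rw [add_comm k' k] at h2
  have e : ((f + f' : WH N) : ℍ → ℂ) * discriminant ^ (k + k') =
      ((f : ℍ → ℂ) * discriminant ^ (k + k')) + ((f' : ℍ → ℂ) * discriminant ^ (k + k')) := by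
    rw [Subring.coe_add, add_mul]
  have hkk : IsMF (Gamma N) (12 * ((k + k' : ℕ) : ℤ))
      (((f + f' : WH N) : ℍ → ℂ) * discriminant ^ (k + k')) := by
    rw [e]
    exact h1.add h2
  refine expInfFun_eq_of_mul_pow (f + f') (k + k') hkk _ ?_
  rw [e, ei_qExpansion_add h1 h2, map_add, ← expInfFun_mul_pow f (k + k') h1,
    ← expInfFun_mul_pow f' (k + k') h2, add_mul]

variable (N) in
/-- **AN-3.** The Laurent expansion at `i∞` in the parameter `q_N = exp (2πi z / N)`. -/
noncomputable def expInf : WH N →+* LaurentSeries ℂ where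
  toFun := expInfFun
  map_one' := expInfFun_one
  map_mul' := expInfFun_mul
  map_zero' := expInfFun_zero
  map_add' := expInfFun_add

lemma expInf_apply (f : WH N) : expInf N f = expInfFun f := rfl

/-- Characterisation of `expInf`: if `f Δ^k` is a modular form then
`expInf f * (q-expansion of Δ)^k = q-expansion of f Δ^k`. -/
theorem expInf_mul_pow (f : WH N) (k : ℕ)
    (hk : IsMF (Gamma N) (12 * (k : ℤ)) ((f : ℍ → ℂ) * discriminant ^ k)) :
    expInf N f * deltaL N ^ k =
      HahnSeries.ofPowerSeries ℤ ℂ (qExpansion (N : ℝ) ((f : ℍ → ℂ) * discriminant ^ k)) :=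
  expInfFun_mul_pow f k hk

/-- Expansion of a holomorphic-at-infinity element: if `f` itself is a modular form of weight `0`
(i.e. bounded at all cusps), `expInf f` is its `q_N`-expansion. -/
theorem expInf_eq_ofPowerSeries (f : WH N) (hf : IsMF (Gamma N) 0 (f : ℍ → ℂ)) :
    expInf N f = HahnSeries.ofPowerSeries ℤ ℂ (qExpansion (N : ℝ) (f : ℍ → ℂ)) := by
  have h0 : IsMF (Gamma N) (12 * ((0 : ℕ) : ℤ)) ((f : ℍ → ℂ) * discriminant ^ 0) := by
    simpa using hf
  have := expInf_mul_pow f 0 h0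
  simpa using this

variable (N) in
theorem expInf_injective : Function.Injective (expInf N) := by
  rw [injective_iff_map_eq_zero]
  intro f hf
  obtain ⟨k, hk⟩ := f.2
  have h1 := expInf_mul_pow f k hk
  rw [hf, zero_mul] at h1
  have h2 : qExpansion (N : ℝ) ((f : ℍ → ℂ) * discriminant ^ k) = 0 := by
    apply HahnSeries.ofPowerSeries_injective (Γ := ℤ) (R := ℂ)
    rw [map_zero]
    exact h1.symm
  have h3 := (ei_qExpansion_eq_zero_iff hk).1 h2
  ext z
  have h4 := congrFun h3 z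
  simp only [Pi.mul_apply, Pi.pow_apply, Pi.zero_apply, mul_eq_zero] at h4
  rcases h4 with h4 | h4
  · exact h4
  · exact absurd (eq_zero_of_pow_eq_zero h4) (discriminant_ne_zero z)

/-- `expInf` of a constant. -/
theorem expInf_const (c : ℂ) :
    expInf N ⟨Function.const ℍ c, isWH_const N c⟩ = HahnSeries.C c := by
  have h0 : IsMF (Gamma N) 0 (Function.const ℍ c) := isMF_const (Gamma N) c
  rw [expInf_eq_ofPowerSeries _ h0]
  have e : (Function.const ℍ c : ℍ → ℂ) = c • (1 : ℍ → ℂ) := by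
    funext z; simp
  change HahnSeries.ofPowerSeries ℤ ℂ (qExpansion (N : ℝ) (Function.const ℍ c)) = _
  have h1 : AnalyticAt ℂ (cuspFunction (N : ℝ) (1 : ℍ → ℂ)) 0 := by
    have := ei_analyticAt (N := N) (isMF_const (Gamma N) 1)
    exact this
  rw [e, qExpansion_smul h1, qExpansion_one]
  rw [show c • (1 : PowerSeries ℂ) = PowerSeries.C c by
    rw [PowerSeries.smul_eq_C_mul, mul_one]]
  exact HahnSeries.ofPowerSeries_C c

end defn

section twist

/-- Underlying function of `twistL`. -/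
noncomputable def twistFun (u : ℂˣ) (x : LaurentSeries ℂ) : LaurentSeries ℂ :=
  ⟨fun n => ((u ^ n : ℂˣ) : ℂ) * x.coeff n, x.isPWO_support.mono (fun n hn => by
    simp only [Function.mem_support, ne_eq] at hn
    intro h
    exact hn (by rw [h, mul_zero]))⟩

lemma twistFun_coeff (u : ℂˣ) (x : LaurentSeries ℂ) (n : ℤ) :
    (twistFun u x).coeff n = ((u ^ n : ℂˣ) : ℂ) * x.coeff n := rfl

lemma twistFun_mem_support (u : ℂˣ) (x : LaurentSeries ℂ) (n : ℤ) :
    n ∈ (twistFun u x).support ↔ n ∈ x.support := by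
  rw [HahnSeries.mem_support, HahnSeries.mem_support, twistFun_coeff]
  constructor
  · intro h h0
    exact h (by rw [h0, mul_zero])
  · intro h
    exact mul_ne_zero (Units.ne_zero _) h

/-- Twist of a Laurent series by a unit `u`: the coefficient of `X^n` is multiplied by `u^n`. -/
noncomputable def twistL (u : ℂˣ) : LaurentSeries ℂ →+* LaurentSeries ℂ where
  toFun := twistFun u
  map_one' := by
    ext n
    rw [twistFun_coeff, HahnSeries.coeff_one]
    by_cases hn : n = 0
    · subst hn; simp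
    · simp [hn]
  map_zero' := by
    ext n; simp [twistFun_coeff]
  map_add' x y := by
    ext n; simp [twistFun_coeff, mul_add]
  map_mul' x y := by
    ext n
    rw [twistFun_coeff, HahnSeries.coeff_mul, HahnSeries.coeff_mul, Finset.mul_sum]
    have hset : Finset.antidiagonal (twistFun u x).isPWO_support
        (twistFun u y).isPWO_support n =
        Finset.antidiagonal x.isPWO_support y.isPWO_support n := by
      ext ij
      rw [Finset.mem_antidiagonal, Finset.mem_antidiagonal, twistFun_mem_support,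
        twistFun_mem_support]
    rw [hset]
    refine Finset.sum_congr rfl fun ij hij => ?_
    have hsum : ij.1 + ij.2 = n := (Finset.mem_antidiagonal.1 hij).2.2
    rw [twistFun_coeff, twistFun_coeff, ← hsum, zpow_add, Units.val_mul]
    ring

@[simp] lemma twistL_coeff (u : ℂˣ) (x : LaurentSeries ℂ) (n : ℤ) :
    (twistL u x).coeff n = ((u ^ n : ℂˣ) : ℂ) * x.coeff n := rfl

lemma twistL_eq_zero_iff (u : ℂˣ) (x : LaurentSeries ℂ) : twistL u x = 0 ↔ x = 0 := by
  constructor
  · intro h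
    ext n
    have := congrArg (fun y => y.coeff n) h
    simp only [twistL_coeff, HahnSeries.coeff_zero, mul_eq_zero] at this
    rcases this with h1 | h1
    · exact absurd h1 (Units.ne_zero _)
    · simpa using h1
  · rintro rfl; exact map_zero _

lemma twistL_order (u : ℂˣ) (x : LaurentSeries ℂ) : (twistL u x).order = x.order := by
  by_cases hx : x = 0
  · subst hx; simp
  have hx' : twistL u x ≠ 0 := fun h => hx ((twistL_eq_zero_iff u x).1 h)
  apply le_antisymm
  · apply HahnSeries.order_le_of_coeff_ne_zero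
    rw [twistL_coeff]
    exact mul_ne_zero (Units.ne_zero _) (fun h => hx (HahnSeries.coeff_order_eq_zero.1 h))
  · apply HahnSeries.order_le_of_coeff_ne_zero
    have := fun h => hx' (HahnSeries.coeff_order_eq_zero.1 h)
    rw [twistL_coeff] at this
    exact fun h => this (by rw [h, mul_zero])

lemma ofPowerSeries_coeff_neg (P : PowerSeries ℂ) {n : ℤ} (hn : n < 0) :
    (HahnSeries.ofPowerSeries ℤ ℂ P).coeff n = 0 := by
  rw [HahnSeries.ofPowerSeries_apply]
  refine HahnSeries.embDomain_of_notMem_range ?_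
  rintro ⟨m, rfl⟩
  exact absurd hn (not_lt.mpr (Int.natCast_nonneg m))

lemma twistL_ofPowerSeries (u : ℂˣ) (P : PowerSeries ℂ) :
    twistL u (HahnSeries.ofPowerSeries ℤ ℂ P) =
      HahnSeries.ofPowerSeries ℤ ℂ (PowerSeries.rescale (u : ℂ) P) := by
  ext n
  rw [twistL_coeff]
  by_cases hn : 0 ≤ n
  · obtain ⟨m, rfl⟩ := Int.eq_ofNat_of_zero_le hn
    rw [HahnSeries.ofPowerSeries_apply_coeff, HahnSeries.ofPowerSeries_apply_coeff,
      PowerSeries.coeff_rescale, zpow_natCast, Units.val_pow_eq_pow_val]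
  · rw [not_le] at hn
    rw [ofPowerSeries_coeff_neg _ hn, ofPowerSeries_coeff_neg _ hn, mul_zero]

end twist

section Taction

variable (N : ℕ) [NeZero N]

/-- `exp (-2πi/N)` as a unit. -/
noncomputable def zetaInv : ℂˣ :=
  Units.mk0 (Complex.exp (-2 * Real.pi * Complex.I / N)) (Complex.exp_ne_zero _)

lemma zetaInv_val : ((zetaInv N : ℂˣ) : ℂ) = Complex.exp (-2 * Real.pi * Complex.I / N) := rfl

lemma zetaInv_zpow (n : ℤ) :
    (((zetaInv N) ^ n : ℂˣ) : ℂ) = Complex.exp (-2 * Real.pi * Complex.I * n / N) := by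
  rw [Units.val_zpow_eq_zpow_val, zetaInv_val, ← Complex.exp_int_mul]
  congr 1
  ring

variable {N}

lemma ei_T_inv_smul_coe (z : ℍ) : ((ModularGroup.T⁻¹ • z : ℍ) : ℂ) = (z : ℂ) - 1 := by
  have h := ModularGroup.coe_T_zpow_smul_eq (z := z) (n := -1)
  rw [zpow_neg_one] at h
  rw [h]
  push_cast
  ring

lemma ei_qParam_T_inv (z : ℍ) :
    Function.Periodic.qParam (N : ℝ) ((ModularGroup.T⁻¹ • z : ℍ) : ℂ) =
      (zetaInv N : ℂ) * Function.Periodic.qParam (N : ℝ) (z : ℂ) := by
  rw [ei_T_inv_smul_coe, zetaInv_val, Function.Periodic.qParam, Function.Periodic.qParam,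
    ← Complex.exp_add]
  congr 1
  push_cast
  ring

lemma ei_slash_T_inv_apply (k : ℤ) (g : ℍ → ℂ) (z : ℍ) :
    (g ∣[k] (ModularGroup.T⁻¹ : SL(2, ℤ))) z = g (ModularGroup.T⁻¹ • z) := by
  rw [SL_slash_apply]
  have h : denom ((ModularGroup.T⁻¹ : SL(2, ℤ)) : GL (Fin 2) ℝ) z = 1 := by
    rw [ModularGroup.denom_apply]
    simp
  rw [h]
  simp

lemma ei_qExpansion_coeff_unique {g : ℍ → ℂ} (hcont : Continuous g) {c : ℕ → ℂ} {h : ℝ}
    (hh : 0 < h) (hg : AnalyticAt ℂ (cuspFunction h g) 0)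
    (hs : ∀ τ : ℍ, HasSum (fun m ↦ c m • Function.Periodic.qParam h τ ^ m) (g τ)) (m : ℕ) :
    c m = (qExpansion h g).coeff m :=
  UpperHalfPlane.qExpansion_coeff_unique (ContinuousMap.mk g hcont) hh hg hs m

/-- The `q_N`-expansion of `g ∣ T⁻¹` is the rescaling of that of `g` by `exp(-2πi/N)`. -/
lemma ei_qExpansion_slash_T_inv {k : ℤ} {g : ℍ → ℂ} (hg : IsMF (Gamma N) k g) :
    qExpansion (N : ℝ) (g ∣[k] (ModularGroup.T⁻¹ : SL(2, ℤ))) =
      PowerSeries.rescale ((zetaInv N : ℂˣ) : ℂ) (qExpansion (N : ℝ) g) := by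
  have := Gamma_normal N
  have hg' : IsMF (Gamma N) k (g ∣[k] (ModularGroup.T⁻¹ : SL(2, ℤ))) := wh_isMF_slash hg _
  ext m
  rw [PowerSeries.coeff_rescale]
  symm
  refine ei_qExpansion_coeff_unique (h := (N : ℝ))
    (g := g ∣[k] (ModularGroup.T⁻¹ : SL(2, ℤ)))
    (c := fun m => ((zetaInv N : ℂˣ) : ℂ) ^ m * (qExpansion (N : ℝ) g).coeff m)
    hg'.holo.continuous ei_N_pos (ei_analyticAt hg') (fun τ => ?_) m
  have h1 := UpperHalfPlane.hasSum_qExpansion (h := (N : ℝ)) ei_N_pos (ei_periodic hg) hg.holo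
    (ei_bdd hg) (ModularGroup.T⁻¹ • τ)
  rw [ei_slash_T_inv_apply]
  convert h1 using 2 with m
  rw [ei_qParam_T_inv, mul_pow, smul_eq_mul, smul_eq_mul]
  ring

lemma deltaL_twist : twistL (zetaInv N) (deltaL N) = deltaL N := by
  rw [deltaL, twistL_ofPowerSeries,
    ← ei_qExpansion_slash_T_inv (isCF_discriminant.isMF.of_top (Γ := Gamma N))]
  congr 2
  exact (isCF_discriminant.isMF).inv _ trivial

/-- The action of `T` on `q_N`-expansions is the twist by `exp(-2πi/N)`. -/
theorem expInf_T_smul (f : WH N) :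
    expInf N (ModularGroup.T • f) = twistL (zetaInv N) (expInf N f) := by
  have := Gamma_normal N
  obtain ⟨k, hk⟩ := f.2
  have h2 : ((f : ℍ → ℂ) * discriminant ^ k) ∣[12 * (k : ℤ)] (ModularGroup.T⁻¹ : SL(2, ℤ)) =
      ((ModularGroup.T • f : WH N) : ℍ → ℂ) * discriminant ^ k := by
    have := mul_slash_SL2 0 (12 * (k : ℤ)) (ModularGroup.T⁻¹ : SL(2, ℤ)) (f : ℍ → ℂ)
      (discriminant ^ k)
    rw [zero_add] at this
    rw [this, wh_discriminant_pow_slash, wh_smul_coe]
  have hk' : IsMF (Gamma N) (12 * (k : ℤ))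
      (((ModularGroup.T • f : WH N) : ℍ → ℂ) * discriminant ^ k) := by
    rw [← h2]
    exact wh_isMF_slash hk _
  rw [expInf_apply]
  refine expInfFun_eq_of_mul_pow _ k hk' _ ?_
  rw [← h2, ei_qExpansion_slash_T_inv hk, ← twistL_ofPowerSeries, ← expInf_mul_pow f k hk,
    map_mul, map_pow, deltaL_twist]

variable (N) in
theorem coeff_expInf_T_smul (f : WH N) (n : ℤ) :
    (expInf N (ModularGroup.T • f)).coeff n =
      Complex.exp (-2 * Real.pi * Complex.I * n / N) * (expInf N f).coeff n := by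
  rw [expInf_T_smul, twistL_coeff, zetaInv_zpow]

theorem expInf_order_T_smul (f : WH N) :
    (expInf N (ModularGroup.T • f)).order = (expInf N f).order := by
  rw [expInf_T_smul, twistL_order]

lemma twistL_mul_apply (u v : ℂˣ) (x : LaurentSeries ℂ) :
    twistL (u * v) x = twistL u (twistL v x) := by
  ext n
  rw [twistL_coeff, twistL_coeff, twistL_coeff, mul_zpow, Units.val_mul, mul_assoc]

lemma twistL_one_apply (x : LaurentSeries ℂ) : twistL 1 x = x := by
  ext n
  rw [twistL_coeff, one_zpow, Units.val_one, one_mul]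

/-- The action of `T ^ h` on `q_N`-expansions. -/
theorem expInf_T_pow_smul (f : WH N) (h : ℕ) :
    expInf N ((ModularGroup.T ^ h : SL(2, ℤ)) • f) = twistL (zetaInv N ^ h) (expInf N f) := by
  induction h with
  | zero => rw [pow_zero, pow_zero, one_smul, twistL_one_apply]
  | succ h ih =>
    rw [pow_succ', pow_succ', mul_smul, expInf_T_smul, ih, twistL_mul_apply]

theorem coeff_expInf_T_pow_smul (f : WH N) (h : ℕ) (n : ℤ) :
    (expInf N ((ModularGroup.T ^ h : SL(2, ℤ)) • f)).coeff n =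
      Complex.exp (-2 * Real.pi * Complex.I * (h * n) / N) * (expInf N f).coeff n := by
  rw [expInf_T_pow_smul, twistL_coeff, ← zpow_natCast, ← zpow_mul, zetaInv_zpow]
  push_cast
  rfl

theorem expInf_order_T_pow_smul (f : WH N) (h : ℕ) :
    (expInf N ((ModularGroup.T ^ h : SL(2, ℤ)) • f)).order = (expInf N f).order := by
  rw [expInf_T_pow_smul, twistL_order]

/-- If `T ^ h` fixes `f`, then `N ∣ h * n` for every exponent `n` occurring in the `q_N`-expansion
of `f`. -/
theorem expInf_dvd_of_coeff_ne_zero (f : WH N) (h : ℕ)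
    (hf : (ModularGroup.T ^ h : SL(2, ℤ)) • f = f) (n : ℤ) (hn : (expInf N f).coeff n ≠ 0) :
    (N : ℤ) ∣ h * n := by
  have h1 := coeff_expInf_T_pow_smul f h n
  rw [hf] at h1
  have h2 : Complex.exp (-2 * Real.pi * Complex.I * (h * n) / N) = 1 := by
    have h3 : (Complex.exp (-2 * Real.pi * Complex.I * (h * n) / N) - 1) * (expInf N f).coeff n
        = 0 := by
      rw [sub_mul, one_mul, ← h1, sub_self]
    rcases mul_eq_zero.1 h3 with h4 | h4
    · exact sub_eq_zero.1 h4
    · exact absurd h4 hn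
  rw [Complex.exp_eq_one_iff] at h2
  obtain ⟨m, hm⟩ := h2
  have hN : (N : ℂ) ≠ 0 := Nat.cast_ne_zero.2 (NeZero.ne N)
  have hpi : (2 * Real.pi * Complex.I : ℂ) ≠ 0 := Complex.two_pi_I_ne_zero
  have h5 : ((h : ℂ) * (n : ℂ)) = -(m : ℂ) * (N : ℂ) := by
    have h6 : -2 * Real.pi * Complex.I * (h * n) = (m * (2 * Real.pi * Complex.I)) * N := by
      rw [← hm]
      field_simp
    have h7 : (2 * Real.pi * Complex.I) * ((h : ℂ) * n) =
        (2 * Real.pi * Complex.I) * (-(m : ℂ) * N) := by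
      linear_combination -h6
    exact mul_left_cancel₀ hpi h7
  have h8 : ((h : ℤ) * n) = -m * (N : ℤ) := by
    exact_mod_cast h5
  exact ⟨-m, by rw [h8]; ring⟩

/-- If `T ^ h` fixes `f`, then `N ∣ h * order`. -/
theorem expInf_dvd_order (f : WH N) (h : ℕ)
    (hf : (ModularGroup.T ^ h : SL(2, ℤ)) • f = f) :
    (N : ℤ) ∣ h * (expInf N f).order := by
  by_cases h0 : expInf N f = 0
  · rw [h0, HahnSeries.order_zero, mul_zero]
    exact dvd_zero _
  · exact expInf_dvd_of_coeff_ne_zero f h hf _ (fun hc => h0 (HahnSeries.coeff_order_eq_zero.1 hc))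

end Taction

end Fermat.Agent.S24lib
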