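/-
S24 library — piece AN-5, final part (helper9): every `SL(2,ℤ)`-conjugate of `j(d·)` (`d ∣ N`)
has `q_N`-expansion `expInf N (g • φ)` with coefficients in `ι(ℚ̄)`.

Main result (namespace `Fermat.Agent.S24lib`):
* `jd_conj_expInf_coeff_mem` : for `φ : WH N` with `φ z = jH (ofComplex (d z))`, `g ∈ SL(2,ℤ)`,
  `n : ℤ`: `(expInf N (g • φ)).coeff n ∈ Set.range ι`.
No sorry in this file.
-/
import Mathlib
import Fermat.Agent.S24lib.ExpInfDef
import Fermat.Agent.S24lib.ConjKRat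
import Fermat.Agent.S24lib.ExpCoeff

set_option autoImplicit false

open UpperHalfPlane ModularForm CongruenceSubgroup Filter
open scoped MatrixGroups ModularForm Manifold Topology

namespace Fermat.Agent.S24lib

open Fermat.Agent.S20lib

/-- **AN-5.** The `q_N`-expansion of every conjugate of `j(d·)` has coefficients in `ι(ℚ̄)`. -/
theorem jd_conj_expInf_coeff_mem {N d : ℕ} [NeZero N] (hd : d ∣ N)
    (ι : AlgebraicClosure ℚ →+* ℂ) (φ : WH N)
    (hφ : ∀ z : ℍ, (φ : ℍ → ℂ) z = jH (ofComplex ((d : ℂ) * (z : ℂ))))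
    (g : SL(2, ℤ)) (n : ℤ) : (expInf N (g • φ)).coeff n ∈ Set.range ι := by
  obtain ⟨k, hk⟩ := (g • φ).2
  obtain ⟨m, C, hC, hsum⟩ := exists_Kseries_jd_conj hd ι g⁻¹
  have hL := expInf_mul_pow (g • φ) k hk
  refine laurent_coeff_mem_of_hasSum hk (g • φ).2.mdiff m C (fun z => ?_) _ hL (Set.range ι)
    ⟨0, map_zero ι⟩ hC n
  rw [wh_smul_apply, hφ]
  exact hsum z

end Fermat.Agent.S24lib
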