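/-
S24 library — piece AN-5, part 1 (helper9): the conjugates `z ↦ j(d · (g • z))` of `j_d` under
`g ∈ SL(2,ℤ)` are of the form `z ↦ j((a z + b)/δ)` with `a δ = d` (Hermite normal form).

Main results (namespace `Fermat.Agent.S24lib`):
* `conj_hermite` : for `d ≥ 1`, `g ∈ SL(2,ℤ)`: `diag(d,1) · g = γ' · (a b; 0 δ)` with `γ' ∈ SL(2,ℤ)`,
  `a δ = d`, `0 ≤ b < δ`.
* `affH a δ b z : ℍ` — the point `(a z + b)/δ`.
* `nmulH_smul_eq` : `d · (g • z) = γ' • ((a z + b)/δ)` in `ℍ`.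
* `jH_nmulH_smul` : `j(d · (g • z)) = j((a z + b)/δ)`.
No sorry in this file.
-/
import Mathlib
import Fermat.Agent.S24lib.WHAct
import Fermat.Agent.S24lib.Dist

set_option autoImplicit false

open UpperHalfPlane ModularForm CongruenceSubgroup EisensteinSeries
open scoped MatrixGroups ModularForm Manifold

namespace Fermat.Agent.S24lib

/-- Integer Hermite normal form of `diag(d,1) · g`, entrywise. -/
theorem conj_hermite_int (d : ℤ) (hd : 0 < d) (g00 g01 g10 g11 : ℤ)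
    (hg : g00 * g11 - g01 * g10 = 1) :
    ∃ (p q r s a δ b : ℤ), p * s - q * r = 1 ∧ 0 < a ∧ 0 < δ ∧ a * δ = d ∧ 0 ≤ b ∧ b < δ ∧
      d * g00 = p * a ∧ d * g01 = p * b + q * δ ∧ g10 = r * a ∧ g11 = r * b + s * δ := by
  -- a = gcd (d g00, g10)
  obtain ⟨u, hu⟩ : ∃ u : ℤ, u = d * g00 := ⟨_, rfl⟩
  have hne : ¬ (u = 0 ∧ g10 = 0) := by
    rintro ⟨h1, h2⟩
    rw [hu] at h1
    have h3 : g00 = 0 := by
      rcases mul_eq_zero.mp h1 with h | h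
      · exact absurd h hd.ne'
      · exact h
    rw [h3, h2] at hg
    simp at hg
  obtain ⟨a, ha⟩ : ∃ a : ℤ, a = (Int.gcd u g10 : ℤ) := ⟨_, rfl⟩
  have ha_pos : 0 < a := by
    have h0 : Int.gcd u g10 ≠ 0 := by
      intro h0
      rw [Int.gcd_eq_zero_iff] at h0
      exact hne h0
    rw [ha]
    exact_mod_cast Nat.pos_of_ne_zero h0
  obtain ⟨u', hu'⟩ : a ∣ u := by rw [ha]; exact Int.gcd_dvd_left u g10
  obtain ⟨w', hw'⟩ : a ∣ g10 := by rw [ha]; exact Int.gcd_dvd_right u g10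
  -- Bezout: a = u x + w y
  have hbez : a = u * Int.gcdA u g10 + g10 * Int.gcdB u g10 := by
    rw [ha]; exact Int.gcd_eq_gcd_ab u g10
  obtain ⟨x, hx⟩ : ∃ x : ℤ, x = Int.gcdA u g10 := ⟨_, rfl⟩
  obtain ⟨y, hy⟩ : ∃ y : ℤ, y = Int.gcdB u g10 := ⟨_, rfl⟩
  rw [← hx, ← hy] at hbez
  have hxy : u' * x + w' * y = 1 := by
    have : a * (u' * x + w' * y) = a * 1 := by
      rw [mul_one]
      calc a * (u' * x + w' * y) = (a * u') * x + (a * w') * y := by ring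
        _ = u * x + g10 * y := by rw [← hu', ← hw']
        _ = a := hbez.symm
    exact mul_left_cancel₀ ha_pos.ne' this
  -- δ = d / a
  obtain ⟨δ, hδ⟩ : ∃ δ : ℤ, δ = u' * g11 - w' * (d * g01) := ⟨_, rfl⟩
  have haδ : a * δ = d := by
    have h1 : a * δ = (a * u') * g11 - (a * w') * (d * g01) := by rw [hδ]; ring
    rw [h1, ← hu', ← hw', hu]
    have h2 : d * g00 * g11 - g10 * (d * g01) = d * (g00 * g11 - g01 * g10) := by ring
    rw [h2, hg, mul_one]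
  have hδ_pos : 0 < δ := by
    by_contra hcon
    have hle : δ ≤ 0 := not_lt.mp hcon
    have : a * δ ≤ 0 := mul_nonpos_of_nonneg_of_nonpos ha_pos.le hle
    rw [haδ] at this
    exact absurd hd (not_lt.mpr this)
  -- b0 = x d g01 + y g11, reduce mod δ
  obtain ⟨b0, hb0⟩ : ∃ b0 : ℤ, b0 = x * (d * g01) + y * g11 := ⟨_, rfl⟩
  obtain ⟨b, hb⟩ : ∃ b : ℤ, b = b0 % δ := ⟨_, rfl⟩
  obtain ⟨k, hk⟩ : ∃ k : ℤ, k = b0 / δ := ⟨_, rfl⟩
  have hbk : b0 = b + δ * k := by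
    rw [hb, hk]; exact (Int.emod_add_mul_ediv b0 δ).symm
  have hb_nonneg : 0 ≤ b := by rw [hb]; exact Int.emod_nonneg _ hδ_pos.ne'
  have hb_lt : b < δ := by rw [hb]; exact Int.emod_lt_of_pos _ hδ_pos
  have hu2 : d * g00 = a * u' := by rw [← hu, hu']
  refine ⟨u', -y + u' * k, w', x + w' * k, a, δ, b, ?_, ha_pos, hδ_pos, haδ,
    hb_nonneg, hb_lt, ?_, ?_, ?_, ?_⟩
  · linear_combination hxy
  · linear_combination hu2
  · -- d g01 = u' b + (-y + u' k) δ = u' b0 - y δ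
    have h1 : u' * b + (-y + u' * k) * δ = u' * b0 - y * δ := by rw [hbk]; ring
    rw [h1, hb0, hδ]
    linear_combination (-(d * g01)) * hxy
  · linear_combination hw'
  · have h1 : w' * b + (x + w' * k) * δ = w' * b0 + x * δ := by rw [hbk]; ring
    rw [h1, hb0, hδ]
    linear_combination (-g11) * hxy

/-- The point `(a z + b)/δ` of `ℍ` (`a, δ > 0`). -/
noncomputable def affH (a δ : ℕ) (b : ℤ) (ha : 0 < a) (hδ : 0 < δ) (z : ℍ) : ℍ :=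
  ⟨((a : ℂ) * (z : ℂ) + (b : ℂ)) / (δ : ℂ), by
    have h1 : (((a : ℂ) * (z : ℂ) + (b : ℂ)) / (δ : ℂ)).im = (a : ℝ) * z.im / (δ : ℝ) := by
      rw [show ((δ : ℂ)) = (((δ : ℝ)) : ℂ) by simp, Complex.div_ofReal_im]
      simp
    rw [h1]
    have ha' : (0 : ℝ) < a := Nat.cast_pos.mpr ha
    have hδ' : (0 : ℝ) < δ := Nat.cast_pos.mpr hδ
    exact div_pos (mul_pos ha' z.im_pos) hδ'⟩

@[simp] lemma coe_affH (a δ : ℕ) (b : ℤ) (ha : 0 < a) (hδ : 0 < δ) (z : ℍ) :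
    ((affH a δ b ha hδ z : ℍ) : ℂ) = ((a : ℂ) * (z : ℂ) + (b : ℂ)) / (δ : ℂ) := rfl

/-- **Hermite normal form**: `diag(d,1) · g = γ' · (a b; 0 δ)` and consequently
`d · (g • z) = γ' • ((a z + b)/δ)` for all `z ∈ ℍ`. -/
theorem conj_hermite (d : ℕ) [NeZero d] (g : SL(2, ℤ)) :
    ∃ (γ' : SL(2, ℤ)) (a δ : ℕ) (b : ℤ) (ha : 0 < a) (hδ : 0 < δ),
      a * δ = d ∧ 0 ≤ b ∧ b < δ ∧
      ∀ z : ℍ, nmulH d (g • z) = γ' • affH a δ b ha hδ z := by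
  have hgdet : g 0 0 * g 1 1 - g 0 1 * g 1 0 = 1 := by
    have := g.det_coe
    rw [Matrix.det_fin_two] at this
    exact this
  have hd : (0 : ℤ) < d := by exact_mod_cast Nat.pos_of_ne_zero (NeZero.ne d)
  obtain ⟨p, q, r, s, a, δ, b, hdet, ha, hδ, haδ, hb0, hb1, e00, e01, e10, e11⟩ :=
    conj_hermite_int d hd (g 0 0) (g 0 1) (g 1 0) (g 1 1) hgdet
  lift a to ℕ using ha.le
  lift δ to ℕ using hδ.le
  have ha' : 0 < a := by exact_mod_cast ha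
  have hδ' : 0 < δ := by exact_mod_cast hδ
  let γ' : SL(2, ℤ) := ⟨!![p, q; r, s], by rw [Matrix.det_fin_two_of]; exact hdet⟩
  refine ⟨γ', a, δ, b, ha', hδ', by exact_mod_cast haδ, hb0, hb1, fun z => ?_⟩
  apply UpperHalfPlane.ext
  rw [coe_nmulH, UpperHalfPlane.coe_specialLinearGroup_apply,
    UpperHalfPlane.coe_specialLinearGroup_apply, coe_affH]
  simp only [algebraMap_int_eq, eq_intCast, Complex.ofReal_intCast]
  have hγ00 : γ' 0 0 = p := rfl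
  have hγ01 : γ' 0 1 = q := rfl
  have hγ10 : γ' 1 0 = r := rfl
  have hγ11 : γ' 1 1 = s := rfl
  rw [hγ00, hγ01, hγ10, hγ11]
  have hδC : (δ : ℂ) ≠ 0 := by exact_mod_cast hδ'.ne'
  have hden1 : ((g 1 0 : ℤ) : ℂ) * (z : ℂ) + ((g 1 1 : ℤ) : ℂ) ≠ 0 :=
    dist_lin_ne_zero (g 1 0) (g 1 1) (by
      by_contra hcon
      rw [not_or, not_not, not_not] at hcon
      rw [hcon.1, hcon.2] at hgdet
      simp at hgdet) z
  have hden2 : ((r : ℤ) : ℂ) * (((a : ℂ) * (z : ℂ) + (b : ℂ)) / (δ : ℂ)) + ((s : ℤ) : ℂ) ≠ 0 := by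
    have := dist_lin_ne_zero r s (by
      by_contra hcon
      rw [not_or, not_not, not_not] at hcon
      rw [hcon.1, hcon.2] at hdet
      simp at hdet) (affH a δ b ha' hδ' z)
    simpa using this
  have E00 : ((d : ℂ)) * ((g 0 0 : ℤ) : ℂ) = (p : ℂ) * (a : ℂ) := by exact_mod_cast e00
  have E01 : ((d : ℂ)) * ((g 0 1 : ℤ) : ℂ) = (p : ℂ) * (b : ℂ) + (q : ℂ) * (δ : ℂ) := by
    exact_mod_cast e01
  have E10 : ((g 1 0 : ℤ) : ℂ) = (r : ℂ) * (a : ℂ) := by exact_mod_cast e10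
  have E11 : ((g 1 1 : ℤ) : ℂ) = (r : ℂ) * (b : ℂ) + (s : ℂ) * (δ : ℂ) := by exact_mod_cast e11
  rw [mul_div_assoc', div_eq_div_iff hden1 hden2]
  field_simp
  rw [E10, E11]
  linear_combination ((r : ℂ) * ((a : ℂ) * (z : ℂ) + (b : ℂ)) + (s : ℂ) * (δ : ℂ)) *
    ((z : ℂ) * E00 + E01)

/-- **AN-5, function level.** `j(d · (g • z)) = j((a z + b)/δ)`. -/
theorem jH_nmulH_smul (d : ℕ) [NeZero d] (g : SL(2, ℤ)) :
    ∃ (a δ : ℕ) (b : ℤ) (ha : 0 < a) (hδ : 0 < δ),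
      a * δ = d ∧ 0 ≤ b ∧ b < δ ∧
      ∀ z : ℍ, jH (nmulH d (g • z)) = jH (affH a δ b ha hδ z) := by
  obtain ⟨γ', a, δ, b, ha, hδ, h1, h2, h3, h4⟩ := conj_hermite d g
  exact ⟨a, δ, b, ha, hδ, h1, h2, h3, fun z => by rw [h4 z, jH_smul]⟩

end Fermat.Agent.S24lib
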