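/-
S24 library, bridge (J1): the formal `q`-series of the Prelude versus the analytic `j`-function.

* `taylorPS f` : Taylor series at `0` of `f : ℂ → ℂ` as a `PowerSeries ℂ`, multiplicative on analytic
  functions, continuous for locally uniform convergence (`tendsto_taylorPS_coeff`);
* `qExpansion_E₄_eq_eisenstein4` : `qExpansion 1 E₄ = eisenstein4` (Prelude), coefficients cast to `ℂ`;
* `taylorPS_etaFun` : the Taylor series of `q ↦ ∏ (1 - q^(n+1))` is the formal product `etaProd`;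
* `taylorPS_jNumFun`, `hasSum_jNumFun`, `hasSum_jNum` : for `z ∈ ℍ`, `q = e^{2πiz}`,
  `∑ (jNum.coeff n) qⁿ = q · E₄(z)³ / Δ(z)`  (recall `jq = q⁻¹ · jNum`);
* `hasSum_jq` : the same with the coefficients of `jq`.
No sorry.
-/
import Mathlib
import Fermat.Prelude.Def_ModularCurve_X0

set_option autoImplicit false

open UpperHalfPlane ModularForm CongruenceSubgroup Filter Topology EisensteinSeries
open scoped MatrixGroups ModularForm Manifold

namespace Fermat.Agent.S24lib

/-- The `q`-expansion of `E₄` is the formal series `eisenstein4` of the Prelude. -/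
theorem qExpansion_E₄_eq_eisenstein4 :
    qExpansion 1 E₄ = ModularCurve.eisenstein4.map (Int.castRingHom ℂ) := by
  ext m
  rw [EisensteinSeries.E_qExpansion_coeff (by norm_num) ⟨2, rfl⟩ m, PowerSeries.coeff_map]
  simp only [ModularCurve.eisenstein4, PowerSeries.coeff_mk]
  by_cases hm : m = 0
  · simp [hm]
  · rw [if_neg hm, if_neg hm]
    have hb : bernoulli 4 = -1 / 30 := by
      rw [bernoulli_eq_bernoulli'_of_ne_one (by norm_num), bernoulli'_four]
    rw [hb]
    simp only [ArithmeticFunction.sigma_apply, eq_intCast]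
    push_cast
    ring

/-- The Taylor series at `0` of a function `ℂ → ℂ`, as a formal power series. -/
noncomputable def taylorPS (f : ℂ → ℂ) : PowerSeries ℂ :=
  .mk fun m ↦ (↑m.factorial)⁻¹ * iteratedDeriv m f 0

lemma taylorPS_coeff (f : ℂ → ℂ) (m : ℕ) :
    (taylorPS f).coeff m = (↑m.factorial)⁻¹ * iteratedDeriv m f 0 := by
  simp [taylorPS]

lemma taylorPS_mul {f g : ℂ → ℂ} (hf : AnalyticAt ℂ f 0) (hg : AnalyticAt ℂ g 0) :
    taylorPS (f * g) = taylorPS f * taylorPS g := by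
  ext
  simp only [taylorPS_coeff,
    iteratedDeriv_mul hf.contDiffAt hg.contDiffAt, Finset.mul_sum, PowerSeries.coeff_mul,
    Finset.Nat.sum_antidiagonal_eq_sum_range_succ_mk, Nat.succ_eq_add_one]
  refine Finset.sum_congr rfl fun i hi ↦ ?_
  rw [Nat.cast_choose _ (by grind)]
  field_simp [Nat.factorial_ne_zero]

lemma taylorPS_congr {f g : ℂ → ℂ} (h : f =ᶠ[𝓝 0] g) : taylorPS f = taylorPS g := by
  ext m
  rw [taylorPS_coeff, taylorPS_coeff, h.iteratedDeriv_eq]

lemma taylorPS_one : taylorPS (1 : ℂ → ℂ) = 1 := by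
  ext m
  have h2 : iteratedDeriv m (1 : ℂ → ℂ) 0 = if m = 0 then 1 else 0 := by
    simpa [ite_apply] using! iteratedDeriv_const
  simp +contextual [taylorPS_coeff, h2]

lemma taylorPS_sub {f g : ℂ → ℂ} (hf : AnalyticAt ℂ f 0) (hg : AnalyticAt ℂ g 0) :
    taylorPS (f - g) = taylorPS f - taylorPS g := by
  ext m
  simp [taylorPS_coeff, iteratedDeriv_sub hf.contDiffAt hg.contDiffAt, mul_sub]

lemma taylorPS_pow_id (n : ℕ) : taylorPS (fun q : ℂ ↦ q ^ n) = PowerSeries.X ^ n := by
  ext m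
  rw [taylorPS_coeff, PowerSeries.coeff_X_pow, iteratedDeriv_fun_pow_zero]
  by_cases h : m = n
  · subst h
    simp [Nat.factorial_ne_zero]
  · simp [h]

lemma taylorPS_one_sub_pow (n : ℕ) :
    taylorPS (fun q : ℂ ↦ 1 - q ^ (n + 1)) = 1 - PowerSeries.X ^ (n + 1) := by
  have h := taylorPS_sub (f := (1 : ℂ → ℂ)) (g := fun q : ℂ ↦ q ^ (n + 1))
    analyticAt_const (by fun_prop)
  rw [taylorPS_one, taylorPS_pow_id] at h
  exact h

lemma taylorPS_finset_prod (s : Finset ℕ) (f : ℕ → ℂ → ℂ) (hf : ∀ i ∈ s, AnalyticAt ℂ (f i) 0) :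
    taylorPS (fun q ↦ ∏ i ∈ s, f i q) = ∏ i ∈ s, taylorPS (f i) := by
  classical
  induction s using Finset.induction_on with
  | empty =>
    simp only [Finset.prod_empty]
    exact taylorPS_one
  | insert a s ha ih =>
    have h1 : (fun q ↦ ∏ i ∈ insert a s, f i q) = f a * (fun q ↦ ∏ i ∈ s, f i q) := by
      funext q
      simp [Finset.prod_insert ha]
    rw [h1, taylorPS_mul (hf a (Finset.mem_insert_self a s)), Finset.prod_insert ha,
      ih (fun i hi ↦ hf i (Finset.mem_insert_of_mem hi))]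
    exact Finset.analyticAt_fun_prod s fun i hi ↦ hf i (Finset.mem_insert_of_mem hi)

lemma hasSum_taylorPS {f : ℂ → ℂ} (hf : DifferentiableOn ℂ f (Metric.ball 0 1)) {q : ℂ}
    (hq : ‖q‖ < 1) : HasSum (fun m : ℕ ↦ (taylorPS f).coeff m * q ^ m) (f q) := by
  have h := Complex.hasSum_taylorSeries_on_ball hf (z := q) (by simpa using hq)
  have h2 : (fun m : ℕ ↦ (taylorPS f).coeff m * q ^ m) =
      fun n : ℕ ↦ ((n.factorial : ℂ))⁻¹ • (q - 0) ^ n • iteratedDeriv n f 0 := by
    funext m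
    rw [taylorPS_coeff, sub_zero, smul_eq_mul, smul_eq_mul]
    ring
  rw [h2]
  exact h


lemma tlu_iteratedDeriv {ι : Type*} {φ : Filter ι} {F : ι → ℂ → ℂ} {f : ℂ → ℂ}
    {U : Set ℂ} (hU : IsOpen U) (hf : TendstoLocallyUniformlyOn F f φ U)
    (hF : ∀ᶠ n in φ, DifferentiableOn ℂ (F n) U) (m : ℕ) :
    TendstoLocallyUniformlyOn (fun n ↦ iteratedDeriv m (F n)) (iteratedDeriv m f) φ U ∧
      ∀ᶠ n in φ, DifferentiableOn ℂ (iteratedDeriv m (F n)) U := by
  induction m with
  | zero =>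
    simp only [iteratedDeriv_zero]
    exact ⟨hf, hF⟩
  | succ m ih =>
    obtain ⟨h1, h2⟩ := ih
    refine ⟨?_, ?_⟩
    · have := h1.deriv h2 hU
      simp only [iteratedDeriv_succ]
      exact this
    · filter_upwards [h2] with n hn
      simp only [iteratedDeriv_succ]
      exact hn.deriv hU

/-- Coefficients of Taylor series converge under locally uniform convergence. -/
lemma tendsto_taylorPS_coeff {ι : Type*} {φ : Filter ι} {F : ι → ℂ → ℂ} {f : ℂ → ℂ}
    {U : Set ℂ} (hU : IsOpen U) (h0 : (0 : ℂ) ∈ U) (hf : TendstoLocallyUniformlyOn F f φ U)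
    (hF : ∀ᶠ n in φ, DifferentiableOn ℂ (F n) U) (m : ℕ) :
    Tendsto (fun n ↦ (taylorPS (F n)).coeff m) φ (𝓝 ((taylorPS f).coeff m)) := by
  simp only [taylorPS_coeff]
  exact ((tlu_iteratedDeriv hU hf hF m).1.tendsto_at h0).const_mul _

/-- The Euler function `q ↦ ∏ (1 - q^(n+1))`. -/
noncomputable def etaFun (q : ℂ) : ℂ := ∏' n : ℕ, (1 - q ^ (n + 1))

lemma differentiableOn_etaFun : DifferentiableOn ℂ etaFun (Metric.ball 0 1) :=
  ModularForm.differentiableOn_tprod_one_sub_pow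

open scoped PowerSeries.WithPiTopology in
/-- The Taylor series of the Euler function is the formal Euler product of the Prelude. -/
theorem taylorPS_etaFun : taylorPS etaFun = ModularCurve.etaProd.map (Int.castRingHom ℂ) := by
  ext m
  -- analytic side
  have hA : TendstoLocallyUniformlyOn (fun (s : Finset ℕ) (q : ℂ) ↦ ∏ i ∈ s, (1 - q ^ (i + 1)))
      etaFun atTop (Metric.ball 0 1) :=
    ModularForm.multipliableLocallyUniformlyOn_one_sub_pow.hasProdLocallyUniformlyOn
  have hA' := tendsto_taylorPS_coeff Metric.isOpen_ball (Metric.mem_ball_self one_pos) hA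
    (.of_forall fun s ↦ by
      simpa [Finset.prod_fn] using
        DifferentiableOn.finsetProd (𝕜 := ℂ) (u := s) (s := Metric.ball (0 : ℂ) 1)
          (f := fun i (q : ℂ) ↦ 1 - q ^ (i + 1)) (fun _ _ ↦ by fun_prop)) m
  -- the partial products
  have hP : ∀ s : Finset ℕ, (taylorPS (fun q : ℂ ↦ ∏ i ∈ s, (1 - q ^ (i + 1)))).coeff m =
      (((∏ i ∈ s, (1 - PowerSeries.X ^ (i + 1)) : PowerSeries ℤ).coeff m : ℤ) : ℂ) := by
    intro s
    rw [taylorPS_finset_prod s (fun i q ↦ 1 - q ^ (i + 1)) (fun i _ ↦ by fun_prop)]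
    simp only [taylorPS_one_sub_pow]
    have : (∏ i ∈ s, (1 - PowerSeries.X ^ (i + 1)) : PowerSeries ℂ) =
        (∏ i ∈ s, (1 - PowerSeries.X ^ (i + 1)) : PowerSeries ℤ).map (Int.castRingHom ℂ) := by
      simp [map_prod]
    rw [this, PowerSeries.coeff_map]
    simp
  simp only [hP] at hA'
  -- formal side
  have hF : Tendsto (fun s : Finset ℕ ↦ ∏ i ∈ s, ((1 : PowerSeries ℤ) - PowerSeries.X ^ (i + 1)))
      atTop (𝓝 ModularCurve.etaProd) :=
    (PowerSeries.WithPiTopology.multipliable_one_sub_X_pow ℤ).hasProd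
  have hF' : Tendsto (fun s : Finset ℕ ↦
      (((∏ i ∈ s, (1 - PowerSeries.X ^ (i + 1)) : PowerSeries ℤ).coeff m : ℤ) : ℂ))
      atTop (𝓝 ((ModularCurve.etaProd.coeff m : ℤ) : ℂ)) :=
    ((continuous_of_discreteTopology (f := fun n : ℤ ↦ (n : ℂ))).tendsto _).comp
      (((PowerSeries.WithPiTopology.continuous_coeff ℤ m).tendsto _).comp hF)
  rw [PowerSeries.coeff_map]
  simpa using tendsto_nhds_unique hA' hF'


lemma taylorPS_pow {f : ℂ → ℂ} (hf : AnalyticAt ℂ f 0) (n : ℕ) :
    taylorPS (f ^ n) = taylorPS f ^ n := by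
  induction n with
  | zero => simpa using taylorPS_one
  | succ n ih =>
    rw [pow_succ, pow_succ, taylorPS_mul (hf.pow n) hf, ih]

lemma etaFun_ne_zero {q : ℂ} (hq : ‖q‖ < 1) : etaFun q ≠ 0 := by
  have hs : Summable fun n : ℕ ↦ ‖-q ^ (n + 1)‖ := by
    simpa using (summable_nat_add_iff 1).mpr (summable_geometric_of_lt_one (norm_nonneg _) hq)
  have h := tprod_one_add_ne_zero_of_summable (f := fun n : ℕ ↦ -q ^ (n + 1)) (fun i ↦ ?_) hs
  · simpa [etaFun, sub_eq_add_neg] using h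
  · intro h0
    have h1 : q ^ (i + 1) = 1 := by
      have := eq_neg_of_add_eq_zero_left h0
      simpa using this.symm
    have h2 : ‖q‖ ^ (i + 1) = 1 := by rw [← norm_pow, h1, norm_one]
    have h3 : ‖q‖ ^ (i + 1) < 1 := pow_lt_one₀ (norm_nonneg _) hq (by omega)
    linarith

/-- The function `q ↦ E₄³ / ∏ (1 - qⁿ)²⁴ = q · j` on the unit disc. -/
noncomputable def jNumFun (q : ℂ) : ℂ := cuspFunction 1 E₄ q ^ 3 / etaFun q ^ 24

lemma jq_periodic_E₄ : Function.Periodic (⇑E₄ ∘ ofComplex) 1 := by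
  have := SlashInvariantFormClass.periodic_comp_ofComplex E₄ one_mem_strictPeriods_SL
  simpa using this

lemma jq_differentiableOn_cuspFunction_E₄ :
    DifferentiableOn ℂ (cuspFunction 1 E₄) (Metric.ball 0 1) :=
  differentiableOn_cuspFunction_ball one_pos jq_periodic_E₄ (ModularFormClass.holo E₄)
    (ModularFormClass.bdd_at_infty E₄)

lemma taylorPS_cuspFunction_E₄ :
    taylorPS (cuspFunction 1 E₄) = ModularCurve.eisenstein4.map (Int.castRingHom ℂ) := by
  rw [← qExpansion_E₄_eq_eisenstein4]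
  rfl

lemma differentiableOn_jNumFun : DifferentiableOn ℂ jNumFun (Metric.ball 0 1) := by
  unfold jNumFun
  refine DifferentiableOn.div (jq_differentiableOn_cuspFunction_E₄.pow 3)
    (differentiableOn_etaFun.pow 24) ?_
  intro q hq
  exact pow_ne_zero _ (etaFun_ne_zero (by simpa using hq))

/-- The Taylor series of `q · j = E₄³ / ∏ (1 - qⁿ)²⁴` is the formal series `jNum` of the
Prelude. -/
theorem taylorPS_jNumFun : taylorPS jNumFun = ModularCurve.jNum.map (Int.castRingHom ℂ) := by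
  have h0 : (0 : ℂ) ∈ Metric.ball (0 : ℂ) 1 := Metric.mem_ball_self one_pos
  have hnhds : Metric.ball (0 : ℂ) 1 ∈ 𝓝 (0 : ℂ) := Metric.isOpen_ball.mem_nhds h0
  have hW : AnalyticAt ℂ jNumFun 0 := differentiableOn_jNumFun.analyticAt hnhds
  have hE : AnalyticAt ℂ (cuspFunction 1 E₄) 0 :=
    jq_differentiableOn_cuspFunction_E₄.analyticAt hnhds
  have hη : AnalyticAt ℂ etaFun 0 := differentiableOn_etaFun.analyticAt hnhds
  have hmul : taylorPS (jNumFun * etaFun ^ 24) = taylorPS (cuspFunction 1 E₄ ^ 3) := by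
    apply taylorPS_congr
    filter_upwards [hnhds] with q hq
    have hne : etaFun q ^ 24 ≠ 0 := pow_ne_zero _ (etaFun_ne_zero (by simpa using hq))
    simp only [Pi.mul_apply, Pi.pow_apply, jNumFun]
    exact div_mul_cancel₀ _ hne
  rw [taylorPS_mul hW (hη.pow 24), taylorPS_pow hη, taylorPS_pow hE, taylorPS_etaFun,
    taylorPS_cuspFunction_E₄] at hmul
  set ι := Int.castRingHom ℂ
  have hU : (ModularCurve.jNum.map ι) * (ModularCurve.etaProd.map ι) ^ 24 =
      (ModularCurve.eisenstein4.map ι) ^ 3 := by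
    have h1 : ModularCurve.jNum * ModularCurve.etaProd ^ 24 = ModularCurve.eisenstein4 ^ 3 := by
      have h2 := ModularCurve.dedekindEtaUnit_mul_inv
      rw [ModularCurve.dedekindEtaUnit] at h2
      rw [ModularCurve.jNum, mul_assoc, mul_comm ModularCurve.dedekindEtaUnitInv, h2, mul_one]
    rw [← map_pow, ← map_pow, ← map_mul, h1]
  have hne : (ModularCurve.etaProd.map ι) ^ 24 ≠ 0 := by
    apply pow_ne_zero
    intro h
    have := congrArg (PowerSeries.constantCoeff (R := ℂ)) h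
    rw [← PowerSeries.coeff_zero_eq_constantCoeff, PowerSeries.coeff_map,
      PowerSeries.coeff_zero_eq_constantCoeff, ModularCurve.constantCoeff_etaProd] at this
    simp at this
  exact mul_right_cancel₀ hne (hmul.trans hU.symm)

/-- Disc version of the bridge: the formal series `jNum` converges on the unit disc to
`E₄³ / ∏ (1 - qⁿ)²⁴`. -/
theorem hasSum_jNumFun {q : ℂ} (hq : ‖q‖ < 1) :
    HasSum (fun n : ℕ ↦ ((ModularCurve.jNum.coeff n : ℤ) : ℂ) * q ^ n) (jNumFun q) := by
  have h := hasSum_taylorPS differentiableOn_jNumFun hq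
  rw [taylorPS_jNumFun] at h
  simpa [PowerSeries.coeff_map] using h

lemma jNumFun_qParam (z : ℍ) :
    jNumFun (Function.Periodic.qParam 1 z) = Function.Periodic.qParam 1 z * (E₄ z ^ 3 / discriminant z) := by
  have hq : ‖Function.Periodic.qParam 1 (z : ℂ)‖ < 1 := Function.Periodic.norm_qParam_lt_one one_pos z.im_pos
  have hq0 : Function.Periodic.qParam 1 (z : ℂ) ≠ 0 := Function.Periodic.qParam_ne_zero _
  have h1 : cuspFunction 1 E₄ (Function.Periodic.qParam 1 z) = E₄ z := by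
    simpa using eq_cuspFunction (f := ⇑E₄) z one_ne_zero jq_periodic_E₄
  have h2 : discriminant z = Function.Periodic.qParam 1 z * etaFun (Function.Periodic.qParam 1 z) ^ 24 := by
    rw [ModularForm.discriminant_eq_q_prod, etaFun,
      ← (ModularForm.multipliable_one_sub_pow hq).tprod_pow 24]
  have hne : etaFun (Function.Periodic.qParam 1 z) ≠ 0 := etaFun_ne_zero hq
  rw [jNumFun, h1, h2]
  have hne2 : etaFun (Function.Periodic.qParam 1 z) ^ 24 ≠ 0 := pow_ne_zero _ hne
  field_simp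

/-- **Bridge (J1).** For `z ∈ ℍ` and `q = e^{2πiz}`, the formal series `jNum` of the Prelude
(`jq = q⁻¹ · jNum`) converges at `q` to `q · j(z)`, where `j = E₄³/Δ`. -/
theorem hasSum_jNum (z : ℍ) :
    HasSum (fun n : ℕ ↦ ((ModularCurve.jNum.coeff n : ℤ) : ℂ) * Function.Periodic.qParam 1 z ^ n)
      (Function.Periodic.qParam 1 z * (E₄ z ^ 3 / discriminant z)) := by
  rw [← jNumFun_qParam]
  exact hasSum_jNumFun (Function.Periodic.norm_qParam_lt_one one_pos z.im_pos)

lemma jq_coeff_sub_one (n : ℕ) :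
    ModularCurve.jq.coeff ((n : ℤ) - 1) = ((ModularCurve.jNum.coeff n : ℤ) : ℚ) := by
  rw [ModularCurve.jq, HahnSeries.coeff_single_mul, one_mul,
    show (n : ℤ) - 1 - (-1) = (n : ℤ) by ring, HahnSeries.ofPowerSeries_apply_coeff,
    ModularCurve.jNumQ, PowerSeries.coeff_map]
  simp

/-- **Bridge (J1)**, with the coefficients of `jq`: `∑ₙ jq.coeff (n - 1) · qⁿ = q · j(z)`. -/
theorem hasSum_jq (z : ℍ) :
    HasSum (fun n : ℕ ↦ ((ModularCurve.jq.coeff ((n : ℤ) - 1) : ℚ) : ℂ) *
        Function.Periodic.qParam 1 z ^ n)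
      (Function.Periodic.qParam 1 z * (E₄ z ^ 3 / discriminant z)) := by
  have h := hasSum_jNum z
  simpa [jq_coeff_sub_one] using h

end Fermat.Agent.S24lib
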