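/-
S24 library — piece AN-5, part 2 (helper9): the `q_N`-expansion of the conjugates
`z ↦ j((a z + b)/δ)` of `j_d` (`a δ = d ∣ N`), with coefficients `c_m ζ_δ^{b m}` (`c_m ∈ ℚ` the
coefficients of `jq`), and the rationality of `ζ_δ = e^{2πi/δ}` over `ℚ̄`.

Main results (namespace `Fermat.Agent.S24lib`):
* `qParam_affH` : `e^{2πi w} = ζ_δ^b · (q_N)^{a N/δ}` for `w = (a z + b)/δ`, `q_N = e^{2πi z/N}`, `δ ∣ N`.
* `hasSum_jH_affH` : `∑ₙ c_{n-1} (ζ_δ^b)ⁿ (q_N^{a N/δ})ⁿ = ζ_δ^b q_N^{a N/δ} · j((a z + b)/δ)`.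
* `exists_root_of_unity_map` : for every ring hom `ι : ℚ̄ →+* ℂ` and `δ > 0` there is `ζ ∈ ℚ̄` with
  `ι ζ = e^{2πi/δ}`.
No sorry in this file.
-/
import Mathlib
import Fermat.Agent.S24lib.Conj
import Fermat.Agent.S24lib.JqAnalytic

set_option autoImplicit false

open UpperHalfPlane ModularForm CongruenceSubgroup EisensteinSeries
open scoped MatrixGroups ModularForm Manifold

namespace Fermat.Agent.S24lib

/-- `ζ_δ = e^{2πi/δ}`. -/
noncomputable def zetaC (δ : ℕ) : ℂ := Complex.exp (2 * Real.pi * Complex.I / δ)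

lemma zetaC_pow (δ : ℕ) (hδ : 0 < δ) : zetaC δ ^ δ = 1 := by
  have hδC : (δ : ℂ) ≠ 0 := by exact_mod_cast hδ.ne'
  rw [zetaC, ← Complex.exp_nat_mul, mul_div_cancel₀ _ hδC, Complex.exp_two_pi_mul_I]

/-- `e^{2πi w} = ζ_δ^b (q_N)^{a (N/δ)}` for `w = (a z + b)/δ`. -/
theorem qParam_affH (N a δ : ℕ) (b : ℤ) (ha : 0 < a) (hδ : 0 < δ) (hN : 0 < N) (hδN : δ ∣ N)
    (z : ℍ) :
    Function.Periodic.qParam 1 ((affH a δ b ha hδ z : ℍ) : ℂ) =
      zetaC δ ^ b * Function.Periodic.qParam N (z : ℂ) ^ (a * (N / δ)) := by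
  obtain ⟨m, rfl⟩ := hδN
  have hδC : (δ : ℂ) ≠ 0 := by exact_mod_cast hδ.ne'
  have hm : 0 < m := by
    rcases Nat.eq_zero_or_pos m with h | h
    · rw [h] at hN; simp at hN
    · exact h
  have hmC : (m : ℂ) ≠ 0 := by exact_mod_cast hm.ne'
  rw [Nat.mul_div_cancel_left _ hδ]
  simp only [Function.Periodic.qParam, coe_affH, zetaC]
  rw [← Complex.exp_int_mul, ← Complex.exp_nat_mul, ← Complex.exp_add]
  congr 1
  push_cast
  field_simp
  ring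

/-- The expansion of `j((a z + b)/δ)` in `q_N`. -/
theorem hasSum_jH_affH (N a δ : ℕ) (b : ℤ) (ha : 0 < a) (hδ : 0 < δ) (hN : 0 < N) (hδN : δ ∣ N)
    (z : ℍ) :
    HasSum (fun n : ℕ ↦ ((ModularCurve.jq.coeff ((n : ℤ) - 1) : ℚ) : ℂ) *
        (zetaC δ ^ b * Function.Periodic.qParam N (z : ℂ) ^ (a * (N / δ))) ^ n)
      ((zetaC δ ^ b * Function.Periodic.qParam N (z : ℂ) ^ (a * (N / δ))) *
        jH (affH a δ b ha hδ z)) := by
  have h := hasSum_jq (affH a δ b ha hδ z)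
  rw [qParam_affH N a δ b ha hδ hN hδN z] at h
  exact h

/-- Every ring hom `ι : ℚ̄ →+* ℂ` hits `e^{2πi/δ}`. -/
theorem exists_root_of_unity_map (ι : AlgebraicClosure ℚ →+* ℂ) (δ : ℕ) (hδ : 0 < δ) :
    ∃ ζ : AlgebraicClosure ℚ, ζ ^ δ = 1 ∧ ι ζ = zetaC δ := by
  have hsplit : ((Polynomial.X : Polynomial (AlgebraicClosure ℚ)) ^ δ - Polynomial.C 1).Splits :=
    IsAlgClosed.splits _
  have hne : ((Polynomial.X : Polynomial (AlgebraicClosure ℚ)) ^ δ - Polynomial.C 1) ≠ 0 :=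
    Polynomial.X_pow_sub_C_ne_zero hδ 1
  have hroot : (((Polynomial.X : Polynomial (AlgebraicClosure ℚ)) ^ δ - Polynomial.C 1).map
      ι).IsRoot (zetaC δ) := by
    simp [Polynomial.IsRoot, zetaC_pow δ hδ]
  obtain ⟨ζ, hζ⟩ := hsplit.mem_range_of_isRoot hne hroot
  refine ⟨ζ, ?_, hζ⟩
  apply ι.injective
  rw [map_pow, map_one, hζ, zetaC_pow δ hδ]

end Fermat.Agent.S24lib
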