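/-
S24 library — piece AN-5a (helper9): `z ↦ j(d z)` is a weakly holomorphic modular function of
level `Γ(N)` for `d ∣ N`, and it is `Γ₀(N)`-invariant.  Stated for the raw function
`fun z => jH (ofComplex (d * z))` (this is `jdH d` of `ExpInf.lean`).

Main results (namespace `Fermat.Agent.S24lib`):
* `jd_raw_eq` : `jH (ofComplex (d z)) = jH (nmulH d z)`.
* `jd_raw_smul_Gamma0` : `j(d (γ • z)) = j(d z)` for `γ ∈ Γ₀(N)`, `d ∣ N`.
* `isBounded_jH_affH_mul` : `z ↦ j((a z + b)/δ) Δ(z)^k` is bounded at `i∞` for `a ≤ k δ`.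
* `isWH_jd_raw` : `IsWH N (fun z => jH (ofComplex (d z)))` for `d ∣ N`.
No sorry in this file.
-/
import Mathlib
import Fermat.Agent.S24lib.Conj

set_option autoImplicit false

open UpperHalfPlane ModularForm CongruenceSubgroup EisensteinSeries Filter Asymptotics
open scoped MatrixGroups ModularForm Manifold Topology

namespace Fermat.Agent.S24lib

open Fermat.Agent.S20lib

lemma ofComplex_natCast_mul (d : ℕ) [NeZero d] (z : ℍ) :
    ofComplex ((d : ℂ) * (z : ℂ)) = nmulH d z := by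
  have h : ((d : ℂ) * (z : ℂ)) = ((nmulH d z : ℍ) : ℂ) := rfl
  rw [h, ofComplex_apply]

lemma jd_raw_eq (d : ℕ) [NeZero d] (z : ℍ) :
    jH (ofComplex ((d : ℂ) * (z : ℂ))) = jH (nmulH d z) := by
  rw [ofComplex_natCast_mul]

/-- `z ↦ j(d z)` is holomorphic. -/
lemma jd_raw_mdiff (d : ℕ) [NeZero d] : MDiff (fun z : ℍ => jH (ofComplex ((d : ℂ) * (z : ℂ)))) := by
  have hj : MDiff jH := (isWH_jH 1).mdiff
  rw [UpperHalfPlane.mdifferentiable_iff] at hj ⊢
  have hd : (0 : ℝ) < d := Nat.cast_pos.mpr (Nat.pos_of_ne_zero (NeZero.ne d))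
  have hmaps : Set.MapsTo (fun w : ℂ => (d : ℂ) * w) {w : ℂ | 0 < w.im} {w : ℂ | 0 < w.im} := by
    intro w hw
    simp only [Set.mem_ofPred_eq] at hw ⊢
    have : ((d : ℂ) * w).im = d * w.im := by simp
    rw [this]
    exact mul_pos hd hw
  have hcomp : DifferentiableOn ℂ ((jH ∘ ofComplex) ∘ fun w : ℂ => (d : ℂ) * w)
      {w : ℂ | 0 < w.im} :=
    hj.comp (by fun_prop) hmaps
  refine hcomp.congr fun w hw => ?_
  simp only [Function.comp_apply]
  rw [ofComplex_apply_of_im_pos hw]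

/-- `Γ₀(N)`-invariance of `j(d·)` for `d ∣ N`. -/
theorem jd_raw_smul_Gamma0 {N d : ℕ} [NeZero N] [NeZero d] (hd : d ∣ N) (γ : SL(2, ℤ))
    (hγ : γ ∈ Gamma0 N) (z : ℍ) : jH (nmulH d (γ • z)) = jH (nmulH d z) := by
  have hdet : γ 0 0 * γ 1 1 - γ 0 1 * γ 1 0 = 1 := by
    have := γ.det_coe
    rw [Matrix.det_fin_two] at this
    exact this
  rw [Gamma0_mem] at hγ
  have hN : (N : ℤ) ∣ γ 1 0 := (ZMod.intCast_zmod_eq_zero_iff_dvd _ _).mp hγ
  have hdN : (d : ℤ) ∣ γ 1 0 := (Int.natCast_dvd_natCast.mpr hd).trans hN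
  obtain ⟨c', hc'⟩ := hdN
  let γ' : SL(2, ℤ) := ⟨!![γ 0 0, d * γ 0 1; c', γ 1 1], by
    rw [Matrix.det_fin_two_of]
    rw [hc'] at hdet
    linear_combination hdet⟩
  have hkey : nmulH d (γ • z) = γ' • nmulH d z := by
    apply UpperHalfPlane.ext
    rw [coe_nmulH, UpperHalfPlane.coe_specialLinearGroup_apply,
      UpperHalfPlane.coe_specialLinearGroup_apply, coe_nmulH]
    simp only [algebraMap_int_eq, eq_intCast, Complex.ofReal_intCast]
    have hγ00 : γ' 0 0 = γ 0 0 := rfl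
    have hγ01 : γ' 0 1 = d * γ 0 1 := rfl
    have hγ10 : γ' 1 0 = c' := rfl
    have hγ11 : γ' 1 1 = γ 1 1 := rfl
    rw [hγ00, hγ01, hγ10, hγ11]
    have hden1 : ((γ 1 0 : ℤ) : ℂ) * (z : ℂ) + ((γ 1 1 : ℤ) : ℂ) ≠ 0 :=
      dist_lin_ne_zero (γ 1 0) (γ 1 1) (by
        by_contra hcon
        rw [not_or, not_not, not_not] at hcon
        rw [hcon.1, hcon.2] at hdet
        simp at hdet) z
    have hden2 : ((c' : ℤ) : ℂ) * ((d : ℂ) * (z : ℂ)) + ((γ 1 1 : ℤ) : ℂ) ≠ 0 := by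
      have e : ((c' : ℤ) : ℂ) * ((d : ℂ) * (z : ℂ)) = ((γ 1 0 : ℤ) : ℂ) * (z : ℂ) := by
        rw [hc']; push_cast; ring
      rw [e]; exact hden1
    have E : ((γ 1 0 : ℤ) : ℂ) = (d : ℂ) * (c' : ℂ) := by rw [hc']; push_cast; ring
    rw [mul_div_assoc', div_eq_div_iff hden1 hden2]
    push_cast
    rw [E]
    ring
  rw [hkey, jH_smul]

/-- `(a z + b)/δ → i∞` as `z → i∞`. -/
lemma tendsto_affH (a δ : ℕ) (b : ℤ) (ha : 0 < a) (hδ : 0 < δ) :
    Tendsto (affH a δ b ha hδ) atImInfty atImInfty := by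
  unfold atImInfty
  rw [tendsto_comap_iff]
  have him : (UpperHalfPlane.im ∘ affH a δ b ha hδ) = fun z : ℍ => ((a : ℝ) / (δ : ℝ)) * z.im := by
    funext z
    simp only [Function.comp_apply]
    have h1 : (affH a δ b ha hδ z).im = (((a : ℂ) * (z : ℂ) + (b : ℂ)) / (δ : ℂ)).im := rfl
    rw [h1, show ((δ : ℂ)) = (((δ : ℝ)) : ℂ) by simp, Complex.div_ofReal_im]
    simp
    ring
  rw [him]
  have hpos : (0 : ℝ) < (a : ℝ) / (δ : ℝ) :=
    div_pos (Nat.cast_pos.mpr ha) (Nat.cast_pos.mpr hδ)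
  exact (tendsto_comap.const_mul_atTop hpos)

lemma im_affH (a δ : ℕ) (b : ℤ) (ha : 0 < a) (hδ : 0 < δ) (z : ℍ) :
    (affH a δ b ha hδ z).im = ((a : ℝ) / (δ : ℝ)) * z.im := by
  have h1 : (affH a δ b ha hδ z).im = (((a : ℂ) * (z : ℂ) + (b : ℂ)) / (δ : ℂ)).im := rfl
  rw [h1, show ((δ : ℂ)) = (((δ : ℝ)) : ℂ) by simp, Complex.div_ofReal_im]
  simp
  ring

/-- `z ↦ j((a z + b)/δ) Δ(z)^k` is bounded at `i∞` as soon as `a ≤ k δ`. -/
theorem isBounded_jH_affH_mul (a δ : ℕ) (b : ℤ) (ha : 0 < a) (hδ : 0 < δ) (k : ℕ)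
    (hk : a ≤ k * δ) :
    IsBoundedAtImInfty (fun z : ℍ => jH (affH a δ b ha hδ z) * discriminant z ^ k) := by
  have hw := tendsto_affH a δ b ha hδ
  -- E₄ ∘ w bounded
  have hE4 : IsBoundedAtImInfty (⇑E₄ : ℍ → ℂ) := by
    have := isMF_E₄.bdd 1
    simpa using this
  have h1 : (fun z : ℍ => E₄ (affH a δ b ha hδ z) ^ 3) =O[atImInfty] (fun _ : ℍ => (1 : ℝ)) := by
    have h := (hE4.comp_tendsto hw).pow 3
    simpa using h
  -- 1/Δ(w) = O(exp(2π Im w))
  have h2 : (fun z : ℍ => (discriminant (affH a δ b ha hδ z))⁻¹) =O[atImInfty]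
      (fun z : ℍ => (Real.exp (-2 * Real.pi * (affH a δ b ha hδ z).im))⁻¹) := by
    have h := (exp_isBigO_discriminant.comp_tendsto hw)
    exact h.inv_rev (Eventually.of_forall fun z hz => absurd hz (Real.exp_pos _).ne')
  -- Δ^k = O(exp(-2π k Im z))
  have h3 : (fun z : ℍ => discriminant z ^ k) =O[atImInfty]
      (fun z : ℍ => Real.exp (-2 * Real.pi * z.im) ^ k) := by
    have h : (discriminant : ℍ → ℂ) =O[atImInfty] fun τ : ℍ => Real.exp (-2 * Real.pi * τ.im / 1) :=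
      CuspFormClass.exp_decay_atImInfty (h := 1) CuspForm.discriminant one_pos
        one_mem_strictPeriods_SL
    have h' : (discriminant : ℍ → ℂ) =O[atImInfty] fun τ : ℍ => Real.exp (-2 * Real.pi * τ.im) := by
      simpa using h
    exact h'.pow k
  have hprod := (h1.mul h2).mul h3
  have hfun : (fun z : ℍ => jH (affH a δ b ha hδ z) * discriminant z ^ k) =
      fun z : ℍ => E₄ (affH a δ b ha hδ z) ^ 3 * (discriminant (affH a δ b ha hδ z))⁻¹ *
        discriminant z ^ k := by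
    funext z
    simp [jH, div_eq_mul_inv]
  rw [IsBoundedAtImInfty, BoundedAtFilter, hfun]
  refine hprod.trans ?_
  refine IsBigO.of_bound 1 ?_
  unfold atImInfty
  rw [eventually_comap]
  filter_upwards [eventually_ge_atTop (0 : ℝ)] with y hy z hz
  rw [im_affH]
  simp only [one_mul, Pi.one_apply, norm_one, mul_one]
  rw [← Real.exp_neg, ← Real.exp_nat_mul, ← Real.exp_add, Real.norm_eq_abs,
    abs_of_pos (Real.exp_pos _)]
  rw [Real.exp_le_one_iff]
  have hδ' : (0 : ℝ) < δ := Nat.cast_pos.mpr hδ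
  have hk' : (a : ℝ) ≤ k * δ := by exact_mod_cast hk
  have h5 : (a : ℝ) / δ ≤ k := by rw [div_le_iff₀ hδ']; exact hk'
  have hy' : 0 ≤ z.im := z.im_pos.le
  have hpi : 0 < Real.pi := Real.pi_pos
  have : -(-2 * Real.pi * ((a : ℝ) / δ * z.im)) + (k : ℝ) * (-2 * Real.pi * z.im)
      = -2 * Real.pi * z.im * ((k : ℝ) - (a : ℝ) / δ) := by ring
  rw [this]
  have h6 : 0 ≤ (k : ℝ) - (a : ℝ) / δ := by linarith
  have h7 : 0 ≤ 2 * Real.pi * z.im * ((k : ℝ) - (a : ℝ) / δ) := by positivity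
  linarith

/-- **AN-5a.** `z ↦ j(d z)` is weakly holomorphic of level `Γ(N)` for `d ∣ N`. -/
theorem isWH_jd_raw {N d : ℕ} [NeZero N] (hd : d ∣ N) :
    IsWH N (fun z : ℍ => jH (ofComplex ((d : ℂ) * (z : ℂ)))) := by
  have : NeZero d := ⟨fun h => by rw [h, zero_dvd_iff] at hd; exact NeZero.ne N hd⟩
  set f : ℍ → ℂ := fun z : ℍ => jH (ofComplex ((d : ℂ) * (z : ℂ))) with hf
  have hfz : ∀ z : ℍ, f z = jH (nmulH d z) := fun z => jd_raw_eq d z
  have hslash : ∀ g : SL(2, ℤ), (f * discriminant ^ d) ∣[12 * (d : ℤ)] g =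
      (f ∣[(0 : ℤ)] g) * discriminant ^ d := by
    intro g
    have := mul_slash_SL2 0 (12 * (d : ℤ)) g f (discriminant ^ d)
    rw [zero_add] at this
    rw [this, wh_discriminant_pow_slash]
  refine ⟨d, ?_, ?_, ?_⟩
  · exact (jd_raw_mdiff d).mul (CuspForm.discriminant.holo'.pow d)
  · intro γ hγ
    rw [hslash]
    have hγ0 : γ ∈ Gamma0 N := by
      rw [Gamma_mem] at hγ
      rw [Gamma0_mem]
      exact hγ.2.2.1
    have : f ∣[(0 : ℤ)] γ = f := by
      funext z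
      rw [wh_slash_zero_apply, hfz, hfz, jd_raw_smul_Gamma0 hd γ hγ0 z]
    rw [this]
  · intro g
    rw [hslash]
    obtain ⟨a, δ, b, ha, hδ, haδ, -, -, hj⟩ := jH_nmulH_smul d g
    have hfun : (f ∣[(0 : ℤ)] g) * discriminant ^ d =
        fun z : ℍ => jH (affH a δ b ha hδ z) * discriminant z ^ d := by
      funext z
      simp only [Pi.mul_apply, Pi.pow_apply]
      rw [wh_slash_zero_apply, hfz, hj z]
    rw [hfun]
    apply isBounded_jH_affH_mul
    calc a ≤ a * δ := Nat.le_mul_of_pos_right a hδ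
      _ = d := haδ
      _ ≤ d * δ := Nat.le_mul_of_pos_right d hδ

end Fermat.Agent.S24lib
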