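/-
S24 library — piece AN-5, part 3 (helper9): every `SL(2,ℤ)`-conjugate `z ↦ j(d · (g • z))` of
`j_d` (`d ∣ N`) has a `q_N`-expansion with coefficients in `ι(ℚ̄)`, as a statement about
convergent series (independent of the definition of `expInf`).

Main results (namespace `Fermat.Agent.S24lib`):
* `hasSum_pow_reindex` : a power series in `q^e` rewritten as a power series in `q`.
* `exists_Kseries_jd_conj` : `∃ m C, (∀ k, C k ∈ range ι) ∧
    ∀ z, HasSum (fun k => C k * q_N(z)^k) (q_N(z)^m * j(d (g • z)))`.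
No sorry in this file.
-/
import Mathlib
import Fermat.Agent.S24lib.ConjExp
import Fermat.Agent.S24lib.ConjWH

set_option autoImplicit false

open UpperHalfPlane ModularForm CongruenceSubgroup EisensteinSeries
open scoped MatrixGroups ModularForm Manifold

namespace Fermat.Agent.S24lib

/-- Reindexing: a power series in `q^e` as a power series in `q`. -/
lemma hasSum_pow_reindex (e : ℕ) (he : 0 < e) (c : ℕ → ℂ) (q S : ℂ)
    (h : HasSum (fun n : ℕ => c n * (q ^ e) ^ n) S) :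
    HasSum (fun k : ℕ => (if e ∣ k then c (k / e) else 0) * q ^ k) S := by
  have hinj : Function.Injective (fun n : ℕ => e * n) :=
    fun a b hab => Nat.eq_of_mul_eq_mul_left he hab
  rw [← hinj.hasSum_iff]
  · convert h using 1
    funext n
    simp [Function.comp, Nat.mul_div_cancel_left _ he, pow_mul]
  · intro k hk
    have hnd : ¬ e ∣ k := fun ⟨n, hn⟩ => hk ⟨n, hn.symm⟩
    simp [hnd]

/-- **AN-5b.** Every conjugate of `j(d·)` has a `q_N`-expansion with coefficients in `ι(ℚ̄)`. -/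
theorem exists_Kseries_jd_conj {N d : ℕ} [NeZero N] (hd : d ∣ N)
    (ι : AlgebraicClosure ℚ →+* ℂ) (g : SL(2, ℤ)) :
    ∃ (m : ℕ) (C : ℕ → ℂ), (∀ k, C k ∈ Set.range ι) ∧
      ∀ z : ℍ, HasSum (fun k : ℕ => C k * Function.Periodic.qParam N (z : ℂ) ^ k)
        (Function.Periodic.qParam N (z : ℂ) ^ m *
          jH (ofComplex ((d : ℂ) * ((g • z : ℍ) : ℂ)))) := by
  have hdne : NeZero d := ⟨fun h => by rw [h, zero_dvd_iff] at hd; exact NeZero.ne N hd⟩
  obtain ⟨a, δ, b, ha, hδ, haδ, -, -, hj⟩ := jH_nmulH_smul d g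
  have hδN : δ ∣ N := (Dvd.intro_left a haδ).trans hd
  have hN : 0 < N := Nat.pos_of_ne_zero (NeZero.ne N)
  obtain ⟨ζ, -, hζ⟩ := exists_root_of_unity_map ι δ hδ
  obtain ⟨e, he_def⟩ : ∃ e : ℕ, e = a * (N / δ) := ⟨_, rfl⟩
  have he : 0 < e := by
    rw [he_def]
    exact Nat.mul_pos ha (Nat.div_pos (Nat.le_of_dvd hN hδN) hδ)
  obtain ⟨u, hu⟩ : ∃ u : ℂ, u = zetaC δ ^ b := ⟨_, rfl⟩
  have hune : u ≠ 0 := by
    rw [hu]
    exact zpow_ne_zero _ (Complex.exp_ne_zero _)
  obtain ⟨c', hc'⟩ : ∃ c' : ℕ → ℂ, c' = fun n : ℕ =>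
      ((ModularCurve.jq.coeff ((n : ℤ) - 1) : ℚ) : ℂ) * u ^ ((n : ℤ) - 1) := ⟨_, rfl⟩
  refine ⟨e, fun k => if e ∣ k then c' (k / e) else 0, ?_, ?_⟩
  · intro k
    by_cases hk : e ∣ k
    · simp only [hk, if_true]
      refine ⟨algebraMap ℚ (AlgebraicClosure ℚ) (ModularCurve.jq.coeff ((((k / e : ℕ)) : ℤ) - 1)) *
        (ζ ^ b) ^ ((((k / e : ℕ)) : ℤ) - 1), ?_⟩
      rw [hc', map_mul, map_zpow₀, map_zpow₀, hζ, ← hu]
      congr 1
      exact (eq_ratCast (ι.comp (algebraMap ℚ (AlgebraicClosure ℚ))) _)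
    · simp only [hk, if_false]
      exact ⟨0, map_zero ι⟩
  · intro z
    apply hasSum_pow_reindex e he c'
    have h := hasSum_jH_affH N a δ b ha hδ hN hδN z
    rw [← hu, ← he_def] at h
    have h2 := h.mul_left (u⁻¹)
    have hS : u⁻¹ * (u * Function.Periodic.qParam N (z : ℂ) ^ e * jH (affH a δ b ha hδ z)) =
        Function.Periodic.qParam N (z : ℂ) ^ e *
          jH (ofComplex ((d : ℂ) * ((g • z : ℍ) : ℂ))) := by
      rw [jd_raw_eq, hj z]
      field_simp
    have hF : (fun i : ℕ => u⁻¹ * (((ModularCurve.jq.coeff ((i : ℤ) - 1) : ℚ) : ℂ) *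
        (u * Function.Periodic.qParam N (z : ℂ) ^ e) ^ i)) =
        fun n : ℕ => c' n * (Function.Periodic.qParam N (z : ℂ) ^ e) ^ n := by
      funext n
      rw [hc']
      simp only
      rw [mul_pow, zpow_sub_one₀ hune, zpow_natCast]
      ring
    rw [hS, hF] at h2
    exact h2

end Fermat.Agent.S24lib
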