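/-
S24 library — basic definitions shared by all S24 pieces (helper4, architect).
`FF N` = the function field `modularFunctionFieldBar N` over `Kbar = AlgebraicClosure ℚ`,
`jF N` = the element `j` of `FF N`.
No sorry in this file.
-/
import Mathlib
import Fermat.Prelude.Def_ModularCurve_ArithmeticGalois
import Fermat.Prelude.Def_ModularCurve_GenusNumerics
import Fermat.Prelude.Def_AlgebraicCurve_CanonicalDivisor

set_option autoImplicit false

open AlgebraicCurve ModularCurve

namespace Fermat.Agent.S24lib

/-- The constant field `ℚ̄`. -/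
abbrev Kbar : Type := AlgebraicClosure ℚ

/-- The function field of `X₀(N)` over `ℚ̄` (as a type). -/
abbrev FF (N : ℕ) : Type := ↥(ModularCurve.modularFunctionFieldBar N)

/-- `j(q^d)` as an element of the function field, for `d ∣ N`. -/
noncomputable def jdF (N : ℕ) (d : ℕ) [NeZero d] (hd : d ∣ N) : FF N :=
  ⟨coeffEmb Kbar (qExpand ℚ d jq), coeffEmb_mem_laurentBaseChange Kbar (jqd_mem_full N hd)⟩

/-- `j` as an element of the function field. -/
noncomputable def jF (N : ℕ) : FF N :=
  ⟨coeffEmb Kbar jq, coeffEmb_mem_laurentBaseChange Kbar (by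
    have h := jqd_mem_full N (one_dvd N)
    rwa [qExpand_one_apply] at h)⟩

@[simp] lemma coe_jF (N : ℕ) : ((jF N : FF N) : LaurentSeries Kbar) = coeffEmb Kbar jq := rfl

@[simp] lemma coe_jdF (N : ℕ) (d : ℕ) [NeZero d] (hd : d ∣ N) :
    ((jdF N d hd : FF N) : LaurentSeries Kbar) = coeffEmb Kbar (qExpand ℚ d jq) := rfl

end Fermat.Agent.S24lib
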