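/-
S24 library, AN-3 (helper13; signatures fixed by helper4's stub).
Laurent expansion at `i∞` in the variable `q_N = exp(2πiz/N)` of weakly holomorphic modular
functions of level `Γ(N)`, and the functions `z ↦ j(dz)`.

The definition of `expInf`, its injectivity and the `T`-rotation formula live in
`S24lib/ExpInfDef.lean` (`expInf`, `expInf_mul_pow`, `expInf_injective`, `expInf_const`,
`coeff_expInf_T_smul`, `expInf_T_smul`, `expInf_dvd_order`, ...); `isWH_jdH`, `smul_jdWH` are wired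
from helper9's `S24lib/ConjWH.lean`; the bridges `expInf_jWH`, `expInf_jdWH` use helper29's
`hasSum_jq` (`JqAnalytic.lean`) and helper9's `laurent_eq_of_hasSum` (`ExpCoeff.lean`).
No `sorry` in this file.
-/
import Mathlib
import Fermat.Agent.S24lib.Defs
import Fermat.Agent.S24lib.WHAct
import Fermat.Agent.S24lib.ExpInfDef
import Fermat.Agent.S24lib.ConjWH
import Fermat.Agent.S24lib.ExpCoeff
import Fermat.Agent.S24lib.ConjKRat
import Fermat.Agent.S24lib.JqAnalytic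
import Fermat.Prelude.Def_GaloisRep_ComplexConjugation

set_option autoImplicit false

open scoped MatrixGroups ModularForm Manifold Topology
open UpperHalfPlane ModularForm CongruenceSubgroup Filter ModularCurve

namespace Fermat.Agent.S24lib

open Fermat.Agent.S20lib

/-- The fixed embedding `ℚ̄ → ℂ`. -/
noncomputable def ιC : Kbar →+* ℂ := complexEmbedding.toRingHom

lemma ιC_injective : Function.Injective ιC := ιC.injective

/-- constants as elements of `WH N` -/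
noncomputable def whC (N : ℕ) : ℂ →+* WH N where
  toFun c := ⟨Function.const ℍ c, isWH_const N c⟩
  map_one' := rfl
  map_mul' _ _ := rfl
  map_zero' := rfl
  map_add' _ _ := rfl

@[simp] lemma whC_apply (N : ℕ) (c : ℂ) (z : ℍ) : ((whC N c : WH N) : ℍ → ℂ) z = c := rfl

lemma smul_whC (N : ℕ) (g : SL(2, ℤ)) (c : ℂ) : g • whC N c = whC N c := by
  ext z; rw [wh_smul_apply]; rfl

/-- `z ↦ j(d z)` as a function on `ℍ` (`d ≥ 1`). -/
noncomputable def jdH (d : ℕ) : ℍ → ℂ := fun z => jH (ofComplex ((d : ℂ) * z))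

/-- AN-5a: `j(d·)` is weakly holomorphic of level `Γ(N)` when `d ∣ N`. (helper9, `ConjWH.lean`) -/
theorem isWH_jdH {N d : ℕ} [NeZero N] (hd : d ∣ N) : IsWH N (jdH d) :=
  isWH_jd_raw hd

/-- `j(d·)` as an element of `WH N`. -/
noncomputable def jdWH (N d : ℕ) [NeZero N] (hd : d ∣ N) : WH N := ⟨jdH d, isWH_jdH hd⟩

/-- AN-5a: `j(d·)` is `Γ₀(N)`-invariant. (helper9, `ConjWH.lean`) -/
theorem smul_jdWH {N d : ℕ} [NeZero N] (hd : d ∣ N) (γ : SL(2, ℤ)) (hγ : γ ∈ Gamma0 N) :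
    γ • jdWH N d hd = jdWH N d hd := by
  haveI : NeZero d := ⟨fun h => by rw [h, zero_dvd_iff] at hd; exact NeZero.ne N hd⟩
  ext z
  rw [wh_smul_apply]
  show jH (ofComplex ((d : ℂ) * ((γ⁻¹ • z : ℍ) : ℂ))) = jH (ofComplex ((d : ℂ) * (z : ℂ)))
  rw [jd_raw_eq, jd_raw_eq]
  exact jd_raw_smul_Gamma0 hd γ⁻¹ (inv_mem hγ) z

theorem expInf_whC (N : ℕ) [NeZero N] (c : ℂ) : expInf N (whC N c) = HahnSeries.C c :=
  expInf_const c

/-- `expInf` is determined by any convergent `q_N`-expansion. -/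
theorem expInf_eq_of_hasSum (N : ℕ) [NeZero N] (f : WH N) (m : ℕ) (c : ℕ → ℂ)
    (h : ∀ z : ℍ, HasSum (fun n : ℕ => c n * Function.Periodic.qParam (N : ℝ) (z : ℂ) ^ n)
      (Function.Periodic.qParam (N : ℝ) (z : ℂ) ^ m * (f : ℍ → ℂ) z)) :
    expInf N f = HahnSeries.single (-(m : ℤ)) (1 : ℂ) *
      HahnSeries.ofPowerSeries ℤ ℂ (PowerSeries.mk c) := by
  obtain ⟨k, hk⟩ := f.2
  exact laurent_eq_of_hasSum hk f.2.mdiff m c h _ (expInf_mul_pow f k hk)

/-- `q_1(d z) = q_N(z)^(d N)`. -/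
lemma ei_qParam_one_nmul (N d : ℕ) [NeZero N] (z : ℂ) :
    Function.Periodic.qParam 1 ((d : ℂ) * z) =
      Function.Periodic.qParam (N : ℝ) z ^ (N * d) := by
  have hN : (N : ℂ) ≠ 0 := Nat.cast_ne_zero.2 (NeZero.ne N)
  rw [Function.Periodic.qParam, Function.Periodic.qParam, ← Complex.exp_nat_mul]
  congr 1
  push_cast
  field_simp

/-- The `q_N`-expansion of `j(d z)`, as a convergent series. -/
lemma ei_hasSum_jd (N d : ℕ) [NeZero N] [NeZero d] (z : ℍ) :
    HasSum (fun k : ℕ => (if N * d ∣ k then ((jq.coeff (((k / (N * d) : ℕ) : ℤ) - 1) : ℚ) : ℂ)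
        else 0) * Function.Periodic.qParam (N : ℝ) (z : ℂ) ^ k)
      (Function.Periodic.qParam (N : ℝ) (z : ℂ) ^ (N * d) *
        jH (ofComplex ((d : ℂ) * (z : ℂ)))) := by
  have hd : 0 < d := Nat.pos_of_ne_zero (NeZero.ne d)
  have hN : 0 < N := Nat.pos_of_ne_zero (NeZero.ne N)
  refine hasSum_pow_reindex (N * d) (Nat.mul_pos hN hd)
    (fun n : ℕ => ((jq.coeff ((n : ℤ) - 1) : ℚ) : ℂ)) _ _ ?_
  have h := hasSum_jq (nmulH d z)
  rw [coe_nmulH, ei_qParam_one_nmul N d] at h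
  rw [jd_raw_eq]
  exact h

lemma ei_bridge_coeff (e : ℕ) (he : 0 < e) (k : ℤ) :
    (HahnSeries.single (-(e : ℤ)) (1 : ℂ) * HahnSeries.ofPowerSeries ℤ ℂ
      (PowerSeries.mk fun k : ℕ => if e ∣ k then ((jq.coeff (((k / e : ℕ) : ℤ) - 1) : ℚ) : ℂ)
        else 0)).coeff k =
      if (e : ℤ) ∣ k then ((jq.coeff (k / (e : ℤ)) : ℚ) : ℂ) else 0 := by
  rw [HahnSeries.coeff_single_mul, one_mul, sub_neg_eq_add]
  have he' : (0 : ℤ) < (e : ℤ) := by exact_mod_cast he
  by_cases hk : 0 ≤ k + e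
  · obtain ⟨n, hn⟩ := Int.eq_ofNat_of_zero_le hk
    rw [hn, HahnSeries.ofPowerSeries_apply_coeff, PowerSeries.coeff_mk]
    have hdvd : e ∣ n ↔ (e : ℤ) ∣ k := by
      rw [← Int.natCast_dvd_natCast, ← hn]
      exact (Int.dvd_add_left (dvd_refl _))
    by_cases h1 : (e : ℤ) ∣ k
    · rw [if_pos (hdvd.2 h1), if_pos h1]
      obtain ⟨t, rfl⟩ := h1
      have h2 : ((n / e : ℕ) : ℤ) = t + 1 := by
        have : (n : ℤ) = (e : ℤ) * (t + 1) := by rw [← hn]; ring
        rw [Int.natCast_div, this, Int.mul_ediv_cancel_left _ he'.ne']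
      rw [h2, Int.mul_ediv_cancel_left _ he'.ne', add_sub_cancel_right]
    · rw [if_neg (fun h => h1 (hdvd.1 h)), if_neg h1]
  · rw [not_le] at hk
    rw [ofPowerSeries_coeff_neg _ hk]
    by_cases h1 : (e : ℤ) ∣ k
    · rw [if_pos h1]
      obtain ⟨t, rfl⟩ := h1
      rw [Int.mul_ediv_cancel_left _ he'.ne']
      have ht : t < -1 := by
        by_contra hcon
        rw [not_lt] at hcon
        have : 0 ≤ (e : ℤ) * (t + 1) := mul_nonneg he'.le (by linarith)
        linarith [mul_add (e : ℤ) t 1, mul_one (e : ℤ)]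
      rw [coeff_jq_of_lt ht, Rat.cast_zero]
    · rw [if_neg h1]

lemma ei_qExpand_coeff (e : ℕ) [NeZero e] (k : ℤ) :
    (qExpand ℂ e (coeffMap (algebraMap ℚ ℂ) jq)).coeff k =
      if (e : ℤ) ∣ k then ((jq.coeff (k / (e : ℤ)) : ℚ) : ℂ) else 0 := by
  have he' : (e : ℤ) ≠ 0 := by exact_mod_cast NeZero.ne e
  by_cases h1 : (e : ℤ) ∣ k
  · rw [if_pos h1]
    obtain ⟨t, rfl⟩ := h1
    rw [qExpand_coeff_mul, coeffMap_coeff, Int.mul_ediv_cancel_left _ he']
    rfl
  · rw [if_neg h1, qExpand_coeff_of_not_dvd _ _ h1]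

/-- bridge for `j(d·)`. -/
theorem expInf_jdWH (N d : ℕ) [NeZero N] [NeZero d] (hd : d ∣ N) :
    expInf N (jdWH N d hd) = qExpand ℂ N (qExpand ℂ d (coeffMap (algebraMap ℚ ℂ) jq)) := by
  have hd0 : 0 < d := Nat.pos_of_ne_zero (NeZero.ne d)
  have hN0 : 0 < N := Nat.pos_of_ne_zero (NeZero.ne N)
  rw [expInf_eq_of_hasSum N (jdWH N d hd) (N * d) _ (fun z => ei_hasSum_jd N d z),
    qExpand_qExpand]
  ext k
  rw [ei_bridge_coeff (N * d) (Nat.mul_pos hN0 hd0) k, ei_qExpand_coeff (N * d) k]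

/-- bridge (J1): the expansion of `j` is the Prelude's formal `jq` (with `q = q_N^N`). -/
theorem expInf_jWH (N : ℕ) [NeZero N] :
    expInf N (jWH N) = qExpand ℂ N (coeffMap (algebraMap ℚ ℂ) jq) := by
  have e : jWH N = jdWH N 1 (one_dvd N) := by
    ext z
    show jH z = jH (ofComplex (((1 : ℕ) : ℂ) * (z : ℂ)))
    rw [Nat.cast_one, one_mul, ofComplex_apply]
  rw [e, expInf_jdWH N 1 (one_dvd N), qExpand_one_apply]

end Fermat.Agent.S24lib
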