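/-
S24 library, AN-4 (helper2): a level-one form `F` of weight `12 k` is `Δ^k · P(j)` for a polynomial
`P` of degree `≤ k`; if the `q`-expansion of `F` has coefficients in a subfield `R ⊆ ℂ`, so has `P`.
Consequently an `SL(2,ℤ)`-invariant weakly holomorphic function is a polynomial in `j`.
-/
import Mathlib
import Fermat.Agent.S23_LevelOne
import Fermat.Agent.S24lib.WHAct

set_option autoImplicit false

open UpperHalfPlane ModularForm CongruenceSubgroup ModularFormClass EisensteinSeries
open scoped MatrixGroups ModularForm Manifold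

namespace Fermat.Agent.S24lib

open Fermat.Agent.S23lib Fermat.Agent.S20lib

/-- Coefficients of a `BddRat` series lie in every subfield of `ℂ`. -/
lemma lo_coeff_mem_of_bddRat (R : Subfield ℂ) {φ : PowerSeries ℂ} (h : φ ∈ BddRat) (n : ℕ) :
    PowerSeries.coeff n φ ∈ R := by
  obtain ⟨M, hM, hcoef⟩ := h
  obtain ⟨m, hm⟩ := hcoef n
  have hM0 : (M : ℂ) ≠ 0 := by exact_mod_cast hM.ne'
  have : PowerSeries.coeff n φ = (m : ℂ) / (M : ℂ) := by
    field_simp
    linear_combination hm
  rw [this]
  exact R.div_mem (intCast_mem R m) (natCast_mem R M)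

/-- Division by a series `q + …` preserves rationality of coefficients. -/
lemma lo_coeff_mem_of_mul (R : Subfield ℂ) {A B C : PowerSeries ℂ} (h : A * B = C)
    (hA0 : PowerSeries.coeff 0 A = 0) (hA1 : PowerSeries.coeff 1 A = 1)
    (hA : ∀ n, PowerSeries.coeff n A ∈ R) (hC : ∀ n, PowerSeries.coeff n C ∈ R) :
    ∀ n, PowerSeries.coeff n B ∈ R := by
  intro n
  induction n using Nat.strong_induction_on with
  | _ n ih =>
    have h1 := congrArg (PowerSeries.coeff (n + 1)) h
    rw [PowerSeries.coeff_mul] at h1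
    have hmem : (1, n) ∈ Finset.HasAntidiagonal.antidiagonal (n + 1) := by
      rw [Finset.HasAntidiagonal.mem_antidiagonal]; omega
    rw [← Finset.add_sum_erase _ _ hmem] at h1
    simp only [hA1, one_mul] at h1
    have hrest : ∑ p ∈ (Finset.HasAntidiagonal.antidiagonal (n + 1)).erase (1, n),
        PowerSeries.coeff p.1 A * PowerSeries.coeff p.2 B ∈ R := by
      apply R.sum_mem
      intro p hp
      rw [Finset.mem_erase, Finset.HasAntidiagonal.mem_antidiagonal] at hp
      obtain ⟨hne, hsum⟩ := hp
      by_cases h0 : p.1 = 0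
      · rw [h0, hA0, zero_mul]; exact R.zero_mem
      · have hp2 : p.2 < n := by
          by_contra hcon
          apply hne
          have h1 : p.1 = 1 := by omega
          have h2 : p.2 = n := by omega
          exact Prod.ext h1 h2
        exact R.mul_mem (hA _) (ih _ hp2)
    have : PowerSeries.coeff n B = PowerSeries.coeff (n + 1) C
        - ∑ p ∈ (Finset.HasAntidiagonal.antidiagonal (n + 1)).erase (1, n),
          PowerSeries.coeff p.1 A * PowerSeries.coeff p.2 B := by
      linear_combination h1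
    rw [this]
    exact R.sub_mem (hC _) hrest

/-- `E₄^(3m)` as a level one form of weight `12 m`. -/
noncomputable def loE4pow (m : ℕ) : ModularForm 𝒮ℒ (12 * (m : ℤ)) :=
  ModularForm.mcast (by push_cast; ring) (E₄.pow (3 * m))

lemma loE4pow_apply (m : ℕ) (z : ℍ) : loE4pow m z = E₄ z ^ (3 * m) := by
  rw [loE4pow, ModularForm.coe_mcast, ModularForm.coe_pow, Pi.pow_apply]

lemma qExpansion_loE4pow (m : ℕ) :
    qExpansion 1 (loE4pow m) = qExpansion 1 E₄ ^ (3 * m) := by
  rw [loE4pow, ModularForm.coe_mcast]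
  exact ModularForm.qExpansion_pow one_pos one_mem_strictPeriods_SL E₄ (3 * m)

lemma qExpansion_E₄_mem_bddRat : qExpansion 1 E₄ ∈ BddRat :=
  qExpansion_E_mem_bddRat (k := 4) (by norm_num) ⟨2, rfl⟩

lemma qExpansion_E₄_coeff_zero : PowerSeries.coeff 0 (qExpansion 1 E₄) = 1 := by
  have := E_qExpansion_coeff (k := 4) (by norm_num) ⟨2, rfl⟩ 0
  simpa using this

lemma qExpansion_loE4pow_coeff_zero (m : ℕ) :
    PowerSeries.coeff 0 (qExpansion 1 (loE4pow m)) = 1 := by
  rw [qExpansion_loE4pow, PowerSeries.coeff_zero_eq_constantCoeff, map_pow,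
    ← PowerSeries.coeff_zero_eq_constantCoeff, qExpansion_E₄_coeff_zero, one_pow]

lemma jH_mul_discriminant_apply (z : ℍ) : jH z * discriminant z = E₄ z ^ 3 := by
  have := congrFun jH_mul_discriminant z
  simpa using this

lemma qExpansion_discriminant_coeff_zero :
    PowerSeries.coeff 0 (qExpansion 1 ModularForm.discriminant) = 0 := by
  simpa using CuspFormClass.qExpansion_coeff_zero CuspForm.discriminant one_pos
    one_mem_strictPeriods_SL

/-- AN-4, bundled form: a level-one modular form of weight `12 k` is `Δ^k · P(j)` with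
`deg P ≤ k`, and `P` has coefficients in any subfield containing the `q`-coefficients. -/
theorem levelOne_eq_poly (R : Subfield ℂ) (k : ℕ) (F : ModularForm 𝒮ℒ (12 * (k : ℤ)))
    (hR : ∀ n, PowerSeries.coeff n (qExpansion 1 F) ∈ R) :
    ∃ P : Polynomial ℂ, P.natDegree ≤ k ∧ (∀ i, P.coeff i ∈ R) ∧
      ∀ z : ℍ, F z = discriminant z ^ k * P.eval (jH z) := by
  induction k with
  | zero =>
    set F' : ModularForm 𝒮ℒ 0 := ModularForm.mcast (by simp) F with hF'
    obtain ⟨c, hc⟩ := levelOne_weight_zero_const F'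
    have hFc : (⇑F : ℍ → ℂ) = c • (⇑(1 : ModularForm 𝒮ℒ 0) : ℍ → ℂ) := by
      rw [← ModularForm.coe_mcast (by simp : (12 * ((0 : ℕ) : ℤ)) = 0) F, hc]
      funext z
      simp
    have hq : qExpansion 1 F = c • (1 : PowerSeries ℂ) := by
      rw [hFc, ModularForm.qExpansion_smul one_pos one_mem_strictPeriods_SL,
        ModularForm.qExpansion_one]
    have hcR : c ∈ R := by
      have := hR 0
      rw [hq] at this
      simpa using this
    refine ⟨Polynomial.C c, by simp, fun i => ?_, fun z => ?_⟩
    · rw [Polynomial.coeff_C]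
      split_ifs
      · exact hcR
      · exact R.zero_mem
    · have := congrFun hFc z
      simp only [Pi.smul_apply, smul_eq_mul] at this
      rw [this]
      simp
  | succ k ih =>
    set a : ℂ := PowerSeries.coeff 0 (qExpansion 1 F) with ha
    have haR : a ∈ R := hR 0
    set G : ModularForm 𝒮ℒ (12 * ((k + 1 : ℕ) : ℤ)) := F - a • loE4pow (k + 1) with hG
    have hGcoe : (⇑G : ℍ → ℂ) = ⇑F - ⇑(a • loE4pow (k + 1)) := rfl
    have hGq : qExpansion 1 G = qExpansion 1 F - a • qExpansion 1 E₄ ^ (3 * (k + 1)) := by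
      rw [hGcoe, ModularForm.qExpansion_sub one_pos one_mem_strictPeriods_SL F
        (a • loE4pow (k + 1))]
      congr 1
      have : (⇑(a • loE4pow (k + 1)) : ℍ → ℂ) = a • ⇑(loE4pow (k + 1)) := rfl
      rw [this, ModularForm.qExpansion_smul one_pos one_mem_strictPeriods_SL,
        qExpansion_loE4pow]
    have hE4R : ∀ n, PowerSeries.coeff n (qExpansion 1 E₄ ^ (3 * (k + 1))) ∈ R := fun n =>
      lo_coeff_mem_of_bddRat R (bddRat_pow qExpansion_E₄_mem_bddRat _) n
    have hGR : ∀ n, PowerSeries.coeff n (qExpansion 1 G) ∈ R := by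
      intro n
      rw [hGq, map_sub, PowerSeries.coeff_smul]
      exact R.sub_mem (hR n) (R.mul_mem haR (hE4R n))
    have hcusp : PowerSeries.coeff 0 (qExpansion 1 G) = 0 := by
      rw [hGq, map_sub, PowerSeries.coeff_smul, ← qExpansion_loE4pow,
        qExpansion_loE4pow_coeff_zero, smul_eq_mul, mul_one, ← ha, sub_self]
    set H0 := CuspForm.discriminantEquiv (ModularForm.toCuspForm G hcusp) with hH0
    set H : ModularForm 𝒮ℒ (12 * (k : ℤ)) := ModularForm.mcast (by push_cast; ring) H0 with hH
    have hHq : qExpansion 1 ModularForm.discriminant * qExpansion 1 H = qExpansion 1 G := by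
      rw [hH, ModularForm.coe_mcast]
      exact (ModularForm.qExpansion_eq_qExpansion_discriminant_mul G hcusp).symm
    have hHR : ∀ n, PowerSeries.coeff n (qExpansion 1 H) ∈ R :=
      lo_coeff_mem_of_mul R hHq qExpansion_discriminant_coeff_zero
        discriminant_qExpansion_coeff_one
        (fun n => lo_coeff_mem_of_bddRat R qExpansion_discriminant_mem_bddRat n) hGR
    obtain ⟨P, hPdeg, hPR, hP⟩ := ih H hHR
    refine ⟨Polynomial.C a * Polynomial.X ^ (k + 1) + P, ?_, ?_, ?_⟩
    · refine (Polynomial.natDegree_add_le _ _).trans (max_le ?_ (hPdeg.trans (Nat.le_succ k)))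
      exact (Polynomial.natDegree_C_mul_X_pow_le a (k + 1))
    · intro i
      rw [Polynomial.coeff_add, Polynomial.coeff_C_mul_X_pow]
      refine R.add_mem ?_ (hPR i)
      split_ifs
      · exact haR
      · exact R.zero_mem
    · intro z
      have hΔ : discriminant z ≠ 0 := discriminant_ne_zero z
      have h1 : G z = F z - a * E₄ z ^ (3 * (k + 1)) := by
        have := congrFun hGcoe z
        rw [this]
        simp only [Pi.sub_apply]
        congr 1
        change a * loE4pow (k + 1) z = _
        rw [loE4pow_apply]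
      have h2 : discriminant z * H z = G z := by
        have : H z = H0 z := by rw [hH, ModularForm.coe_mcast]
        rw [this, hH0]
        exact ModularForm.discriminant_mul_discriminantEquiv_apply _ z
      have h3 := hP z
      have h4 := jH_mul_discriminant_apply z
      have h5 : E₄ z ^ (3 * (k + 1)) = (jH z * discriminant z) ^ (k + 1) := by
        rw [h4, ← pow_mul]
      rw [Polynomial.eval_add, Polynomial.eval_mul, Polynomial.eval_C, Polynomial.eval_pow,
        Polynomial.eval_X]
      have h6 : F z = discriminant z * H z + a * E₄ z ^ (3 * (k + 1)) := by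
        rw [h2, h1]; ring
      rw [h6, h3, h5]
      ring

/-- AN-4, function level: an `SL(2,ℤ)`-invariant weakly holomorphic function is a polynomial
in `j`. -/
theorem levelOne_eq_poly_jH (f : ℍ → ℂ) (k : ℕ)
    (hf : IsMF ⊤ (12 * (k : ℤ)) (f * discriminant ^ k)) :
    ∃ P : Polynomial ℂ, P.natDegree ≤ k ∧ ∀ z : ℍ, f z = P.eval (jH z) := by
  obtain ⟨P, hdeg, -, hP⟩ := levelOne_eq_poly ⊤ k hf.toLevelOne (fun _ => trivial)
  refine ⟨P, hdeg, fun z => ?_⟩
  have h1 : hf.toLevelOne z = f z * discriminant z ^ k := rfl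
  have h2 := hP z
  rw [h1] at h2
  have hΔ : discriminant z ^ k ≠ 0 := pow_ne_zero _ (discriminant_ne_zero z)
  have : f z * discriminant z ^ k = P.eval (jH z) * discriminant z ^ k := by
    rw [h2]; ring
  exact mul_right_cancel₀ hΔ this

/-- AN-4, function level with rationality: if the `q`-expansion of `f · Δ^k` has coefficients in
a subfield `R`, the polynomial `P` with `f = P(j)` has coefficients in `R`. -/
theorem levelOne_eq_poly_jH_rat (R : Subfield ℂ) (f : ℍ → ℂ) (k : ℕ)
    (hf : IsMF ⊤ (12 * (k : ℤ)) (f * discriminant ^ k))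
    (hR : ∀ n, PowerSeries.coeff n (qExpansion 1 (f * discriminant ^ k)) ∈ R) :
    ∃ P : Polynomial ℂ, P.natDegree ≤ k ∧ (∀ i, P.coeff i ∈ R) ∧
      ∀ z : ℍ, f z = P.eval (jH z) := by
  obtain ⟨P, hdeg, hPR, hP⟩ := levelOne_eq_poly R k hf.toLevelOne hR
  refine ⟨P, hdeg, hPR, fun z => ?_⟩
  have h1 : hf.toLevelOne z = f z * discriminant z ^ k := rfl
  have h2 := hP z
  rw [h1] at h2
  have hΔ : discriminant z ^ k ≠ 0 := pow_ne_zero _ (discriminant_ne_zero z)
  have : f z * discriminant z ^ k = P.eval (jH z) * discriminant z ^ k := by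
    rw [h2]; ring
  exact mul_right_cancel₀ hΔ this

end Fermat.Agent.S24lib
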