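/-
S24 library, AN-4 (helper2): an `SL(2,ℤ)`-invariant weakly holomorphic function of level `Γ(N)`
whose expansion at `i∞` has coefficients in `ℚ̄` is a polynomial in `j` with coefficients in `ℚ̄`.

* `lop_coeff_mem` : purely algebraic; if `J` is a Laurent series with a pole of order `m > 0`,
  leading coefficient `1`, all of whose powers have coefficients in a subring `R`, and `P(J)` has
  coefficients in `R`, then `P` has coefficients in `R`.
* `levelOne_poly_core` : the statement of `levelOne_poly` (KRat.lean) with `IsKSeries` unfolded.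

Uses only the interface of `ExpInf.lean` (`expInf` ring hom, `expInf_whC`, `expInf_jWH`).
-/
import Mathlib
import Fermat.Agent.S24lib.ExpInf
import Fermat.Agent.S24lib.LevelOne

set_option autoImplicit false

open scoped MatrixGroups ModularForm Manifold Topology
open UpperHalfPlane ModularForm CongruenceSubgroup Filter ModularCurve

namespace Fermat.Agent.S24lib

open Fermat.Agent.S20lib

/-- If `J` has a pole of exact order `m > 0` with leading coefficient `1`, all powers of `J` have
coefficients in the subring `R`, and `P(J)` has coefficients in `R`, then so does `P`. -/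
theorem lop_coeff_mem {L : Type*} [Field L] (R : Subring L) (J : LaurentSeries L) (m : ℕ)
    (hm : 0 < m)
    (hJ : ∀ (n : ℕ) (k : ℤ), (J ^ n).coeff k ∈ R)
    (hlead : ∀ n : ℕ, (J ^ n).coeff (-((m : ℤ) * n)) = 1)
    (hlow : ∀ (n : ℕ) (k : ℤ), k < -((m : ℤ) * n) → (J ^ n).coeff k = 0) :
    ∀ (d : ℕ) (P : Polynomial L), P.degree < d →
      (∀ k : ℤ, (Polynomial.eval₂ HahnSeries.C J P).coeff k ∈ R) → ∀ i, P.coeff i ∈ R := by
  intro d
  induction d with
  | zero =>
    intro P hP _ i
    have : P = 0 := by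
      rw [← Polynomial.degree_eq_bot]
      have h0 : P.degree < (0 : ℕ) := hP
      rcases h : P.degree with _ | n
      · rfl
      · rw [h] at h0
        exact absurd (WithBot.coe_lt_coe.mp h0) (Nat.not_lt_zero _)
    rw [this, Polynomial.coeff_zero]
    exact R.zero_mem
  | succ d ih =>
    intro P hP hcoef
    have hnat : P.natDegree < d + 1 := by
      by_cases hP0 : P = 0
      · rw [hP0]; simp
      · exact (Polynomial.natDegree_lt_iff_degree_lt hP0).mpr hP
    -- the coefficient of `q^{-(m d)}` in `P(J)` is `P.coeff d`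
    have hcd : (Polynomial.eval₂ HahnSeries.C J P).coeff (-((m : ℤ) * d)) = P.coeff d := by
      rw [Polynomial.eval₂_eq_sum_range' HahnSeries.C hnat J, HahnSeries.coeff_sum,
        Finset.sum_eq_single d]
      · rw [HahnSeries.C_mul_eq_smul, HahnSeries.coeff_smul, hlead d, smul_eq_mul, mul_one]
      · intro i hi hid
        rw [HahnSeries.C_mul_eq_smul, HahnSeries.coeff_smul]
        have hlt : i < d := lt_of_le_of_ne (Nat.lt_succ_iff.mp (Finset.mem_range.mp hi)) hid
        rw [hlow i _ (by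
          have h1 : (m : ℤ) * i < (m : ℤ) * d := by
            apply mul_lt_mul_of_pos_left
            · exact_mod_cast hlt
            · exact_mod_cast hm
          linarith), smul_zero]
      · intro hd
        exact absurd (Finset.mem_range.mpr (Nat.lt_succ_self d)) hd
    have hc : P.coeff d ∈ R := hcd ▸ hcoef _
    -- remove the top coefficient
    have hdeg' : (P.erase d).degree < d := by
      rw [Polynomial.degree_lt_iff_coeff_zero]
      intro j hj
      rw [Polynomial.coeff_erase]
      split_ifs with h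
      · rfl
      · have : d + 1 ≤ j := by omega
        exact (Polynomial.degree_lt_iff_coeff_zero P (d + 1)).mp (by exact_mod_cast hP) j this
    have hsplit : Polynomial.eval₂ HahnSeries.C J (P.erase d)
        = Polynomial.eval₂ HahnSeries.C J P - HahnSeries.C (P.coeff d) * J ^ d := by
      have h := Polynomial.monomial_add_erase P d
      have h' : Polynomial.eval₂ HahnSeries.C J P
          = Polynomial.eval₂ HahnSeries.C J (Polynomial.monomial d (P.coeff d))
            + Polynomial.eval₂ HahnSeries.C J (P.erase d) := by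
        rw [← Polynomial.eval₂_add, h]
      rw [h', Polynomial.eval₂_monomial]
      ring
    have hcoef' : ∀ k : ℤ, (Polynomial.eval₂ HahnSeries.C J (P.erase d)).coeff k ∈ R := by
      intro k
      rw [hsplit, HahnSeries.coeff_sub, HahnSeries.C_mul_eq_smul, HahnSeries.coeff_smul,
        smul_eq_mul]
      exact R.sub_mem (hcoef k) (R.mul_mem hc (hJ d k))
    have hih := ih (P.erase d) hdeg' hcoef'
    intro i
    by_cases hid : i = d
    · rw [hid]; exact hc
    · have := hih i
      rwa [Polynomial.coeff_erase, if_neg hid] at this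

/-- the formal `j` over `ℂ`, expanded in `q_N` -/
lemma lop_J_pow (N : ℕ) [NeZero N] (n : ℕ) :
    (qExpand ℂ N (coeffMap (algebraMap ℚ ℂ) jq)) ^ n
      = qExpand ℂ N (coeffMap (algebraMap ℚ ℂ) (jq ^ n)) := by
  rw [map_pow, map_pow]

lemma lop_J_coeff_mem (N : ℕ) [NeZero N] (n : ℕ) (k : ℤ) :
    ((qExpand ℂ N (coeffMap (algebraMap ℚ ℂ) jq)) ^ n).coeff k ∈ ιC.range := by
  rw [lop_J_pow]
  by_cases hk : (N : ℤ) ∣ k
  · obtain ⟨k', rfl⟩ := hk
    rw [qExpand_coeff_mul, coeffMap_coeff]
    refine ⟨algebraMap ℚ Kbar ((jq ^ n).coeff k'), ?_⟩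
    simp
  · rw [qExpand_coeff_of_not_dvd N _ hk]
    exact ιC.range.zero_mem

lemma lop_J_lead (N : ℕ) [NeZero N] (n : ℕ) :
    ((qExpand ℂ N (coeffMap (algebraMap ℚ ℂ) jq)) ^ n).coeff (-((N : ℤ) * n)) = 1 := by
  rw [lop_J_pow, show -((N : ℤ) * n) = (N : ℤ) * (-(n : ℤ)) by ring, qExpand_coeff_mul,
    coeffMap_coeff, coeff_jq_pow_self]
  simp

lemma lop_J_low (N : ℕ) [NeZero N] (n : ℕ) (k : ℤ) (hk : k < -((N : ℤ) * n)) :
    ((qExpand ℂ N (coeffMap (algebraMap ℚ ℂ) jq)) ^ n).coeff k = 0 := by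
  rw [lop_J_pow]
  by_cases hdvd : (N : ℤ) ∣ k
  · obtain ⟨k', rfl⟩ := hdvd
    rw [qExpand_coeff_mul, coeffMap_coeff]
    have hN : (0 : ℤ) < N := by exact_mod_cast Nat.pos_of_ne_zero (NeZero.ne N)
    have : k' < -(n : ℤ) := by
      by_contra h
      push Not at h
      have := mul_le_mul_of_nonneg_left h hN.le
      linarith
    rw [coeff_jq_pow_of_lt this]
    simp
  · exact qExpand_coeff_of_not_dvd N _ hdvd

/-- an `SL(2,ℤ)`-invariant element of `WH N` is a polynomial in `j` over `ℂ`. -/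
theorem levelOne_poly_complex (N : ℕ) (φ : WH N) (hinv : ∀ g : SL(2, ℤ), g • φ = φ) :
    ∃ P : Polynomial ℂ, φ = Polynomial.eval₂ (whC N) (jWH N) P := by
  obtain ⟨k, hk⟩ := φ.2
  have hMF : IsMF ⊤ (12 * (k : ℤ)) ((φ : ℍ → ℂ) * discriminant ^ k) := by
    refine ⟨hk.holo, fun g _ => ?_, hk.bdd⟩
    have h1 := mul_slash_SL2 0 (12 * (k : ℤ)) g (φ : ℍ → ℂ) (discriminant ^ k)
    rw [zero_add] at h1
    rw [h1, wh_discriminant_pow_slash]
    have h2 : ((g⁻¹ • φ : WH N) : ℍ → ℂ) = (φ : ℍ → ℂ) := by rw [hinv]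
    rw [wh_smul_coe, inv_inv] at h2
    rw [h2]
  obtain ⟨P, -, hP⟩ := levelOne_eq_poly_jH (φ : ℍ → ℂ) k hMF
  refine ⟨P, ?_⟩
  ext z
  let evz : WH N →+* ℂ := (Pi.evalRingHom (fun _ : ℍ => ℂ) z).comp (WH N).subtype
  have h3 : evz (Polynomial.eval₂ (whC N) (jWH N) P)
      = Polynomial.eval₂ (evz.comp (whC N)) (evz (jWH N)) P := Polynomial.hom_eval₂ P _ evz _
  have h4 : evz.comp (whC N) = RingHom.id ℂ := by
    ext c; rfl
  have h5 : evz (jWH N) = jH z := rfl
  rw [h4, h5, Polynomial.eval₂_id] at h3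
  rw [hP z]
  exact h3.symm

/-- AN-4, core form (the statement of `levelOne_poly` with `IsKSeries` unfolded). -/
theorem levelOne_poly_core (N : ℕ) [NeZero N] (φ : WH N) (hinv : ∀ g : SL(2, ℤ), g • φ = φ)
    (hrat : ∀ n : ℤ, (expInf N φ).coeff n ∈ Set.range ιC) :
    ∃ P : Polynomial Kbar, φ = Polynomial.eval₂ ((whC N).comp ιC) (jWH N) P := by
  obtain ⟨P, hP⟩ := levelOne_poly_complex N φ hinv
  have hexp : expInf N φ
      = Polynomial.eval₂ HahnSeries.C (qExpand ℂ N (coeffMap (algebraMap ℚ ℂ) jq)) P := by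
    rw [hP, Polynomial.hom_eval₂ P (whC N) (expInf N) (jWH N), expInf_jWH]
    congr 1
    ext c : 1
    exact expInf_whC N c
  have hcoef : ∀ i, P.coeff i ∈ ιC.range := by
    refine lop_coeff_mem ιC.range _ N (Nat.pos_of_ne_zero (NeZero.ne N))
      (lop_J_coeff_mem N) (lop_J_lead N) (lop_J_low N) (P.natDegree + 1) P ?_ ?_
    · exact lt_of_le_of_lt Polynomial.degree_le_natDegree (by exact_mod_cast Nat.lt_succ_self _)
    · intro k
      rw [← hexp]
      exact hrat k
  have hlift : P ∈ Polynomial.lifts ιC := by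
    rw [Polynomial.lifts_iff_coeff_lifts]
    intro i
    exact hcoef i
  obtain ⟨Q, hQ⟩ := (Polynomial.mem_lifts P).mp hlift
  refine ⟨Q, ?_⟩
  rw [hP, ← hQ, Polynomial.eval₂_map]

end Fermat.Agent.S24lib
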