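/-
S24 library, AN-5 / AN-4.
`KRat N` = the subring of `WH N` of functions all of whose conjugates have `ℚ̄`-rational
`q_N`-expansion;  AN-5: `j(d·) ∈ KRat N`;  AN-4: `SL(2,ℤ)`-invariant elements of `KRat N` are
polynomials in `j` with coefficients in `ℚ̄`.
(closure lemmas + AN-4 wiring: helper2; `jdWH_mem_KRat` = AN-5: helper9, `ConjFinal.lean`.)
-/
import Mathlib
import Fermat.Agent.S24lib.ExpInf
import Fermat.Agent.S24lib.LevelOnePoly
import Fermat.Agent.S24lib.ConjFinal

set_option autoImplicit false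

open scoped MatrixGroups ModularForm Manifold Topology
open UpperHalfPlane ModularForm CongruenceSubgroup Filter ModularCurve

namespace Fermat.Agent.S24lib

/-- a Laurent series over `ℂ` has all coefficients in `ιC(ℚ̄)` -/
def IsKSeries (s : LaurentSeries ℂ) : Prop := ∀ n : ℤ, s.coeff n ∈ Set.range ιC

lemma isKSeries_iff {s : LaurentSeries ℂ} : IsKSeries s ↔ ∀ n : ℤ, s.coeff n ∈ ιC.range :=
  Iff.rfl

/-- (easy, from `expInf` being a ring hom) -/
theorem isKSeries_add {s t : LaurentSeries ℂ} (hs : IsKSeries s) (ht : IsKSeries t) :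
    IsKSeries (s + t) := by
  intro n
  rw [HahnSeries.coeff_add]
  exact ιC.range.add_mem (hs n) (ht n)

theorem isKSeries_mul {s t : LaurentSeries ℂ} (hs : IsKSeries s) (ht : IsKSeries t) :
    IsKSeries (s * t) := by
  intro n
  rw [HahnSeries.coeff_mul]
  exact ιC.range.sum_mem fun ij _ => ιC.range.mul_mem (hs _) (ht _)

theorem isKSeries_neg {s : LaurentSeries ℂ} (hs : IsKSeries s) : IsKSeries (-s) := by
  intro n
  rw [HahnSeries.coeff_neg]
  exact ιC.range.neg_mem (hs n)

theorem isKSeries_C (c : Kbar) : IsKSeries (HahnSeries.C (ιC c)) := by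
  intro n
  by_cases hn : n = 0
  · subst hn
    exact ⟨c, by rw [HahnSeries.C_apply, HahnSeries.coeff_single_same]⟩
  · rw [HahnSeries.C_apply, HahnSeries.coeff_single_of_ne hn]
    exact ιC.range.zero_mem

theorem isKSeries_zero : IsKSeries 0 := fun _ => ιC.range.zero_mem

theorem isKSeries_one : IsKSeries 1 := by
  have h := isKSeries_C 1
  rwa [map_one, map_one] at h

/-- `φ` and all its `SL(2,ℤ)`-conjugates have `ℚ̄`-rational expansion at `i∞`. -/
def IsKRat (N : ℕ) [NeZero N] (φ : WH N) : Prop :=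
  ∀ g : SL(2, ℤ), IsKSeries (expInf N (g • φ))

/-- The subring of `ℚ̄`-rational weakly holomorphic functions. -/
noncomputable def KRat (N : ℕ) [NeZero N] : Subring (WH N) where
  carrier := {φ | IsKRat N φ}
  mul_mem' := by
    intro a b ha hb g
    rw [smul_mul', map_mul]
    exact isKSeries_mul (ha g) (hb g)
  one_mem' := by
    intro g
    rw [smul_one, map_one]
    exact isKSeries_one
  add_mem' := by
    intro a b ha hb g
    rw [smul_add, map_add]
    exact isKSeries_add (ha g) (hb g)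
  zero_mem' := by
    intro g
    rw [smul_zero, map_zero]
    exact isKSeries_zero
  neg_mem' := by
    intro a ha g
    rw [smul_neg, map_neg]
    exact isKSeries_neg (ha g)

theorem mem_KRat {N : ℕ} [NeZero N] {φ : WH N} : φ ∈ KRat N ↔ IsKRat N φ := Iff.rfl

theorem smul_mem_KRat {N : ℕ} [NeZero N] {φ : WH N} (h : φ ∈ KRat N) (g : SL(2, ℤ)) :
    g • φ ∈ KRat N := by
  intro g'
  rw [← mul_smul]
  exact h (g' * g)

theorem whC_mem_KRat (N : ℕ) [NeZero N] (c : Kbar) : whC N (ιC c) ∈ KRat N := by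
  intro g
  rw [smul_whC, expInf_whC]
  exact isKSeries_C c

/-- AN-5 (Hermite normal form `d·g = g'·(a b; 0 δ)`, `j((az+b)/δ) = Σ c_n ζ_δ^{bn} q^{an/δ}`). -/
theorem jdWH_mem_KRat (N d : ℕ) [NeZero N] (hd : d ∣ N) : jdWH N d hd ∈ KRat N :=
  fun g n => jd_conj_expInf_coeff_mem hd ιC (jdWH N d hd) (fun _ => rfl) g n

/-- AN-4 (level one): an `SL(2,ℤ)`-invariant weakly holomorphic function with `ℚ̄`-rational
expansion at `i∞` is a polynomial in `j` with coefficients in `ℚ̄`. -/
theorem levelOne_poly (N : ℕ) [NeZero N] (φ : WH N) (hinv : ∀ g : SL(2, ℤ), g • φ = φ)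
    (hrat : IsKSeries (expInf N φ)) :
    ∃ P : Polynomial Kbar, φ = Polynomial.eval₂ ((whC N).comp ιC) (jWH N) P :=
  levelOne_poly_core N φ hinv hrat

end Fermat.Agent.S24lib
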