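/-
S24 library, AN-6 / AN-7 (helper4).
For every injective ring hom `E : WH N →+* ℂ((x))` ("expansion at a point or cusp") the induced
embedding `embF N E hE : FF N →+* ℂ((x))` of the function field; twists by `SL(2,ℤ)`;
`FF_induction`, `FF_ringHom_ext`; polynomials in `j` (`jpoly`, `jpolyF`).
The representation lemma `FF_repr` and `sym_embF` are in `Sym.lean`.
-/
import Mathlib
import Fermat.Agent.S24lib.KRat
import Fermat.Agent.S24lib.Dist
import Fermat.Agent.S24lib.JSurj
import Fermat.Prelude.Thm_ModularCurve_coeffMap_qExpand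

set_option autoImplicit false

open scoped MatrixGroups ModularForm Manifold Topology
open UpperHalfPlane ModularForm CongruenceSubgroup Filter ModularCurve IntermediateField

namespace Fermat.Agent.S24lib

noncomputable instance fintypeQuotGamma0 (N : ℕ) [NeZero N] : Fintype (SL(2, ℤ) ⧸ Gamma0 N) :=
  Fintype.ofFinite _

noncomputable def whAct (N : ℕ) (g : SL(2, ℤ)) : WH N →+* WH N :=
  MulSemiringAction.toRingHom SL(2, ℤ) (WH N) g

@[simp] lemma whAct_apply (N : ℕ) (g : SL(2, ℤ)) (f : WH N) : whAct N g f = g • f := rfl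

lemma whAct_injective (N : ℕ) (g : SL(2, ℤ)) : Function.Injective (whAct N g) :=
  MulAction.injective g

/-- `WH N` is a domain (it embeds into the field of Laurent series). -/
instance isDomain_WH (N : ℕ) [NeZero N] : IsDomain (WH N) :=
  Function.Injective.isDomain (expInf N) (expInf_injective N)

/-- coefficient embedding followed by `q ↦ q_N^N` -/
noncomputable def inclL (N : ℕ) [NeZero N] : LaurentSeries Kbar →+* LaurentSeries ℂ :=
  (qExpand ℂ N).comp (coeffMap ιC)

/-- the field of fractions of `WH N` -/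
abbrev MF (N : ℕ) [NeZero N] : Type := FractionRing (WH N)

/-- extension of an injective ring hom `WH N → ℂ((x))` to the fraction field -/
noncomputable def liftMF (N : ℕ) [NeZero N] (E : WH N →+* LaurentSeries ℂ)
    (hE : Function.Injective E) : MF N →+* LaurentSeries ℂ :=
  IsFractionRing.lift (A := WH N) (K := MF N) (g := E) hE

lemma liftMF_algebraMap (N : ℕ) [NeZero N] (E : WH N →+* LaurentSeries ℂ)
    (hE : Function.Injective E) (a : WH N) :
    liftMF N E hE (algebraMap (WH N) (MF N) a) = E a :=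
  IsFractionRing.lift_algebraMap hE a

lemma ιC_comp_algebraMap : ιC.comp (algebraMap ℚ Kbar) = algebraMap ℚ ℂ :=
  Subsingleton.elim _ _

lemma inclL_coeffEmb (N : ℕ) [NeZero N] (x : LaurentSeries ℚ) :
    inclL N (coeffEmb Kbar x) = qExpand ℂ N (coeffMap (algebraMap ℚ ℂ) x) := by
  unfold inclL coeffEmb
  simp only [RingHom.comp_apply]
  rw [coeffMap_coeffMap, ιC_comp_algebraMap]

lemma inclL_algebraMap (N : ℕ) [NeZero N] (c : Kbar) :
    inclL N (algebraMap Kbar (LaurentSeries Kbar) c) = HahnSeries.C (ιC c) := by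
  unfold inclL
  simp only [RingHom.comp_apply]
  rw [algebraMap_laurentSeries_eq_single, coeffMap_single, qExpand_single, mul_zero]
  rfl

/-- the image of `FF N` in `ℂ((q_N))` lies in the range of the expansion of `MF N` -/
lemma inclL_mem_range (N : ℕ) [NeZero N] (x : LaurentSeries Kbar)
    (hx : x ∈ modularFunctionFieldBar N) :
    inclL N x ∈ (liftMF N (expInf N) (expInf_injective N)).fieldRange := by
  set R := (liftMF N (expInf N) (expInf_injective N)).fieldRange with hR
  have key : ∀ a : WH N, expInf N a ∈ R := fun a =>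
    ⟨algebraMap (WH N) (MF N) a, liftMF_algebraMap N _ _ a⟩
  rw [mem_laurentBaseChange_iff] at hx
  have hle : Subfield.closure (Set.range (algebraMap Kbar (LaurentSeries Kbar)) ∪
      (⇑(coeffEmb Kbar) '' ((modularFunctionFieldFull N : IntermediateField ℚ (LaurentSeries ℚ)) :
        Set (LaurentSeries ℚ)))) ≤ R.comap (inclL N) := by
    rw [Subfield.closure_le]
    rintro y (⟨c, rfl⟩ | ⟨z, hz, rfl⟩)
    · show inclL N _ ∈ R
      rw [inclL_algebraMap, ← expInf_whC N]
      exact key _
    · show inclL N _ ∈ R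
      have hz' : z ∈ Subfield.closure (Set.range (algebraMap ℚ (LaurentSeries ℚ)) ∪
          divisorExpansions N) := hz
      have hle2 : Subfield.closure (Set.range (algebraMap ℚ (LaurentSeries ℚ)) ∪
          divisorExpansions N) ≤ (R.comap (inclL N)).comap (coeffEmb Kbar) := by
        rw [Subfield.closure_le]
        rintro w (⟨c, rfl⟩ | ⟨d, hd0, hd, rfl⟩)
        · show inclL N (coeffEmb Kbar _) ∈ R
          have : coeffEmb Kbar (algebraMap ℚ (LaurentSeries ℚ) c) =
              algebraMap Kbar (LaurentSeries Kbar) (algebraMap ℚ Kbar c) := by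
            rw [algebraMap_apply_eq_single, algebraMap_laurentSeries_eq_single]
            unfold coeffEmb
            rw [coeffMap_single]
          rw [this, inclL_algebraMap, ← expInf_whC N]
          exact key _
        · show inclL N (coeffEmb Kbar _) ∈ R
          haveI := hd0
          rw [inclL_coeffEmb, coeffMap_qExpand, ← expInf_jdWH N d hd]
          exact key _
      exact hle2 hz'
  exact hle hx


/-- the embedding `FF N → MF N` (inverse of the expansion at `i∞`) -/
noncomputable def ιF (N : ℕ) [NeZero N] : FF N →+* MF N where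
  toFun f := (inclL_mem_range N (f : LaurentSeries Kbar) f.2).choose
  map_one' := by
    apply (liftMF N (expInf N) (expInf_injective N)).injective
    rw [(inclL_mem_range N ((1 : FF N) : LaurentSeries Kbar) (1 : FF N).2).choose_spec]
    simp
  map_mul' f g := by
    apply (liftMF N (expInf N) (expInf_injective N)).injective
    rw [map_mul, (inclL_mem_range N ((f * g : FF N) : LaurentSeries Kbar) (f * g).2).choose_spec,
      (inclL_mem_range N (f : LaurentSeries Kbar) f.2).choose_spec,
      (inclL_mem_range N (g : LaurentSeries Kbar) g.2).choose_spec]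
    simp
  map_zero' := by
    apply (liftMF N (expInf N) (expInf_injective N)).injective
    rw [(inclL_mem_range N ((0 : FF N) : LaurentSeries Kbar) (0 : FF N).2).choose_spec]
    simp
  map_add' f g := by
    apply (liftMF N (expInf N) (expInf_injective N)).injective
    rw [map_add, (inclL_mem_range N ((f + g : FF N) : LaurentSeries Kbar) (f + g).2).choose_spec,
      (inclL_mem_range N (f : LaurentSeries Kbar) f.2).choose_spec,
      (inclL_mem_range N (g : LaurentSeries Kbar) g.2).choose_spec]
    simp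

lemma liftMF_ιF (N : ℕ) [NeZero N] (f : FF N) :
    liftMF N (expInf N) (expInf_injective N) (ιF N f) = inclL N (f : LaurentSeries Kbar) :=
  (inclL_mem_range N (f : LaurentSeries Kbar) f.2).choose_spec

lemma ιF_eq_algebraMap (N : ℕ) [NeZero N] (f : FF N) (a : WH N)
    (h : expInf N a = inclL N (f : LaurentSeries Kbar)) :
    ιF N f = algebraMap (WH N) (MF N) a := by
  apply (liftMF N (expInf N) (expInf_injective N)).injective
  rw [liftMF_ιF, liftMF_algebraMap, h]

lemma ιF_const (N : ℕ) [NeZero N] (c : Kbar) :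
    ιF N (algebraMap Kbar (FF N) c) = algebraMap (WH N) (MF N) (whC N (ιC c)) := by
  apply ιF_eq_algebraMap
  rw [expInf_whC]
  exact (inclL_algebraMap N c).symm

lemma ιF_jdF (N : ℕ) [NeZero N] (d : ℕ) [NeZero d] (hd : d ∣ N) :
    ιF N (jdF N d hd) = algebraMap (WH N) (MF N) (jdWH N d hd) := by
  apply ιF_eq_algebraMap
  rw [expInf_jdWH N d hd, coe_jdF, inclL_coeffEmb, coeffMap_qExpand]

lemma ιF_jF (N : ℕ) [NeZero N] :
    ιF N (jF N) = algebraMap (WH N) (MF N) (jWH N) := by
  apply ιF_eq_algebraMap
  rw [expInf_jWH N, coe_jF, inclL_coeffEmb]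

/-- The embedding of the function field induced by an expansion `E`. -/
noncomputable def embF (N : ℕ) [NeZero N] (E : WH N →+* LaurentSeries ℂ)
    (hE : Function.Injective E) : FF N →+* LaurentSeries ℂ :=
  (liftMF N E hE).comp (ιF N)

theorem embF_const (N : ℕ) [NeZero N] (E : WH N →+* LaurentSeries ℂ)
    (hE : Function.Injective E) (c : Kbar) :
    embF N E hE (algebraMap Kbar (FF N) c) = E (whC N (ιC c)) := by
  unfold embF
  rw [RingHom.comp_apply, ιF_const, liftMF_algebraMap]

theorem embF_jdF (N : ℕ) [NeZero N] (E : WH N →+* LaurentSeries ℂ)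
    (hE : Function.Injective E) (d : ℕ) [NeZero d] (hd : d ∣ N) :
    embF N E hE (jdF N d hd) = E (jdWH N d hd) := by
  unfold embF
  rw [RingHom.comp_apply, ιF_jdF, liftMF_algebraMap]

theorem embF_jF (N : ℕ) [NeZero N] (E : WH N →+* LaurentSeries ℂ)
    (hE : Function.Injective E) :
    embF N E hE (jF N) = E (jWH N) := by
  unfold embF
  rw [RingHom.comp_apply, ιF_jF, liftMF_algebraMap]

/-- the expansion `E` twisted by `g`: `f ↦ E (g • f)` -/
noncomputable def twist (N : ℕ) (E : WH N →+* LaurentSeries ℂ) (g : SL(2, ℤ)) :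
    WH N →+* LaurentSeries ℂ := E.comp (whAct N g)

lemma twist_apply (N : ℕ) (E : WH N →+* LaurentSeries ℂ) (g : SL(2, ℤ)) (a : WH N) :
    twist N E g a = E (g • a) := rfl

lemma twist_injective (N : ℕ) {E : WH N →+* LaurentSeries ℂ} (hE : Function.Injective E)
    (g : SL(2, ℤ)) : Function.Injective (twist N E g) :=
  hE.comp (whAct_injective N g)

/-- `embF` on a fraction `a / b` -/
lemma embF_of_ιF_mul (N : ℕ) [NeZero N] (E : WH N →+* LaurentSeries ℂ)
    (hE : Function.Injective E) (f : FF N) (a b : WH N)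
    (h : ιF N f * algebraMap (WH N) (MF N) b = algebraMap (WH N) (MF N) a) :
    embF N E hE f * E b = E a := by
  unfold embF
  rw [RingHom.comp_apply, ← liftMF_algebraMap N E hE b, ← map_mul, h, liftMF_algebraMap]


/-- Induction principle: `FF N` is generated as a field by the constants and the `j(q^d)`. -/
theorem FF_induction (N : ℕ) [NeZero N] {p : FF N → Prop}
    (hc : ∀ c : Kbar, p (algebraMap Kbar (FF N) c))
    (hj : ∀ (d : ℕ) [NeZero d] (hd : d ∣ N), p (jdF N d hd))
    (hadd : ∀ x y, p x → p y → p (x + y)) (hneg : ∀ x, p x → p (-x))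
    (hmul : ∀ x y, p x → p y → p (x * y)) (hinv : ∀ x, p x → p x⁻¹) : ∀ x, p x := by
  have h1 : p 1 := by simpa using hc 1
  -- first the elements `coeffEmb z`, `z ∈ F₀`
  have hF0 : ∀ z : LaurentSeries ℚ, ∀ hz : z ∈ modularFunctionFieldFull N,
      p ⟨coeffEmb Kbar z, coeffEmb_mem_laurentBaseChange Kbar hz⟩ := by
    intro z hz
    have hz' : z ∈ Subfield.closure (Set.range (algebraMap ℚ (LaurentSeries ℚ)) ∪
        divisorExpansions N) := hz
    induction hz' using Subfield.closure_induction with
    | mem y hy =>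
      rcases hy with ⟨c, rfl⟩ | ⟨d, hd0, hd, rfl⟩
      · have : (⟨coeffEmb Kbar (algebraMap ℚ (LaurentSeries ℚ) c),
            coeffEmb_mem_laurentBaseChange Kbar hz⟩ : FF N) =
            algebraMap Kbar (FF N) (algebraMap ℚ Kbar c) := by
          apply Subtype.ext
          show coeffEmb Kbar (algebraMap ℚ (LaurentSeries ℚ) c) =
            algebraMap Kbar (LaurentSeries Kbar) (algebraMap ℚ Kbar c)
          rw [algebraMap_apply_eq_single, algebraMap_laurentSeries_eq_single]
          unfold coeffEmb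
          rw [coeffMap_single]
        rw [this]; exact hc _
      · haveI := hd0
        exact hj d hd
    | one =>
      have : (⟨coeffEmb Kbar 1, coeffEmb_mem_laurentBaseChange Kbar hz⟩ : FF N) = 1 := by
        apply Subtype.ext; simp
      rw [this]; exact h1
    | add x y hx hy ihx ihy =>
      have hx' : x ∈ modularFunctionFieldFull N := hx
      have hy' : y ∈ modularFunctionFieldFull N := hy
      have := hadd _ _ (ihx hx') (ihy hy')
      convert this using 1
      apply Subtype.ext; simp
    | neg x hx ihx =>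
      have hx' : x ∈ modularFunctionFieldFull N := hx
      have := hneg _ (ihx hx')
      convert this using 1
      apply Subtype.ext; simp
    | inv x hx ihx =>
      have hx' : x ∈ modularFunctionFieldFull N := hx
      have := hinv _ (ihx hx')
      convert this using 1
      apply Subtype.ext
      simp
    | mul x y hx hy ihx ihy =>
      have hx' : x ∈ modularFunctionFieldFull N := hx
      have hy' : y ∈ modularFunctionFieldFull N := hy
      have := hmul _ _ (ihx hx') (ihy hy')
      convert this using 1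
      apply Subtype.ext; simp
  rintro ⟨x, hx⟩
  have hx' := hx
  rw [mem_laurentBaseChange_iff] at hx'
  induction hx' using Subfield.closure_induction with
  | mem y hy =>
    rcases hy with ⟨c, rfl⟩ | ⟨z, hz, rfl⟩
    · exact hc c
    · exact hF0 z hz
  | one => exact h1
  | add x y hx1 hy1 ihx ihy =>
    exact hadd ⟨x, hx1⟩ ⟨y, hy1⟩ (ihx hx1) (ihy hy1)
  | neg x hx1 ihx => exact hneg ⟨x, hx1⟩ (ihx hx1)
  | inv x hx1 ihx => exact hinv ⟨x, hx1⟩ (ihx hx1)
  | mul x y hx1 hy1 ihx ihy =>
    exact hmul ⟨x, hx1⟩ ⟨y, hy1⟩ (ihx hx1) (ihy hy1)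

/-- two ring homs on `FF N` agreeing on the constants and on the `j(q^d)` are equal -/
theorem FF_ringHom_ext (N : ℕ) [NeZero N] {R : Type*} [Field R] (φ ψ : FF N →+* R)
    (hc : ∀ c : Kbar, φ (algebraMap Kbar (FF N) c) = ψ (algebraMap Kbar (FF N) c))
    (hj : ∀ (d : ℕ) [NeZero d] (hd : d ∣ N), φ (jdF N d hd) = ψ (jdF N d hd)) : φ = ψ := by
  ext x
  induction x using FF_induction with
  | hc c => exact hc c
  | hj d hd => exact hj d hd
  | hadd x y hx hy => rw [map_add, map_add, hx, hy]
  | hneg x hx => rw [map_neg, map_neg, hx]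
  | hmul x y hx hy => rw [map_mul, map_mul, hx, hy]
  | hinv x hx => rw [map_inv₀, map_inv₀, hx]

theorem embF_twist_mul (N : ℕ) [NeZero N] {E : WH N →+* LaurentSeries ℂ}
    (hE : Function.Injective E) (g γ : SL(2, ℤ)) (hγ : γ ∈ Gamma0 N) :
    embF N (twist N E (g * γ)) (twist_injective N hE _) =
      embF N (twist N E g) (twist_injective N hE _) := by
  apply FF_ringHom_ext
  · intro c
    rw [embF_const, embF_const, twist_apply, twist_apply, smul_whC, smul_whC]
  · intro d _ hd
    rw [embF_jdF, embF_jdF, twist_apply, twist_apply, mul_smul, smul_jdWH hd γ hγ]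

lemma jdH_eq_jFun (d : ℕ) (z : ℍ) : jdH d z = jFun ((d : ℂ) * (z : ℂ)) := by
  unfold jdH jH jFun
  simp

theorem embF_twist_injective (N : ℕ) [NeZero N] {E : WH N →+* LaurentSeries ℂ}
    (hE : Function.Injective E) (g g' : SL(2, ℤ))
    (h : embF N (twist N E g) (twist_injective N hE _) =
      embF N (twist N E g') (twist_injective N hE _)) :
    g⁻¹ * g' ∈ Gamma0 N := by
  have h1 := congrArg (fun φ => φ (jdF N N dvd_rfl)) h
  simp only [embF_jdF, twist_apply] at h1
  have h2 : g • jdWH N N dvd_rfl = g' • jdWH N N dvd_rfl := hE h1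
  apply jN_comp_inv_injective
  intro z
  have h3 := congrArg (fun φ : WH N => (φ : ℍ → ℂ) z) h2
  simp only [wh_smul_apply] at h3
  have e1 : ((jdWH N N dvd_rfl : WH N) : ℍ → ℂ) = jdH N := rfl
  rw [e1, jdH_eq_jFun, jdH_eq_jFun] at h3
  exact h3


/-! ### polynomials in `j` -/

/-- `p(j)` as an element of `WH N`, for `p ∈ ℚ̄[X]` -/
noncomputable def jpoly (N : ℕ) (p : Polynomial Kbar) : WH N :=
  p.eval₂ ((whC N).comp ιC) (jWH N)

/-- `p(j)` as an element of `FF N` -/
noncomputable def jpolyF (N : ℕ) (p : Polynomial Kbar) : FF N :=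
  p.eval₂ (algebraMap Kbar (FF N)) (jF N)

lemma jpolyF_mem (N : ℕ) (p : Polynomial Kbar) : jpolyF N p ∈ Kbar⟮jF N⟯ := by
  unfold jpolyF
  rw [Polynomial.eval₂_eq_sum_range]
  refine sum_mem fun i _ => mul_mem (IntermediateField.algebraMap_mem _ _) (pow_mem (mem_adjoin_simple_self _ _) _)

lemma smul_jpoly (N : ℕ) (g : SL(2, ℤ)) (p : Polynomial Kbar) : g • jpoly N p = jpoly N p := by
  have h := Polynomial.hom_eval₂ p ((whC N).comp ιC) (whAct N g) (jWH N)
  simp only [whAct_apply] at h
  unfold jpoly
  rw [h, smul_jWH]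
  congr 1
  ext c : 1
  simp only [RingHom.comp_apply, whAct_apply, smul_whC]

lemma ιF_jpolyF (N : ℕ) [NeZero N] (p : Polynomial Kbar) :
    ιF N (jpolyF N p) = algebraMap (WH N) (MF N) (jpoly N p) := by
  unfold jpolyF jpoly
  rw [Polynomial.hom_eval₂, Polynomial.hom_eval₂, ιF_jF]
  congr 1
  ext c : 1
  simp only [RingHom.comp_apply, ιF_const]

lemma embF_jpolyF (N : ℕ) [NeZero N] (E : WH N →+* LaurentSeries ℂ)
    (hE : Function.Injective E) (p : Polynomial Kbar) :
    embF N E hE (jpolyF N p) = E (jpoly N p) := by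
  unfold embF
  rw [RingHom.comp_apply, ιF_jpolyF, liftMF_algebraMap]

/-- evaluation at a point as a ring hom -/
noncomputable def whEval (N : ℕ) (z : ℍ) : WH N →+* ℂ :=
  (Pi.evalRingHom (fun _ : ℍ => ℂ) z).comp (WH N).subtype

lemma whEval_apply (N : ℕ) (z : ℍ) (a : WH N) : whEval N z a = (a : ℍ → ℂ) z := rfl

lemma jpoly_apply (N : ℕ) (p : Polynomial Kbar) (z : ℍ) :
    ((jpoly N p : WH N) : ℍ → ℂ) z = (p.map ιC).eval (jH z) := by
  rw [← whEval_apply]
  unfold jpoly
  rw [Polynomial.hom_eval₂, Polynomial.eval_map]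
  congr 1

lemma jH_surjective (c : ℂ) : ∃ z : ℍ, jH z = c := by
  obtain ⟨z, hz⟩ := j_surjective c
  refine ⟨z, ?_⟩
  unfold jH
  rw [hz, mul_div_assoc, div_self (discriminant_ne_zero z), mul_one]

lemma jpoly_ne_zero (N : ℕ) {p : Polynomial Kbar} (hp : p ≠ 0) : jpoly N p ≠ 0 := by
  intro h
  apply hp
  have h1 : p.map ιC = 0 := by
    apply Polynomial.funext
    intro c
    obtain ⟨z, rfl⟩ := jH_surjective c
    rw [← jpoly_apply N p z, h]
    simp
  exact (Polynomial.map_eq_zero_iff ιC_injective).1 h1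

lemma jpoly_mul (N : ℕ) (p p' : Polynomial Kbar) : jpoly N (p * p') = jpoly N p * jpoly N p' := by
  unfold jpoly; rw [Polynomial.eval₂_mul]

lemma jpoly_one (N : ℕ) : jpoly N 1 = 1 := by
  unfold jpoly; rw [Polynomial.eval₂_one]

lemma jpolyF_mul (N : ℕ) (p p' : Polynomial Kbar) :
    jpolyF N (p * p') = jpolyF N p * jpolyF N p' := by
  unfold jpolyF; rw [Polynomial.eval₂_mul]

lemma jpoly_mem_KRat (N : ℕ) [NeZero N] (p : Polynomial Kbar) : jpoly N p ∈ KRat N := by
  unfold jpoly
  rw [Polynomial.eval₂_eq_sum_range]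
  refine sum_mem fun i _ => mul_mem ?_ (pow_mem ?_ _)
  · exact whC_mem_KRat N _
  · have h := jdWH_mem_KRat N 1 (one_dvd N)
    have e : jdWH N 1 (one_dvd N) = jWH N := by
      ext z
      show jdH 1 z = jH z
      unfold jdH
      simp
    rwa [e] at h

end Fermat.Agent.S24lib
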