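/-
S24 library, AN-7 (helper4): representation of elements of `FF N` as `a / p(j)` (`FF_repr`,
`embF_repr`) and the symmetric-function property `sym_embF` needed by `FiberData.sym`.
No sorry of its own (depends on the ExpInf/KRat interfaces).
-/
import Mathlib
import Fermat.Agent.S24lib.Embed

set_option autoImplicit false

open scoped MatrixGroups ModularForm Manifold Topology
open UpperHalfPlane ModularForm CongruenceSubgroup Filter ModularCurve IntermediateField

namespace Fermat.Agent.S24lib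

/-- for a `Γ₀(N)`-invariant `a`, the conjugate `g • a` only depends on the coset of `g` -/
lemma sym_smul_out (N : ℕ) [NeZero N] {a : WH N} (hinv : ∀ γ ∈ Gamma0 N, γ • a = a)
    (g : SL(2, ℤ)) : (QuotientGroup.mk g : SL(2, ℤ) ⧸ Gamma0 N).out • a = g • a := by
  have h : g⁻¹ * (QuotientGroup.mk g : SL(2, ℤ) ⧸ Gamma0 N).out ∈ Gamma0 N := by
    rw [← QuotientGroup.eq]
    exact (QuotientGroup.out_eq' _).symm
  have e : (QuotientGroup.mk g : SL(2, ℤ) ⧸ Gamma0 N).out =
      g * (g⁻¹ * (QuotientGroup.mk g : SL(2, ℤ) ⧸ Gamma0 N).out) := by group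
  rw [e, mul_smul, hinv _ h]

lemma sym_smul_conj (N : ℕ) [NeZero N] {a : WH N} (hinv : ∀ γ ∈ Gamma0 N, γ • a = a)
    (g : SL(2, ℤ)) (q : SL(2, ℤ) ⧸ Gamma0 N) : g • (q.out • a) = (g • q).out • a := by
  have hq : g • q = QuotientGroup.mk (g * q.out) := by
    conv_lhs => rw [← QuotientGroup.out_eq' q]
    rfl
  rw [hq, sym_smul_out N hinv, mul_smul]

/-- the norm `∏_q (q.out • a)` -/
noncomputable def symNorm (N : ℕ) [NeZero N] (a : WH N) : WH N :=
  ∏ q : SL(2, ℤ) ⧸ Gamma0 N, q.out • a

lemma smul_symNorm (N : ℕ) [NeZero N] {a : WH N} (hinv : ∀ γ ∈ Gamma0 N, γ • a = a)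
    (g : SL(2, ℤ)) : g • symNorm N a = symNorm N a := by
  unfold symNorm
  rw [Finset.smul_prod']
  simp only [sym_smul_conj N hinv]
  exact Fintype.prod_equiv (MulAction.toPerm g) _ _ (fun q => rfl)

lemma symNorm_mem_KRat (N : ℕ) [NeZero N] {a : WH N} (ha : a ∈ KRat N) :
    symNorm N a ∈ KRat N :=
  prod_mem fun q _ => smul_mem_KRat ha _

lemma symNorm_ne_zero (N : ℕ) [NeZero N] {a : WH N} (ha : a ≠ 0) : symNorm N a ≠ 0 := by
  unfold symNorm
  rw [Finset.prod_ne_zero_iff]
  intro q _ h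
  apply ha
  have := congrArg (fun x => (q.out)⁻¹ • x) h
  simpa using this

lemma exists_jpoly_eq (N : ℕ) [NeZero N] {b : WH N} (hb : b ∈ KRat N)
    (hinv : ∀ g : SL(2, ℤ), g • b = b) : ∃ P : Polynomial Kbar, b = jpoly N P := by
  have h1 := hb 1
  rw [one_smul] at h1
  exact levelOne_poly N b hinv h1


lemma algebraMap_MF_injective (N : ℕ) [NeZero N] :
    Function.Injective (algebraMap (WH N) (MF N)) :=
  IsFractionRing.injective (WH N) (MF N)

/-- Every element of `FF N` is `a / p(j)` with `a` a `Γ₀(N)`-invariant `ℚ̄`-rational weakly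
holomorphic function and `p ∈ ℚ̄[X]` nonzero. -/
theorem FF_repr (N : ℕ) [NeZero N] (f : FF N) :
    ∃ (a : WH N) (p : Polynomial Kbar), p ≠ 0 ∧ a ∈ KRat N ∧
      (∀ γ ∈ Gamma0 N, γ • a = a) ∧
      ιF N f * algebraMap (WH N) (MF N) (jpoly N p) = algebraMap (WH N) (MF N) a := by
  induction f using FF_induction with
  | hc c =>
    refine ⟨whC N (ιC c), 1, one_ne_zero, whC_mem_KRat N c, fun γ _ => smul_whC N γ _, ?_⟩
    rw [jpoly_one, map_one, mul_one, ιF_const]
  | hj d hd =>
    refine ⟨jdWH N d hd, 1, one_ne_zero, jdWH_mem_KRat N d hd, fun γ hγ => smul_jdWH hd γ hγ, ?_⟩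
    rw [jpoly_one, map_one, mul_one, ιF_jdF]
  | hadd x y hx hy =>
    obtain ⟨a, p, hp, ha, hai, hap⟩ := hx
    obtain ⟨a', p', hp', ha', hai', hap'⟩ := hy
    refine ⟨a * jpoly N p' + a' * jpoly N p, p * p', mul_ne_zero hp hp',
      add_mem (mul_mem ha (jpoly_mem_KRat N p')) (mul_mem ha' (jpoly_mem_KRat N p)), ?_, ?_⟩
    · intro γ hγ
      rw [smul_add, smul_mul', smul_mul', hai γ hγ, hai' γ hγ, smul_jpoly, smul_jpoly]
    · have e1 : ιF N (x + y) = ιF N x + ιF N y := (ιF N).map_add x y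
      rw [jpoly_mul, e1, (algebraMap (WH N) (MF N)).map_mul, (algebraMap (WH N) (MF N)).map_add,
        (algebraMap (WH N) (MF N)).map_mul, (algebraMap (WH N) (MF N)).map_mul, ← hap, ← hap']
      ring
  | hneg x hx =>
    obtain ⟨a, p, hp, ha, hai, hap⟩ := hx
    refine ⟨-a, p, hp, neg_mem ha, ?_, ?_⟩
    · intro γ hγ
      rw [smul_neg, hai γ hγ]
    · rw [(ιF N).map_neg, (algebraMap (WH N) (MF N)).map_neg, ← hap, neg_mul]
  | hmul x y hx hy =>
    obtain ⟨a, p, hp, ha, hai, hap⟩ := hx
    obtain ⟨a', p', hp', ha', hai', hap'⟩ := hy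
    refine ⟨a * a', p * p', mul_ne_zero hp hp', mul_mem ha ha', ?_, ?_⟩
    · intro γ hγ
      rw [smul_mul', hai γ hγ, hai' γ hγ]
    · rw [jpoly_mul, (ιF N).map_mul, (algebraMap (WH N) (MF N)).map_mul,
        (algebraMap (WH N) (MF N)).map_mul, ← hap, ← hap']
      ring
  | hinv x hx =>
    obtain ⟨a, p, hp, ha, hai, hap⟩ := hx
    by_cases ha0 : a = 0
    · -- then `x = 0`
      have hx0 : x = 0 := by
        have h1 : algebraMap (WH N) (MF N) (jpoly N p) ≠ 0 := fun h =>
          jpoly_ne_zero N hp (algebraMap_MF_injective N (by rw [h, map_zero]))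
        rw [ha0, map_zero] at hap
        have h2 : ιF N x = 0 := (mul_eq_zero.1 hap).resolve_right h1
        exact (ιF N).injective (by rw [h2, map_zero])
      refine ⟨0, 1, one_ne_zero, zero_mem _, fun γ _ => smul_zero γ, ?_⟩
      rw [hx0, inv_zero, map_zero, zero_mul, map_zero]
    · -- norm trick
      classical
      set q₁ : SL(2, ℤ) ⧸ Gamma0 N := QuotientGroup.mk 1 with hq₁
      set b : WH N := ∏ q ∈ (Finset.univ.erase q₁), q.out • a with hb
      have hq₁a : q₁.out • a = a := by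
        rw [hq₁, sym_smul_out N hai, one_smul]
      have hn : symNorm N a = a * b := by
        unfold symNorm
        rw [← Finset.mul_prod_erase Finset.univ _ (Finset.mem_univ q₁), hq₁a]
      have hbK : b ∈ KRat N := prod_mem fun q _ => smul_mem_KRat ha _
      have hbinv : ∀ γ ∈ Gamma0 N, γ • b = b := by
        intro γ hγ
        have h1 : γ • symNorm N a = symNorm N a := smul_symNorm N hai γ
        rw [hn, smul_mul', hai γ hγ] at h1
        exact mul_left_cancel₀ ha0 h1
      obtain ⟨P, hP⟩ := exists_jpoly_eq N (symNorm_mem_KRat N ha) (smul_symNorm N hai)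
      have hP0 : P ≠ 0 := by
        rintro rfl
        apply symNorm_ne_zero N ha0
        rw [hP]
        unfold jpoly
        rw [Polynomial.eval₂_zero]
      refine ⟨jpoly N p * b, P, hP0, mul_mem (jpoly_mem_KRat N p) hbK, ?_, ?_⟩
      · intro γ hγ
        rw [smul_mul', smul_jpoly, hbinv γ hγ]
      · have haM : algebraMap (WH N) (MF N) a ≠ 0 := fun h =>
          ha0 (algebraMap_MF_injective N (by rw [h, map_zero]))
        have hx0 : ιF N x ≠ 0 := by
          intro h
          rw [h, zero_mul] at hap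
          exact haM hap.symm
        rw [map_inv₀, ← hP, hn, (algebraMap (WH N) (MF N)).map_mul,
          (algebraMap (WH N) (MF N)).map_mul, ← hap]
        have hj : algebraMap (WH N) (MF N) (jpoly N p) ≠ 0 := fun h =>
          jpoly_ne_zero N hp (algebraMap_MF_injective N (by rw [h, map_zero]))
        field_simp


/-- consequence of `FF_repr` for any expansion -/
theorem embF_repr (N : ℕ) [NeZero N] (f : FF N) :
    ∃ (a : WH N) (p : Polynomial Kbar), p ≠ 0 ∧ a ∈ KRat N ∧
      (∀ γ ∈ Gamma0 N, γ • a = a) ∧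
      ∀ (E : WH N →+* LaurentSeries ℂ) (hE : Function.Injective E) (g : SL(2, ℤ)),
        embF N (twist N E g) (twist_injective N hE g) f * E (jpoly N p) = E (g • a) := by
  obtain ⟨a, p, hp, ha, hinv, h⟩ := FF_repr N f
  refine ⟨a, p, hp, ha, hinv, fun E hE g => ?_⟩
  have := embF_of_ιF_mul N (twist N E g) (twist_injective N hE g) f a (jpoly N p) h
  rwa [twist_apply, twist_apply, smul_jpoly] at this

/-- every `f ∈ FF N` is a quotient `a / b` of `Γ₀(N)`-invariant elements of `WH N`
(form requested by helper28 for AN-10) -/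
theorem embF_exists_div (N : ℕ) [NeZero N] (f : FF N) :
    ∃ a b : WH N, b ≠ 0 ∧ (∀ γ ∈ Gamma0 N, γ • a = a) ∧ (∀ γ ∈ Gamma0 N, γ • b = b) ∧
      ∀ (E : WH N →+* LaurentSeries ℂ) (hE : Function.Injective E),
        embF N E hE f * E b = E a := by
  obtain ⟨a, p, hp, _, hinv, h⟩ := FF_repr N f
  exact ⟨a, jpoly N p, jpoly_ne_zero N hp, hinv, fun γ _ => smul_jpoly N γ p,
    fun E hE => embF_of_ιF_mul N E hE f a (jpoly N p) h⟩

open Polynomial in
/-- the polynomial `∏_q (X - q.out • a)` -/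
noncomputable def symPoly (N : ℕ) [NeZero N] (a : WH N) : Polynomial (WH N) :=
  ∏ q : SL(2, ℤ) ⧸ Gamma0 N, (X - C (q.out • a))

open Polynomial in
lemma symPoly_map_whAct (N : ℕ) [NeZero N] {a : WH N} (hinv : ∀ γ ∈ Gamma0 N, γ • a = a)
    (g : SL(2, ℤ)) : (symPoly N a).map (whAct N g) = symPoly N a := by
  unfold symPoly
  rw [Polynomial.map_prod]
  simp only [Polynomial.map_sub, Polynomial.map_X, Polynomial.map_C, whAct_apply,
    sym_smul_conj N hinv]
  exact Fintype.prod_equiv (MulAction.toPerm g) _ _ (fun q => rfl)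

lemma symPoly_coeff_smul (N : ℕ) [NeZero N] {a : WH N} (hinv : ∀ γ ∈ Gamma0 N, γ • a = a)
    (k : ℕ) (g : SL(2, ℤ)) : g • (symPoly N a).coeff k = (symPoly N a).coeff k := by
  have h := congrArg (fun Q => Polynomial.coeff Q k) (symPoly_map_whAct N hinv g)
  simpa [Polynomial.coeff_map] using h

open Polynomial in
lemma symPoly_coeff_mem (N : ℕ) [NeZero N] {a : WH N} (ha : a ∈ KRat N) (k : ℕ) :
    (symPoly N a).coeff k ∈ KRat N := by
  have h : symPoly N a = (∏ q : SL(2, ℤ) ⧸ Gamma0 N,
      (X - C (⟨q.out • a, smul_mem_KRat ha _⟩ : KRat N))).map (KRat N).subtype := by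
    unfold symPoly
    rw [Polynomial.map_prod]
    simp only [Polynomial.map_sub, Polynomial.map_X, Polynomial.map_C, Subring.coe_subtype]
  rw [h, Polynomial.coeff_map]
  exact Subtype.property _

open Polynomial in
lemma symPoly_natDegree (N : ℕ) [NeZero N] (a : WH N) :
    (symPoly N a).natDegree = Fintype.card (SL(2, ℤ) ⧸ Gamma0 N) := by
  unfold symPoly
  rw [Polynomial.natDegree_prod_of_monic _ _ (fun q _ => Polynomial.monic_X_sub_C _)]
  simp

lemma sym_aux_ring {R : Type*} [CommRing R] (a b x y : R) (h : a * b = 1) :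
    a * (b * x - y) = x - a * y := by
  linear_combination x * h

set_option synthInstance.maxHeartbeats 400000 in
set_option maxHeartbeats 1000000 in
open Polynomial in
/-- AN-7 (sym): the characteristic polynomial of `f` w.r.t. the conjugate embeddings has
coefficients in `ℚ̄(j)`. -/
theorem sym_embF (N : ℕ) [NeZero N] {E : WH N →+* LaurentSeries ℂ}
    (hE : Function.Injective E) (f : FF N) :
    ∃ P : Polynomial (FF N), (∀ k, P.coeff k ∈ Kbar⟮jF N⟯) ∧
      ∀ g₀ : SL(2, ℤ), P.map (embF N (twist N E g₀) (twist_injective N hE _)) =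
        ∏ q : SL(2, ℤ) ⧸ Gamma0 N, (Polynomial.X - Polynomial.C
          (embF N (twist N E q.out) (twist_injective N hE _) f)) := by
  classical
  obtain ⟨a, p, hp, ha, hai, hap⟩ := embF_repr N f
  choose Pk hPk using fun k => exists_jpoly_eq N (symPoly_coeff_mem N ha k)
    (symPoly_coeff_smul N hai k)
  set n := Fintype.card (SL(2, ℤ) ⧸ Gamma0 N) with hn
  let jK : Polynomial Kbar → Kbar⟮jF N⟯ := fun r => ⟨jpolyF N r, jpolyF_mem N r⟩
  let QK : Polynomial (Kbar⟮jF N⟯) := ∑ k ∈ Finset.range (n + 1), C (jK (Pk k)) * X ^ k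
  let PK : Polynomial (Kbar⟮jF N⟯) := C ((jK p) ^ n)⁻¹ * QK.comp (C (jK p) * X)
  refine ⟨PK.map (algebraMap Kbar⟮jF N⟯ (FF N)), ?_, ?_⟩
  · intro k
    rw [Polynomial.coeff_map]
    exact (PK.coeff k).2
  · intro g₀
    rw [Polynomial.map_map]
    set τ : Kbar⟮jF N⟯ →+* LaurentSeries ℂ :=
      (embF N (twist N E g₀) (twist_injective N hE _)).comp (algebraMap Kbar⟮jF N⟯ (FF N)) with hτdef
    have hτ : ∀ r, τ (jK r) = E (jpoly N r) := fun r => by
      show embF N (twist N E g₀) (twist_injective N hE _) (jpolyF N r) = _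
      rw [embF_jpolyF, twist_apply, smul_jpoly]
    have hdeg : ((symPoly N a).map E).natDegree < n + 1 := by
      have := Polynomial.natDegree_map_le (f := E) (p := symPoly N a)
      rw [symPoly_natDegree] at this
      omega
    have hQK : QK.map τ = (symPoly N a).map E := by
      rw [Polynomial.as_sum_range' ((symPoly N a).map E) (n + 1) hdeg, Polynomial.map_sum]
      refine Finset.sum_congr rfl fun k _ => ?_
      rw [Polynomial.map_mul, Polynomial.map_C, Polynomial.map_pow, Polynomial.map_X, hτ,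
        ← hPk k, Polynomial.coeff_map, ← Polynomial.C_mul_X_pow_eq_monomial]
    have he : E (jpoly N p) ≠ 0 := fun h =>
      jpoly_ne_zero N hp (hE (by rw [h, map_zero]))
    have hPK : PK.map τ = C ((E (jpoly N p)) ^ n)⁻¹ *
        ((symPoly N a).map E).comp (C (E (jpoly N p)) * X) := by
      show (C ((jK p) ^ n)⁻¹ * QK.comp (C (jK p) * X)).map τ = _
      rw [Polynomial.map_mul, Polynomial.map_C, Polynomial.map_comp, Polynomial.map_mul,
        Polynomial.map_C, Polynomial.map_X, hQK, map_inv₀, map_pow, hτ]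
    rw [hPK]
    unfold symPoly
    rw [Polynomial.map_prod, Polynomial.prod_comp]
    have hconst : (C ((E (jpoly N p)) ^ n)⁻¹ : Polynomial (LaurentSeries ℂ)) =
        ∏ _q : SL(2, ℤ) ⧸ Gamma0 N, C (E (jpoly N p))⁻¹ := by
      rw [Finset.prod_const, Finset.card_univ, ← inv_pow, Polynomial.C_pow]
    rw [hconst, ← Finset.prod_mul_distrib]
    refine Finset.prod_congr rfl fun q _ => ?_
    have hq := hap E hE q.out
    have hq' : embF N (twist N E q.out) (twist_injective N hE _) f =
        E (q.out • a) / E (jpoly N p) := by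
      rw [eq_div_iff he]; exact hq
    rw [hq', Polynomial.map_sub, Polynomial.map_X, Polynomial.map_C, Polynomial.sub_comp,
      Polynomial.X_comp, Polynomial.C_comp, div_eq_inv_mul, Polynomial.C_mul]
    have h1 : (C (E (jpoly N p))⁻¹ : Polynomial (LaurentSeries ℂ)) * C (E (jpoly N p)) = 1 := by
      rw [← Polynomial.C_mul, inv_mul_cancel₀ he, Polynomial.C_1]
    exact sym_aux_ring (R := Polynomial (LaurentSeries ℂ)) _ _ _ _ h1

end Fermat.Agent.S24lib
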