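/-
S24 library, AN-10, cusp fibre (helper2): the `FiberData` of `FF N` over `j = ∞`
(`u = j⁻¹`, `g = T`, `s = N`, expansions `σ q f` = `q_N`-expansion of the conjugate of `f` by a
representative of the coset `q ∈ SL(2,ℤ) ⧸ Γ₀(N)`).
Uses only the interfaces of `ExpInf.lean`, `Embed.lean`, `Sym.lean`.
-/
import Mathlib
import Fermat.Agent.S24lib.Sym
import Fermat.Agent.S24lib.FiberData

set_option autoImplicit false

open scoped MatrixGroups ModularForm Manifold Topology
open UpperHalfPlane ModularForm CongruenceSubgroup Filter ModularCurve IntermediateField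

namespace Fermat.Agent.S24lib

/-! ### rotation of the `q_N`-expansion by `T` -/

lemma finf_coeff_T_pow_smul (N : ℕ) [NeZero N] (f : WH N) (h : ℕ) (n : ℤ) :
    (expInf N (ModularGroup.T ^ h • f)).coeff n =
      Complex.exp (-2 * Real.pi * Complex.I * n / N) ^ h * (expInf N f).coeff n := by
  induction h with
  | zero => simp
  | succ h ih =>
    rw [pow_succ', mul_smul, coeff_expInf_T_smul, ih, pow_succ']
    ring

lemma finf_coeff_T_smul_ne_zero_iff (N : ℕ) [NeZero N] (f : WH N) (n : ℤ) :
    (expInf N (ModularGroup.T • f)).coeff n ≠ 0 ↔ (expInf N f).coeff n ≠ 0 := by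
  rw [coeff_expInf_T_smul]
  simp [Complex.exp_ne_zero]

/-- two Hahn series with the same support have the same order -/
lemma finf_order_eq_of_coeff {x y : LaurentSeries ℂ}
    (h : ∀ n, x.coeff n ≠ 0 ↔ y.coeff n ≠ 0) : x.order = y.order := by
  by_cases hx : x = 0
  · have hy : y = 0 := by
      by_contra hy
      have := HahnSeries.coeff_order_eq_zero.not.mpr hy
      exact ((h _).mpr this) (by rw [hx]; rfl)
    rw [hx, hy]
  · have hy : y ≠ 0 := by
      intro hy
      have := HahnSeries.coeff_order_eq_zero.not.mpr hx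
      exact ((h _).mp this) (by rw [hy]; rfl)
    apply le_antisymm
    · exact HahnSeries.order_le_of_coeff_ne_zero
        ((h _).mpr (HahnSeries.coeff_order_eq_zero.not.mpr hy))
    · exact HahnSeries.order_le_of_coeff_ne_zero
        ((h _).mp (HahnSeries.coeff_order_eq_zero.not.mpr hx))

lemma finf_order_T_smul (N : ℕ) [NeZero N] (f : WH N) :
    (expInf N (ModularGroup.T • f)).order = (expInf N f).order :=
  finf_order_eq_of_coeff (finf_coeff_T_smul_ne_zero_iff N f)

/-- if `T^h` fixes (the expansion of) `b`, every exponent `n` of `b` satisfies `N ∣ h n`. -/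
lemma finf_dvd_of_T_pow_fixed (N : ℕ) [NeZero N] (b : WH N) (h : ℕ)
    (hb : expInf N (ModularGroup.T ^ h • b) = expInf N b) (n : ℤ)
    (hn : (expInf N b).coeff n ≠ 0) : (N : ℤ) ∣ (h : ℤ) * n := by
  have h1 := finf_coeff_T_pow_smul N b h n
  rw [hb] at h1
  have h2 : Complex.exp (-2 * Real.pi * Complex.I * n / N) ^ h = 1 := by
    have h3 : (Complex.exp (-2 * Real.pi * Complex.I * n / N) ^ h - 1) * (expInf N b).coeff n
        = 0 := by
      rw [sub_mul, one_mul, ← h1, sub_self]
    rcases mul_eq_zero.mp h3 with h4 | h4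
    · exact sub_eq_zero.mp h4
    · exact absurd h4 hn
  rw [← Complex.exp_nat_mul, Complex.exp_eq_one_iff] at h2
  obtain ⟨m, hm⟩ := h2
  have hN : (N : ℂ) ≠ 0 := by exact_mod_cast NeZero.ne N
  have hpi : (2 * Real.pi * Complex.I : ℂ) ≠ 0 := Complex.two_pi_I_ne_zero
  have h5 : ((h : ℤ) * n : ℤ) = -m * (N : ℤ) := by
    have h6 : ((h : ℂ) * (n : ℂ)) = -(m : ℂ) * (N : ℂ) := by
      have h7 : (2 * Real.pi * Complex.I : ℂ) * ((h : ℂ) * (n : ℂ))
          = (2 * Real.pi * Complex.I : ℂ) * (-(m : ℂ) * (N : ℂ)) := by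
        have h8 : (h : ℂ) * (-2 * Real.pi * Complex.I * n / N) * N
            = (m : ℂ) * (2 * Real.pi * Complex.I) * N := by rw [hm]
        have h9 : (h : ℂ) * (-2 * Real.pi * Complex.I * n / N) * N
            = (h : ℂ) * (-2 * Real.pi * Complex.I * n) := by
          field_simp
        rw [h9] at h8
        linear_combination -h8
      exact mul_left_cancel₀ hpi h7
    exact_mod_cast h6
  exact ⟨-m, by rw [h5]; ring⟩

/-! ### the expansions at the cusps -/

/-- expansion at the cusp attached to the coset `q` -/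
noncomputable def σInf (N : ℕ) [NeZero N] (q : SL(2, ℤ) ⧸ Gamma0 N) :
    FF N →+* LaurentSeries ℂ :=
  embF N (twist N (expInf N) q.out) (twist_injective N (expInf_injective N) _)

lemma finf_embF_congr (N : ℕ) [NeZero N] {E E' : WH N →+* LaurentSeries ℂ}
    (hE : Function.Injective E) (hE' : Function.Injective E') (h : E = E') :
    embF N E hE = embF N E' hE' := by
  subst h; rfl

lemma σInf_eq_of_mk (N : ℕ) [NeZero N] (q : SL(2, ℤ) ⧸ Gamma0 N) (g : SL(2, ℤ))
    (hg : (QuotientGroup.mk g : SL(2, ℤ) ⧸ Gamma0 N) = q) :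
    σInf N q = embF N (twist N (expInf N) g) (twist_injective N (expInf_injective N) _) := by
  have h : g⁻¹ * q.out ∈ Gamma0 N := by
    rw [← QuotientGroup.eq, hg]
    exact (QuotientGroup.out_eq' _).symm
  have e : q.out = g * (g⁻¹ * q.out) := by group
  have e' : twist N (expInf N) q.out = twist N (expInf N) (g * (g⁻¹ * q.out)) := by rw [← e]
  unfold σInf
  rw [finf_embF_congr N (twist_injective N (expInf_injective N) _)
    (twist_injective N (expInf_injective N) _) e']
  exact embF_twist_mul N (expInf_injective N) g _ h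

/-- `σInf q f · E(p(j)) = E(g • a)` for a representation `f = a / p(j)` and `g` in the coset -/
lemma σInf_mul (N : ℕ) [NeZero N] (q : SL(2, ℤ) ⧸ Gamma0 N) (g : SL(2, ℤ))
    (hg : (QuotientGroup.mk g : SL(2, ℤ) ⧸ Gamma0 N) = q) (f : FF N) (a : WH N)
    (p : Polynomial Kbar)
    (h : ∀ (E : WH N →+* LaurentSeries ℂ) (hE : Function.Injective E) (g : SL(2, ℤ)),
        embF N (twist N E g) (twist_injective N hE g) f * E (jpoly N p) = E (g • a)) :
    σInf N q f * expInf N (jpoly N p) = expInf N (g • a) := by
  rw [σInf_eq_of_mk N q g hg]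
  exact h (expInf N) (expInf_injective N) g

lemma finf_expInf_jpoly_ne_zero (N : ℕ) [NeZero N] {p : Polynomial Kbar} (hp : p ≠ 0) :
    expInf N (jpoly N p) ≠ 0 := by
  intro h
  exact jpoly_ne_zero N hp (expInf_injective N (by rw [h, map_zero]))

lemma finf_dvd_order_jpoly (N : ℕ) [NeZero N] {p : Polynomial Kbar} (hp : p ≠ 0) :
    (N : ℤ) ∣ (expInf N (jpoly N p)).order := by
  have h := finf_dvd_of_T_pow_fixed N (jpoly N p) 1 (by rw [pow_one, smul_jpoly])
    (expInf N (jpoly N p)).order
    (HahnSeries.coeff_order_eq_zero.not.mpr (finf_expInf_jpoly_ne_zero N hp))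
  simpa using h

lemma finf_order_J (N : ℕ) [NeZero N] :
    (qExpand ℂ N (coeffMap (algebraMap ℚ ℂ) jq)).order = -(N : ℤ) := by
  set J := qExpand ℂ N (coeffMap (algebraMap ℚ ℂ) jq) with hJ
  have h1 : J.coeff (-(N : ℤ)) = 1 := by
    have := lop_J_lead N 1
    simpa using this
  have hJ0 : J ≠ 0 := HahnSeries.ne_zero_of_coeff_ne_zero (by rw [h1]; exact one_ne_zero)
  apply le_antisymm
  · exact HahnSeries.order_le_of_coeff_ne_zero (by rw [h1]; exact one_ne_zero)
  · by_contra hlt
    push Not at hlt
    have h2 := lop_J_low N 1 J.order (by simpa using hlt)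
    rw [pow_one] at h2
    exact (HahnSeries.coeff_order_eq_zero.not.mpr hJ0) h2

lemma finf_order_inv {x : LaurentSeries ℂ} (hx : x ≠ 0) : (x⁻¹).order = -x.order := by
  have h1 : (x * x⁻¹).order = x.order + (x⁻¹).order :=
    HahnSeries.order_mul hx (inv_ne_zero hx)
  rw [mul_inv_cancel₀ hx, HahnSeries.order_one] at h1
  linarith

lemma finf_adjoin_inv {K F : Type*} [Field K] [Field F] [Algebra K F] (x : F) :
    K⟮x⁻¹⟯ = K⟮x⟯ := by
  apply le_antisymm
  · rw [adjoin_simple_le_iff]
    exact inv_mem (mem_adjoin_simple_self K x)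
  · rw [adjoin_simple_le_iff]
    have := inv_mem (mem_adjoin_simple_self K x⁻¹)
    rwa [inv_inv] at this

/-- The fibre data of `FF N` over the cusps (`j = ∞`). -/
noncomputable def fiberInf (N : ℕ) [NeZero N] :
    letI : Algebra Kbar ℂ := ιC.toAlgebra
    FiberData Kbar (FF N) ℂ ((jF N)⁻¹) (SL(2, ℤ) ⧸ Gamma0 N) ModularGroup.T :=
  letI : Algebra Kbar ℂ := ιC.toAlgebra
  { σ := σInf N
    s := N
    s_pos := Nat.pos_of_ne_zero (NeZero.ne N)
    map_const := by
      intro i c
      unfold σInf
      rw [embF_const, twist_apply, smul_whC, expInf_whC]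
      rfl
    map_u := by
      intro i i'
      unfold σInf
      rw [map_inv₀, map_inv₀, embF_jF, embF_jF, twist_apply, twist_apply, smul_jWH, smul_jWH]
    order_u := by
      intro i
      unfold σInf
      rw [map_inv₀, embF_jF, twist_apply, smul_jWH, expInf_jWH, finf_order_inv, finf_order_J,
        neg_neg]
      intro h
      have := finf_order_J N
      rw [h, HahnSeries.order_zero] at this
      have hN : (N : ℤ) ≠ 0 := by exact_mod_cast NeZero.ne N
      omega
    inj := by
      intro i i' h
      have h1 := embF_twist_injective N (expInf_injective N) i.out i'.out h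
      rw [← QuotientGroup.eq, QuotientGroup.out_eq', QuotientGroup.out_eq'] at h1
      exact h1
    sym := by
      intro f
      obtain ⟨P, hP, hmap⟩ := sym_embF N (expInf_injective N) f
      refine ⟨P, fun k => ?_, fun i₀ => hmap i₀.out⟩
      rw [finf_adjoin_inv]
      exact hP k
    order_smul := by
      intro i f
      by_cases hf : f = 0
      · rw [hf, map_zero, map_zero]
      obtain ⟨a, p, hp, -, -, h⟩ := embF_repr N f
      have h1 := σInf_mul N (ModularGroup.T • i) (ModularGroup.T * i.out)
        (by conv_rhs => rw [← QuotientGroup.out_eq' i]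
            rfl) f a p h
      have h2 := σInf_mul N i i.out (QuotientGroup.out_eq' i) f a p h
      rw [mul_smul] at h1
      have hp0 := finf_expInf_jpoly_ne_zero N hp
      have hf1 : σInf N (ModularGroup.T • i) f ≠ 0 := (map_ne_zero _).mpr hf
      have hf2 : σInf N i f ≠ 0 := (map_ne_zero _).mpr hf
      have e1 := HahnSeries.order_mul hf1 hp0
      have e2 := HahnSeries.order_mul hf2 hp0
      rw [h1, finf_order_T_smul, ← h2, e2] at e1
      linarith
    dvd := by
      intro i f hf
      obtain ⟨a, p, hp, -, -, h⟩ := embF_repr N f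
      set c := Nat.card (MulAction.orbit (Subgroup.zpowers ModularGroup.T) i) with hc
      have hper : ModularGroup.T ^ c • i = i := by
        rw [MulAction.pow_smul_eq_iff_minimalPeriod_dvd, hc]
        have h0 : Nat.card (MulAction.orbit (Subgroup.zpowers ModularGroup.T) i)
            = Function.minimalPeriod (ModularGroup.T • ·) i :=
          (Nat.card_congr (MulAction.orbitZPowersEquiv ModularGroup.T i)).trans (Nat.card_zmod _)
        exact dvd_of_eq h0.symm
      have h1 := σInf_mul N i (ModularGroup.T ^ c * i.out)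
        (by conv_rhs => rw [← hper, ← QuotientGroup.out_eq' i]
            rfl) f a p h
      have h2 := σInf_mul N i i.out (QuotientGroup.out_eq' i) f a p h
      rw [mul_smul] at h1
      have hp0 := finf_expInf_jpoly_ne_zero N hp
      have hf2 : σInf N i f ≠ 0 := (map_ne_zero _).mpr hf
      have hb0 : expInf N (i.out • a) ≠ 0 := by
        rw [← h2]
        exact mul_ne_zero hf2 hp0
      have d1 := finf_dvd_of_T_pow_fixed N (i.out • a) c (by rw [← h1, h2])
        (expInf N (i.out • a)).order (HahnSeries.coeff_order_eq_zero.not.mpr hb0)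
      have d2 := finf_dvd_order_jpoly N hp
      have e2 := HahnSeries.order_mul hf2 hp0
      rw [h2] at e2
      have e3 : (σInf N i f).order
          = (expInf N (i.out • a)).order - (expInf N (jpoly N p)).order := by linarith
      show ((N : ℕ) : ℤ) ∣ (c : ℤ) * (σInf N i f).order
      rw [e3, mul_sub]
      exact dvd_sub d1 (Dvd.dvd.mul_left d2 _) }

end Fermat.Agent.S24lib
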