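/-
S24 generic function-field block, part 4 (helper12).

Exchange lemma: if `F` is finite over `K(x)` with `x` transcendental, then `F` is finite over
`K(t)` for every transcendental `t`; hence `FFData K x → FFData K t`.
-/
import Mathlib
import Fermat.Agent.S24lib.FFPrimes

set_option autoImplicit false

noncomputable section

namespace Fermat.Agent.S24lib

open AlgebraicCurve IntermediateField Polynomial Cardinal
open scoped IntermediateField.algebraAdjoinAdjoin

universe u v

variable {K : Type u} {F : Type v} [Field K] [Field F] [Algebra K F]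

/-- `F` is algebraic over `K[x]`. -/
lemma ffIsAlgebraic_algebraAdjoin {x : F} [Algebra.IsAlgebraic K⟮x⟯ F] :
    Algebra.IsAlgebraic (Algebra.adjoin K {x}) F :=
  (IsFractionRing.comap_isAlgebraic_iff (A := Algebra.adjoin K {x}) (K := K⟮x⟯) (C := F)).2
    inferInstance

/-- The transcendence degree of `F / K` is at most one. -/
lemma ffTrdeg_le_one {x : F} [Algebra.IsAlgebraic K⟮x⟯ F] : Algebra.trdeg K F ≤ 1 := by
  have := ffIsAlgebraic_algebraAdjoin (K := K) (x := x)
  have h := Algebra.IsAlgebraic.trdeg_le_cardinalMk K ({x} : Set F)
  simpa using h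

/-- Exchange lemma. -/
theorem ffIsAlgebraic_of_transcendental {x t : F} [Algebra.IsAlgebraic K⟮x⟯ F]
    (ht : Transcendental K t) : Algebra.IsAlgebraic K⟮t⟯ F := by
  have hind : AlgebraicIndependent K (fun _ : PUnit.{v + 1} => t) :=
    (algebraicIndependent_unique_type_iff (ι := PUnit.{v + 1})).2 ht
  have hle : Algebra.trdeg K F ≤ #(PUnit.{v + 1}) := by
    have := ffTrdeg_le_one (K := K) (x := x)
    simpa using this
  have hb : IsTranscendenceBasis K (fun _ : PUnit.{v + 1} => t) :=
    hind.isTranscendenceBasis_of_trdeg_le_of_finite hle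
  have := hb.isAlgebraic_field
  have hr : Set.range (fun _ : PUnit.{v + 1} => t) = {t} := by
    ext y; simp [eq_comm]
  rwa [hr] at this

/-- `F` is a finitely generated field extension of `K`. -/
lemma ffExists_finite_adjoin_eq_top {x : F} [FiniteDimensional K⟮x⟯ F] :
    ∃ S : Set F, S.Finite ∧ IntermediateField.adjoin K S = ⊤ := by
  classical
  let b := Module.finBasis K⟮x⟯ F
  refine ⟨insert x (Set.range b), (Set.finite_range b).insert x, ?_⟩
  rw [eq_top_iff]
  rintro f -
  have hx : K⟮x⟯ ≤ IntermediateField.adjoin K (insert x (Set.range b)) := by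
    rw [IntermediateField.adjoin_simple_le_iff]
    exact IntermediateField.subset_adjoin K _ (Set.mem_insert _ _)
  have hf := b.mem_span f
  induction hf using Submodule.span_induction with
  | mem y hy => exact IntermediateField.subset_adjoin K _ (Set.mem_insert_of_mem _ hy)
  | zero => exact zero_mem _
  | add y z _ _ hy hz => exact add_mem hy hz
  | smul c y _ hy =>
    rw [Algebra.smul_def]
    exact mul_mem (hx c.2) hy

/-- `F` is finite over `K(t)` for every transcendental `t`. -/
theorem ffFiniteDimensional_of_transcendental {x t : F} [FiniteDimensional K⟮x⟯ F]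
    (ht : Transcendental K t) : FiniteDimensional K⟮t⟯ F := by
  have : Algebra.IsAlgebraic K⟮x⟯ F := Algebra.IsAlgebraic.of_finite _ _
  have : Algebra.IsAlgebraic K⟮t⟯ F := ffIsAlgebraic_of_transcendental (x := x) ht
  obtain ⟨S, hS, hST⟩ := ffExists_finite_adjoin_eq_top (K := K) (x := x)
  have : Finite S := hS
  have hfin : FiniteDimensional K⟮t⟯ (IntermediateField.adjoin K⟮t⟯ S) :=
    IntermediateField.finiteDimensional_adjoin
      (fun y _ => (Algebra.IsAlgebraic.isIntegral (K := K⟮t⟯) (A := F)).isIntegral y)
  have htop : IntermediateField.adjoin K⟮t⟯ S = ⊤ := by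
    rw [eq_top_iff]
    intro f _
    have hf : f ∈ IntermediateField.adjoin K S := by rw [hST]; trivial
    have hle : IntermediateField.adjoin K S ≤
        (IntermediateField.adjoin K⟮t⟯ S).restrictScalars K := by
      rw [IntermediateField.adjoin_le_iff]
      intro y hy
      exact IntermediateField.subset_adjoin K⟮t⟯ S hy
    exact hle hf
  rw [htop] at hfin
  exact (IntermediateField.topEquiv (F := K⟮t⟯) (E := F)).toLinearEquiv.finiteDimensional

/-- Transfer of the data to any transcendental element. -/
theorem FFData.of_transcendental {x t : F} [h : FFData K x] (ht : Transcendental K t) :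
    FFData K t where
  trans := ht
  fin := ffFiniteDimensional_of_transcendental (x := x) ht
  char0 := h.char0

/-- Over an algebraically closed field, non-constant elements are transcendental. -/
lemma ffTranscendental_of_not_const [IsAlgClosed K] {t : F}
    (ht : ∀ c : K, algebraMap K F c ≠ t) : Transcendental K t := by
  intro halg
  have hint : IsIntegral K t := isAlgebraic_iff_isIntegral.1 halg
  have hdeg : (minpoly K t).degree = 1 :=
    IsAlgClosed.degree_eq_one_of_irreducible K (minpoly.irreducible hint)
  obtain ⟨c, hc⟩ := minpoly.mem_range_of_degree_eq_one K t hdeg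
  exact ht c hc

end Fermat.Agent.S24lib

end
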