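/-
S24 generic function-field block, part 5 (helper12).

The degree of a principal divisor is zero.
-/
import Mathlib
import Fermat.Agent.S24lib.FFTrans

set_option autoImplicit false

noncomputable section

namespace Fermat.Agent.S24lib

open AlgebraicCurve IntermediateField Polynomial

variable {K F : Type*} [Field K] [Field F] [Algebra K F]

section

variable [IsAlgClosed K] {x : F} [h : FFData K x]

include h in
/-- The degree of a divisor is the plain sum of its coefficients (all places have degree one). -/
lemma ffDegree_eq_sum (D : Divisor K F) (s : Finset (Place K F)) (hs : D.support ⊆ s) :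
    Divisor.degree D = ∑ v ∈ s, D v := by
  have h1 : Divisor.degree D = D.sum (fun v n => n * (v.deg : ℤ)) := by
    simp [Divisor.degree, Finsupp.liftAddHom_apply]
  rw [h1, Finsupp.sum]
  have h2 : ∀ v ∈ D.support, D v * (v.deg : ℤ) = D v := by
    intro v _
    rw [ffDeg_eq_one v h.trans, Nat.cast_one, mul_one]
  rw [Finset.sum_congr rfl h2]
  exact Finset.sum_subset hs (fun v _ hv => Finsupp.notMem_support_iff.1 hv)

include h in
/-- **The degree of a principal divisor is zero.** -/
theorem ffDegree_principal {f : F} (D : Divisor K F) (hD : ∀ v, D v = v.ord f) :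
    Divisor.degree D = 0 := by
  classical
  by_cases hc : ∃ c : K, algebraMap K F c = f
  · obtain ⟨c, rfl⟩ := hc
    have : D = 0 := by
      ext v
      rw [hD v, ffOrd_algebraMap]; rfl
    rw [this, map_zero]
  · have ht : Transcendental K f := ffTranscendental_of_not_const (fun c hcf => hc ⟨c, hcf⟩)
    have : FFData K f := FFData.of_transcendental (x := x) ht
    obtain ⟨Z, hZ, hZsum⟩ := ffExists_zeros (K := K) (x := f) 0
    obtain ⟨P, hP, hPsum⟩ := ffExists_poles (K := K) (x := f)
    simp only [map_zero, sub_zero] at hZ hZsum
    have hsupp : D.support ⊆ Z ∪ P := by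
      intro v hv
      rw [Finsupp.mem_support_iff, hD v] at hv
      rw [Finset.mem_union, hZ, hP]
      omega
    have hdisj : Disjoint Z P := by
      rw [Finset.disjoint_left]
      intro v hv1 hv2
      rw [hZ] at hv1
      rw [hP] at hv2
      omega
    rw [ffDegree_eq_sum (x := x) D (Z ∪ P) hsupp, Finset.sum_union hdisj]
    rw [Finset.sum_congr rfl (fun v _ => hD v), Finset.sum_congr rfl (fun v _ => hD v),
      hZsum, hPsum]
    ring

end

end Fermat.Agent.S24lib

end
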