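/-
S24 generic function-field block, part 5b (helper12).

Existence of principal divisors, functions without poles are constant, existence of a place.
(The `RRBase` fields of the Riemann–Roch library.)
-/
import Mathlib
import Fermat.Agent.S24lib.FFDegree

set_option autoImplicit false

noncomputable section

namespace Fermat.Agent.S24lib

open AlgebraicCurve IntermediateField Polynomial

variable {K F : Type*} [Field K] [Field F] [Algebra K F]

section

variable [IsAlgClosed K] {x : F} [h : FFData K x]

include h in
/-- A nonzero function has finitely many zeros and poles: its divisor exists, and has degree `0`. -/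
theorem ffExists_principal (f : F) :
    ∃ D : Divisor K F, (∀ v : Place K F, D v = v.ord f) ∧ Divisor.degree D = 0 := by
  classical
  suffices hD : ∃ D : Divisor K F, ∀ v : Place K F, D v = v.ord f by
    obtain ⟨D, hD⟩ := hD
    exact ⟨D, hD, ffDegree_principal (x := x) D hD⟩
  by_cases hc : ∃ c : K, algebraMap K F c = f
  · obtain ⟨c, rfl⟩ := hc
    exact ⟨0, fun v => by rw [ffOrd_algebraMap]; rfl⟩
  · have ht : Transcendental K f := ffTranscendental_of_not_const (fun c hcf => hc ⟨c, hcf⟩)
    have : FFData K f := FFData.of_transcendental (x := x) ht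
    obtain ⟨Z, hZ, -⟩ := ffExists_zeros (K := K) (x := f) 0
    obtain ⟨P, hP, -⟩ := ffExists_poles (K := K) (x := f)
    simp only [map_zero, sub_zero] at hZ
    refine ⟨Finsupp.onFinset (Z ∪ P) (fun v => v.ord f) ?_, fun v => rfl⟩
    intro v hv
    rw [Finset.mem_union, hZ, hP]
    omega

include h in
/-- A function without poles is constant. -/
theorem ffConst_of_forall_ord_nonneg (f : F) (hf : ∀ v : Place K F, 0 ≤ v.ord f) :
    f ∈ Set.range (algebraMap K F) := by
  classical
  by_contra hc
  have ht : Transcendental K f := ffTranscendental_of_not_const (fun c hcf => hc ⟨c, hcf⟩)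
  have : FFData K f := FFData.of_transcendental (x := x) ht
  obtain ⟨P, hP, hPsum⟩ := ffExists_poles (K := K) (x := f)
  have hPe : P = ∅ := by
    rw [Finset.eq_empty_iff_forall_notMem]
    intro v hv
    rw [hP] at hv
    exact absurd (hf v) (not_le.2 hv)
  rw [hPe, Finset.sum_empty] at hPsum
  have hpos : 0 < Module.finrank K⟮f⟯ F := Module.finrank_pos
  omega

include h in
/-- There is a place. -/
theorem ffNonempty_place : Nonempty (Place K F) := by
  classical
  obtain ⟨Z, -, hZsum⟩ := ffExists_zeros (K := K) (x := x) 0
  have hpos : 0 < Module.finrank K⟮x⟯ F := Module.finrank_pos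
  rcases Z.eq_empty_or_nonempty with hZ | ⟨v, -⟩
  · rw [hZ, Finset.sum_empty] at hZsum
    omega
  · exact ⟨v⟩

include h in
/-- Every nonconstant function has a zero. -/
theorem ffExists_zero_of_transcendental {f : F} (ht : Transcendental K f) :
    ∃ v : Place K F, 0 < v.ord f := by
  classical
  have : FFData K f := FFData.of_transcendental (x := x) ht
  obtain ⟨Z, hZ, hZsum⟩ := ffExists_zeros (K := K) (x := f) 0
  simp only [map_zero, sub_zero] at hZ hZsum
  have hpos : 0 < Module.finrank K⟮f⟯ F := Module.finrank_pos
  rcases Z.eq_empty_or_nonempty with hZe | ⟨v, hv⟩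
  · rw [hZe, Finset.sum_empty] at hZsum
    omega
  · exact ⟨v, (hZ v).1 hv⟩

include h in
/-- Every nonconstant function has a pole. -/
theorem ffExists_pole_of_transcendental {f : F} (ht : Transcendental K f) :
    ∃ v : Place K F, v.ord f < 0 := by
  classical
  have : FFData K f := FFData.of_transcendental (x := x) ht
  obtain ⟨P, hP, hPsum⟩ := ffExists_poles (K := K) (x := f)
  have hpos : 0 < Module.finrank K⟮f⟯ F := Module.finrank_pos
  rcases P.eq_empty_or_nonempty with hPe | ⟨v, hv⟩
  · rw [hPe, Finset.sum_empty] at hPsum
    omega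
  · exact ⟨v, (hP v).1 hv⟩

end

end Fermat.Agent.S24lib

end
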