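/-
S24 generic function-field block (helper12): the derivative of Laurent series is a derivation
(Leibniz rule), and its order in characteristic zero.
-/
import Mathlib

set_option autoImplicit false

noncomputable section

namespace Fermat.Agent.S24lib

open HahnSeries

variable {L : Type*} [Field L]

/-- Coefficients of the derivative of a Laurent series. -/
lemma lsCoeff_derivative (f : LaurentSeries L) (n : ℤ) :
    (LaurentSeries.derivative L f).coeff n = ((n + 1 : ℤ) : L) * f.coeff (n + 1) := by
  rw [LaurentSeries.derivative_apply, LaurentSeries.hasseDeriv_coeff]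
  simp [zsmul_eq_mul]

/-- The derivative of (the image of) a power series. -/
lemma lsDerivative_coe (p : PowerSeries L) :
    LaurentSeries.derivative L (ofPowerSeries ℤ L p)
      = ofPowerSeries ℤ L (PowerSeries.derivative L p) := by
  ext n
  rw [lsCoeff_derivative, PowerSeries.coeff_coe, PowerSeries.coeff_coe]
  by_cases hn : n < 0
  · rw [if_pos hn]
    by_cases hn1 : n + 1 < 0
    · rw [if_pos hn1, mul_zero]
    · have : n + 1 = 0 := by omega
      rw [this]; simp
  · rw [if_neg hn, if_neg (by omega)]
    obtain ⟨k, rfl⟩ := Int.eq_ofNat_of_zero_le (not_lt.1 hn)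
    have h1 : ((k : ℤ) + 1).natAbs = k + 1 := by omega
    rw [h1, Int.natAbs_natCast, PowerSeries.coeff_derivative]
    push_cast
    ring

/-- The derivative of a monomial times a series. -/
lemma lsDerivative_single_mul (a : ℤ) (g : LaurentSeries L) :
    LaurentSeries.derivative L (single a (1 : L) * g)
      = single (a - 1) ((a : ℤ) : L) * g + single a (1 : L) * LaurentSeries.derivative L g := by
  ext n
  rw [lsCoeff_derivative, coeff_add, coeff_single_mul, coeff_single_mul, coeff_single_mul,
    lsCoeff_derivative]
  have h1 : n + 1 - a = n - (a - 1) := by ring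
  have h2 : n - a + 1 = n - (a - 1) := by ring
  rw [h1, h2]
  have h3 : (n + 1 : ℤ) = a + (n - a + 1) := by ring
  rw [h3]
  push_cast
  ring

/-- **Leibniz rule** for the derivative of Laurent series. -/
theorem lsDerivative_mul (f g : LaurentSeries L) :
    LaurentSeries.derivative L (f * g)
      = f * LaurentSeries.derivative L g + g * LaurentSeries.derivative L f := by
  obtain ⟨a, p, rfl⟩ : ∃ (a : ℤ) (p : PowerSeries L), single a (1 : L) * ofPowerSeries ℤ L p = f :=
    ⟨_, _, LaurentSeries.single_order_mul_powerSeriesPart f⟩
  obtain ⟨b, q, rfl⟩ : ∃ (b : ℤ) (q : PowerSeries L), single b (1 : L) * ofPowerSeries ℤ L q = g :=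
    ⟨_, _, LaurentSeries.single_order_mul_powerSeriesPart g⟩
  have hfg : single a (1 : L) * ofPowerSeries ℤ L p * (single b (1 : L) * ofPowerSeries ℤ L q)
      = single (a + b) (1 : L) * ofPowerSeries ℤ L (p * q) := by
    rw [map_mul, mul_mul_mul_comm, single_mul_single, mul_one]
  rw [hfg, lsDerivative_single_mul, lsDerivative_single_mul, lsDerivative_single_mul,
    lsDerivative_coe, lsDerivative_coe, lsDerivative_coe, Derivation.leibniz, map_add,
    smul_eq_mul, smul_eq_mul, map_mul, map_mul, map_mul]
  have e1 : single (a + b - 1) (((a + b : ℤ)) : L)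
      = single a (1 : L) * single (b - 1) ((b : ℤ) : L)
        + single b (1 : L) * single (a - 1) ((a : ℤ) : L) := by
    rw [single_mul_single, single_mul_single, one_mul, one_mul]
    have h1 : a + (b - 1) = a + b - 1 := by ring
    have h2 : b + (a - 1) = a + b - 1 := by ring
    rw [h1, h2, ← single_add]
    congr 1
    push_cast
    ring
  have e2 : single (a + b) (1 : L) = single a (1 : L) * single b (1 : L) := by
    rw [single_mul_single, one_mul]
  rw [e1, e2]
  ring

/-- The derivative of a constant is zero. -/
lemma lsDerivative_C (c : L) : LaurentSeries.derivative L (HahnSeries.C c) = 0 := by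
  ext n
  rw [lsCoeff_derivative, coeff_zero]
  by_cases hn : n + 1 = 0
  · rw [hn]; simp
  · rw [HahnSeries.C_apply, coeff_single_of_ne hn, mul_zero]

/-- The order of the derivative (characteristic zero). -/
theorem lsOrder_derivative [CharZero L] {f : LaurentSeries L} (hf : f ≠ 0) (hn : f.order ≠ 0) :
    (LaurentSeries.derivative L f).order = f.order - 1 := by
  have hc : (LaurentSeries.derivative L f).coeff (f.order - 1) ≠ 0 := by
    rw [lsCoeff_derivative, sub_add_cancel]
    exact mul_ne_zero (Int.cast_ne_zero.2 hn) (coeff_order_eq_zero.not.2 hf)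
  refine le_antisymm (order_le_of_coeff_ne_zero hc) ?_
  by_contra hlt
  rw [not_le] at hlt
  have h0 : LaurentSeries.derivative L f ≠ 0 := ne_zero_of_coeff_ne_zero hc
  apply coeff_order_eq_zero.not.2 h0
  rw [lsCoeff_derivative, coeff_eq_zero_of_lt_order (by omega), mul_zero]

lemma lsDerivative_ne_zero [CharZero L] {f : LaurentSeries L} (hf : f ≠ 0) (hn : f.order ≠ 0) :
    LaurentSeries.derivative L f ≠ 0 := by
  have hc : (LaurentSeries.derivative L f).coeff (f.order - 1) ≠ 0 := by
    rw [lsCoeff_derivative, sub_add_cancel]
    exact mul_ne_zero (Int.cast_ne_zero.2 hn) (coeff_order_eq_zero.not.2 hf)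
  exact ne_zero_of_coeff_ne_zero hc

end Fermat.Agent.S24lib
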