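/-
S24 generic function-field block, parts F3 and F4 (helper12).

* `ffSpan_D_eq_top` : `Ω[F/K] = F · dt` when `F` is algebraic over `K(t)` (characteristic zero);
* `ffDiff_lift` : a ring homomorphism `σ : F → L((x))` (identity on constants) induces
  `φ : Ω[F/K] → L((x))` with `φ (f • ω) = σ f * φ ω` and `φ (df) = d(σ f)/dx`;
* `FFLocalAt v L`, `FFLocal K F L` : local parametrisations;
* `ffDCoordGenerates`, `ffNontrivial_kaehler`;
* `ffOrdDifferential_D` : `ord_v (du) = ord_v u - 1` if `ord_v u ≠ 0`.
-/
import Mathlib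
import Fermat.Prelude.Def_AlgebraicCurve_CanonicalDivisor
import Fermat.Agent.S24lib.FFLaurentDeriv
import Fermat.Agent.S24lib.FFPrincipal

set_option autoImplicit false

noncomputable section

namespace Fermat.Agent.S24lib

open AlgebraicCurve IntermediateField Polynomial KaehlerDifferential

variable {K F : Type*} [Field K] [Field F] [Algebra K F]
variable {L : Type*} [Field L] [Algebra K L]

/-! ### F3 (a): `Ω[F/K] = F · dt` -/

/-- `D a ∈ F · D t` for `a ∈ K(t)`. -/
lemma ffD_mem_span_of_mem_adjoin (t : F) {a : F} (ha : a ∈ K⟮t⟯) :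
    D K F a ∈ Submodule.span F {D K F t} := by
  induction ha using IntermediateField.adjoin_induction with
  | mem x hx =>
    rw [Set.mem_singleton_iff] at hx
    subst hx
    exact Submodule.subset_span rfl
  | algebraMap c =>
    rw [Derivation.map_algebraMap]
    exact Submodule.zero_mem _
  | add x y _ _ hx hy =>
    rw [map_add]
    exact Submodule.add_mem _ hx hy
  | inv x _ hx =>
    rw [Derivation.leibniz_inv]
    exact Submodule.smul_mem _ _ hx
  | mul x y _ _ hx hy =>
    rw [Derivation.leibniz]
    exact Submodule.add_mem _ (Submodule.smul_mem _ _ hy) (Submodule.smul_mem _ _ hx)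

/-- **F3 (a)**: `Ω[F/K] = F · dt` if `F` is algebraic over `K(t)` (characteristic zero). -/
theorem ffSpan_D_eq_top [CharZero K] (t : F) [Algebra.IsAlgebraic K⟮t⟯ F] :
    Submodule.span F {D K F t} = ⊤ := by
  have hcz : CharZero K⟮t⟯ := charZero_of_injective_algebraMap (algebraMap K K⟮t⟯).injective
  have hsep : Algebra.IsSeparable K⟮t⟯ F := Algebra.IsAlgebraic.isSeparable_of_perfectField
  have hunr : Algebra.FormallyUnramified K⟮t⟯ F := Algebra.FormallyUnramified.of_isSeparable _ _
  have hsub : Subsingleton Ω[F⁄K⟮t⟯] := inferInstance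
  have hrange : LinearMap.range (mapBaseChange K K⟮t⟯ F) = ⊤ := by
    rw [range_mapBaseChange, LinearMap.ker_eq_top]
    exact Subsingleton.elim _ _
  rw [eq_top_iff, ← hrange]
  rintro _ ⟨z, rfl⟩
  induction z using TensorProduct.induction_on with
  | zero => rw [map_zero]; exact Submodule.zero_mem _
  | add z w hz hw => rw [map_add]; exact Submodule.add_mem _ hz hw
  | tmul b y =>
    rw [mapBaseChange_tmul]
    refine Submodule.smul_mem _ _ ?_
    have hy : y ∈ Submodule.span K⟮t⟯ (Set.range (D K K⟮t⟯)) := by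
      rw [span_range_derivation]; exact Submodule.mem_top
    induction hy using Submodule.span_induction with
    | mem y hy =>
      obtain ⟨a, rfl⟩ := hy
      rw [map_D]
      exact ffD_mem_span_of_mem_adjoin t a.2
    | zero => rw [map_zero]; exact Submodule.zero_mem _
    | add y z _ _ hy hz => rw [map_add]; exact Submodule.add_mem _ hy hz
    | smul c y _ hy =>
      rw [map_smul, algebra_compatible_smul F c]
      exact Submodule.smul_mem _ _ hy

/-! ### The derivation attached to a local parametrisation -/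

/-- The derivation `d/dx ∘ σ` lifted to Kähler differentials. -/
theorem ffDiff_lift (σ : F →+* LaurentSeries L)
    (hσ : ∀ c : K, σ (algebraMap K F c) = HahnSeries.C (algebraMap K L c)) :
    ∃ φ : Ω[F⁄K] →+ LaurentSeries L, (∀ (f : F) (ω : Ω[F⁄K]), φ (f • ω) = σ f * φ ω) ∧
      ∀ f : F, φ (D K F f) = LaurentSeries.derivative L (σ f) := by
  let algF : Algebra F (LaurentSeries L) := σ.toAlgebra
  have hsmulF : ∀ (f : F) (s : LaurentSeries L), f • s = σ f * s := fun f s => by
    rw [Algebra.smul_def, RingHom.algebraMap_toAlgebra]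
  have hsmulK : ∀ (c : K) (s : LaurentSeries L), c • s = HahnSeries.C (algebraMap K L c) * s :=
    fun c s => by rw [HahnSeries.C_mul_eq_smul, algebra_compatible_smul L c]
  have tower : IsScalarTower K F (LaurentSeries L) := ⟨fun c f s => by
    rw [hsmulF, hsmulK, hsmulF, Algebra.smul_def, map_mul, hσ c, mul_assoc]⟩
  let lin : F →ₗ[K] LaurentSeries L :=
    { toFun := fun f => LaurentSeries.derivative L (σ f)
      map_add' := fun f g => by rw [map_add, map_add]
      map_smul' := fun c f => by
        rw [Algebra.smul_def, map_mul, hσ c, HahnSeries.C_mul_eq_smul, map_smul,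
          RingHom.id_apply, algebra_compatible_smul L c] }
  let δ : Derivation K F (LaurentSeries L) := Derivation.mk' lin (fun a b => by
    change LaurentSeries.derivative L (σ (a * b)) = a • LaurentSeries.derivative L (σ b)
      + b • LaurentSeries.derivative L (σ a)
    rw [map_mul, lsDerivative_mul, hsmulF, hsmulF])
  refine ⟨δ.liftKaehlerDifferential.toAddMonoidHom, fun f ω => ?_, fun f => ?_⟩
  · change δ.liftKaehlerDifferential (f • ω) = _
    rw [map_smul, hsmulF]
    rfl
  · change δ.liftKaehlerDifferential (D K F f) = _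
    rw [Derivation.liftKaehlerDifferential_comp_D]
    rfl

/-- A local parametrisation at the place `v`: a ring homomorphism `σ : F → L((x))` which is
the identity on constants and whose order function is a positive multiple of `ord_v`. -/
def FFLocalAt (v : Place K F) (L : Type*) [Field L] [Algebra K L] : Prop :=
  ∃ (σ : F →+* LaurentSeries L) (m : ℕ), 0 < m ∧
    (∀ c : K, σ (algebraMap K F c) = HahnSeries.C (algebraMap K L c)) ∧
    ∀ f : F, f ≠ 0 → (σ f).order = (m : ℤ) * v.ord f

variable (K F L) in
/-- Local parametrisations at every place. -/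
def FFLocal : Prop :=
  ∀ v : Place K F, ∃ (σ : F →+* LaurentSeries L) (m : ℕ), 0 < m ∧
    (∀ c : K, σ (algebraMap K F c) = HahnSeries.C (algebraMap K L c)) ∧
    ∀ f : F, f ≠ 0 → (σ f).order = (m : ℤ) * v.ord f

lemma FFLocal.localAt (h : FFLocal K F L) (v : Place K F) : FFLocalAt v L := h v

/-- Key local computation: if `du = g dπ` with `ord_v π = 1` and `ord_v u ≠ 0`, then
`ord_v g = ord_v u - 1`. -/
theorem ffOrd_coeff_of_D_eq [CharZero K] {v : Place K F} (hv : FFLocalAt v L) {u π g : F}
    (hπ : v.ord π = 1) (hu : v.ord u ≠ 0) (h : D K F u = g • D K F π) :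
    v.ord g = v.ord u - 1 := by
  obtain ⟨σ, m, hm, hσ, hord⟩ := hv
  have hcz : CharZero L := charZero_of_injective_algebraMap (algebraMap K L).injective
  obtain ⟨φ, hφs, hφD⟩ := ffDiff_lift (K := K) σ hσ
  have hu0 : u ≠ 0 := by
    rintro rfl
    exact hu v.ord_zero
  have hπ0 : π ≠ 0 := by
    rintro rfl
    rw [v.ord_zero] at hπ
    exact zero_ne_one hπ
  have hσu : σ u ≠ 0 := (map_ne_zero σ).2 hu0
  have hσπ : σ π ≠ 0 := (map_ne_zero σ).2 hπ0
  have hmz : (m : ℤ) ≠ 0 := by exact_mod_cast hm.ne'
  have hou : (σ u).order ≠ 0 := by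
    rw [hord u hu0]
    exact mul_ne_zero hmz hu
  have hoπ : (σ π).order ≠ 0 := by
    rw [hord π hπ0, hπ, mul_one]
    exact hmz
  have key : LaurentSeries.derivative L (σ u) = σ g * LaurentSeries.derivative L (σ π) := by
    rw [← hφD, ← hφD, h, hφs]
  have hdu : LaurentSeries.derivative L (σ u) ≠ 0 := lsDerivative_ne_zero hσu hou
  have hdπ : LaurentSeries.derivative L (σ π) ≠ 0 := lsDerivative_ne_zero hσπ hoπ
  have hσg : σ g ≠ 0 := by
    intro h0
    rw [h0, zero_mul] at key
    exact hdu key
  have hg0 : g ≠ 0 := fun h0 => hσg (by rw [h0, map_zero])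
  have horder := congrArg HahnSeries.order key
  rw [HahnSeries.order_mul_of_ne_zero (mul_ne_zero (HahnSeries.leadingCoeff_ne_zero.2 hσg)
      (HahnSeries.leadingCoeff_ne_zero.2 hdπ)), lsOrder_derivative hσu hou,
    lsOrder_derivative hσπ hoπ, hord u hu0, hord π hπ0, hord g hg0, hπ] at horder
  have h2 : (m : ℤ) * v.ord u = (m : ℤ) * (v.ord g + 1) := by linarith
  have h3 := mul_left_cancel₀ hmz h2
  omega

/-- `du ≠ 0` if `ord_v u ≠ 0`. -/
theorem ffD_ne_zero_of_ord_ne_zero [CharZero K] {v : Place K F} (hv : FFLocalAt v L) {u : F}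
    (hu : v.ord u ≠ 0) : D K F u ≠ 0 := by
  obtain ⟨σ, m, hm, hσ, hord⟩ := hv
  have hcz : CharZero L := charZero_of_injective_algebraMap (algebraMap K L).injective
  obtain ⟨φ, hφs, hφD⟩ := ffDiff_lift (K := K) σ hσ
  have hu0 : u ≠ 0 := by
    rintro rfl
    exact hu v.ord_zero
  have hσu : σ u ≠ 0 := (map_ne_zero σ).2 hu0
  have hmz : (m : ℤ) ≠ 0 := by exact_mod_cast hm.ne'
  have hou : (σ u).order ≠ 0 := by
    rw [hord u hu0]
    exact mul_ne_zero hmz hu
  intro h0
  have := hφD u
  rw [h0, map_zero] at this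
  exact lsDerivative_ne_zero hσu hou this.symm

/-- The coordinate differential of the Prelude is `dπ` for a uniformizer `π`. -/
lemma ffExists_dCoord_eq (v : Place K F) :
    ∃ π : F, v.ord π = 1 ∧ v.dCoord = D K F π :=
  ⟨_, v.ord_coe_irreducible
    (IsDiscreteValuationRing.exists_irreducible v.toValuationSubring).choose_spec, rfl⟩

section

variable [IsAlgClosed K] {x : F} [h : FFData K x]

omit h in
/-- A function with a zero or a pole is transcendental. -/
lemma ffTranscendental_of_ord_ne_zero {v : Place K F} {u : F} (hu : v.ord u ≠ 0) :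
    Transcendental K u :=
  ffTranscendental_of_not_const (fun c hc => hu (by rw [← hc, ffOrd_algebraMap]))

omit [IsAlgClosed K] in
include h in
/-- `Ω[F/K] = F · dt` for every nonconstant `t`. -/
theorem ffSpan_D_eq_top_of_transcendental {t : F} (ht : Transcendental K t) :
    Submodule.span F {D K F t} = ⊤ := by
  have : FFData K t := FFData.of_transcendental (x := x) ht
  have := h.char0
  exact ffSpan_D_eq_top t

include h in
/-- **F3**: the coordinate differential at any place generates `Ω[F/K]`. -/
theorem ffDCoordGenerates (v : Place K F) : v.DCoordGenerates := by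
  obtain ⟨π, hπ, hd⟩ := ffExists_dCoord_eq v
  have ht : Transcendental K π := ffTranscendental_of_ord_ne_zero (v := v) (by rw [hπ]; exact one_ne_zero)
  exact ⟨by rw [hd]; exact ffSpan_D_eq_top_of_transcendental (x := x) ht⟩

omit [IsAlgClosed K] in
include h in
/-- **F3**: `Ω[F/K] ≠ 0` (given a local parametrisation at one place). -/
theorem ffNontrivial_kaehler {v : Place K F} (hv : FFLocalAt v L) : Nontrivial Ω[F⁄K] := by
  obtain ⟨π, hπ, -⟩ := ffExists_dCoord_eq v
  have := h.char0
  exact ⟨D K F π, 0, ffD_ne_zero_of_ord_ne_zero hv (by rw [hπ]; exact one_ne_zero)⟩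

include h in
/-- **F4**: `ord_v (du) = ord_v u - 1` if `ord_v u ≠ 0`. -/
theorem ffOrdDifferential_D {v : Place K F} (hv : FFLocalAt v L) {u : F} (hu : v.ord u ≠ 0) :
    v.ordDifferential (D K F u) = v.ord u - 1 := by
  have := h.char0
  have hgen : v.DCoordGenerates := ffDCoordGenerates (x := x) v
  have hnt : Nontrivial Ω[F⁄K] := ffNontrivial_kaehler (x := x) hv
  obtain ⟨π, hπ, hd⟩ := ffExists_dCoord_eq v
  obtain ⟨g, hg⟩ := v.exists_eq_smul_dCoord (D K F u)
  rw [Place.ordDifferential, v.differentialCoeff_unique hg]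
  rw [hd] at hg
  exact ffOrd_coeff_of_D_eq hv hπ hu hg

include h in
/-- **F4**, second form: `ord_v (du) = ord_v (u - c) - 1` if `ord_v (u - c) ≠ 0`. -/
theorem ffOrdDifferential_D_sub {v : Place K F} (hv : FFLocalAt v L) {u : F} (c : K)
    (hu : v.ord (u - algebraMap K F c) ≠ 0) :
    v.ordDifferential (D K F u) = v.ord (u - algebraMap K F c) - 1 := by
  rw [← ffOrdDifferential_D (x := x) hv hu, map_sub, Derivation.map_algebraMap, sub_zero]

include h in
/-- The local coefficient of a nonzero differential is nonzero. -/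
theorem ffDifferentialCoeff_ne_zero (v : Place K F) {ω : Ω[F⁄K]}
    (hω : ω ≠ 0) : v.differentialCoeff ω ≠ 0 := by
  have hgen : v.DCoordGenerates := ffDCoordGenerates (x := x) v
  intro h0
  apply hω
  rw [← v.differentialCoeff_smul_dCoord ω, h0, zero_smul]

include h in
/-- `ord_v (f ω) = ord_v f + ord_v ω`. -/
theorem ffOrdDifferential_smul {v : Place K F} (hv : FFLocalAt v L) {f : F} (hf : f ≠ 0)
    {ω : Ω[F⁄K]} (hω : ω ≠ 0) :
    v.ordDifferential (f • ω) = v.ord f + v.ordDifferential ω := by
  have hgen : v.DCoordGenerates := ffDCoordGenerates (x := x) v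
  have hnt : Nontrivial Ω[F⁄K] := ffNontrivial_kaehler (x := x) hv
  exact v.ordDifferential_smul hf (ffDifferentialCoeff_ne_zero (x := x) v hω)

end

end Fermat.Agent.S24lib

end
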