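/-
S24 generic function-field block: the Riemann–Hurwitz sum (helper12).

For a function field `F / K` (`K` algebraically closed of characteristic zero, `x ∈ F`
transcendental, `F` finite over `K(x)`, local parametrisations at every place), a nonzero
differential `ω` and a divisor `D` with `D v = ord_v ω`:
  `deg D = Σ_{c ∈ C} (n - r_c) - n - r_∞`,
where `n = [F : K(x)]`, `r_c` is the number of places over `x = c`, `r_∞` the number of poles
of `x`, and `C` is any finite set containing all `c` with `r_c ≠ n`.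
-/
import Mathlib
import Fermat.Agent.S24lib.FFDiff

set_option autoImplicit false

noncomputable section

namespace Fermat.Agent.S24lib

open AlgebraicCurve IntermediateField Polynomial KaehlerDifferential

variable {K F : Type*} [Field K] [Field F] [Algebra K F]
variable {L : Type*} [Field L] [Algebra K L]

section

variable [IsAlgClosed K]

omit [IsAlgClosed K] in
/-- If `x - c` vanishes at `v` then `x` has no pole at `v`. -/
lemma ffOrd_nonneg_of_center (v : Place K F) {x : F} {c : K}
    (hc : 0 < v.ord (x - algebraMap K F c)) : 0 ≤ v.ord x := by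
  rcases eq_or_ne x 0 with rfl | hx0
  · rw [v.ord_zero]
  have key : (0 : ℤ) ≤ v.ord ((x - algebraMap K F c) + algebraMap K F c) :=
    ffOrd_add_ge v (by rwa [sub_add_cancel]) (Or.inr hc.le) (Or.inr (ffOrd_algebraMap v c).ge)
  rwa [sub_add_cancel] at key

omit [IsAlgClosed K] in
/-- The value of `x` at a place is unique. -/
lemma ffCenter_unique (v : Place K F) {x : F} {c c' : K}
    (hc : 0 < v.ord (x - algebraMap K F c)) (hc' : 0 < v.ord (x - algebraMap K F c')) :
    c = c' := by
  by_contra hne
  have hsub : (x - algebraMap K F c') + -(x - algebraMap K F c) = algebraMap K F (c - c') := by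
    rw [map_sub]; ring
  have h0 : algebraMap K F (c - c') ≠ 0 := by
    rw [Ne, map_eq_zero, sub_eq_zero]
    exact hne
  have key : (1 : ℤ) ≤ v.ord ((x - algebraMap K F c') + -(x - algebraMap K F c)) :=
    ffOrd_add_ge v (by rw [hsub]; exact h0) (Or.inr hc') (Or.inr (by rw [ffOrd_neg]; exact hc))
  rw [hsub, ffOrd_algebraMap] at key
  omega

variable {x : F} [h : FFData K x]

include h in
/-- There is a nonzero differential. -/
theorem ffExists_differential_ne_zero (hloc : FFLocal K F L) : ∃ ω : Ω[F⁄K], ω ≠ 0 := by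
  obtain ⟨v⟩ := ffNonempty_place (K := K) (x := x)
  have := ffNontrivial_kaehler (x := x) (hloc v)
  exact exists_ne 0

include h in
/-- **Riemann–Hurwitz** for `x : F → ℙ¹`. -/
theorem ffRiemannHurwitz (hloc : FFLocal K F L) (C : Finset K)
    (hC : ∀ c : K, c ∉ C →
      Nat.card {v : Place K F // 0 < v.ord (x - algebraMap K F c)} = Module.finrank K⟮x⟯ F)
    {ω : Ω[F⁄K]} (hω : ω ≠ 0) (W : Divisor K F)
    (hW : ∀ v : Place K F, W v = v.ordDifferential ω) :
    Divisor.degree W
      = ∑ c ∈ C, ((Module.finrank K⟮x⟯ F : ℤ)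
            - (Nat.card {v : Place K F // 0 < v.ord (x - algebraMap K F c)} : ℤ))
        - (Module.finrank K⟮x⟯ F : ℤ) - (Nat.card {v : Place K F // 0 < v.ord x⁻¹} : ℤ) := by
  classical
  have hxt : Transcendental K x := h.trans
  -- ω = g • dx
  have hspan := ffSpan_D_eq_top_of_transcendental (x := x) hxt
  obtain ⟨g, hg⟩ : ∃ g : F, g • D K F x = ω := by
    have : ω ∈ Submodule.span F {D K F x} := hspan ▸ Submodule.mem_top
    exact Submodule.mem_span_singleton.1 this
  have hg0 : g ≠ 0 := by
    rintro rfl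
    exact hω (by rw [← hg, zero_smul])
  have hdx : D K F x ≠ 0 := by
    intro h0
    exact hω (by rw [← hg, h0, smul_zero])
  -- divisor of g
  obtain ⟨E, hE, hEdeg⟩ := ffExists_principal (K := K) (x := x) g
  have hD' : ∀ v, (W - E) v = v.ordDifferential (D K F x) := by
    intro v
    rw [Finsupp.sub_apply, hW v, hE v, ← hg, ffOrdDifferential_smul (x := x) (hloc v) hg0 hdx]
    ring
  have hdeg : Divisor.degree W = Divisor.degree (W - E) := by rw [map_sub, hEdeg, sub_zero]
  rw [hdeg]
  -- zero and pole sets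
  obtain ⟨P, hP, hPsum⟩ := ffExists_poles (K := K) (x := x)
  choose Z hZ hZsum using fun c : K => ffExists_zeros (K := K) (x := x) c
  have hval_pole : ∀ v ∈ P, (W - E) v = v.ord x - 1 := by
    intro v hv
    rw [hD' v]
    exact ffOrdDifferential_D (x := x) (hloc v) (by have := (hP v).1 hv; omega)
  have hval_zero : ∀ c, ∀ v ∈ Z c, (W - E) v = v.ord (x - algebraMap K F c) - 1 := by
    intro c v hv
    rw [hD' v]
    exact ffOrdDifferential_D_sub (x := x) (hloc v) c (by have := (hZ c v).1 hv; omega)
  -- centres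
  have hcen : ∀ v : Place K F, ¬ v.ord x < 0 → ∃ c : K, v ∈ Z c := by
    intro v hv
    obtain ⟨c, hc⟩ := ffExists_center v hxt (not_lt.1 hv)
    exact ⟨c, (hZ c v).2 hc⟩
  let cen : Place K F → K := fun v => if hv : v.ord x < 0 then 0 else (hcen v hv).choose
  have hcen_mem : ∀ v, ¬ v.ord x < 0 → v ∈ Z (cen v) := by
    intro v hv
    simp only [cen, dif_neg hv]
    exact (hcen v hv).choose_spec
  let C' : Finset K := C ∪ (W - E).support.image cen
  have hsupp : (W - E).support ⊆ P ∪ C'.biUnion Z := by
    intro v hv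
    by_cases hvx : v.ord x < 0
    · exact Finset.mem_union_left _ ((hP v).2 hvx)
    · refine Finset.mem_union_right _ (Finset.mem_biUnion.2 ⟨cen v, ?_, hcen_mem v hvx⟩)
      exact Finset.mem_union_right _ (Finset.mem_image_of_mem cen hv)
  rw [ffDegree_eq_sum (x := x) (W - E) _ hsupp]
  have hdisjPZ : Disjoint P (C'.biUnion Z) := by
    rw [Finset.disjoint_left]
    intro v hvP hvZ
    obtain ⟨c, -, hvc⟩ := Finset.mem_biUnion.1 hvZ
    have h1 := (hP v).1 hvP
    have h2 := ffOrd_nonneg_of_center v ((hZ c v).1 hvc)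
    omega
  have hdisjZ : (C' : Set K).PairwiseDisjoint Z := by
    intro c _ c' _ hne
    rw [Function.onFun, Finset.disjoint_left]
    intro v hv hv'
    exact hne (ffCenter_unique v ((hZ c v).1 hv) ((hZ c' v).1 hv'))
  rw [Finset.sum_union hdisjPZ, Finset.sum_biUnion hdisjZ]
  have hpole : ∑ v ∈ P, (W - E) v = - (Module.finrank K⟮x⟯ F : ℤ) - (P.card : ℤ) := by
    rw [Finset.sum_congr rfl hval_pole, Finset.sum_sub_distrib, hPsum]
    simp
  have hzero : ∀ c, ∑ v ∈ Z c, (W - E) v = (Module.finrank K⟮x⟯ F : ℤ) - ((Z c).card : ℤ) := by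
    intro c
    rw [Finset.sum_congr rfl (hval_zero c), Finset.sum_sub_distrib, hZsum c]
    simp
  have hcardZ : ∀ c, Nat.card {v : Place K F // 0 < v.ord (x - algebraMap K F c)}
      = (Z c).card := fun c => Nat.subtype_card (Z c) (hZ c)
  have hcardP : Nat.card {v : Place K F // 0 < v.ord x⁻¹} = P.card :=
    Nat.subtype_card P (fun v => by rw [hP v, v.ord_inv]; omega)
  rw [hpole, Finset.sum_congr rfl (fun c _ => hzero c), hcardP]
  have hsub : ∑ c ∈ C', ((Module.finrank K⟮x⟯ F : ℤ) - ((Z c).card : ℤ))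
      = ∑ c ∈ C, ((Module.finrank K⟮x⟯ F : ℤ) - ((Z c).card : ℤ)) := by
    symm
    apply Finset.sum_subset Finset.subset_union_left
    intro c _ hc
    rw [← hcardZ c, hC c hc, sub_self]
  rw [hsub]
  simp only [hcardZ]
  ring

end

end Fermat.Agent.S24lib

end
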