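/-
S24 library, (AN-2): Taylor expansion at a point `τ ∈ ℍ` as a ring homomorphism
`expAt τ : WH N →+* LaurentSeries ℂ`.

* `taylorAtPS F c` : the formal Taylor series of `F : ℂ → ℂ` at `c`; additive/multiplicative on
  functions analytic at `c`; `(taylorAtPS F c).order = analyticOrderAt F c`.
* `expAtPS N τ : WH N →+* PowerSeries ℂ`, `expAt N τ : WH N →+* LaurentSeries ℂ`, injective.
* `expAt_order` : `(expAt N τ f).order = analyticOrderNatAt (f ∘ ofComplex) τ`.
* `expAt_order_smul` : `(expAt N τ (g • f)).order = (expAt N (g⁻¹ • τ) f).order`.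
(helper28)
-/
import Mathlib
import Fermat.Agent.S24lib.WHAct

set_option autoImplicit false

open scoped MatrixGroups ModularForm Manifold Topology
open UpperHalfPlane ModularForm CongruenceSubgroup Filter

namespace Fermat.Agent.S24lib

/-! ### Formal Taylor series -/

/-- The formal Taylor series of `F` at `c`. -/
noncomputable def taylorAtPS (F : ℂ → ℂ) (c : ℂ) : PowerSeries ℂ :=
  PowerSeries.mk fun n => (n.factorial : ℂ)⁻¹ * iteratedDeriv n F c

@[simp] lemma coeff_taylorAtPS (F : ℂ → ℂ) (c : ℂ) (n : ℕ) :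
    PowerSeries.coeff n (taylorAtPS F c) = (n.factorial : ℂ)⁻¹ * iteratedDeriv n F c := by
  simp [taylorAtPS]

lemma taylorAtPS_congr {F G : ℂ → ℂ} {c : ℂ} (h : F =ᶠ[𝓝 c] G) : taylorAtPS F c = taylorAtPS G c := by
  ext n
  simp only [coeff_taylorAtPS]
  rw [h.iteratedDeriv_eq n]

lemma taylorAtPS_add {F G : ℂ → ℂ} {c : ℂ} (hF : AnalyticAt ℂ F c) (hG : AnalyticAt ℂ G c) :
    taylorAtPS (F + G) c = taylorAtPS F c + taylorAtPS G c := by
  ext n
  simp [iteratedDeriv_add hF.contDiffAt hG.contDiffAt, mul_add]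

lemma taylorAtPS_mul {F G : ℂ → ℂ} {c : ℂ} (hF : AnalyticAt ℂ F c) (hG : AnalyticAt ℂ G c) :
    taylorAtPS (F * G) c = taylorAtPS F c * taylorAtPS G c := by
  ext n
  simp only [coeff_taylorAtPS, iteratedDeriv_mul hF.contDiffAt hG.contDiffAt, Finset.mul_sum,
    PowerSeries.coeff_mul, Finset.Nat.sum_antidiagonal_eq_sum_range_succ_mk, Nat.succ_eq_add_one]
  refine Finset.sum_congr rfl fun i hi ↦ ?_
  rw [Nat.cast_choose _ (by grind)]
  field_simp [Nat.factorial_ne_zero]

lemma taylorAtPS_const (a c : ℂ) : taylorAtPS (fun _ => a) c = PowerSeries.C a := by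
  ext n
  rw [coeff_taylorAtPS, PowerSeries.coeff_C]
  rcases Nat.eq_zero_or_pos n with rfl | hn
  · simp
  · rw [if_neg hn.ne']
    have : iteratedDeriv n (fun _ : ℂ => a) c = 0 := by
      have := @iteratedDeriv_const ℂ _ ℂ _ _ n a c
      simpa [hn.ne'] using this
    rw [this, mul_zero]

lemma taylorAtPS_order {F : ℂ → ℂ} {c : ℂ} (hF : AnalyticAt ℂ F c) :
    (taylorAtPS F c).order = analyticOrderAt F c := by
  refine ENat.eq_of_forall_natCast_le_iff fun n => ?_
  rw [natCast_le_analyticOrderAt_iff_iteratedDeriv_eq_zero hF]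
  constructor
  · intro h i hi
    have h1 : PowerSeries.coeff i (taylorAtPS F c) = 0 :=
      PowerSeries.coeff_of_lt_order i (lt_of_lt_of_le (by exact_mod_cast hi) h)
    rw [coeff_taylorAtPS] at h1
    rcases mul_eq_zero.1 h1 with h2 | h2
    · exact absurd (inv_eq_zero.1 h2) (by exact_mod_cast Nat.factorial_ne_zero i)
    · exact h2
  · intro h
    apply PowerSeries.nat_le_order
    intro i hi
    rw [coeff_taylorAtPS, h i hi, mul_zero]

lemma taylorAtPS_eq_zero_iff {F : ℂ → ℂ} {c : ℂ} (hF : AnalyticAt ℂ F c) :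
    taylorAtPS F c = 0 ↔ analyticOrderAt F c = ⊤ := by
  rw [← taylorAtPS_order hF, PowerSeries.order_eq_top]


/-! ### Expansion of weakly holomorphic modular functions at a point of `ℍ` -/

lemma expAt_analyticAt_of_mdiff {f : ℍ → ℂ} (hf : MDiff f) (τ : ℍ) :
    AnalyticAt ℂ (f ∘ ofComplex) (τ : ℂ) :=
  (UpperHalfPlane.mdifferentiable_iff.1 hf).analyticAt
    (isOpen_upperHalfPlaneSet.mem_nhds τ.im_pos)

lemma IsWH.analyticAt {N : ℕ} {f : ℍ → ℂ} (h : IsWH N f) (τ : ℍ) :
    AnalyticAt ℂ (f ∘ ofComplex) (τ : ℂ) :=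
  expAt_analyticAt_of_mdiff h.mdiff τ

/-- Taylor expansion at `τ` as a ring homomorphism into power series. -/
noncomputable def expAtPS (N : ℕ) (τ : ℍ) : WH N →+* PowerSeries ℂ where
  toFun f := taylorAtPS ((f : ℍ → ℂ) ∘ ofComplex) (τ : ℂ)
  map_one' := by
    have : ((1 : WH N) : ℍ → ℂ) ∘ ofComplex = fun _ => (1 : ℂ) := rfl
    rw [this, taylorAtPS_const]; rfl
  map_mul' f g := taylorAtPS_mul (f.2.analyticAt τ) (g.2.analyticAt τ)
  map_zero' := by
    have : ((0 : WH N) : ℍ → ℂ) ∘ ofComplex = fun _ => (0 : ℂ) := rfl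
    rw [this, taylorAtPS_const]; simp
  map_add' f g := taylorAtPS_add (f.2.analyticAt τ) (g.2.analyticAt τ)

lemma expAtPS_apply (N : ℕ) (τ : ℍ) (f : WH N) :
    expAtPS N τ f = taylorAtPS ((f : ℍ → ℂ) ∘ ofComplex) (τ : ℂ) := rfl

/-- Taylor expansion at `τ` as a ring homomorphism into Laurent series. -/
noncomputable def expAt (N : ℕ) (τ : ℍ) : WH N →+* LaurentSeries ℂ :=
  (HahnSeries.ofPowerSeries ℤ ℂ).comp (expAtPS N τ)

lemma expAt_apply (N : ℕ) (τ : ℍ) (f : WH N) :
    expAt N τ f = HahnSeries.ofPowerSeries ℤ ℂ (expAtPS N τ f) := rfl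

/-- The identity theorem on `ℍ`: a holomorphic function vanishing to infinite order at one point
is zero. -/
lemma expAt_eq_zero_of_order_top {f : ℍ → ℂ} (hf : MDiff f) (τ : ℍ)
    (h : analyticOrderAt (f ∘ ofComplex) (τ : ℂ) = ⊤) : f = 0 := by
  have hU : IsOpen {z : ℂ | 0 < z.im} := isOpen_upperHalfPlaneSet
  have hconn : IsPreconnected {z : ℂ | 0 < z.im} :=
    (convex_halfSpace_im_gt 0).isPreconnected
  have han : AnalyticOnNhd ℂ (f ∘ ofComplex) {z : ℂ | 0 < z.im} :=
    (UpperHalfPlane.mdifferentiable_iff.1 hf).analyticOnNhd hU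
  have h0 : (f ∘ ofComplex) =ᶠ[𝓝 (τ : ℂ)] 0 := analyticOrderAt_eq_top.1 h
  have := han.eqOn_zero_of_preconnected_of_eventuallyEq_zero hconn τ.im_pos h0
  funext z
  have hz := this z.im_pos
  simpa using hz

lemma expAtPS_injective (N : ℕ) (τ : ℍ) : Function.Injective (expAtPS N τ) := by
  rw [injective_iff_map_eq_zero]
  intro f hf
  rw [expAtPS_apply, taylorAtPS_eq_zero_iff (f.2.analyticAt τ)] at hf
  exact Subtype.ext (expAt_eq_zero_of_order_top f.2.mdiff τ hf)

lemma expAt_injective (N : ℕ) (τ : ℍ) : Function.Injective (expAt N τ) := by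
  intro f g h
  exact expAtPS_injective N τ (HahnSeries.ofPowerSeries_injective h)

lemma expAt_const (N : ℕ) (τ : ℍ) (c : ℂ) :
    expAt N τ ⟨Function.const ℍ c, isWH_const N c⟩ = HahnSeries.C c := by
  rw [expAt_apply, expAtPS_apply]
  have : (Function.const ℍ c) ∘ ofComplex = fun _ => c := rfl
  simp only [this, taylorAtPS_const]
  exact HahnSeries.ofPowerSeries_C c

lemma expAt_analyticOrderAt_ne_top {N : ℕ} (τ : ℍ) {f : WH N} (hf : f ≠ 0) :
    analyticOrderAt ((f : ℍ → ℂ) ∘ ofComplex) (τ : ℂ) ≠ ⊤ := fun h =>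
  hf (Subtype.ext (expAt_eq_zero_of_order_top f.2.mdiff τ h))

/-- The order of a power series, viewed as a Laurent series. -/
lemma expAt_order_ofPowerSeries (φ : PowerSeries ℂ) :
    (HahnSeries.ofPowerSeries ℤ ℂ φ).order = (φ.order.toNat : ℤ) := by
  by_cases hφ : φ = 0
  · subst hφ; simp
  have hne : HahnSeries.ofPowerSeries ℤ ℂ φ ≠ 0 := by
    intro h
    exact hφ (HahnSeries.ofPowerSeries_injective (by rw [h, map_zero]))
  have hc : ∀ n : ℕ, (HahnSeries.ofPowerSeries ℤ ℂ φ).coeff (n : ℤ) = PowerSeries.coeff n φ :=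
    fun n => HahnSeries.ofPowerSeries_apply_coeff φ n
  apply le_antisymm
  · apply HahnSeries.order_le_of_coeff_ne_zero
    rw [hc]
    exact PowerSeries.coeff_order hφ
  · by_contra hlt
    push Not at hlt
    have h1 : (HahnSeries.ofPowerSeries ℤ ℂ φ).coeff (HahnSeries.ofPowerSeries ℤ ℂ φ).order ≠ 0 :=
      fun h => hne (HahnSeries.coeff_order_eq_zero.1 h)
    set m := (HahnSeries.ofPowerSeries ℤ ℂ φ).order with hm
    by_cases hm0 : m < 0
    · apply h1
      rw [HahnSeries.ofPowerSeries_apply, HahnSeries.embDomain_of_notMem_range]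
      rintro ⟨k, hk⟩
      simp at hk
      omega
    · push Not at hm0
      obtain ⟨k, hk⟩ := Int.eq_ofNat_of_zero_le hm0
      apply h1
      rw [hk, hc]
      apply PowerSeries.coeff_of_lt_order_toNat
      rw [hk] at hlt
      exact_mod_cast hlt

theorem expAt_order (N : ℕ) (τ : ℍ) (f : WH N) :
    (expAt N τ f).order = (analyticOrderNatAt ((f : ℍ → ℂ) ∘ ofComplex) (τ : ℂ) : ℤ) := by
  rw [expAt_apply, expAt_order_ofPowerSeries, expAtPS_apply, taylorAtPS_order (f.2.analyticAt τ)]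
  rfl

/-- For `f ≠ 0` the order is the analytic order. -/
theorem expAt_order_eq (N : ℕ) (τ : ℍ) {f : WH N} (hf : f ≠ 0) :
    (((expAt N τ f).order.toNat : ℕ) : ℕ∞) = analyticOrderAt ((f : ℍ → ℂ) ∘ ofComplex) (τ : ℂ) := by
  rw [expAt_order]
  simp only [Int.toNat_natCast]
  exact Nat.cast_analyticOrderNatAt (expAt_analyticOrderAt_ne_top τ hf)


/-! ### Behaviour under the action of `SL(2,ℤ)` -/

/-- The analytic order of `z ↦ f (γ • z)` at `τ` is the analytic order of `f` at `γ • τ`. -/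
lemma expAt_analyticOrderAt_comp_smul (f : ℍ → ℂ) (γ : SL(2, ℤ)) (τ : ℍ) :
    analyticOrderAt ((fun z => f (γ • z)) ∘ ofComplex) (τ : ℂ)
      = analyticOrderAt (f ∘ ofComplex) ((γ • τ : ℍ) : ℂ) := by
  set g : GL (Fin 2) ℝ := Matrix.SpecialLinearGroup.mapGL ℝ γ with hg
  have hdet : 0 < g.val.det := by
    have h := Matrix.SpecialLinearGroup.det_mapGL (S := ℝ) γ
    have h' : g.val.det = 1 := by
      have := congrArg Units.val h
      rw [Matrix.GeneralLinearGroup.val_det_apply] at this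
      exact this
    rw [h']; exact one_pos
  set G : ℂ → ℂ := fun z => ((g • ofComplex z : ℍ) : ℂ) with hG
  have h1 : ((fun z => f (γ • z)) ∘ ofComplex) = (f ∘ ofComplex) ∘ G := by
    funext w
    simp only [Function.comp_apply, hG, ofComplex_apply]
    rfl
  have h2 : G (τ : ℂ) = ((γ • τ : ℍ) : ℂ) := by
    simp only [hG, ofComplex_apply]
    rfl
  rw [h1, analyticOrderAt_comp_of_deriv_ne_zero (τ.analyticAt_smul hdet)
    (τ.deriv_smul_ne_zero hdet), ← h2]

theorem expAt_order_smul (N : ℕ) (τ : ℍ) (g : SL(2, ℤ)) (f : WH N) :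
    (expAt N τ (g • f)).order = (expAt N (g⁻¹ • τ) f).order := by
  rw [expAt_order, expAt_order]
  have : ((g • f : WH N) : ℍ → ℂ) = fun z => (f : ℍ → ℂ) (g⁻¹ • z) := by
    funext z; exact wh_smul_apply g f z
  rw [this]
  unfold analyticOrderNatAt
  rw [expAt_analyticOrderAt_comp_smul]

/-- Slash version: `(f ∣[0] g)` at `τ` has the order of `f` at `g • τ`. -/
theorem expAt_order_slash (N : ℕ) (τ : ℍ) (g : SL(2, ℤ)) (f : WH N) :
    (expAt N τ ⟨(f : ℍ → ℂ) ∣[(0 : ℤ)] g, IsWH.slash f.2 g⟩).order = (expAt N (g • τ) f).order := by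
  have h := expAt_order_smul N τ g⁻¹ f
  rw [inv_inv] at h
  rw [← h]
  congr 2
  apply Subtype.ext
  rw [wh_smul_coe, inv_inv]

end Fermat.Agent.S24lib
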