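/-
S24 library: the zeros of `E₄` and `E₆`.

* `E₆_I : E₆ I = 0`, `E₄_ρ : E₄ ρ = 0`;
* `E₆_eq_zero_iff`, `E₄_eq_zero_iff` : the zero sets are the `SL(2,ℤ)`-orbits of `I` and `ρ`;
* `jFun_I`, `jFun_ρ` : `j(I) = 1728`, `j(ρ) = 0` (for `j = E₄³/Δ`).
-/
import Mathlib
import Fermat.Agent.S20_JInj
import Fermat.Agent.S24lib.JSurj
import Fermat.Agent.S24lib.JDeriv

set_option autoImplicit false

open UpperHalfPlane ModularForm CongruenceSubgroup Filter Topology EisensteinSeries ModularGroup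
open scoped MatrixGroups ModularForm Manifold

namespace Fermat.Agent.S24lib

theorem E₆_I : E₆ I = 0 := by
  have hS : S • I = I := (stabilizer_I (g := S)).2 (by simp)
  have h := jsurj_smul_eq E₆ S I
  rw [hS] at h
  have hd : denom (S : SL(2, ℤ)) (I : ℍ) = Complex.I := by
    rw [ModularGroup.denom_S]; rfl
  rw [hd] at h
  have h6 : (Complex.I : ℂ) ^ (6 : ℤ) = -1 := by
    have : (Complex.I : ℂ) ^ (6 : ℕ) = -1 := by
      calc (Complex.I : ℂ) ^ 6 = (Complex.I ^ 2) ^ 3 := by ring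
        _ = -1 := by rw [Complex.I_sq]; norm_num
    exact_mod_cast this
  rw [h6] at h
  have : 2 * E₆ I = 0 := by linear_combination h
  simpa using this

theorem E₄_ρ : E₄ ρ = 0 := by
  have hST : (S * T) • ρ = ρ := (stabilizer_ρ (g := S * T)).2 (by simp)
  have h := jsurj_smul_eq E₄ (S * T) ρ
  rw [hST] at h
  have hd : denom ((S * T : SL(2, ℤ))) (ρ : ℍ) = (ρ : ℂ) + 1 := by
    rw [ModularGroup.denom_apply]
    have h10 : ((S * T : SL(2, ℤ)) 1 0 : ℤ) = 1 := by decide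
    have h11 : ((S * T : SL(2, ℤ)) 1 1 : ℤ) = 1 := by decide
    rw [h10, h11]
    push_cast
    ring
  rw [hd] at h
  have hρ2 : (ρ : ℂ) ^ 2 + (ρ : ℂ) + 1 = 0 := by
    apply Complex.ext
    · simp [ρ, pow_two]
      ring_nf
      norm_num
    · simp [ρ, pow_two]
      ring
  have h4 : ((ρ : ℂ) + 1) ^ (4 : ℤ) = (ρ : ℂ) ^ 2 := by
    have : ((ρ : ℂ) + 1) ^ (4 : ℕ) = (ρ : ℂ) ^ 2 := by
      have e1 : ((ρ : ℂ) + 1) ^ 2 = (ρ : ℂ) := by linear_combination hρ2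
      calc ((ρ : ℂ) + 1) ^ 4 = (((ρ : ℂ) + 1) ^ 2) ^ 2 := by ring
        _ = (ρ : ℂ) ^ 2 := by rw [e1]
    exact_mod_cast this
  rw [h4] at h
  have hne : (1 : ℂ) - (ρ : ℂ) ^ 2 ≠ 0 := by
    intro h0
    have him := congrArg Complex.im h0
    have e2 : (ρ : ℂ) ^ 2 = -(ρ : ℂ) - 1 := by linear_combination hρ2
    rw [e2] at him
    simp [ρ] at him
  have h1 : (1 - (ρ : ℂ) ^ 2) * E₄ ρ = 0 := by linear_combination h
  exact (mul_eq_zero.1 h1).resolve_left hne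

/-- The zeros of `E₆` are the `SL(2,ℤ)`-translates of `I`. -/
theorem E₆_eq_zero_iff (z : ℍ) : E₆ z = 0 ↔ ∃ γ : SL(2, ℤ), γ • I = z := by
  constructor
  · intro h
    have hz := discriminant_eq_E₄_cube_sub_E₆_sq z
    have hI := discriminant_eq_E₄_cube_sub_E₆_sq I
    rw [h] at hz
    rw [E₆_I] at hI
    obtain ⟨g, hg⟩ := Fermat.Agent.S20lib.j_injective I z (by rw [hz, hI]; ring)
    exact ⟨g, hg⟩
  · rintro ⟨γ, rfl⟩
    rw [jsurj_smul_eq E₆ γ I, E₆_I, mul_zero]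

/-- The zeros of `E₄` are the `SL(2,ℤ)`-translates of `ρ`. -/
theorem E₄_eq_zero_iff (z : ℍ) : E₄ z = 0 ↔ ∃ γ : SL(2, ℤ), γ • ρ = z := by
  constructor
  · intro h
    obtain ⟨g, hg⟩ := Fermat.Agent.S20lib.j_injective ρ z (by rw [h, E₄_ρ]; ring)
    exact ⟨g, hg⟩
  · rintro ⟨γ, rfl⟩
    rw [jsurj_smul_eq E₄ γ ρ, E₄_ρ, mul_zero]

theorem jFun_ρ : jFun (ρ : ℂ) = 0 := by
  rw [jFun_coe, E₄_ρ]
  simp

theorem jFun_I : jFun ((I : ℍ) : ℂ) = 1728 := by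
  rw [jFun_coe]
  have hI := discriminant_eq_E₄_cube_sub_E₆_sq I
  rw [E₆_I] at hI
  have hΔ := discriminant_ne_zero I
  rw [div_eq_iff hΔ, hI]
  ring

theorem analyticOrderAt_jFun_sub_I :
    analyticOrderAt (fun w => jFun w - 1728) ((I : ℍ) : ℂ) = 2 := by
  have h := analyticOrderAt_jFun_sub I
  rw [jFun_I] at h
  rw [h]
  have h4 : E₄ I ≠ 0 := (jd_E₄_or_E₆_ne_zero I).resolve_right (not_not.2 E₆_I)
  rw [if_neg h4, if_pos E₆_I]

theorem analyticOrderAt_jFun_ρ :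
    analyticOrderAt jFun ((ρ : ℍ) : ℂ) = 3 := by
  have h := analyticOrderAt_jFun_sub ρ
  rw [jFun_ρ] at h
  simp only [sub_zero] at h
  rw [show jFun = fun w => jFun w from rfl, h, if_pos E₄_ρ]

end Fermat.Agent.S24lib
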