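/-
S24 library, (AN-9): local behaviour at an elliptic point.

If `f` is meromorphic at `τ ∈ ℍ`, not identically zero near `τ`, and invariant under `γ ∈ SL(2,ℤ)`
with `γ • τ = τ`, then `(denom γ τ) ^ (2 * ord_τ f) = 1`.  Consequently the order of `f` at `I` is
even when `f` is `S`-invariant, and the order at `ρ` is divisible by `3` when `f` is
`S * T`-invariant.
-/
import Mathlib

set_option autoImplicit false

open UpperHalfPlane ModularGroup Filter Topology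
open scoped MatrixGroups Manifold

namespace Fermat.Agent.S24lib

/-- `γ z - γ τ = (z - τ) / (denom γ z * denom γ τ)`. -/
lemma local_smul_sub (γ : SL(2, ℤ)) (z τ : ℍ) :
    ((γ • z : ℍ) : ℂ) - ((γ • τ : ℍ) : ℂ) = ((z : ℂ) - τ) / (denom γ z * denom γ τ) := by
  have hz : denom γ z ≠ 0 := denom_ne_zero _ z
  have hτ : denom γ τ ≠ 0 := denom_ne_zero _ τ
  rw [coe_specialLinearGroup_apply, coe_specialLinearGroup_apply]
  have hz' : ((algebraMap ℤ ℝ (γ 1 0) : ℝ) : ℂ) * z + ((algebraMap ℤ ℝ (γ 1 1) : ℝ) : ℂ) = denom γ z := by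
    rw [ModularGroup.denom_apply]; simp
  have hτ' : ((algebraMap ℤ ℝ (γ 1 0) : ℝ) : ℂ) * τ + ((algebraMap ℤ ℝ (γ 1 1) : ℝ) : ℂ) = denom γ τ := by
    rw [ModularGroup.denom_apply]; simp
  rw [hz', hτ']
  have hdet : ((γ 0 0 : ℤ) : ℂ) * (γ 1 1 : ℤ) - ((γ 0 1 : ℤ) : ℂ) * (γ 1 0 : ℤ) = 1 := by
    have := Matrix.SpecialLinearGroup.det_coe γ
    rw [Matrix.det_fin_two] at this
    exact_mod_cast this
  rw [div_sub_div _ _ hz hτ, div_left_inj' (mul_ne_zero hz hτ)]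
  rw [ModularGroup.denom_apply, ModularGroup.denom_apply]
  simp only [eq_intCast, Complex.ofReal_intCast]
  linear_combination ((z : ℂ) - τ) * hdet

/-- The key local statement: invariance under a stabiliser element forces
`denom ^ (2 * order) = 1`. -/
theorem local_denom_zpow_eq_one (γ : SL(2, ℤ)) (τ : ℍ) (hγτ : γ • τ = τ) {f : ℍ → ℂ}
    (hinv : ∀ z : ℍ, f (γ • z) = f z) {m : ℤ}
    (hmer : MeromorphicAt (f ∘ ofComplex) (τ : ℂ))
    (hm : meromorphicOrderAt (f ∘ ofComplex) (τ : ℂ) = m) :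
    (denom γ τ) ^ (2 * m) = 1 := by
  obtain ⟨g, hg, hg0, hfg⟩ := (meromorphicOrderAt_eq_int_iff hmer).1 hm
  have hτ0 : denom γ τ ≠ 0 := denom_ne_zero _ τ
  -- the Möbius map as a function on `ℂ`
  set a : ℂ := ((γ 0 0 : ℤ) : ℂ) with ha
  set b : ℂ := ((γ 0 1 : ℤ) : ℂ) with hb
  set c : ℂ := ((γ 1 0 : ℤ) : ℂ) with hc
  set d : ℂ := ((γ 1 1 : ℤ) : ℂ) with hd
  set φ : ℂ → ℂ := fun w => (a * w + b) / (c * w + d) with hφ
  have hden : ∀ z : ℍ, c * z + d = denom γ z := fun z => by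
    rw [ModularGroup.denom_apply]
  have hφcoe : ∀ z : ℍ, φ z = ((γ • z : ℍ) : ℂ) := fun z => by
    rw [coe_specialLinearGroup_apply]; simp [hφ, ha, hb, hc, hd]
  have hφτ : φ τ = τ := by rw [hφcoe, hγτ]
  have hdτ : c * (τ : ℂ) + d ≠ 0 := by rw [hden]; exact hτ0
  have hφcont : ContinuousAt φ (τ : ℂ) := by
    apply ContinuousAt.div
    · fun_prop
    · fun_prop
    · exact hdτ
  have hdcont : ContinuousAt (fun w : ℂ => c * w + d) (τ : ℂ) := by fun_prop
  -- the two continuous functions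
  set G₂ : ℂ → ℂ := fun w => (((c * w + d) * (c * τ + d)) ^ m)⁻¹ * g (φ w) with hG₂
  have hG₂cont : ContinuousAt G₂ (τ : ℂ) := by
    have h1 : ContinuousAt (fun w : ℂ => ((c * w + d) * (c * τ + d)) ^ m) (τ : ℂ) := by
      apply ContinuousAt.zpow₀
      · fun_prop
      · left; exact mul_ne_zero hdτ hdτ
    have h2 : ContinuousAt (fun w : ℂ => g (φ w)) (τ : ℂ) := by
      apply ContinuousAt.comp (g := g)
      · rw [hφτ]; exact hg.continuousAt
      · exact hφcont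
    exact (h1.inv₀ (zpow_ne_zero _ (mul_ne_zero hdτ hdτ))).mul h2
  have heq : g =ᶠ[𝓝[≠] (τ : ℂ)] G₂ := by
    -- neighbourhoods: upper half plane, formula for `f` at `w` and at `φ w`
    have hU : ∀ᶠ w in 𝓝[≠] (τ : ℂ), 0 < w.im :=
      nhdsWithin_le_nhds (isOpen_upperHalfPlaneSet.mem_nhds τ.im_pos)
    have hfg' : ∀ᶠ w : ℂ in 𝓝 (τ : ℂ), w ≠ (τ : ℂ) →
        (f ∘ ofComplex) w = (w - (τ : ℂ)) ^ m • g w :=
      eventually_nhdsWithin_iff.1 hfg
    have hfgφ : ∀ᶠ w : ℂ in 𝓝 (τ : ℂ), φ w ≠ (τ : ℂ) →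
        (f ∘ ofComplex) (φ w) = (φ w - (τ : ℂ)) ^ m • g (φ w) := by
      have := hφcont.tendsto
      rw [hφτ] at this
      exact this.eventually hfg'
    filter_upwards [hU, hfg, nhdsWithin_le_nhds hfgφ, self_mem_nhdsWithin] with w hw h1 h2 hne
    have hne' : w ≠ (τ : ℂ) := hne
    set z : ℍ := ⟨w, hw⟩ with hz
    have hzw : ((z : ℍ) : ℂ) = w := rfl
    have hdz : c * w + d ≠ 0 := by
      have := hden z
      rw [hzw] at this
      rw [this]; exact denom_ne_zero _ z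
    have hsub : φ w - (τ : ℂ) = (w - (τ : ℂ)) / ((c * w + d) * (c * (τ : ℂ) + d)) := by
      have := local_smul_sub γ z τ
      rw [hγτ, ← hφcoe z, hzw, ← hden z, ← hden τ, hzw] at this
      exact this
    have hφne : φ w ≠ (τ : ℂ) := by
      intro h0
      rw [h0, sub_self] at hsub
      have := (div_eq_zero_iff.1 hsub.symm).resolve_right (mul_ne_zero hdz hdτ)
      exact hne' (sub_eq_zero.1 this)
    have h3 := h2 hφne
    have hF1 : (f ∘ ofComplex) (φ w) = (f ∘ ofComplex) w := by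
      have e1 : ofComplex (φ w) = γ • z := by
        have : φ w = ((γ • z : ℍ) : ℂ) := by rw [← hφcoe z]
        rw [this, ofComplex_apply]
      have e2 : ofComplex w = z := by
        rw [← hzw, ofComplex_apply]
      simp only [Function.comp_apply, e1, e2, hinv]
    rw [hF1, h1, hsub] at h3
    have hwτ : (w - (τ : ℂ)) ≠ 0 := sub_ne_zero.2 hne'
    have hpow : (w - (τ : ℂ)) ^ m ≠ 0 := zpow_ne_zero _ hwτ
    simp only [smul_eq_mul] at h3
    rw [div_zpow, div_mul_eq_mul_div, eq_div_iff (zpow_ne_zero _ (mul_ne_zero hdz hdτ))] at h3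
    have h4 : g w * ((c * w + d) * (c * τ + d)) ^ m = g (φ w) := by
      apply mul_left_cancel₀ hpow
      rw [← h3]; ring
    simp only [hG₂]
    rw [← h4]
    field_simp
  have hval : g τ = G₂ τ := by
    have t1 : Tendsto g (𝓝[≠] (τ : ℂ)) (𝓝 (g τ)) :=
      hg.continuousAt.tendsto.mono_left nhdsWithin_le_nhds
    have t2 : Tendsto g (𝓝[≠] (τ : ℂ)) (𝓝 (G₂ τ)) :=
      (hG₂cont.tendsto.mono_left nhdsWithin_le_nhds).congr' heq.symm
    exact tendsto_nhds_unique t1 t2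
  simp only [hG₂, hφτ] at hval
  have hne2 : ((c * (τ : ℂ) + d) * (c * τ + d)) ^ m ≠ 0 := zpow_ne_zero _ (mul_ne_zero hdτ hdτ)
  have h5 : ((c * (τ : ℂ) + d) * (c * τ + d)) ^ m = 1 := by
    have h6 : ((c * (τ : ℂ) + d) * (c * τ + d)) ^ m * g τ = g τ := by
      calc ((c * (τ : ℂ) + d) * (c * τ + d)) ^ m * g τ
          = ((c * (τ : ℂ) + d) * (c * τ + d)) ^ m
              * ((((c * (τ : ℂ) + d) * (c * τ + d)) ^ m)⁻¹ * g τ) := by rw [← hval]
        _ = g τ := by rw [← mul_assoc, mul_inv_cancel₀ hne2, one_mul]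
    exact mul_right_cancel₀ hg0 (by rw [h6, one_mul])
  rw [← hden τ, two_mul, zpow_add₀ hdτ, ← mul_zpow]
  exact h5

lemma local_denom_S_I : denom (S : SL(2, ℤ)) (I : ℍ) = Complex.I := by
  rw [ModularGroup.denom_S]; rfl

lemma local_denom_ST_ρ : denom ((S * T : SL(2, ℤ))) (ρ : ℍ) = (ρ : ℂ) + 1 := by
  rw [ModularGroup.denom_apply]
  have h10 : ((S * T : SL(2, ℤ)) 1 0 : ℤ) = 1 := by decide
  have h11 : ((S * T : SL(2, ℤ)) 1 1 : ℤ) = 1 := by decide
  rw [h10, h11]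
  push_cast
  ring

lemma local_ρ_sq_add : (ρ : ℂ) ^ 2 + (ρ : ℂ) + 1 = 0 := by
  apply Complex.ext
  · simp [ρ, pow_two]
    ring_nf
    norm_num
  · simp [ρ, pow_two]
    ring

lemma local_isPrimitiveRoot_ρ : IsPrimitiveRoot (ρ : ℂ) 3 := by
  have h2 := local_ρ_sq_add
  have e2 : (ρ : ℂ) ^ 2 = -(ρ : ℂ) - 1 := by linear_combination h2
  have him : ((ρ : ℍ) : ℂ).im = Real.sqrt 3 / 2 := by simp [ρ]
  have hs : Real.sqrt 3 ≠ 0 := by positivity
  refine IsPrimitiveRoot.mk_of_lt _ (by norm_num) ?_ ?_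
  · linear_combination ((ρ : ℂ) - 1) * h2
  · intro l hl0 hl3 h
    interval_cases l
    · rw [pow_one] at h
      have := congrArg Complex.im h
      rw [him] at this
      simp at this
    · rw [e2] at h
      have := congrArg Complex.im h
      simp only [Complex.sub_im, Complex.neg_im, him, Complex.one_im] at this
      apply hs
      linarith

/-- An `S`-invariant function has even order at `I`. -/
theorem local_two_dvd_order_I {f : ℍ → ℂ} (hinv : ∀ z : ℍ, f (S • z) = f z) {m : ℤ}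
    (hmer : MeromorphicAt (f ∘ ofComplex) ((I : ℍ) : ℂ))
    (hm : meromorphicOrderAt (f ∘ ofComplex) ((I : ℍ) : ℂ) = m) : (2 : ℤ) ∣ m := by
  have hS : S • I = I := (stabilizer_I (g := S)).2 (by simp)
  have h := local_denom_zpow_eq_one S I hS hinv hmer hm
  rw [local_denom_S_I, zpow_mul, zpow_two, Complex.I_mul_I] at h
  have hne : (-1 : ℂ) ≠ 1 := by norm_num
  rw [neg_one_zpow_eq_ite] at h
  by_cases he : Even m
  · exact even_iff_two_dvd.1 he
  · rw [if_neg he] at h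
    exact absurd h hne

/-- An `S * T`-invariant function has order divisible by `3` at `ρ`. -/
theorem local_three_dvd_order_ρ {f : ℍ → ℂ} (hinv : ∀ z : ℍ, f ((S * T) • z) = f z) {m : ℤ}
    (hmer : MeromorphicAt (f ∘ ofComplex) ((ρ : ℍ) : ℂ))
    (hm : meromorphicOrderAt (f ∘ ofComplex) ((ρ : ℍ) : ℂ) = m) : (3 : ℤ) ∣ m := by
  have hST : (S * T) • ρ = ρ := (stabilizer_ρ (g := S * T)).2 (by simp)
  have h := local_denom_zpow_eq_one (S * T) ρ hST hinv hmer hm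
  have e1 : ((ρ : ℂ) + 1) ^ (2 : ℤ) = (ρ : ℂ) := by
    have : ((ρ : ℂ) + 1) ^ (2 : ℕ) = (ρ : ℂ) := by linear_combination local_ρ_sq_add
    exact_mod_cast this
  rw [local_denom_ST_ρ, zpow_mul, e1] at h
  exact_mod_cast (local_isPrimitiveRoot_ρ.zpow_eq_one_iff_dvd m).1 h

/-- Holomorphic version at `I`. -/
theorem local_two_dvd_analyticOrder_I {f : ℍ → ℂ} (hf : MDiff f)
    (hinv : ∀ z : ℍ, f (S • z) = f z)
    (hne : analyticOrderAt (f ∘ ofComplex) ((I : ℍ) : ℂ) ≠ ⊤) :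
    2 ∣ analyticOrderNatAt (f ∘ ofComplex) ((I : ℍ) : ℂ) := by
  have han : AnalyticAt ℂ (f ∘ ofComplex) ((I : ℍ) : ℂ) :=
    (UpperHalfPlane.mdifferentiable_iff.1 hf).analyticAt
      (isOpen_upperHalfPlaneSet.mem_nhds (I : ℍ).im_pos)
  have hm : meromorphicOrderAt (f ∘ ofComplex) ((I : ℍ) : ℂ)
      = ((analyticOrderNatAt (f ∘ ofComplex) ((I : ℍ) : ℂ) : ℕ) : ℤ) := by
    rw [han.meromorphicOrderAt_eq, ← Nat.cast_analyticOrderNatAt hne]
    rfl
  have := local_two_dvd_order_I hinv han.meromorphicAt hm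
  exact_mod_cast this

/-- Holomorphic version at `ρ`. -/
theorem local_three_dvd_analyticOrder_ρ {f : ℍ → ℂ} (hf : MDiff f)
    (hinv : ∀ z : ℍ, f ((S * T) • z) = f z)
    (hne : analyticOrderAt (f ∘ ofComplex) ((ρ : ℍ) : ℂ) ≠ ⊤) :
    3 ∣ analyticOrderNatAt (f ∘ ofComplex) ((ρ : ℍ) : ℂ) := by
  have han : AnalyticAt ℂ (f ∘ ofComplex) ((ρ : ℍ) : ℂ) :=
    (UpperHalfPlane.mdifferentiable_iff.1 hf).analyticAt
      (isOpen_upperHalfPlaneSet.mem_nhds (ρ : ℍ).im_pos)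
  have hm : meromorphicOrderAt (f ∘ ofComplex) ((ρ : ℍ) : ℂ)
      = ((analyticOrderNatAt (f ∘ ofComplex) ((ρ : ℍ) : ℂ) : ℕ) : ℤ) := by
    rw [han.meromorphicOrderAt_eq, ← Nat.cast_analyticOrderNatAt hne]
    rfl
  have := local_three_dvd_order_ρ hinv han.meromorphicAt hm
  exact_mod_cast this

end Fermat.Agent.S24lib
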