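/-
S24 library, (AN-2/AN-9 glue): the order of `j - c` in the Taylor expansion at a point of `ℍ`,
and divisibility of orders at the elliptic points `I`, `ρ`.

* `exists_jH_eq c` : `j` is surjective;
* `expAt_order_jWH_sub` : the order of `j - j(τ)` at `τ` is `3 / 2 / 1`;
* `expAt_order_jWH_sub_I`, `expAt_order_jWH_ρ`, `expAt_order_jWH_sub_generic`;
* `expAt_two_dvd_I` : `S • f = f ⇒ 2 ∣ order at I`; `expAt_three_dvd_ρ` : `(S*T) • f = f ⇒ 3 ∣ order at ρ`.
(helper28)
-/
import Mathlib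
import Fermat.Agent.S24lib.ExpAt
import Fermat.Agent.S24lib.JZeros
import Fermat.Agent.S24lib.Local

set_option autoImplicit false

open scoped MatrixGroups ModularForm Manifold Topology
open UpperHalfPlane ModularForm CongruenceSubgroup Filter ModularGroup EisensteinSeries

namespace Fermat.Agent.S24lib

lemma jH_comp_ofComplex : jH ∘ ofComplex = jFun := rfl

lemma jH_eq_jFun (z : ℍ) : jH z = jFun (z : ℂ) := by
  rw [jFun_coe]; rfl

/-- `j` is surjective. -/
theorem exists_jH_eq (c : ℂ) : ∃ τ : ℍ, jH τ = c := by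
  obtain ⟨z, hz⟩ := j_surjective c
  refine ⟨z, ?_⟩
  unfold jH
  rw [hz, mul_div_assoc, div_self (discriminant_ne_zero z), mul_one]

lemma jH_I : jH I = 1728 := by rw [jH_eq_jFun, jFun_I]

lemma jH_ρ : jH ρ = 0 := by rw [jH_eq_jFun, jFun_ρ]

lemma jH_eq_zero_iff (z : ℍ) : jH z = 0 ↔ E₄ z = 0 := by
  unfold jH
  rw [div_eq_zero_iff]
  constructor
  · rintro (h | h)
    · exact pow_eq_zero_iff (by norm_num) |>.1 h
    · exact absurd h (discriminant_ne_zero z)
  · intro h; left; rw [h]; ring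

lemma jH_eq_1728_iff (z : ℍ) : jH z = 1728 ↔ E₆ z = 0 := by
  have hΔ := discriminant_ne_zero z
  have hz := discriminant_eq_E₄_cube_sub_E₆_sq z
  unfold jH
  rw [div_eq_iff hΔ]
  constructor
  · intro h
    have : E₆ z ^ 2 = 0 := by
      have h2 : (1728 : ℂ) * discriminant z = E₄ z ^ 3 - E₆ z ^ 2 := by
        rw [hz]; field_simp
      linear_combination h + h2
    exact pow_eq_zero_iff (by norm_num) |>.1 this
  · intro h
    rw [h] at hz
    rw [hz]; field_simp; ring

/-- The order of `j - j(τ)` at `τ`. -/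
theorem expAt_order_jWH_sub (N : ℕ) (τ : ℍ) :
    (expAt N τ (jWH N - ⟨Function.const ℍ (jH τ), isWH_const N (jH τ)⟩)).order
      = if E₄ τ = 0 then 3 else if E₆ τ = 0 then 2 else 1 := by
  rw [expAt_order]
  have hfun : ((jWH N - ⟨Function.const ℍ (jH τ), isWH_const N (jH τ)⟩ : WH N) : ℍ → ℂ) ∘ ofComplex
      = fun w => jFun w - jFun (τ : ℂ) := by
    funext w
    show jH (ofComplex w) - jH τ = jFun w - jFun (τ : ℂ)
    rw [jH_eq_jFun τ]
    rfl
  rw [hfun]
  unfold analyticOrderNatAt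
  rw [analyticOrderAt_jFun_sub τ]
  split_ifs <;> rfl

theorem expAt_order_jWH_sub_I (N : ℕ) :
    (expAt N I (jWH N - ⟨Function.const ℍ 1728, isWH_const N 1728⟩)).order = 2 := by
  have h := expAt_order_jWH_sub N I
  have e : (⟨Function.const ℍ (jH I), isWH_const N (jH I)⟩ : WH N)
      = ⟨Function.const ℍ 1728, isWH_const N 1728⟩ := by
    apply Subtype.ext; simp only [jH_I]
  rw [e] at h
  rw [h]
  have h4 : E₄ I ≠ 0 := fun h4 => by
    rcases jd_E₄_or_E₆_ne_zero I with h' | h'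
    · exact h' h4
    · exact h' E₆_I
  rw [if_neg h4, if_pos E₆_I]

theorem expAt_order_jWH_ρ (N : ℕ) : (expAt N ρ (jWH N)).order = 3 := by
  have h := expAt_order_jWH_sub N ρ
  have e : (jWH N - ⟨Function.const ℍ (jH ρ), isWH_const N (jH ρ)⟩ : WH N) = jWH N := by
    apply Subtype.ext
    funext z
    simp [jH_ρ]
  rw [e] at h
  rw [h, if_pos E₄_ρ]

theorem expAt_order_jWH_sub_generic (N : ℕ) (τ : ℍ) (h0 : jH τ ≠ 0) (h1 : jH τ ≠ 1728) :
    (expAt N τ (jWH N - ⟨Function.const ℍ (jH τ), isWH_const N (jH τ)⟩)).order = 1 := by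
  rw [expAt_order_jWH_sub, if_neg (fun h => h0 ((jH_eq_zero_iff τ).2 h)),
    if_neg (fun h => h1 ((jH_eq_1728_iff τ).2 h))]

/-- An `S`-invariant element of `WH N` has even order at `I`. -/
theorem expAt_two_dvd_I (N : ℕ) (f : WH N) (hinv : S • f = f) :
    (2 : ℤ) ∣ (expAt N I f).order := by
  by_cases hf : f = 0
  · subst hf; simp
  rw [expAt_order]
  have hinv' : ∀ z : ℍ, (f : ℍ → ℂ) (S • z) = (f : ℍ → ℂ) z := by
    intro z
    have h1 := wh_smul_apply S f (S • z)
    rw [hinv, inv_smul_smul] at h1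
    exact h1
  have := local_two_dvd_analyticOrder_I f.2.mdiff hinv' (expAt_analyticOrderAt_ne_top I hf)
  exact_mod_cast this

/-- An `S * T`-invariant element of `WH N` has order divisible by `3` at `ρ`. -/
theorem expAt_three_dvd_ρ (N : ℕ) (f : WH N) (hinv : (S * T) • f = f) :
    (3 : ℤ) ∣ (expAt N ρ f).order := by
  by_cases hf : f = 0
  · subst hf; simp
  rw [expAt_order]
  have hinv' : ∀ z : ℍ, (f : ℍ → ℂ) ((S * T) • z) = (f : ℍ → ℂ) z := by
    intro z
    have h1 := wh_smul_apply (S * T) f ((S * T) • z)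
    rw [hinv, inv_smul_smul] at h1
    exact h1
  have := local_three_dvd_analyticOrder_ρ f.2.mdiff hinv' (expAt_analyticOrderAt_ne_top ρ hf)
  exact_mod_cast this

lemma expAt_S_smul_I : (S : SL(2, ℤ))⁻¹ • (I : ℍ) = I := by
  have hS : S • I = I := (stabilizer_I (g := S)).2 (by simp)
  rw [inv_smul_eq_iff, hS]

lemma expAt_ST_smul_ρ : (S * T : SL(2, ℤ))⁻¹ • (ρ : ℍ) = ρ := by
  have hST : (S * T) • ρ = ρ := (stabilizer_ρ (g := S * T)).2 (by simp)
  rw [inv_smul_eq_iff, hST]

/-- `S` does not change the order at `I`. -/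
theorem expAt_order_S_smul_I (N : ℕ) (f : WH N) :
    (expAt N I (S • f)).order = (expAt N I f).order := by
  rw [expAt_order_smul, expAt_S_smul_I]

/-- `S * T` does not change the order at `ρ`. -/
theorem expAt_order_ST_smul_ρ (N : ℕ) (f : WH N) :
    (expAt N ρ ((S * T) • f)).order = (expAt N ρ f).order := by
  rw [expAt_order_smul, expAt_ST_smul_ρ]

end Fermat.Agent.S24lib
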