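/-
S24 library, (AN-10, finite fibres): the `FiberData` over `j = c` for `c ≠ 0, 1728`, `c = 1728`
and `c = 0`, built from the Taylor expansions `expAt N τ₀` at a point `τ₀` with `j(τ₀) = c`.
(helper28)
-/
import Mathlib
import Fermat.Agent.S24lib.Sym
import Fermat.Agent.S24lib.ExpAtJ
import Fermat.Agent.S24lib.FiberData

set_option autoImplicit false

open scoped MatrixGroups ModularForm Manifold Topology
open UpperHalfPlane ModularForm CongruenceSubgroup Filter ModularGroup ModularCurve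

namespace Fermat.Agent.S24lib


section generic

variable (N : ℕ) [NeZero N]

/-- The local expansion attached to the coset `q` and the base point `τ₀`. -/
noncomputable def sigmaAt (τ₀ : ℍ) (q : SL(2, ℤ) ⧸ Gamma0 N) : FF N →+* LaurentSeries ℂ :=
  embF N (twist N (expAt N τ₀) q.out) (twist_injective N (expAt_injective N τ₀) q.out)

omit [NeZero N] in
lemma fib_smul_mk_quot (g h : SL(2, ℤ)) :
    g • (h : SL(2, ℤ) ⧸ Gamma0 N) = ((g * h : SL(2, ℤ)) : SL(2, ℤ) ⧸ Gamma0 N) := rfl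

omit [NeZero N] in
lemma fib_smul_out (g : SL(2, ℤ)) (q : SL(2, ℤ) ⧸ Gamma0 N) :
    ((g * q.out : SL(2, ℤ)) : SL(2, ℤ) ⧸ Gamma0 N) = g • q := by
  rw [← fib_smul_mk_quot, QuotientGroup.out_eq']

lemma sigmaAt_const (τ₀ : ℍ) (q : SL(2, ℤ) ⧸ Gamma0 N) (c : Kbar) :
    sigmaAt N τ₀ q (algebraMap Kbar (FF N) c) = HahnSeries.C (ιC c) := by
  unfold sigmaAt
  rw [embF_const, twist_apply, smul_whC]
  exact expAt_const N τ₀ (ιC c)

lemma sigmaAt_jF (τ₀ : ℍ) (q : SL(2, ℤ) ⧸ Gamma0 N) :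
    sigmaAt N τ₀ q (jF N) = expAt N τ₀ (jWH N) := by
  unfold sigmaAt
  rw [embF_jF, twist_apply, smul_jWH]

lemma sigmaAt_u (τ₀ : ℍ) (q : SL(2, ℤ) ⧸ Gamma0 N) (c : Kbar) (hc : jH τ₀ = ιC c) :
    sigmaAt N τ₀ q (jF N - algebraMap Kbar (FF N) c)
      = expAt N τ₀ (jWH N - ⟨Function.const ℍ (jH τ₀), isWH_const N (jH τ₀)⟩) := by
  rw [map_sub, map_sub, sigmaAt_jF, sigmaAt_const, expAt_const, hc]

lemma sigmaAt_injective (τ₀ : ℍ) : Function.Injective (sigmaAt N τ₀) := by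
  intro q q' h
  have h1 := embF_twist_injective N (expAt_injective N τ₀) q.out q'.out h
  rw [← QuotientGroup.out_eq' q, ← QuotientGroup.out_eq' q']
  exact QuotientGroup.eq.2 h1


lemma embF_twist_congr (E : WH N →+* LaurentSeries ℂ) (hE : Function.Injective E)
    {g g' : SL(2, ℤ)} (h : g = g') :
    embF N (twist N E g) (twist_injective N hE g) = embF N (twist N E g') (twist_injective N hE g') := by
  subst h; rfl

/-- `σ_{g • q}` is the expansion twisted by `g * q.out`. -/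
lemma sigmaAt_smul (τ₀ : ℍ) (g : SL(2, ℤ)) (q : SL(2, ℤ) ⧸ Gamma0 N) :
    sigmaAt N τ₀ (g • q) = embF N (twist N (expAt N τ₀) (g * q.out))
      (twist_injective N (expAt_injective N τ₀) _) := by
  unfold sigmaAt
  have hγ : (g * q.out)⁻¹ * (g • q).out ∈ Gamma0 N := by
    rw [← QuotientGroup.eq]
    rw [QuotientGroup.out_eq', fib_smul_out]
  have e : (g • q).out = (g * q.out) * ((g * q.out)⁻¹ * (g • q).out) := by group
  have := embF_twist_mul N (expAt_injective N τ₀) (g * q.out) ((g * q.out)⁻¹ * (g • q).out) hγ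
  rw [← this]
  exact embF_twist_congr N _ (expAt_injective N τ₀) e

/-- The order of `embF E f` in terms of a representation `f = a / b`. -/
lemma order_embF_of_repr {f : FF N} (hf : f ≠ 0) {a b : WH N} (hb : b ≠ 0)
    (E : WH N →+* LaurentSeries ℂ) (hE : Function.Injective E)
    (h : embF N E hE f * E b = E a) :
    (embF N E hE f).order = (E a).order - (E b).order := by
  have h1 : embF N E hE f ≠ 0 := by
    intro h0
    exact hf ((embF N E hE).injective (by rw [h0, map_zero]))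
  have h2 : E b ≠ 0 := fun h0 => hb (hE (by rw [h0, map_zero]))
  rw [← h, HahnSeries.order_mul h1 h2]
  ring

omit [NeZero N] in
lemma fib_smul_ne_zero (g : SL(2, ℤ)) {b : WH N} (hb : b ≠ 0) : g • b ≠ 0 := by
  intro h
  apply hb
  have := congrArg (fun x => g⁻¹ • x) h
  simpa using this

/-- `order_smul` for a stabiliser element `g` of `τ₀`. -/
lemma sigmaAt_order_smul (τ₀ : ℍ) (g : SL(2, ℤ)) (hg : g⁻¹ • τ₀ = τ₀)
    (q : SL(2, ℤ) ⧸ Gamma0 N) (f : FF N) :
    (sigmaAt N τ₀ (g • q) f).order = (sigmaAt N τ₀ q f).order := by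
  by_cases hf : f = 0
  · subst hf; simp
  obtain ⟨a, b, hb, -, -, hab⟩ := embF_exists_div N f
  rw [sigmaAt_smul]
  unfold sigmaAt
  have hinj := expAt_injective N τ₀
  rw [order_embF_of_repr N hf hb _ (twist_injective N hinj _) (hab _ _),
    order_embF_of_repr N hf hb _ (twist_injective N hinj _) (hab _ _)]
  simp only [twist_apply N, mul_smul]
  rw [expAt_order_smul N τ₀ g, expAt_order_smul N τ₀ g, hg]

/-- `dvd` at a fixed coset. -/
lemma sigmaAt_dvd_of_fixed (τ₀ : ℍ) (g : SL(2, ℤ)) (s : ℕ)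
    (hdvd : ∀ f : WH N, g • f = f → (s : ℤ) ∣ (expAt N τ₀ f).order)
    (q : SL(2, ℤ) ⧸ Gamma0 N) (hq : g • q = q) (f : FF N) (hf : f ≠ 0) :
    (s : ℤ) ∣ (sigmaAt N τ₀ q f).order := by
  obtain ⟨a, b, hb, ha_inv, hb_inv, hab⟩ := embF_exists_div N f
  unfold sigmaAt
  have hinj := expAt_injective N τ₀
  rw [order_embF_of_repr N hf hb _ (twist_injective N hinj _) (hab _ _)]
  simp only [twist_apply N]
  obtain ⟨h, hh⟩ : ∃ h : SL(2, ℤ), h = q.out := ⟨_, rfl⟩
  rw [← hh]
  have hγ : h⁻¹ * g * h ∈ Gamma0 N := by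
    have : (h : SL(2, ℤ) ⧸ Gamma0 N) = ((g * h : SL(2, ℤ)) : SL(2, ℤ) ⧸ Gamma0 N) := by
      rw [hh, fib_smul_out, hq, QuotientGroup.out_eq']
    have := QuotientGroup.eq.1 this
    rwa [← mul_assoc] at this
  have key : ∀ x : WH N, (∀ γ ∈ Gamma0 N, γ • x = x) → g • (h • x) = h • x := by
    intro x hx
    rw [← mul_smul]
    have : g * h = h * (h⁻¹ * g * h) := by group
    rw [this, mul_smul, hx _ hγ]
  exact dvd_sub (hdvd _ (key a ha_inv)) (hdvd _ (key b hb_inv))


omit [NeZero N] in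
/-- If `g ^ s` fixes `q` (`s` prime), then either `g` fixes `q` or the orbit of `q` under `⟨g⟩`
has `s` elements. -/
lemma fib_orbit_card (g : SL(2, ℤ)) {s : ℕ} (hs : s.Prime)
    (q : SL(2, ℤ) ⧸ Gamma0 N) (hq : g ^ s • q = q) :
    g • q = q ∨ Nat.card (MulAction.orbit (Subgroup.zpowers g) q) = s := by
  have hper : Function.IsPeriodicPt (g • · : SL(2, ℤ) ⧸ Gamma0 N → SL(2, ℤ) ⧸ Gamma0 N) s q := by
    unfold Function.IsPeriodicPt Function.IsFixedPt
    rw [smul_iterate]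
    exact hq
  have hdvd := hper.minimalPeriod_dvd
  rcases (Nat.dvd_prime hs).1 hdvd with h1 | h1
  · left
    exact Function.minimalPeriod_eq_one_iff_isFixedPt.1 h1
  · right
    have e := MulAction.orbitZPowersEquiv g q
    have h2 := Nat.card_congr e
    rw [h1, Nat.card_zmod] at h2
    exact h2

omit [NeZero N] in
lemma fib_neg_one_smul (q : SL(2, ℤ) ⧸ Gamma0 N) : (-1 : SL(2, ℤ)) • q = q := by
  induction q using QuotientGroup.induction_on with
  | H h =>
    rw [fib_smul_mk_quot]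
    apply QuotientGroup.eq.2
    have : (-1 * h)⁻¹ * h = -1 := by
      rw [mul_inv_rev]
      have h1 : (-1 : SL(2, ℤ))⁻¹ = -1 := by decide
      rw [h1, mul_assoc]
      have h2 : (-1 : SL(2, ℤ)) * h = h * (-1) := by
        ext i j
        simp
      rw [h2, ← mul_assoc, inv_mul_cancel, one_mul]
    rw [this, Gamma0_mem]
    simp

lemma fib_S_pow_two : (S : SL(2, ℤ)) ^ 2 = -1 := by
  ext i j
  fin_cases i <;> fin_cases j <;> decide

lemma fib_ST_pow_three : ((S * T : SL(2, ℤ))) ^ 3 = -1 := by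
  ext i j
  fin_cases i <;> fin_cases j <;> decide

omit [NeZero N] in
lemma fib_adjoin_jF_sub (c : Kbar) :
    IntermediateField.adjoin Kbar {jF N - algebraMap Kbar (FF N) c}
      = IntermediateField.adjoin Kbar {jF N} := by
  apply le_antisymm
  · rw [IntermediateField.adjoin_simple_le_iff]
    exact sub_mem (IntermediateField.mem_adjoin_simple_self Kbar (jF N))
      (IntermediateField.algebraMap_mem _ c)
  · rw [IntermediateField.adjoin_simple_le_iff]
    have : jF N = (jF N - algebraMap Kbar (FF N) c) + algebraMap Kbar (FF N) c := by ring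
    have h2 := add_mem (IntermediateField.mem_adjoin_simple_self Kbar
      (jF N - algebraMap Kbar (FF N) c)) (IntermediateField.algebraMap_mem
        (IntermediateField.adjoin Kbar {jF N - algebraMap Kbar (FF N) c}) c)
    rwa [← this] at h2

/-- The general finite fibre. -/
noncomputable def fiberAt (c : Kbar) (τ₀ : ℍ) (hτ : jH τ₀ = ιC c)
    (g : SL(2, ℤ)) (hg : g⁻¹ • τ₀ = τ₀) (s : ℕ) (hs : 0 < s)
    (hord : (expAt N τ₀ (jWH N - ⟨Function.const ℍ (jH τ₀), isWH_const N (jH τ₀)⟩)).order = s)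
    (hdvd : ∀ f : WH N, g • f = f → (s : ℤ) ∣ (expAt N τ₀ f).order)
    (horb : ∀ q : SL(2, ℤ) ⧸ Gamma0 N,
      g • q = q ∨ Nat.card (MulAction.orbit (Subgroup.zpowers g) q) = s) :
    letI : Algebra Kbar ℂ := ιC.toAlgebra
    FiberData Kbar (FF N) ℂ (jF N - algebraMap Kbar (FF N) c) (SL(2, ℤ) ⧸ Gamma0 N) g :=
  letI : Algebra Kbar ℂ := ιC.toAlgebra
  { σ := sigmaAt N τ₀
    s := s
    s_pos := hs
    map_const := fun i c' => sigmaAt_const N τ₀ i c'
    map_u := fun i i' => by rw [sigmaAt_u N τ₀ i c hτ, sigmaAt_u N τ₀ i' c hτ]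
    order_u := fun i => by rw [sigmaAt_u N τ₀ i c hτ, hord]
    inj := sigmaAt_injective N τ₀
    sym := fun f => by
      obtain ⟨P, hP, hP'⟩ := sym_embF N (expAt_injective N τ₀) f
      refine ⟨P, fun k => ?_, fun i₀ => hP' i₀.out⟩
      rw [fib_adjoin_jF_sub]
      exact hP k
    order_smul := fun i f => sigmaAt_order_smul N τ₀ g hg i f
    dvd := fun i f hf => by
      rcases horb i with h | h
      · exact Dvd.dvd.mul_left (sigmaAt_dvd_of_fixed N τ₀ g s hdvd i h f hf) _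
      · exact ⟨_, congrArg (fun n : ℕ => (n : ℤ) * (sigmaAt N τ₀ i f).order) h⟩ }


/-- The fibre over `j = c`, `c ≠ 0, 1728`. -/
noncomputable def fiberGeneric (c : Kbar) (τ₀ : ℍ) (hτ : jH τ₀ = ιC c)
    (h0 : ιC c ≠ 0) (h1 : ιC c ≠ 1728) :
    letI : Algebra Kbar ℂ := ιC.toAlgebra
    FiberData Kbar (FF N) ℂ (jF N - algebraMap Kbar (FF N) c) (SL(2, ℤ) ⧸ Gamma0 N)
      (1 : SL(2, ℤ)) :=
  fiberAt N c τ₀ hτ 1 (by simp) 1 one_pos
    (by rw [expAt_order_jWH_sub_generic N τ₀ (hτ ▸ h0) (hτ ▸ h1)]; rfl)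
    (fun f _ => by simp) (fun q => Or.inl (one_smul _ q))

/-- The fibre over `j = 1728`. -/
noncomputable def fiberI :
    letI : Algebra Kbar ℂ := ιC.toAlgebra
    FiberData Kbar (FF N) ℂ (jF N - algebraMap Kbar (FF N) 1728) (SL(2, ℤ) ⧸ Gamma0 N)
      (S : SL(2, ℤ)) :=
  fiberAt N 1728 I (by rw [jH_I, map_ofNat]) S expAt_S_smul_I 2 two_pos
    (by
      have h := expAt_order_jWH_sub_I N
      have e : (⟨Function.const ℍ (jH I), isWH_const N (jH I)⟩ : WH N)
          = ⟨Function.const ℍ 1728, isWH_const N 1728⟩ := by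
        apply Subtype.ext; simp only [jH_I]
      rw [e, h]; rfl)
    (expAt_two_dvd_I N)
    (fun q => fib_orbit_card N S Nat.prime_two q
      (by rw [fib_S_pow_two]; exact fib_neg_one_smul N q))

/-- The fibre over `j = 0`. -/
noncomputable def fiberRho :
    letI : Algebra Kbar ℂ := ιC.toAlgebra
    FiberData Kbar (FF N) ℂ (jF N - algebraMap Kbar (FF N) 0) (SL(2, ℤ) ⧸ Gamma0 N)
      (S * T : SL(2, ℤ)) :=
  fiberAt N 0 ρ (by rw [jH_ρ, map_zero]) (S * T) expAt_ST_smul_ρ 3 (by norm_num)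
    (by
      have h := expAt_order_jWH_ρ N
      have e : (jWH N - ⟨Function.const ℍ (jH ρ), isWH_const N (jH ρ)⟩ : WH N) = jWH N := by
        apply Subtype.ext
        funext z
        simp [jH_ρ]
      rw [e, h]; rfl)
    (expAt_three_dvd_ρ N)
    (fun q => fib_orbit_card N (S * T) Nat.prime_three q
      (by rw [fib_ST_pow_three]; exact fib_neg_one_smul N q))

lemma fiberGeneric_s (c : Kbar) (τ₀ : ℍ) (hτ : jH τ₀ = ιC c)
    (h0 : ιC c ≠ 0) (h1 : ιC c ≠ 1728) :
    letI : Algebra Kbar ℂ := ιC.toAlgebra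
    (fiberGeneric N c τ₀ hτ h0 h1).s = 1 := rfl

lemma fiberI_s :
    letI : Algebra Kbar ℂ := ιC.toAlgebra
    (fiberI N).s = 2 := rfl

lemma fiberRho_s :
    letI : Algebra Kbar ℂ := ιC.toAlgebra
    (fiberRho N).s = 3 := rfl

omit [NeZero N] in
/-- every `c ∈ ℚ̄` is a value of `j` -/
lemma exists_jH_eq_ιC (c : Kbar) : ∃ τ₀ : ℍ, jH τ₀ = ιC c := exists_jH_eq (ιC c)

end generic

end Fermat.Agent.S24lib
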