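/-
S24 library — final assembly (helper4, architect).

From the four `FiberData` (generic fibre, `j = 1728`, `j = 0`, cusps), the algebraic block
(`FiberData.finrank_eq`, `FiberData.card_places`, `FiberData.exists_index`), the orbit counts and
the generic Riemann–Hurwitz sum, compute the degree of the canonical divisor of `FF N` and hence
the genus.
-/
import Mathlib
import Fermat.Agent.S24lib.FibersFin
import Fermat.Agent.S24lib.FibersInf
import Fermat.Agent.S24lib.AlgCount
import Fermat.Agent.S24lib.OrbitCount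
import Fermat.Agent.S24lib.FFRH
import Fermat.Agent.S20

set_option autoImplicit false

open scoped MatrixGroups
open AlgebraicCurve IntermediateField CongruenceSubgroup ModularCurve UpperHalfPlane

namespace Fermat.Agent.S24lib

section genus

variable {K F : Type*} [Field K] [Field F] [Algebra K F]

/-- unfolding of the definition of the genus -/
theorem fin_genus_eq [HasCanonicalDivisor (K := K) (F := F)]
    (hex : ∃ ω : Ω[F⁄K], ω ≠ 0) (g : ℕ)
    (h : ∀ (ω : Ω[F⁄K]) (hω : ω ≠ 0),
      Divisor.degree (canonicalDivisorOf hω) = 2 * (g : ℤ) - 2) :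
    genus K F = g := by
  unfold genus
  rw [dif_pos hex, h]
  have : (2 * (g : ℤ) - 2 + 2).toNat = 2 * g := by omega
  rw [this]
  omega

end genus

variable (N : ℕ) [NeZero N]

/-- the index set is nonempty -/
instance fin_nonempty : Nonempty (SL(2, ℤ) ⧸ Gamma0 N) := ⟨QuotientGroup.mk 1⟩

theorem fin_card_I : Fintype.card (SL(2, ℤ) ⧸ Gamma0 N) = dedekindPsi N := by
  rw [← Nat.card_eq_fintype_card]
  exact Fermat.Agent.S20lib.card_quot_Gamma0 N

theorem fin_ffData : FFData Kbar (jF N) := by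
  letI : Algebra Kbar ℂ := ιC.toAlgebra
  haveI : FFData Kbar (jF N)⁻¹ := (fiberInf N).ffData
  exact FFData.of_adjoin_eq (ffAdjoin_inv (jF N)).symm

theorem fin_finrank : Module.finrank Kbar⟮jF N⟯ (FF N) = dedekindPsi N := by
  letI : Algebra Kbar ℂ := ιC.toAlgebra
  rw [← ffFinrank_of_adjoin_eq (ffAdjoin_inv (jF N)), (fiberInf N).finrank_eq, fin_card_I]

lemma fin_ιC_ne_zero {c : Kbar} (hc : c ≠ 0) : ιC c ≠ 0 := by
  rwa [Ne, map_eq_zero]

lemma fin_ιC_ne_ofNat {c : Kbar} (hc : c ≠ 1728) : ιC c ≠ 1728 := by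
  intro h
  apply hc
  apply ιC.injective
  rw [h, map_ofNat]

/-- local parametrisations at all places of `FF N` -/
theorem fin_ffLocal :
    letI : Algebra Kbar ℂ := ιC.toAlgebra
    FFLocal Kbar (FF N) ℂ := by
  letI : Algebra Kbar ℂ := ιC.toAlgebra
  haveI := fin_ffData N
  intro v
  by_cases hv : 0 ≤ v.ord (jF N)
  · obtain ⟨c, hc⟩ := ffExists_center v (FFData.trans (K := Kbar) (x := jF N)) hv
    by_cases h0 : c = 0
    · subst h0
      obtain ⟨i, m, hm, h⟩ := (fiberRho N).exists_index v hc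
      exact ⟨(fiberRho N).σ i, m, hm, (fiberRho N).map_const i, h⟩
    by_cases h1 : c = 1728
    · subst h1
      obtain ⟨i, m, hm, h⟩ := (fiberI N).exists_index v hc
      exact ⟨(fiberI N).σ i, m, hm, (fiberI N).map_const i, h⟩
    obtain ⟨τ₀, hτ⟩ := exists_jH_eq_ιC c
    obtain ⟨i, m, hm, h⟩ := (fiberGeneric N c τ₀ hτ (fin_ιC_ne_zero h0)
      (fin_ιC_ne_ofNat h1)).exists_index v hc
    exact ⟨(fiberGeneric N c τ₀ hτ (fin_ιC_ne_zero h0) (fin_ιC_ne_ofNat h1)).σ i, m, hm,
      (fiberGeneric N c τ₀ hτ (fin_ιC_ne_zero h0) (fin_ιC_ne_ofNat h1)).map_const i, h⟩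
  · have hv' : 0 < v.ord (jF N)⁻¹ := by
      rw [v.ord_inv]; omega
    obtain ⟨i, m, hm, h⟩ := (fiberInf N).exists_index v hv'
    exact ⟨(fiberInf N).σ i, m, hm, (fiberInf N).map_const i, h⟩

/-- the number of places over a generic value -/
theorem fin_card_generic (c : Kbar) (h0 : c ≠ 0) (h1 : c ≠ 1728) :
    Nat.card {v : Place Kbar (FF N) // 0 < v.ord (jF N - algebraMap Kbar (FF N) c)}
      = dedekindPsi N := by
  letI : Algebra Kbar ℂ := ιC.toAlgebra
  obtain ⟨τ₀, hτ⟩ := exists_jH_eq_ιC c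
  exact ((fiberGeneric N c τ₀ hτ (fin_ιC_ne_zero h0) (fin_ιC_ne_ofNat h1)).card_places).trans
    (card_orbits_one N)

theorem fin_card_I_fibre :
    2 * Nat.card {v : Place Kbar (FF N) // 0 < v.ord (jF N - algebraMap Kbar (FF N) 1728)}
      = dedekindPsi N + nuTwo N := by
  letI : Algebra Kbar ℂ := ιC.toAlgebra
  rw [(fiberI N).card_places]
  exact card_orbits_S N

theorem fin_card_rho_fibre :
    3 * Nat.card {v : Place Kbar (FF N) // 0 < v.ord (jF N - algebraMap Kbar (FF N) 0)}
      = dedekindPsi N + 2 * nuThree N := by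
  letI : Algebra Kbar ℂ := ιC.toAlgebra
  rw [(fiberRho N).card_places]
  exact card_orbits_ST N

theorem fin_card_inf :
    Nat.card {v : Place Kbar (FF N) // 0 < v.ord (jF N)⁻¹} = cuspCount N := by
  letI : Algebra Kbar ℂ := ιC.toAlgebra
  exact ((fiberInf N).card_places).trans (Fermat.Agent.S20lib.card_orbits_T N)

/-- a nonzero differential exists -/
theorem fin_exists_differential : ∃ ω : Ω[FF N⁄Kbar], ω ≠ 0 := by
  letI : Algebra Kbar ℂ := ιC.toAlgebra
  haveI := fin_ffData N
  exact ffExists_differential_ne_zero (x := jF N) (fin_ffLocal N)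

/-- the degree of a canonical divisor -/
theorem fin_degree (ω : Ω[FF N⁄Kbar]) (hω : ω ≠ 0) (D : Divisor Kbar (FF N))
    (hD : ∀ v : Place Kbar (FF N), D v = v.ordDifferential ω) :
    6 * (Divisor.degree D + 2) =
      12 + (dedekindPsi N : ℤ) - 3 * nuTwo N - 4 * nuThree N - 6 * cuspCount N := by
  classical
  letI : Algebra Kbar ℂ := ιC.toAlgebra
  haveI := fin_ffData N
  have hC : ∀ c : Kbar, c ∉ ({0, 1728} : Finset Kbar) →
      Nat.card {v : Place Kbar (FF N) // 0 < v.ord (jF N - algebraMap Kbar (FF N) c)}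
        = Module.finrank Kbar⟮jF N⟯ (FF N) := by
    intro c hc
    rw [Finset.mem_insert, Finset.mem_singleton, not_or] at hc
    rw [fin_card_generic N c hc.1 hc.2, fin_finrank]
  have h := ffRiemannHurwitz (x := jF N) (fin_ffLocal N) {0, 1728} hC hω D hD
  have hne : (0 : Kbar) ≠ 1728 := by norm_num
  rw [Finset.sum_pair hne, fin_finrank, fin_card_inf] at h
  have h2 := fin_card_I_fibre N
  have h3 := fin_card_rho_fibre N
  rw [h]
  push_cast
  zify at h2 h3
  linarith

/-- **S24.** -/
theorem fin_genus [HasCanonicalDivisor (K := Kbar) (F := FF N)] :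
    (genus Kbar (FF N) : ℚ) = genusFormula N := by
  have hS20 := Fermat.Agent.S20.result N
  set g := Module.finrank ℂ (CuspForm (Gamma0 N) 2) with hg
  rw [← hS20]
  congr 1
  apply fin_genus_eq (fin_exists_differential N)
  intro ω hω
  have h := fin_degree N ω hω (canonicalDivisorOf hω) (canonicalDivisorOf_apply hω)
  have h12 : (12 : ℚ) * genusFormula N = 12 + (dedekindPsi N : ℚ) - 3 * nuTwo N - 4 * nuThree N
      - 6 * cuspCount N := by
    unfold genusFormula
    ring
  rw [← hS20] at h12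
  have h' : ((6 * (Divisor.degree (canonicalDivisorOf hω) + 2) : ℤ) : ℚ) = 12 * (g : ℚ) := by
    rw [h, h12]
    push_cast
    ring
  have h'' : 6 * (Divisor.degree (canonicalDivisorOf hω) + 2) = 12 * (g : ℤ) := by
    exact_mod_cast h'
  omega

end Fermat.Agent.S24lib
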