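/-
S24 library (helper29): orbit counts on `SL(2,ℤ)/Γ₀(N)` for the Riemann–Hurwitz assembly.

* `orbCount_setoid`, `orbCount_prime` : for a cyclic action with `g^r` trivial, `r` prime:
  `r · #orbits = #X + (r - 1) · #Fix(g)`;
* `card_orbits_S`  : `2 · #(orbits of ⟨S⟩)  = ψ(N) + ν₂(N)`;
* `card_orbits_ST` : `3 · #(orbits of ⟨ST⟩) = ψ(N) + 2 ν₃(N)`;
* `card_orbits_one`: `#(orbits of ⟨1⟩) = ψ(N)`;
  (orbits of `⟨T⟩` = `cuspCount N` is `Fermat.Agent.S20lib.card_orbits_T`).
All as `Nat.card (MulAction.orbitRel.Quotient (Subgroup.zpowers g) (SL(2, ℤ) ⧸ Gamma0 N))`, the shape of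
`FiberData.card_places`.  No sorry.
-/
import Mathlib
import Fermat.Agent.S20_Comb

set_option autoImplicit false

namespace Fermat.Agent.S24lib

open MulAction CongruenceSubgroup
open scoped MatrixGroups

/-- Counting classes of an equivalence relation all of whose classes have `1` or `r` elements. -/
theorem orbCount_setoid {X : Type*} [Fintype X] (s : Setoid X) (r : ℕ) (hr0 : 0 < r)
    (h : ∀ x : X, Nat.card {y : X // s.r y x} = 1 ∨ Nat.card {y : X // s.r y x} = r) :
    r * Nat.card (Quotient s) =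
      Nat.card X + (r - 1) * Nat.card {x : X // Nat.card {y : X // s.r y x} = 1} := by
  classical
  letI : Fintype (Quotient s) := Fintype.ofFinite _
  -- decomposition of X into classes
  have hX : Fintype.card X = ∑ ω : Quotient s, Fintype.card {x : X // Quotient.mk s x = ω} := by
    rw [← Fintype.card_sigma]
    exact Fintype.card_congr (Equiv.sigmaFiberEquiv (Quotient.mk s)).symm
  -- size of the class of `ω`
  have hcl : ∀ x : X, Fintype.card {y : X // Quotient.mk s y = Quotient.mk s x} =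
      Nat.card {y : X // s.r y x} := by
    intro x
    rw [← Nat.card_eq_fintype_card]
    exact Nat.card_congr (Equiv.subtypeEquivRight fun y ↦ Quotient.eq)
  set A : Finset (Quotient s) :=
    Finset.univ.filter fun ω ↦ Fintype.card {x : X // Quotient.mk s x = ω} = 1 with hA
  have hsplit : ∀ ω : Quotient s, Fintype.card {x : X // Quotient.mk s x = ω} =
      if ω ∈ A then 1 else r := by
    intro ω
    induction ω using Quotient.inductionOn with
    | h x =>
      by_cases hω : (Quotient.mk s x) ∈ A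
      · rw [if_pos hω]
        exact (Finset.mem_filter.1 hω).2
      · rw [if_neg hω]
        have h1 : Fintype.card {y : X // Quotient.mk s y = Quotient.mk s x} ≠ 1 := fun h1 ↦
          hω (Finset.mem_filter.2 ⟨Finset.mem_univ _, h1⟩)
        rw [hcl x] at h1 ⊢
        exact (h x).resolve_left h1
  have hsum : Fintype.card X = A.card + r * (Fintype.card (Quotient s) - A.card) := by
    rw [hX, Finset.sum_congr rfl fun ω _ ↦ hsplit ω, Finset.sum_ite, Finset.sum_const,
      Finset.sum_const, smul_eq_mul, smul_eq_mul, mul_one]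
    have h1 : (Finset.univ.filter fun ω ↦ ω ∈ A) = A := by
      ext ω; simp
    have h2 : (Finset.univ.filter fun ω ↦ ω ∉ A).card = Fintype.card (Quotient s) - A.card := by
      rw [← Finset.card_univ, ← Finset.card_sdiff_of_subset (Finset.subset_univ A)]
      congr 1
      ext ω; simp
    rw [h1, h2, mul_comm]
  -- singleton classes ↔ their elements
  have hF : Nat.card {x : X // Nat.card {y : X // s.r y x} = 1} = A.card := by
    rw [← Nat.card_eq_finsetCard]
    refine Nat.card_congr (Equiv.ofBijective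
      (fun x ↦ ⟨Quotient.mk s x.1, Finset.mem_filter.2 ⟨Finset.mem_univ _, by
        rw [hcl x.1]; exact x.2⟩⟩) ⟨?_, ?_⟩)
    · rintro ⟨x, hx⟩ ⟨y, hy⟩ hxy
      have hxy' : Quotient.mk s x = Quotient.mk s y := congrArg Subtype.val hxy
      have hrel : s.r x y := Quotient.exact hxy'
      -- the class of y is a singleton containing x and y
      have hsub : Subsingleton {z : X // s.r z y} := by
        have := Nat.card_eq_one_iff_unique.1 hy
        exact this.1
      have h3 := @Subsingleton.elim _ hsub ⟨x, hrel⟩ ⟨y, s.refl y⟩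
      have h4 : x = y := congrArg (fun z : {z : X // s.r z y} ↦ (z : X)) h3
      exact Subtype.ext h4
    · rintro ⟨ω, hω⟩
      induction ω using Quotient.inductionOn with
      | h x =>
        refine ⟨⟨x, ?_⟩, rfl⟩
        rw [← hcl x]
        exact (Finset.mem_filter.1 hω).2
  have hA_le : A.card ≤ Fintype.card (Quotient s) := by
    rw [← Finset.card_univ]
    exact Finset.card_le_card (Finset.subset_univ A)
  rw [hF, Nat.card_eq_fintype_card, Nat.card_eq_fintype_card, hsum]
  obtain ⟨k, hk⟩ : ∃ k, Fintype.card (Quotient s) = A.card + k := ⟨_, (Nat.add_sub_cancel' hA_le).symm⟩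
  rw [hk, Nat.add_sub_cancel_left]
  obtain ⟨r', rfl⟩ : ∃ r', r = r' + 1 := ⟨r - 1, by omega⟩
  simp only [Nat.add_sub_cancel]
  ring


/-- The orbit of `x` under `⟨g⟩` has `r` elements if `g^r` acts trivially, `r` is prime and
`g • x ≠ x`. -/
theorem orbCount_card_orbit {G X : Type*} [Group G] [MulAction G X] (g : G) (r : ℕ)
    (hr : r.Prime) (x : X) (hg : g ^ r • x = x) (hx : g • x ≠ x) :
    Nat.card (orbit (Subgroup.zpowers g) x) = r := by
  haveI : Fact r.Prime := ⟨hr⟩
  set C := Subgroup.zpowers g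
  set H := stabilizer C x
  rw [Nat.card_congr (orbitEquivQuotientStabilizer C x)]
  set gC : C := ⟨g, Subgroup.mem_zpowers g⟩
  set gb : C ⧸ H := QuotientGroup.mk gC
  have hgen : ∀ y : C ⧸ H, y ∈ Subgroup.zpowers gb := by
    intro y
    induction y using QuotientGroup.induction_on with
    | H c =>
      obtain ⟨c, hc⟩ := c
      obtain ⟨k, rfl⟩ := Subgroup.mem_zpowers_iff.1 hc
      refine Subgroup.mem_zpowers_iff.2 ⟨k, ?_⟩
      rw [← QuotientGroup.mk_zpow]
      congr 1
  have hpow : gb ^ r = 1 := by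
    rw [← QuotientGroup.mk_pow, QuotientGroup.eq_one_iff]
    show (gC ^ r) • x = x
    exact hg
  have hne : gb ≠ 1 := by
    intro h1
    rw [QuotientGroup.eq_one_iff] at h1
    exact hx h1
  rw [← orderOf_eq_card_of_forall_mem_zpowers hgen]
  exact orderOf_eq_prime hpow hne

/-- **Orbit count** for a cyclic action of prime order `r`:
`r · #orbits = #X + (r - 1) · #Fix`. -/
theorem orbCount_prime {G X : Type*} [Group G] [MulAction G X] [Fintype X] (g : G) (r : ℕ)
    (hr : r.Prime) (hg : ∀ x : X, g ^ r • x = x) :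
    r * Nat.card (orbitRel.Quotient (Subgroup.zpowers g) X) =
      Nat.card X + (r - 1) * Nat.card {x : X // g • x = x} := by
  have hfix : ∀ x : X, g • x = x → ∀ y, y ∈ orbit (Subgroup.zpowers g) x → y = x := by
    rintro x hx y ⟨⟨c, hc⟩, rfl⟩
    obtain ⟨k, rfl⟩ := Subgroup.mem_zpowers_iff.1 hc
    show g ^ k • x = x
    have hmem : g ∈ stabilizer G x := hx
    exact (stabilizer G x).zpow_mem hmem k
  have hcard : ∀ x : X, g • x = x →
      Nat.card {y : X // (orbitRel (Subgroup.zpowers g) X).r y x} = 1 := by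
    intro x hx
    rw [Nat.card_eq_one_iff_unique]
    refine ⟨⟨fun a b ↦ Subtype.ext ?_⟩, ⟨⟨x, mem_orbit_self x⟩⟩⟩
    rw [hfix x hx a.1 a.2, hfix x hx b.1 b.2]
  have hcard' : ∀ x : X, g • x ≠ x →
      Nat.card {y : X // (orbitRel (Subgroup.zpowers g) X).r y x} = r := fun x hx ↦
    orbCount_card_orbit g r hr x (hg x) hx
  have h := orbCount_setoid (orbitRel (Subgroup.zpowers g) X) r hr.pos (fun x ↦ by
    by_cases hx : g • x = x
    · exact Or.inl (hcard x hx)
    · exact Or.inr (hcard' x hx))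
  have hF : Nat.card {x : X // Nat.card {y : X // (orbitRel (Subgroup.zpowers g) X).r y x} = 1} =
      Nat.card {x : X // g • x = x} := by
    refine Nat.card_congr (Equiv.subtypeEquivRight fun x ↦ ⟨fun h1 ↦ ?_, hcard x⟩)
    by_contra hx
    rw [hcard' x hx] at h1
    exact hr.one_lt.ne' h1
  rw [hF] at h
  exact h


section Gamma0

open Fermat.Agent.S20lib

variable (N : ℕ)

lemma orbCount_neg_one_smul (q : SL(2, ℤ) ⧸ Gamma0 N) : (-1 : SL(2, ℤ)) • q = q := by
  induction q using QuotientGroup.induction_on with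
  | H h =>
    rw [smul_mk, quot_eq_iff]
    have h1 : ((-1 * h : SL(2, ℤ)) : Matrix (Fin 2) (Fin 2) ℤ) = -(h : Matrix (Fin 2) (Fin 2) ℤ) := by
      simp
    rw [h1]
    simp only [Matrix.neg_apply]
    have : (-(h : Matrix (Fin 2) (Fin 2) ℤ) 0 0 * (h : Matrix (Fin 2) (Fin 2) ℤ) 1 0 -
        -(h : Matrix (Fin 2) (Fin 2) ℤ) 1 0 * (h : Matrix (Fin 2) (Fin 2) ℤ) 0 0) = 0 := by ring
    rw [this, Int.cast_zero]

lemma orbCount_S_sq : (ModularGroup.S) ^ 2 = (-1 : SL(2, ℤ)) := by
  ext i j
  fin_cases i <;> fin_cases j <;>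
    simp [pow_two, ModularGroup.S, Matrix.mul_apply, Fin.sum_univ_two]

lemma orbCount_ST_cube : (ModularGroup.S * ModularGroup.T) ^ 3 = (-1 : SL(2, ℤ)) := by
  ext i j
  fin_cases i <;> fin_cases j <;>
    simp [pow_succ, ModularGroup.S, ModularGroup.T, Matrix.mul_apply, Fin.sum_univ_two]

variable [NeZero N]

/-- Orbits of `S` on `SL(2,ℤ)/Γ₀(N)`: `2 · #orbits = ψ(N) + ν₂(N)`. -/
theorem card_orbits_S :
    2 * Nat.card (MulAction.orbitRel.Quotient (Subgroup.zpowers ModularGroup.S)
      (SL(2, ℤ) ⧸ Gamma0 N)) = ModularCurve.dedekindPsi N + ModularCurve.nuTwo N := by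
  have hfin : Finite (SL(2, ℤ) ⧸ Gamma0 N) :=
    Nat.finite_of_card_ne_zero (by
      rw [card_quot_Gamma0]
      exact (index_Gamma0 N (NeZero.ne N)) ▸ Subgroup.FiniteIndex.index_ne_zero)
  letI : Fintype (SL(2, ℤ) ⧸ Gamma0 N) := Fintype.ofFinite _
  have h := orbCount_prime (X := SL(2, ℤ) ⧸ Gamma0 N) ModularGroup.S 2 Nat.prime_two
    (fun x ↦ by rw [orbCount_S_sq]; exact orbCount_neg_one_smul N x)
  rw [card_quot_Gamma0, card_fixed_S, show (2 - 1 : ℕ) = 1 from rfl, one_mul] at h
  exact h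

/-- Orbits of `S T` on `SL(2,ℤ)/Γ₀(N)`: `3 · #orbits = ψ(N) + 2 ν₃(N)`. -/
theorem card_orbits_ST :
    3 * Nat.card (MulAction.orbitRel.Quotient
      (Subgroup.zpowers (ModularGroup.S * ModularGroup.T)) (SL(2, ℤ) ⧸ Gamma0 N)) =
      ModularCurve.dedekindPsi N + 2 * ModularCurve.nuThree N := by
  have hfin : Finite (SL(2, ℤ) ⧸ Gamma0 N) :=
    Nat.finite_of_card_ne_zero (by
      rw [card_quot_Gamma0]
      exact (index_Gamma0 N (NeZero.ne N)) ▸ Subgroup.FiniteIndex.index_ne_zero)
  letI : Fintype (SL(2, ℤ) ⧸ Gamma0 N) := Fintype.ofFinite _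
  have h := orbCount_prime (X := SL(2, ℤ) ⧸ Gamma0 N) (ModularGroup.S * ModularGroup.T) 3
    Nat.prime_three (fun x ↦ by rw [orbCount_ST_cube]; exact orbCount_neg_one_smul N x)
  rw [card_quot_Gamma0, card_fixed_ST, show (3 - 1 : ℕ) = 2 from rfl] at h
  exact h

/-- Orbits of the trivial group on `SL(2,ℤ)/Γ₀(N)`. -/
theorem card_orbits_one :
    Nat.card (MulAction.orbitRel.Quotient (Subgroup.zpowers (1 : SL(2, ℤ)))
      (SL(2, ℤ) ⧸ Gamma0 N)) = ModularCurve.dedekindPsi N := by
  rw [← card_quot_Gamma0 N]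
  refine (Nat.card_congr (Equiv.ofBijective
    (fun q : SL(2, ℤ) ⧸ Gamma0 N ↦
      (Quotient.mk'' q : MulAction.orbitRel.Quotient (Subgroup.zpowers (1 : SL(2, ℤ))) _))
    ⟨?_, ?_⟩)).symm
  · intro a b hab
    rw [Quotient.eq''] at hab
    obtain ⟨⟨c, hc⟩, hcb⟩ := hab
    rw [Subgroup.zpowers_one_eq_bot, Subgroup.mem_bot] at hc
    subst hc
    rw [← hcb]
    exact one_smul (SL(2, ℤ)) b
  · intro ω
    induction ω using Quotient.inductionOn' with
    | h q => exact ⟨q, rfl⟩

end Gamma0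

end Fermat.Agent.S24lib
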